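/-
GATE-C / C3-KR (helper69): Krasner bridge, part 1.

* `mem_range_padicEmbedding_of_isIntegral` : elements of `PadicAlgCl q` algebraic over `ℚ` lie in
  the image of `padicEmbedding q : Qbar → PadicAlgCl q`.
* `exists_norm_sub_padicEmbedding_lt` (KR0) : the image of `Qbar` is dense in `PadicAlgCl q`.
* `exists_mem_adjoin_padicEmbedding` (KR1, elementwise) : every `b : PadicAlgCl q` lies in
  `ℚ_[q]⟮padicEmbedding q a⟯` for some algebraic number `a` (Krasner's lemma).
-/
import Mathlib
import Fermat.Prelude.Def_GaloisRep_CompletionBridge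

set_option autoImplicit false

noncomputable section

open Polynomial IntermediateField

namespace Fermat.Agent.GC.Local.KR

variable (q : ℕ) [Fact q.Prime]

local notation "Qb" => AlgebraicClosure ℚ

section Range

/-- `Qbar`-algebra structure on `PadicAlgCl q` through `padicEmbedding q` (local to this file). -/
local instance algQbPadic : Algebra Qb (PadicAlgCl q) := (padicEmbedding q).toRingHom.toAlgebra

local instance towerQbPadic : IsScalarTower ℚ Qb (PadicAlgCl q) :=
  IsScalarTower.of_algebraMap_eq' (Subsingleton.elim _ _)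

theorem algebraMap_Qb_eq (a : Qb) : algebraMap Qb (PadicAlgCl q) a = padicEmbedding q a := rfl

/-- Elements of `PadicAlgCl q` that are integral over `ℚ` come from `Qbar`. -/
theorem mem_range_padicEmbedding_of_isIntegral {b : PadicAlgCl q} (hb : IsIntegral ℚ b) :
    ∃ a : Qb, padicEmbedding q a = b := by
  have hb' : IsIntegral Qb b := hb.tower_top
  have hirr : Irreducible (minpoly Qb b) := minpoly.irreducible hb'
  have hdeg : (minpoly Qb b).degree = 1 := IsAlgClosed.degree_eq_one_of_irreducible Qb hirr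
  obtain ⟨a, ha⟩ := minpoly.mem_range_of_degree_eq_one Qb b hdeg
  exact ⟨a, ha⟩

end Range

section Dense

/-- The rationals are dense in `ℚ_[q]` (in `algebraMap` form). -/
theorem denseRange_algebraMap_rat : DenseRange (algebraMap ℚ ℚ_[q]) := by
  have h : (algebraMap ℚ ℚ_[q] : ℚ → ℚ_[q]) = ((↑) : ℚ → ℚ_[q]) := by
    funext x; exact eq_ratCast _ x
  rw [h]
  exact Padic.denseRange_ratCast q

/-- Core approximation: for `b : PadicAlgCl q` and `δ > 0` there is an algebraic number `a` with
`‖b - padicEmbedding q a‖ < δ`. -/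
theorem exists_norm_sub_padicEmbedding_lt (b : PadicAlgCl q) {δ : ℝ} (hδ : 0 < δ) :
    ∃ a : Qb, ‖b - padicEmbedding q a‖ < δ := by
  have hbint : IsIntegral ℚ_[q] b := (Algebra.IsAlgebraic.isAlgebraic b).isIntegral
  set f : ℚ_[q][X] := minpoly ℚ_[q] b with hf
  have fmon : f.Monic := minpoly.monic hbint
  have fb0 : aeval b f = 0 := minpoly.aeval ℚ_[q] b
  have fnatdeg0 : f.natDegree ≠ 0 := (minpoly.natDegree_pos hbint).ne'
  have hε : (δ / (max ‖b‖ 1)) ^ f.natDegree / (f.natDegree + 1) > 0 := by positivity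
  obtain ⟨g, gmon, gdeg, gcoeff⟩ :=
    exists_monic_and_natDegree_eq_and_norm_map_algebraMap_coeff_sub_lt
      (denseRange_algebraMap_rat q) fmon hε
  have gsplit : ((g.map (algebraMap ℚ ℚ_[q])).map (algebraMap ℚ_[q] (PadicAlgCl q))).Splits :=
    IsAlgClosed.splits _
  obtain ⟨c, hc, hbc⟩ := exists_aroots_norm_sub_lt_of_norm_coeff_sub_lt
      hε fb0 fmon (gmon.map _) (gdeg ▸ (g.natDegree_map _)) gcoeff gsplit
  have hbc' : ‖b - c‖ < δ := by
    rw [← Real.rpow_natCast, ← mul_comm_div, div_self, one_mul,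
        ← Real.rpow_mul (div_pos hδ (by positivity)).le, mul_inv_cancel₀] at hbc
    · simpa [mul_assoc, div_mul_cancel₀ _ (by positivity : (max ‖b‖ 1) > 0).ne'] using hbc
    · simp [fnatdeg0]
    · positivity
  -- `c` is a root of the rational polynomial `g`, hence comes from `Qbar`
  have hcint : IsIntegral ℚ c := by
    refine ⟨g, gmon, ?_⟩
    have h1 := (Polynomial.mem_aroots.mp hc).2
    rwa [Polynomial.aeval_map_algebraMap] at h1
  obtain ⟨a, rfl⟩ := mem_range_padicEmbedding_of_isIntegral q hcint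
  exact ⟨a, hbc'⟩

end Dense

section Krasner

/-- (KR1, elementwise) Every element of `PadicAlgCl q` lies in `ℚ_[q]⟮padicEmbedding q a⟯` for a
suitable algebraic number `a`. -/
theorem exists_mem_adjoin_padicEmbedding (b : PadicAlgCl q) :
    ∃ a : Qb, b ∈ ℚ_[q]⟮padicEmbedding q a⟯ := by
  classical
  have hbint : IsIntegral ℚ_[q] b := (Algebra.IsAlgebraic.isAlgebraic b).isIntegral
  set f : ℚ_[q][X] := minpoly ℚ_[q] b with hf
  let S : Finset (PadicAlgCl q) := {x ∈ (f.rootSet (PadicAlgCl q)).toFinset | x ≠ b}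
  let δ : ℝ := if hS : S.Nonempty then Finset.min' (S.image fun x => ‖b - x‖)
      (Finset.image_nonempty.mpr hS) else 1
  have norm_sub_le : ∀ b' : PadicAlgCl q, IsConjRoot ℚ_[q] b b' → b ≠ b' → δ ≤ ‖b - b'‖ := by
    intro b' conj ne
    have hb'S : b' ∈ S := by
      simp only [Finset.mem_filter, Set.mem_toFinset, S]
      refine ⟨?_, ne.symm⟩
      rw [hf, ← isConjRoot_iff_mem_minpoly_rootSet hbint]
      exact conj
    have hS : S.Nonempty := ⟨b', hb'S⟩
    simp only [hS, ↓reduceDIte, δ]
    exact Finset.min'_le (S.image fun x => ‖b - x‖) (‖b - b'‖) (Finset.mem_image_of_mem _ hb'S)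
  have δpos : δ > 0 := by
    by_cases hS : S.Nonempty <;> simp only [hS, ↓reduceDIte, δ]
    · simp only [gt_iff_lt, Finset.lt_min'_iff, Finset.mem_image, forall_exists_index, and_imp,
        forall_apply_eq_imp_iff₂]
      rintro b' hb'
      simp only [Finset.mem_filter, Set.mem_toFinset, S] at hb'
      rw [norm_pos_iff, sub_ne_zero]
      exact hb'.2.symm
    · linarith
  obtain ⟨a, ha⟩ := exists_norm_sub_padicEmbedding_lt q b δpos
  refine ⟨a, ?_⟩
  have haint : IsIntegral ℚ_[q] (padicEmbedding q a) :=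
    (Algebra.IsAlgebraic.isAlgebraic _).isIntegral
  exact IsKrasner.krasner (minpoly.irreducible hbint).separable (IsAlgClosed.splits _) haint
    fun b' h1 h2 => lt_of_lt_of_le ha (norm_sub_le b' h1 h2)

end Krasner

end Fermat.Agent.GC.Local.KR
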