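/-
GATE-C / C3-KR (helper69): Krasner bridge, part 2.

The prelude's local cochains for `r = localGaloisToGlobal q : G_{ℚ_q} → G_ℚ` are "level constant"
with respect to the subgroups `r⁻¹ Gal(Qbar/F)`, `F/ℚ` finite.  By Krasner's lemma these are
cofinal with the subgroups `Gal(PadicAlgCl q / E)`, `E/ℚ_q` finite, so the prelude's local
cohomology groups are the usual continuous cohomology groups of `G_{ℚ_q}`.
-/
import Mathlib
import Fermat.Prelude.Def_GaloisRep_CompletionBridge
import Fermat.Prelude.Def_GroupCohomology_ContinuousH2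
import Fermat.Agent.GC.Local.KrasnerDense

set_option autoImplicit false

noncomputable section

open Polynomial IntermediateField groupCohomology

namespace Fermat.Agent.GC.Local.KR

local notation "Qb" => AlgebraicClosure ℚ

section General

variable {K L : Type*} [Field K] [Field L] [Algebra K L]

/-- An automorphism fixing a set pointwise fixes the intermediate field it generates. -/
theorem apply_eq_of_mem_adjoin (τ : L ≃ₐ[K] L) {s : Set L} (h : ∀ x ∈ s, τ x = x) :
    ∀ y ∈ adjoin K s, τ y = y := by
  intro y hy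
  induction hy using IntermediateField.adjoin_induction with
  | mem x hx => exact h x hx
  | algebraMap x => exact τ.commutes x
  | add x y _ _ hx hy => rw [map_add, hx, hy]
  | inv x _ hx => rw [map_inv₀, hx]
  | mul x y _ _ hx hy => rw [map_mul, hx, hy]

/-- A finite-dimensional intermediate field is generated by a finite set. -/
theorem exists_finset_adjoin_eq (E : IntermediateField K L) [FiniteDimensional K E] :
    ∃ S : Finset L, adjoin K (S : Set L) = E := by
  have h1 : (Subalgebra.toSubmodule E.toSubalgebra).FG :=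
    (Module.Finite.iff_fg).mp (inferInstanceAs (Module.Finite K E))
  exact IntermediateField.fg_of_fg_toSubalgebra E (Subalgebra.fg_of_fg_toSubmodule h1)

end General

variable (q : ℕ) [Fact q.Prime]

/-- The local Galois group `Gal(PadicAlgCl q / ℚ_[q])`. -/
abbrev Gq : Type := PadicAlgCl q ≃ₐ[ℚ_[q]] PadicAlgCl q

theorem padicEmbedding_injective : Function.Injective (padicEmbedding q) :=
  (padicEmbedding q).toRingHom.injective

/-- `r τ` fixes `a` iff `τ` fixes the image of `a`. -/
theorem localGaloisToGlobal_apply_eq_iff (τ : Gq q) (a : Qb) :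
    localGaloisToGlobal q τ a = a ↔ τ (padicEmbedding q a) = padicEmbedding q a := by
  rw [← padicEmbedding_localGaloisToGlobal]
  exact ⟨fun h => by rw [h], fun h => padicEmbedding_injective q h⟩

/-- (KR1, elementwise, group form). -/
theorem exists_forall_apply_eq (b : PadicAlgCl q) :
    ∃ a : Qb, ∀ τ : Gq q, localGaloisToGlobal q τ a = a → τ b = b := by
  obtain ⟨a, ha⟩ := exists_mem_adjoin_padicEmbedding q b
  refine ⟨a, fun τ hτ => ?_⟩
  refine apply_eq_of_mem_adjoin τ (s := {padicEmbedding q a}) ?_ b ha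
  intro x hx
  rw [Set.mem_singleton_iff.mp hx]
  exact (localGaloisToGlobal_apply_eq_iff q τ a).mp hτ

/-- (KR3) The restriction map `G_{ℚ_q} → G_ℚ` is injective. -/
theorem localGaloisToGlobal_injective : Function.Injective (localGaloisToGlobal q) := by
  rw [injective_iff_map_eq_one]
  intro τ hτ
  ext b
  obtain ⟨a, ha⟩ := exists_forall_apply_eq q b
  exact ha τ (by rw [hτ]; rfl)

/-- (KR1) Every finite extension `E/ℚ_q` inside `PadicAlgCl q` is cut out by a number field:
there is a finite `F/ℚ` such that `r τ ∈ Gal(Qbar/F)` implies `τ ∈ Gal(PadicAlgCl q/E)`. -/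
theorem exists_global_level (E : IntermediateField ℚ_[q] (PadicAlgCl q))
    [FiniteDimensional ℚ_[q] E] :
    ∃ F : IntermediateField ℚ Qb, FiniteDimensional ℚ F ∧
      ∀ τ : Gq q, localGaloisToGlobal q τ ∈ F.fixingSubgroup → τ ∈ E.fixingSubgroup := by
  classical
  obtain ⟨S, hS⟩ := exists_finset_adjoin_eq E
  choose a ha using fun b : PadicAlgCl q => exists_forall_apply_eq q b
  refine ⟨adjoin ℚ ((S.image a : Finset Qb) : Set Qb), ?_, fun τ hτ => ?_⟩
  · exact IntermediateField.finiteDimensional_adjoin fun x _ =>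
      ((AlgebraicClosure.isAlgebraic ℚ).isAlgebraic x).isIntegral
  · rw [IntermediateField.mem_fixingSubgroup_iff] at hτ ⊢
    intro y hy
    rw [← hS] at hy
    refine apply_eq_of_mem_adjoin τ ?_ y hy
    intro b hb
    refine ha b τ (hτ _ (IntermediateField.subset_adjoin ℚ _ ?_))
    exact Finset.mem_coe.mpr (Finset.mem_image_of_mem a (Finset.mem_coe.mp hb))

/-- (KR2) Conversely every number field `F` cuts out a finite extension of `ℚ_q`. -/
theorem exists_local_level (F : IntermediateField ℚ Qb) [FiniteDimensional ℚ F] :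
    ∃ E : IntermediateField ℚ_[q] (PadicAlgCl q), FiniteDimensional ℚ_[q] E ∧
      ∀ τ : Gq q, τ ∈ E.fixingSubgroup → localGaloisToGlobal q τ ∈ F.fixingSubgroup := by
  classical
  obtain ⟨S, hS⟩ := exists_finset_adjoin_eq F
  refine ⟨adjoin ℚ_[q] ((S.image (padicEmbedding q) : Finset (PadicAlgCl q)) : Set (PadicAlgCl q)),
    ?_, fun τ hτ => ?_⟩
  · exact IntermediateField.finiteDimensional_adjoin fun x _ =>
      (Algebra.IsAlgebraic.isAlgebraic x).isIntegral
  · rw [IntermediateField.mem_fixingSubgroup_iff] at hτ ⊢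
    intro y hy
    rw [← hS] at hy
    refine apply_eq_of_mem_adjoin (localGaloisToGlobal q τ) ?_ y hy
    intro a ha
    rw [localGaloisToGlobal_apply_eq_iff]
    refine hτ _ (IntermediateField.subset_adjoin ℚ_[q] _ ?_)
    exact Finset.mem_coe.mpr (Finset.mem_image_of_mem _ (Finset.mem_coe.mp ha))

section Bridge

variable {X : Type*}

/-- (KR-B₁) The prelude's `IsLevelConstant₁` for the local map is level-constancy with respect
to the open subgroups `Gal(PadicAlgCl q / E)`, `E/ℚ_q` finite. -/
theorem isLevelConstant₁_iff (f : Gq q → X) :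
    IsLevelConstant₁ (localGaloisToGlobal q) f ↔
      ∃ E : IntermediateField ℚ_[q] (PadicAlgCl q), FiniteDimensional ℚ_[q] E ∧
        ∀ g s : Gq q, s ∈ E.fixingSubgroup → f (g * s) = f g := by
  constructor
  · rintro ⟨F, hF, h⟩
    obtain ⟨E, hE, hEF⟩ := exists_local_level q F
    exact ⟨E, hE, fun g s hs => h g s (hEF s hs)⟩
  · rintro ⟨E, hE, h⟩
    obtain ⟨F, hF, hFE⟩ := exists_global_level q E
    exact ⟨F, hF, fun g s hs => h g s (hFE s hs)⟩

/-- (KR-B₂) Same for two-variable cochains. -/
theorem isLevelConstant₂_iff (f : Gq q × Gq q → X) :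
    IsLevelConstant₂ (localGaloisToGlobal q) f ↔
      ∃ E : IntermediateField ℚ_[q] (PadicAlgCl q), FiniteDimensional ℚ_[q] E ∧
        ∀ g g' s s' : Gq q, s ∈ E.fixingSubgroup → s' ∈ E.fixingSubgroup →
          f (g * s, g' * s') = f (g, g') := by
  constructor
  · rintro ⟨F, hF, h⟩
    obtain ⟨E, hE, hEF⟩ := exists_local_level q F
    exact ⟨E, hE, fun g g' s s' hs hs' => h g g' s s' (hEF s hs) (hEF s' hs')⟩
  · rintro ⟨E, hE, h⟩
    obtain ⟨F, hF, hFE⟩ := exists_global_level q E
    exact ⟨F, hF, fun g g' s s' hs hs' => h g g' s s' (hFE s hs) (hFE s' hs')⟩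

end Bridge

end Fermat.Agent.GC.Local.KR
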