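/-
GATE-C / C3 KR-DEC (helper69): the image of `G_{ℚ_q}` in `G_ℚ` is the decomposition group.

`q` prime, `ι = padicEmbedding q : Qbar → PadicAlgCl q`, `r = localGaloisToGlobal q`.

* (D1) `continuous_localGaloisToGlobal`, `isClosed_range_localGaloisToGlobal`.
* (D2) `decompositionField q` (algebraic numbers whose image lies in `ℚ_q`),
  `range_localGaloisToGlobal_eq_fixingSubgroup`.
* (D3) `range_localGaloisToGlobal_eq : (localGaloisToGlobal q).range =
  (padicPlace q).decompositionSubgroup ℚ`, and elements of the decomposition group are isometries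
  for `‖ι ·‖`.
* (D4) `localLevel q L = ℚ_q(ι L)`; finite-dimensional / normal / Galois over `ℚ_q` when `L/ℚ` is;
  `mem_fixingSubgroup_localLevel_iff`, `exists_le_localLevel`.
The finite-level decomposition maps `decLevel` are in `KrasnerDecLevel.lean`.
-/
import Mathlib
import Fermat.Prelude.Def_GaloisRep_CompletionBridge
import Fermat.Agent.GC.Local.KrasnerBridge

set_option autoImplicit false

noncomputable section

open IntermediateField
open scoped Pointwise

namespace Fermat.Agent.GC.Local.KR

local notation "Qb" => AlgebraicClosure ℚ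

variable (q : ℕ) [Fact q.Prime]

/-! ### (D1), (D2): continuity, closed range, decomposition field -/

/-- (D1) The restriction map `G_{ℚ_q} → G_ℚ` is continuous for the Krull topologies. -/
theorem continuous_localGaloisToGlobal : Continuous (localGaloisToGlobal q) := by
  apply continuous_of_continuousAt_one
  rw [ContinuousAt, map_one]
  intro s hs
  rw [krullTopology_mem_nhds_one_iff] at hs
  obtain ⟨F, hF, hFs⟩ := hs
  obtain ⟨E, hE, hEF⟩ := exists_local_level q F
  rw [Filter.mem_map, krullTopology_mem_nhds_one_iff]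
  exact ⟨E, hE, fun τ hτ => hFs (hEF τ hτ)⟩

theorem isGalois_Qb : IsGalois ℚ Qb := by
  have : IsAlgClosure ℚ Qb := ⟨inferInstance, AlgebraicClosure.isAlgebraic ℚ⟩
  infer_instance

theorem isGalois_padicAlgCl : IsGalois ℚ_[q] (PadicAlgCl q) := inferInstance

theorem isClosed_range_localGaloisToGlobal :
    IsClosed (Set.range (localGaloisToGlobal q)) := by
  have := isGalois_Qb
  exact (isCompact_range (continuous_localGaloisToGlobal q)).isClosed

/-- The decomposition field of the place `padicPlace q`: algebraic numbers whose image in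
`PadicAlgCl q` lies in `ℚ_q`. -/
def decompositionField : IntermediateField ℚ Qb :=
  ((⊥ : IntermediateField ℚ_[q] (PadicAlgCl q)).restrictScalars ℚ).comap (padicEmbedding q)

theorem mem_decompositionField_iff (x : Qb) :
    x ∈ decompositionField q ↔ padicEmbedding q x ∈ Set.range (algebraMap ℚ_[q] (PadicAlgCl q)) := by
  change padicEmbedding q x ∈ (⊥ : IntermediateField ℚ_[q] (PadicAlgCl q)).restrictScalars ℚ ↔ _
  rw [IntermediateField.mem_restrictScalars, IntermediateField.mem_bot]

theorem mem_decompositionField_iff_fixed (x : Qb) :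
    x ∈ decompositionField q ↔ ∀ τ : Gq q, localGaloisToGlobal q τ x = x := by
  rw [mem_decompositionField_iff, InfiniteGalois.mem_range_algebraMap_iff_fixed]
  exact forall_congr' fun τ => (localGaloisToGlobal_apply_eq_iff q τ x).symm

theorem fixedField_range_localGaloisToGlobal :
    IntermediateField.fixedField (localGaloisToGlobal q).range = decompositionField q := by
  ext x
  rw [IntermediateField.mem_fixedField_iff, mem_decompositionField_iff_fixed]
  constructor
  · intro h τ
    exact h _ ⟨τ, rfl⟩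
  · rintro h _ ⟨τ, rfl⟩
    exact h τ

/-- (D2) The image of `G_{ℚ_q}` in `G_ℚ` is the Galois group of `Qbar` over the decomposition
field. -/
theorem range_localGaloisToGlobal_eq_fixingSubgroup :
    (localGaloisToGlobal q).range = (decompositionField q).fixingSubgroup := by
  have := isGalois_Qb
  rw [← fixedField_range_localGaloisToGlobal]
  let H : ClosedSubgroup (Qb ≃ₐ[ℚ] Qb) :=
    ⟨(localGaloisToGlobal q).range, isClosed_range_localGaloisToGlobal q⟩
  exact (InfiniteGalois.fixingSubgroup_fixedField H).symm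

/-! ### (D3): the range is the decomposition group -/

theorem smul_mem_padicPlace_iff {σ : Qb ≃ₐ[ℚ] Qb}
    (hσ : σ ∈ (padicPlace q).decompositionSubgroup ℚ) (y : Qb) :
    σ y ∈ padicPlace q ↔ y ∈ padicPlace q := by
  have h : σ • padicPlace q = padicPlace q := MulAction.mem_stabilizer_iff.mp hσ
  conv_lhs => rw [← h]
  exact ValuationSubring.smul_mem_pointwise_smul_iff (g := σ) (S := padicPlace q) (x := y)

theorem norm_algebraMap_sub_ratCast (c : ℚ_[q]) (r : ℚ) :
    ‖algebraMap ℚ_[q] (PadicAlgCl q) c - (r : PadicAlgCl q)‖ = ‖c - r‖ := by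
  rw [← map_ratCast (algebraMap ℚ_[q] (PadicAlgCl q)) r, ← map_sub, norm_algebraMap']

theorem norm_natCast_self : ‖(q : PadicAlgCl q)‖ = (q : ℝ)⁻¹ := by
  rw [← map_natCast (algebraMap ℚ_[q] (PadicAlgCl q)) q, norm_algebraMap', Padic.norm_p]

theorem norm_padicEmbedding_scaled (z : Qb) (r : ℚ) (m : ℕ) :
    ‖padicEmbedding q ((z - (r : Qb)) * ((q : Qb) ^ m)⁻¹)‖ =
      ‖padicEmbedding q z - (r : PadicAlgCl q)‖ * (q : ℝ) ^ m := by
  rw [map_mul, map_sub, map_inv₀, map_pow, map_ratCast, map_natCast, norm_mul, norm_inv, norm_pow,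
    norm_natCast_self, inv_pow, inv_inv]

theorem mem_padicPlace_iff_norm {x : Qb} : x ∈ padicPlace q ↔ ‖padicEmbedding q x‖ ≤ 1 := by
  rw [mem_padicPlace_iff, ← NNReal.coe_le_coe, coe_nnnorm, NNReal.coe_one]

/-- An element of the decomposition group of `padicPlace q` fixes the decomposition field. -/
theorem apply_eq_of_mem_decompositionSubgroup {σ : Qb ≃ₐ[ℚ] Qb}
    (hσ : σ ∈ (padicPlace q).decompositionSubgroup ℚ) {x : Qb} {c : ℚ_[q]}
    (hc : algebraMap ℚ_[q] (PadicAlgCl q) c = padicEmbedding q x) : σ x = x := by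
  have hq1 : (1 : ℝ) < q := by exact_mod_cast (Fact.out : q.Prime).one_lt
  have hq0 : (0 : ℝ) < q := by linarith
  have key : ∀ m : ℕ, ‖padicEmbedding q (σ x) - padicEmbedding q x‖ ≤ 2 * ((q : ℝ) ^ m)⁻¹ := by
    intro m
    have hpos : (0 : ℝ) < ((q : ℝ) ^ m)⁻¹ := by positivity
    obtain ⟨r, hr⟩ := Padic.rat_dense q c hpos
    have h1 : ‖padicEmbedding q x - (r : PadicAlgCl q)‖ < ((q : ℝ) ^ m)⁻¹ := by
      rw [← hc, norm_algebraMap_sub_ratCast]; exact hr
    have hy : (x - (r : Qb)) * ((q : Qb) ^ m)⁻¹ ∈ padicPlace q := by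
      rw [mem_padicPlace_iff_norm, norm_padicEmbedding_scaled]
      calc ‖padicEmbedding q x - (r : PadicAlgCl q)‖ * (q : ℝ) ^ m
          ≤ ((q : ℝ) ^ m)⁻¹ * (q : ℝ) ^ m := by gcongr
        _ = 1 := inv_mul_cancel₀ (by positivity)
    have hσy := (smul_mem_padicPlace_iff q hσ _).mpr hy
    rw [map_mul, map_sub, map_inv₀, map_pow, map_ratCast, map_natCast, mem_padicPlace_iff_norm,
      norm_padicEmbedding_scaled] at hσy
    have h2 : ‖padicEmbedding q (σ x) - (r : PadicAlgCl q)‖ ≤ ((q : ℝ) ^ m)⁻¹ := by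
      rw [← one_mul ((q : ℝ) ^ m)⁻¹, ← div_eq_mul_inv, le_div_iff₀ (by positivity)]
      exact hσy
    calc ‖padicEmbedding q (σ x) - padicEmbedding q x‖
        = ‖(padicEmbedding q (σ x) - (r : PadicAlgCl q)) - (padicEmbedding q x - (r : PadicAlgCl q))‖ := by
          rw [sub_sub_sub_cancel_right]
      _ ≤ ‖padicEmbedding q (σ x) - (r : PadicAlgCl q)‖ + ‖padicEmbedding q x - (r : PadicAlgCl q)‖ :=
          norm_sub_le _ _
      _ ≤ 2 * ((q : ℝ) ^ m)⁻¹ := by linarith
  apply padicEmbedding_injective q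
  rw [← sub_eq_zero, ← norm_le_zero_iff]
  by_contra hne
  rw [not_le] at hne
  obtain ⟨m, hm⟩ := exists_pow_lt_of_lt_one (half_pos hne) (inv_lt_one_of_one_lt₀ hq1)
  have := key m
  rw [inv_pow] at hm
  linarith

/-- (D3) **The image of the local Galois group is the decomposition group of `padicPlace q`.** -/
theorem range_localGaloisToGlobal_eq :
    (localGaloisToGlobal q).range = (padicPlace q).decompositionSubgroup ℚ := by
  apply le_antisymm
  · rintro _ ⟨τ, rfl⟩
    exact localGaloisToGlobal_mem_decompositionSubgroup q τ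
  · intro σ hσ
    rw [range_localGaloisToGlobal_eq_fixingSubgroup, IntermediateField.mem_fixingSubgroup_iff]
    intro x hx
    obtain ⟨c, hc⟩ := (mem_decompositionField_iff q x).mp hx
    exact apply_eq_of_mem_decompositionSubgroup q hσ hc

theorem mem_decompositionSubgroup_iff (σ : Qb ≃ₐ[ℚ] Qb) :
    σ ∈ (padicPlace q).decompositionSubgroup ℚ ↔ ∃ τ : Gq q, localGaloisToGlobal q τ = σ := by
  rw [← range_localGaloisToGlobal_eq, MonoidHom.mem_range]

/-- The decomposition group is the Galois group of `Qbar` over the decomposition field. -/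
theorem decompositionSubgroup_eq_fixingSubgroup :
    (padicPlace q).decompositionSubgroup ℚ = (decompositionField q).fixingSubgroup := by
  rw [← range_localGaloisToGlobal_eq, range_localGaloisToGlobal_eq_fixingSubgroup]

/-- Elements of the decomposition group are isometries for the `q`-adic absolute value
`‖ι ·‖` of `Qbar`. -/
theorem norm_padicEmbedding_apply_of_mem_decompositionSubgroup {σ : Qb ≃ₐ[ℚ] Qb}
    (hσ : σ ∈ (padicPlace q).decompositionSubgroup ℚ) (x : Qb) :
    ‖padicEmbedding q (σ x)‖ = ‖padicEmbedding q x‖ := by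
  obtain ⟨τ, rfl⟩ := (mem_decompositionSubgroup_iff q σ).mp hσ
  rw [padicEmbedding_localGaloisToGlobal]
  have := nnnorm_padicAlgCl_algEquiv q τ (padicEmbedding q x)
  exact congrArg NNReal.toReal this

/-! ### (D4): local levels -/


/-- The local level attached to a subfield `L ⊆ Qbar`: the field `ℚ_q(ι L) ⊆ PadicAlgCl q`. -/
def localLevel (L : IntermediateField ℚ Qb) : IntermediateField ℚ_[q] (PadicAlgCl q) :=
  adjoin ℚ_[q] (padicEmbedding q '' (L : Set Qb))

variable {q} in
theorem padicEmbedding_mem_localLevel {L : IntermediateField ℚ Qb} {x : Qb} (hx : x ∈ L) :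
    padicEmbedding q x ∈ localLevel q L :=
  subset_adjoin _ _ ⟨x, hx, rfl⟩

theorem localLevel_mono {L L' : IntermediateField ℚ Qb} (h : L ≤ L') :
    localLevel q L ≤ localLevel q L' :=
  adjoin.mono _ _ _ (Set.image_mono h)

/-- `localLevel` of a field generated by `S` is generated by `ι S`. -/
theorem localLevel_adjoin (S : Set Qb) :
    localLevel q (adjoin ℚ S) = adjoin ℚ_[q] (padicEmbedding q '' S) := by
  apply le_antisymm
  · rw [localLevel, adjoin_le_iff]
    rintro _ ⟨x, hx, rfl⟩
    induction hx using IntermediateField.adjoin_induction with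
    | mem x hx => exact subset_adjoin _ _ ⟨x, hx, rfl⟩
    | algebraMap x =>
      have : padicEmbedding q (algebraMap ℚ Qb x) =
          algebraMap ℚ_[q] (PadicAlgCl q) (algebraMap ℚ ℚ_[q] x) := by
        rw [AlgHom.commutes]
        simp
      rw [this]
      exact IntermediateField.algebraMap_mem _ _
    | add x y _ _ hx hy => rw [map_add]; exact add_mem hx hy
    | inv x _ hx => rw [map_inv₀]; exact inv_mem hx
    | mul x y _ _ hx hy => rw [map_mul]; exact mul_mem hx hy
  · exact adjoin.mono _ _ _ (Set.image_mono (subset_adjoin ℚ S))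

instance finiteDimensional_localLevel (L : IntermediateField ℚ Qb) [FiniteDimensional ℚ L] :
    FiniteDimensional ℚ_[q] (localLevel q L) := by
  classical
  obtain ⟨S, hS⟩ := exists_finset_adjoin_eq L
  rw [← hS, localLevel_adjoin]
  have : Finite (padicEmbedding q '' (S : Set Qb)) := (S.finite_toSet.image _).to_subtype
  exact IntermediateField.finiteDimensional_adjoin fun x _ =>
    (Algebra.IsAlgebraic.isAlgebraic x).isIntegral

/-- `τ (ι x) = ι (r τ x)`. -/
theorem apply_padicEmbedding (τ : Gq q) (x : Qb) :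
    τ (padicEmbedding q x) = padicEmbedding q (localGaloisToGlobal q τ x) :=
  (padicEmbedding_localGaloisToGlobal q τ x).symm

theorem apply_mem_of_normal (L : IntermediateField ℚ Qb) [h : Normal ℚ L] (σ : Qb ≃ₐ[ℚ] Qb) {x : Qb}
    (hx : x ∈ L) : σ x ∈ L := by
  have : Normal ℚ Qb := isGalois_Qb.to_normal
  exact ((IntermediateField.normal_iff_forall_map_le' (K := L)).mp h σ) ⟨x, hx, rfl⟩

instance normal_localLevel (L : IntermediateField ℚ Qb) [Normal ℚ L] :
    Normal ℚ_[q] (localLevel q L) := by
  rw [IntermediateField.normal_iff_forall_map_le']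
  intro τ
  rw [localLevel, adjoin_map, adjoin_le_iff]
  rintro _ ⟨_, ⟨x, hx, rfl⟩, rfl⟩
  change τ (padicEmbedding q x) ∈ _
  rw [apply_padicEmbedding]
  exact subset_adjoin _ _ ⟨_, apply_mem_of_normal L _ hx, rfl⟩

instance isGalois_localLevel (L : IntermediateField ℚ Qb) [Normal ℚ L] :
    IsGalois ℚ_[q] (localLevel q L) where

/-- (KR4) `r τ` fixes `L` iff `τ` fixes `ℚ_q(ι L)`. -/
theorem mem_fixingSubgroup_localLevel_iff (L : IntermediateField ℚ Qb) (τ : Gq q) :
    localGaloisToGlobal q τ ∈ L.fixingSubgroup ↔ τ ∈ (localLevel q L).fixingSubgroup := by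
  rw [IntermediateField.mem_fixingSubgroup_iff, IntermediateField.mem_fixingSubgroup_iff]
  constructor
  · intro h y hy
    refine apply_eq_of_mem_adjoin τ ?_ y hy
    rintro _ ⟨x, hx, rfl⟩
    exact (localGaloisToGlobal_apply_eq_iff q τ x).mp (h x hx)
  · intro h x hx
    exact (localGaloisToGlobal_apply_eq_iff q τ x).mpr (h _ (padicEmbedding_mem_localLevel hx))

/-- (KR5) Every finite extension of `ℚ_q` inside `PadicAlgCl q` is contained in the local level
of a finite Galois number field. -/
theorem exists_le_localLevel (E : IntermediateField ℚ_[q] (PadicAlgCl q))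
    [FiniteDimensional ℚ_[q] E] :
    ∃ L : IntermediateField ℚ Qb, FiniteDimensional ℚ L ∧ IsGalois ℚ L ∧ E ≤ localLevel q L := by
  classical
  obtain ⟨S, hS⟩ := exists_finset_adjoin_eq E
  choose a ha using fun b : PadicAlgCl q => exists_mem_adjoin_padicEmbedding q b
  let L₀ : IntermediateField ℚ Qb := adjoin ℚ ((S.image a : Finset Qb) : Set Qb)
  have hL₀ : FiniteDimensional ℚ L₀ := IntermediateField.finiteDimensional_adjoin fun x _ =>
      ((AlgebraicClosure.isAlgebraic ℚ).isAlgebraic x).isIntegral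
  have : Normal ℚ Qb := isGalois_Qb.to_normal
  refine ⟨normalClosure ℚ L₀ Qb, normalClosure.is_finiteDimensional ℚ L₀ Qb, ?_, ?_⟩
  · have : Normal ℚ (normalClosure ℚ L₀ Qb) := normalClosure.normal ℚ L₀ Qb
    exact ⟨⟩
  · rw [← hS, adjoin_le_iff]
    intro b hb
    have h1 : ℚ_[q]⟮padicEmbedding q (a b)⟯ ≤ localLevel q (normalClosure ℚ L₀ Qb) := by
      rw [adjoin_simple_le_iff]
      refine padicEmbedding_mem_localLevel (L₀.le_normalClosure ?_)
      exact subset_adjoin ℚ _ (Finset.mem_coe.mpr (Finset.mem_image_of_mem a (Finset.mem_coe.mp hb)))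
    exact h1 (ha b)

end Fermat.Agent.GC.Local.KR
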