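/-
GATE-C / C3 KR-DEC, part 2 (helper69): finite-level decomposition maps.

For `L ⊆ Qbar` normal over `ℚ`, `E := localLevel q L = ℚ_q(ι L)`:
* `decLevel q L : Gal(E/ℚ_q) →* Gal(L/ℚ)`, characterised by `ι (decLevel d x) = d (ι x)`
  (`padicEmbedding_decLevel_apply`, `decLevel_eq_of_forall`), compatible with the absolute map
  `localGaloisToGlobal q` (`decLevel_restrictNormalHom`), injective (`decLevel_injective`).
* for `L/ℚ` finite Galois its range is the decomposition group of the place of `L` cut out by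
  `ι`: `mem_range_decLevel_iff`, `range_decLevel_eq_decompositionSubgroup`,
  `range_decLevel_eq_map`, `card_range_decLevel`.
-/
import Mathlib
import Fermat.Prelude.Def_GaloisRep_CompletionBridge
import Fermat.Agent.GC.Local.KrasnerDec

set_option autoImplicit false

noncomputable section

open IntermediateField
open scoped Pointwise

namespace Fermat.Agent.GC.Local.KR

local notation "Qb" => AlgebraicClosure ℚ

variable (q : ℕ) [Fact q.Prime]

/-! ### A rigidity lemma -/

/-- Let `j : K → PadicAlgCl q` be a field embedding and `σ` a ring endomorphism of `K` preserving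
the unit ball of `‖j ·‖`.  Then `σ` fixes every element of `K` whose image lies in `ℚ_q`. -/
theorem apply_eq_of_forall_norm_le_one {K : Type*} [Field K] (j : K →+* PadicAlgCl q)
    (σ : K →+* K) (h : ∀ y : K, ‖j y‖ ≤ 1 → ‖j (σ y)‖ ≤ 1) {x : K} {c : ℚ_[q]}
    (hc : algebraMap ℚ_[q] (PadicAlgCl q) c = j x) : j (σ x) = j x := by
  have hq1 : (1 : ℝ) < q := by exact_mod_cast (Fact.out : q.Prime).one_lt
  have hq0 : (0 : ℝ) < q := by linarith
  have scaled : ∀ (z : K) (r : ℚ) (m : ℕ), ‖j ((z - (r : K)) * ((q : K) ^ m)⁻¹)‖ =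
      ‖j z - (r : PadicAlgCl q)‖ * (q : ℝ) ^ m := by
    intro z r m
    rw [map_mul, map_sub, map_inv₀, map_pow, map_ratCast, map_natCast, norm_mul, norm_inv,
      norm_pow, norm_natCast_self, inv_pow, inv_inv]
  have key : ∀ m : ℕ, ‖j (σ x) - j x‖ ≤ 2 * ((q : ℝ) ^ m)⁻¹ := by
    intro m
    have hpos : (0 : ℝ) < ((q : ℝ) ^ m)⁻¹ := by positivity
    obtain ⟨r, hr⟩ := Padic.rat_dense q c hpos
    have h1 : ‖j x - (r : PadicAlgCl q)‖ < ((q : ℝ) ^ m)⁻¹ := by
      rw [← hc, norm_algebraMap_sub_ratCast]; exact hr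
    have hy : ‖j ((x - (r : K)) * ((q : K) ^ m)⁻¹)‖ ≤ 1 := by
      rw [scaled]
      calc ‖j x - (r : PadicAlgCl q)‖ * (q : ℝ) ^ m
          ≤ ((q : ℝ) ^ m)⁻¹ * (q : ℝ) ^ m := by gcongr
        _ = 1 := inv_mul_cancel₀ (by positivity)
    have hσy := h _ hy
    rw [map_mul, map_sub, map_inv₀, map_pow, map_ratCast, map_natCast, scaled] at hσy
    have h2 : ‖j (σ x) - (r : PadicAlgCl q)‖ ≤ ((q : ℝ) ^ m)⁻¹ := by
      rw [← one_mul ((q : ℝ) ^ m)⁻¹, ← div_eq_mul_inv, le_div_iff₀ (by positivity)]
      exact hσy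
    calc ‖j (σ x) - j x‖
        = ‖(j (σ x) - (r : PadicAlgCl q)) - (j x - (r : PadicAlgCl q))‖ := by
          rw [sub_sub_sub_cancel_right]
      _ ≤ ‖j (σ x) - (r : PadicAlgCl q)‖ + ‖j x - (r : PadicAlgCl q)‖ := norm_sub_le _ _
      _ ≤ 2 * ((q : ℝ) ^ m)⁻¹ := by linarith
  rw [← sub_eq_zero, ← norm_le_zero_iff]
  by_contra hne
  rw [not_le] at hne
  obtain ⟨m, hm⟩ := exists_pow_lt_of_lt_one (half_pos hne) (inv_lt_one_of_one_lt₀ hq1)
  have := key m
  rw [inv_pow] at hm
  linarith

/-! ### The maps `decLevel` -/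

theorem restrictNormalHom_ker_Qb (L : IntermediateField ℚ Qb) [Normal ℚ L] :
    (AlgEquiv.restrictNormalHom (F := ℚ) (K₁ := Qb) L).ker = L.fixingSubgroup := by
  ext σ
  rw [MonoidHom.mem_ker, IntermediateField.mem_fixingSubgroup_iff]
  constructor
  · intro hσ x hx
    have := AlgEquiv.restrictNormal_commutes σ L ⟨x, hx⟩
    rw [show σ.restrictNormal L = AlgEquiv.restrictNormalHom L σ from rfl, hσ] at this
    exact this.symm
  · intro hσ
    ext x
    have := AlgEquiv.restrictNormal_commutes σ L x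
    rw [show σ.restrictNormal L = AlgEquiv.restrictNormalHom L σ from rfl] at this
    change algebraMap L Qb _ = algebraMap L Qb _
    rw [this]
    exact hσ x x.2

/-- The finite-level decomposition map `Gal(ℚ_q(ι L)/ℚ_q) → Gal(L/ℚ)`. -/
def decLevel (L : IntermediateField ℚ Qb) [Normal ℚ L] :
    (localLevel q L ≃ₐ[ℚ_[q]] localLevel q L) →* (L ≃ₐ[ℚ] L) :=
  (AlgEquiv.restrictNormalHom (F := ℚ_[q]) (K₁ := PadicAlgCl q) (localLevel q L)).liftOfSurjective
    (AlgEquiv.restrictNormalHom_surjective _)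
    ⟨(AlgEquiv.restrictNormalHom (F := ℚ) (K₁ := Qb) L).comp (localGaloisToGlobal q), by
      intro τ hτ
      rw [IntermediateField.restrictNormalHom_ker] at hτ
      rw [MonoidHom.mem_ker, MonoidHom.comp_apply, ← MonoidHom.mem_ker, restrictNormalHom_ker_Qb]
      exact (mem_fixingSubgroup_localLevel_iff q L τ).mpr hτ⟩

/-- Compatibility of `decLevel` with the absolute restriction map `r`. -/
theorem decLevel_restrictNormalHom (L : IntermediateField ℚ Qb) [Normal ℚ L] (τ : Gq q) :
    decLevel q L (AlgEquiv.restrictNormalHom (localLevel q L) τ) =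
      AlgEquiv.restrictNormalHom L (localGaloisToGlobal q τ) :=
  MonoidHom.liftOfRightInverse_comp_apply _ _ _ _ τ

/-! ### The defining property, injectivity, uniqueness -/

/-- `ι` restricted to `L`, with values in `localLevel q L`. -/
def levelEmb (L : IntermediateField ℚ Qb) : L →+* localLevel q L :=
  ((padicEmbedding q).toRingHom.comp (algebraMap L Qb)).codRestrict (localLevel q L).toSubfield
    fun x => padicEmbedding_mem_localLevel x.2

@[simp]
theorem coe_levelEmb (L : IntermediateField ℚ Qb) (x : L) :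
    ((levelEmb q L x : localLevel q L) : PadicAlgCl q) = padicEmbedding q (x : Qb) := rfl

theorem levelEmb_injective (L : IntermediateField ℚ Qb) : Function.Injective (levelEmb q L) :=
  (levelEmb q L).injective

/-- The defining property of `decLevel`: `ι (decLevel d x) = d (ι x)`. -/
theorem levelEmb_decLevel_apply (L : IntermediateField ℚ Qb) [Normal ℚ L]
    (d : localLevel q L ≃ₐ[ℚ_[q]] localLevel q L) (x : L) :
    levelEmb q L (decLevel q L d x) = d (levelEmb q L x) := by
  obtain ⟨τ, rfl⟩ := AlgEquiv.restrictNormalHom_surjective (F := ℚ_[q])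
    (K₁ := localLevel q L) (PadicAlgCl q) d
  rw [decLevel_restrictNormalHom]
  apply Subtype.ext
  rw [coe_levelEmb]
  have h1 := AlgEquiv.restrictNormal_commutes (localGaloisToGlobal q τ) L x
  have h2 := AlgEquiv.restrictNormal_commutes τ (localLevel q L) (levelEmb q L x)
  change algebraMap L Qb (AlgEquiv.restrictNormalHom L (localGaloisToGlobal q τ) x) = _ at h1
  change algebraMap (localLevel q L) (PadicAlgCl q)
    (AlgEquiv.restrictNormalHom (localLevel q L) τ (levelEmb q L x)) = _ at h2
  change padicEmbedding q (algebraMap L Qb _) = algebraMap (localLevel q L) (PadicAlgCl q) _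
  rw [h1, h2, padicEmbedding_localGaloisToGlobal]
  rfl

theorem padicEmbedding_decLevel_apply (L : IntermediateField ℚ Qb) [Normal ℚ L]
    (d : localLevel q L ≃ₐ[ℚ_[q]] localLevel q L) (x : L) :
    padicEmbedding q ((decLevel q L d x : L) : Qb) =
      ((d (levelEmb q L x) : localLevel q L) : PadicAlgCl q) := by
  rw [← levelEmb_decLevel_apply, coe_levelEmb]

/-- An automorphism of `localLevel q L` over `ℚ_q` is determined by its values on `ι L`. -/
theorem algEquiv_ext_levelEmb (L : IntermediateField ℚ Qb)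
    {d d' : localLevel q L ≃ₐ[ℚ_[q]] localLevel q L}
    (h : ∀ x : L, d (levelEmb q L x) = d' (levelEmb q L x)) : d = d' := by
  ext y
  have hy : (y : PadicAlgCl q) ∈ adjoin ℚ_[q] (padicEmbedding q '' (L : Set Qb)) := y.2
  -- the equaliser of `d` and `d'`, as an intermediate field of `PadicAlgCl q`
  suffices H : ∀ z (hz : z ∈ localLevel q L), (d ⟨z, hz⟩ : PadicAlgCl q) = d' ⟨z, hz⟩ from
    H y y.2
  intro z hz
  induction hz using IntermediateField.adjoin_induction with
  | mem z hz =>
    obtain ⟨x, hx, rfl⟩ := hz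
    exact congrArg Subtype.val (h ⟨x, hx⟩)
  | algebraMap c =>
    have : (⟨algebraMap ℚ_[q] (PadicAlgCl q) c, IntermediateField.algebraMap_mem _ c⟩ : localLevel q L) =
        algebraMap ℚ_[q] (localLevel q L) c := rfl
    rw [this, d.commutes, d'.commutes]
  | add a b ha hb iha ihb =>
    have : (⟨a + b, add_mem ha hb⟩ : localLevel q L) = ⟨a, ha⟩ + ⟨b, hb⟩ := rfl
    rw [this, map_add, map_add, AddMemClass.coe_add, AddMemClass.coe_add, iha, ihb]
  | inv a ha iha =>
    have : (⟨a⁻¹, inv_mem ha⟩ : localLevel q L) = (⟨a, ha⟩ : localLevel q L)⁻¹ := rfl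
    rw [this, map_inv₀, map_inv₀, IntermediateField.coe_inv, IntermediateField.coe_inv, iha]
  | mul a b ha hb iha ihb =>
    have : (⟨a * b, mul_mem ha hb⟩ : localLevel q L) = ⟨a, ha⟩ * ⟨b, hb⟩ := rfl
    rw [this, map_mul, map_mul, MulMemClass.coe_mul, MulMemClass.coe_mul, iha, ihb]

/-- `decLevel` is injective. -/
theorem decLevel_injective (L : IntermediateField ℚ Qb) [Normal ℚ L] :
    Function.Injective (decLevel q L) := by
  intro d d' h
  apply algEquiv_ext_levelEmb
  intro x
  rw [← levelEmb_decLevel_apply, ← levelEmb_decLevel_apply, h]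

/-- Uniqueness: any `g ∈ Gal(L/ℚ)` with `ι (g x) = d (ι x)` is `decLevel d`. -/
theorem decLevel_eq_of_forall (L : IntermediateField ℚ Qb) [Normal ℚ L]
    (d : localLevel q L ≃ₐ[ℚ_[q]] localLevel q L) (g : L ≃ₐ[ℚ] L)
    (h : ∀ x : L, levelEmb q L (g x) = d (levelEmb q L x)) : decLevel q L d = g := by
  ext x
  apply Subtype.ext_iff.mp
  apply levelEmb_injective q L
  rw [levelEmb_decLevel_apply, h]

/-! ### The range is the decomposition group -/

/-- Elements in the range of `decLevel` are isometries for `‖ι ·‖` on `L`. -/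
theorem norm_padicEmbedding_decLevel (L : IntermediateField ℚ Qb) [Normal ℚ L]
    (d : localLevel q L ≃ₐ[ℚ_[q]] localLevel q L) (x : L) :
    ‖padicEmbedding q ((decLevel q L d x : L) : Qb)‖ = ‖padicEmbedding q (x : Qb)‖ := by
  obtain ⟨τ, rfl⟩ := AlgEquiv.restrictNormalHom_surjective (F := ℚ_[q])
    (K₁ := localLevel q L) (PadicAlgCl q) d
  rw [decLevel_restrictNormalHom]
  have h1 := AlgEquiv.restrictNormal_commutes (localGaloisToGlobal q τ) L x
  change algebraMap L Qb (AlgEquiv.restrictNormalHom L (localGaloisToGlobal q τ) x) = _ at h1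
  change ‖padicEmbedding q (algebraMap L Qb _)‖ = _
  rw [h1, padicEmbedding_localGaloisToGlobal]
  exact congrArg NNReal.toReal (nnnorm_padicAlgCl_algEquiv q τ _)

/-- An automorphism of a finite Galois `L/ℚ` which maps the unit ball of `‖ι ·‖` into itself
lies in the range of `decLevel`. -/
theorem mem_range_decLevel_of_forall (L : IntermediateField ℚ Qb) [FiniteDimensional ℚ L]
    [IsGalois ℚ L] (g : L ≃ₐ[ℚ] L)
    (h : ∀ x : L, ‖padicEmbedding q (x : Qb)‖ ≤ 1 → ‖padicEmbedding q ((g x : L) : Qb)‖ ≤ 1) :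
    g ∈ (decLevel q L).range := by
  have hH := IntermediateField.fixingSubgroup_fixedField (decLevel q L).range
  rw [← hH, IntermediateField.mem_fixingSubgroup_iff]
  intro x hx
  have hfix : ∀ d : localLevel q L ≃ₐ[ℚ_[q]] localLevel q L,
      d (levelEmb q L x) = levelEmb q L x := by
    intro d
    rw [← levelEmb_decLevel_apply]
    congr 1
    exact (IntermediateField.mem_fixedField_iff _ _).mp hx _ ⟨d, rfl⟩
  obtain ⟨c, hc⟩ := IntermediateField.mem_bot.mp
    ((InfiniteGalois.mem_bot_iff_fixed (levelEmb q L x)).mpr hfix)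
  have key := apply_eq_of_forall_norm_le_one q
    ((padicEmbedding q).toRingHom.comp (algebraMap L Qb)) (g : L →+* L)
    (fun y hy => h y hy) (x := x) (c := c) (congrArg Subtype.val hc)
  exact Subtype.ext (padicEmbedding_injective q key)

/-- **The range of `decLevel` is the decomposition group of the place of `L` cut out by `ι`.** -/
theorem mem_range_decLevel_iff (L : IntermediateField ℚ Qb) [FiniteDimensional ℚ L]
    [IsGalois ℚ L] (g : L ≃ₐ[ℚ] L) :
    g ∈ (decLevel q L).range ↔
      ∀ x : L, ‖padicEmbedding q ((g x : L) : Qb)‖ ≤ 1 ↔ ‖padicEmbedding q (x : Qb)‖ ≤ 1 := by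
  constructor
  · rintro ⟨d, rfl⟩ x
    rw [norm_padicEmbedding_decLevel]
  · intro h
    exact mem_range_decLevel_of_forall q L g fun x hx => (h x).mpr hx

/-- The range of `decLevel` is the image of the decomposition group of `padicPlace q`. -/
theorem range_decLevel_eq_map (L : IntermediateField ℚ Qb) [Normal ℚ L] :
    (decLevel q L).range =
      ((padicPlace q).decompositionSubgroup ℚ).map (AlgEquiv.restrictNormalHom L) := by
  rw [← range_localGaloisToGlobal_eq, MonoidHom.map_range]
  ext g
  constructor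
  · rintro ⟨d, rfl⟩
    obtain ⟨τ, rfl⟩ := AlgEquiv.restrictNormalHom_surjective (F := ℚ_[q])
      (K₁ := localLevel q L) (PadicAlgCl q) d
    exact ⟨τ, (decLevel_restrictNormalHom q L τ).symm⟩
  · rintro ⟨τ, rfl⟩
    exact ⟨_, decLevel_restrictNormalHom q L τ⟩

/-- The place of `L` cut out by `ι`, as a valuation subring of `L`. -/
def placeLevel (L : IntermediateField ℚ Qb) : ValuationSubring L :=
  (padicPlace q).comap (algebraMap L Qb)

theorem mem_placeLevel_iff (L : IntermediateField ℚ Qb) (x : L) :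
    x ∈ placeLevel q L ↔ ‖padicEmbedding q (x : Qb)‖ ≤ 1 :=
  mem_padicPlace_iff_norm q

theorem range_decLevel_eq_decompositionSubgroup (L : IntermediateField ℚ Qb)
    [FiniteDimensional ℚ L] [IsGalois ℚ L] :
    (decLevel q L).range = (placeLevel q L).decompositionSubgroup ℚ := by
  ext g
  rw [mem_range_decLevel_iff]
  change _ ↔ g ∈ MulAction.stabilizer _ _
  rw [MulAction.mem_stabilizer_iff]
  constructor
  · intro h
    apply SetLike.ext
    intro x
    rw [ValuationSubring.mem_pointwise_smul_iff_inv_smul_mem, mem_placeLevel_iff,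
      mem_placeLevel_iff]
    have := h (g⁻¹ x)
    have hgx : g (g⁻¹ x) = x := g.apply_symm_apply x
    rw [hgx] at this
    exact this.symm
  · intro h x
    rw [← mem_placeLevel_iff, ← mem_placeLevel_iff]
    conv_lhs => rw [← h]
    exact ValuationSubring.smul_mem_pointwise_smul_iff (g := g) (S := placeLevel q L) (x := x)

/-- `Gal(ℚ_q(ι L)/ℚ_q)` is isomorphic to the decomposition group of the place of `L`. -/
def decLevelEquiv (L : IntermediateField ℚ Qb) [FiniteDimensional ℚ L] [IsGalois ℚ L] :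
    (localLevel q L ≃ₐ[ℚ_[q]] localLevel q L) ≃* (placeLevel q L).decompositionSubgroup ℚ :=
  (MonoidHom.ofInjective (decLevel_injective q L)).trans
    (MulEquiv.subgroupCongr (range_decLevel_eq_decompositionSubgroup q L))

@[simp]
theorem coe_decLevelEquiv (L : IntermediateField ℚ Qb) [FiniteDimensional ℚ L] [IsGalois ℚ L]
    (d : localLevel q L ≃ₐ[ℚ_[q]] localLevel q L) :
    ((decLevelEquiv q L d : (placeLevel q L).decompositionSubgroup ℚ) : L ≃ₐ[ℚ] L) =
      decLevel q L d := rfl

/-- The order of the decomposition group is the local degree. -/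
theorem card_decompositionSubgroup_placeLevel (L : IntermediateField ℚ Qb)
    [FiniteDimensional ℚ L] [IsGalois ℚ L] :
    Nat.card ((placeLevel q L).decompositionSubgroup ℚ) =
      Module.finrank ℚ_[q] (localLevel q L) := by
  rw [← Nat.card_congr (decLevelEquiv q L).toEquiv, IsGalois.card_aut_eq_finrank]

end Fermat.Agent.GC.Local.KR
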