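/-
GATE-C / C3 (LOCAL) — INV brick, helper3.
Isomorphisms of pairs (group, module) and the two Galois-theoretic ones needed to run a devissage
over a tower of fields:
* `(S, Res (Lˣ)) ≅ (Gal(L/L^S), Lˣ)` for a subgroup `S ≤ Gal(L/K)`;
* `(G ⧸ N, (Lˣ)^N) ≅ (Gal(L^N/K), (L^N)ˣ)` for a normal subgroup `N`.
Generic field theory (any finite Galois extension), Mathlib only.
-/
import Mathlib

set_option autoImplicit false
set_option linter.unusedSectionVars false

open CategoryTheory groupCohomology Rep

noncomputable section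

namespace Fermat.Agent.GC.Local.GalPair

universe u

/-- An isomorphism of pairs (group, representation). -/
structure PairIso {k : Type u} [CommRing k] {Q Q' : Type u} [Group Q] [Group Q']
    (B : Rep.{u} k Q) (B' : Rep.{u} k Q') where
  /-- the group isomorphism -/
  e : Q ≃* Q'
  /-- the module isomorphism -/
  e' : B.V ≃ₗ[k] B'.V
  comm : ∀ g, e' ∘ₗ B.ρ g = B'.ρ (e g) ∘ₗ e'

namespace PairIso

variable {k : Type u} [CommRing k] {Q Q' Q'' : Type u} [Group Q] [Group Q'] [Group Q'']
  {B : Rep.{u} k Q} {B' : Rep.{u} k Q'} {B'' : Rep.{u} k Q''}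

lemma comm_apply (φ : PairIso B B') (g : Q) (x : B.V) : φ.e' (B.ρ g x) = B'.ρ (φ.e g) (φ.e' x) :=
  LinearMap.congr_fun (φ.comm g) x

/-- identity -/
def refl (B : Rep.{u} k Q) : PairIso B B := ⟨MulEquiv.refl Q, LinearEquiv.refl k B.V, fun _ => rfl⟩

/-- inverse -/
def symm (φ : PairIso B B') : PairIso B' B where
  e := φ.e.symm
  e' := φ.e'.symm
  comm g := by
    ext x
    apply φ.e'.injective
    simp [φ.comm_apply]

/-- composition -/
def trans (φ : PairIso B B') (ψ : PairIso B' B'') : PairIso B B'' where
  e := φ.e.trans ψ.e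
  e' := φ.e'.trans ψ.e'
  comm g := by
    ext x
    simp [φ.comm_apply, ψ.comm_apply]

/-- the induced isomorphism in cohomology -/
def cohIso (φ : PairIso B B') (n : ℕ) : groupCohomology B n ≅ groupCohomology B' n :=
  groupCohomology.mapIso φ.e φ.e' φ.comm n

/-- restriction of an isomorphism of pairs to a subgroup -/
def res (φ : PairIso B B') (S : Subgroup Q) :
    PairIso (Rep.res S.subtype B) (Rep.res (S.map φ.e.toMonoidHom).subtype B') where
  e := φ.e.subgroupMap S
  e' := φ.e'
  comm g := φ.comm g

/-- the image of a normal subgroup under an isomorphism of pairs is normal -/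
lemma normal_map (φ : PairIso B B') (N : Subgroup Q) [N.Normal] :
    (N.map φ.e.toMonoidHom).Normal :=
  Subgroup.Normal.map inferInstance _ φ.e.surjective

/-- the induced equivalence on invariants of a subgroup -/
def invEquiv (φ : PairIso B B') (N : Subgroup Q) :
    Representation.invariants (B.ρ.comp N.subtype) ≃ₗ[k]
      Representation.invariants (B'.ρ.comp (N.map φ.e.toMonoidHom).subtype) where
  toFun x := ⟨φ.e' x.1, by
    rintro ⟨g', hg'⟩
    obtain ⟨g, hg, rfl⟩ := hg'
    have := x.2 ⟨g, hg⟩
    simp only [MonoidHom.comp_apply, Subgroup.subtype_apply] at this ⊢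
    change B'.ρ (φ.e g) (φ.e' x.1) = φ.e' x.1
    rw [← φ.comm_apply, this]⟩
  map_add' x y := Subtype.ext (map_add φ.e' x.1 y.1)
  map_smul' c x := Subtype.ext (map_smul φ.e' c x.1)
  invFun y := ⟨φ.e'.symm y.1, by
    rintro ⟨g, hg⟩
    have := y.2 ⟨φ.e g, ⟨g, hg, rfl⟩⟩
    simp only [MonoidHom.comp_apply, Subgroup.subtype_apply] at this ⊢
    apply φ.e'.injective
    rw [φ.comm_apply, LinearEquiv.apply_symm_apply]
    exact this⟩
  left_inv x := Subtype.ext (φ.e'.symm_apply_apply x.1)
  right_inv y := Subtype.ext (φ.e'.apply_symm_apply y.1)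

/-- passage to the quotient by a normal subgroup -/
def quot (φ : PairIso B B') (N : Subgroup Q) [N.Normal] :
    haveI := φ.normal_map N
    PairIso (B.quotientToInvariants N) (B'.quotientToInvariants (N.map φ.e.toMonoidHom)) :=
  haveI := φ.normal_map N
  { e := QuotientGroup.congr N (N.map φ.e.toMonoidHom) φ.e rfl
    e' := φ.invEquiv N
    comm := by
      intro g
      induction g using QuotientGroup.induction_on with
      | H g =>
        ext x
        exact φ.comm_apply g x.1 }

end PairIso

/-! ### Galois pairs -/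

section Galois

open IntermediateField

variable (K L : Type) [Field K] [Field L] [Algebra K L] [FiniteDimensional K L] [IsGalois K L]

/-- `(S, Res Lˣ) ≅ (Gal(L/L^S), Lˣ)`. -/
def subPair (S : Subgroup (L ≃ₐ[K] L)) :
    PairIso (Rep.res S.subtype (Rep.ofAlgebraAutOnUnits K L))
      (Rep.ofAlgebraAutOnUnits (fixedField S) L) where
  e := subgroupEquivAlgEquiv S
  e' := LinearEquiv.refl ℤ _
  comm _ := rfl

variable {K L}

lemma coe_mem_fixedField_of_invariant (N : Subgroup (L ≃ₐ[K] L))
    (x : Additive Lˣ)
    (hx : ∀ g : N, (Rep.ofAlgebraAutOnUnits K L).ρ (g : L ≃ₐ[K] L) x = x) :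
    ((Additive.toMul x : Lˣ) : L) ∈ fixedField N := by
  intro g
  have := hx g
  have h2 := congrArg (fun y : Additive Lˣ => ((Additive.toMul y : Lˣ) : L)) this
  exact h2

/-- a unit of `L` whose value lies in an intermediate field, as a unit of that field. -/
def unitOfMem (F : IntermediateField K L) (u : Lˣ) (hu : (u : L) ∈ F) : (F)ˣ where
  val := ⟨u, hu⟩
  inv := ⟨((u⁻¹ : Lˣ) : L), by rw [Units.val_inv_eq_inv_val]; exact F.inv_mem hu⟩
  val_inv := Subtype.ext (by simp)
  inv_val := Subtype.ext (by simp)

@[simp] lemma coe_unitOfMem (F : IntermediateField K L) (u : Lˣ) (hu : (u : L) ∈ F) :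
    ((unitOfMem F u hu : (F)ˣ) : L) = u := rfl

/-- the units of `L` fixed by `N` are the units of the fixed field. -/
def invUnitsEquiv (N : Subgroup (L ≃ₐ[K] L)) :
    Representation.invariants ((Rep.ofAlgebraAutOnUnits K L).ρ.comp N.subtype) ≃+
      Additive (fixedField N)ˣ where
  toFun x := Additive.ofMul (unitOfMem (fixedField N) (Additive.toMul x.1)
    (coe_mem_fixedField_of_invariant N x.1 x.2))
  invFun y := ⟨Additive.ofMul (Units.map (fixedField N).val.toMonoidHom (Additive.toMul y)), by
    intro g
    apply Additive.toMul.injective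
    apply Units.ext
    exact (Additive.toMul y : (fixedField N)ˣ).1.2 g⟩
  left_inv x := by
    apply Subtype.ext
    apply Additive.toMul.injective
    apply Units.ext
    rfl
  right_inv y := by
    apply Additive.toMul.injective
    apply Units.ext
    apply Subtype.ext
    rfl
  map_add' x y := by
    apply Additive.toMul.injective
    apply Units.ext
    apply Subtype.ext
    rfl

lemma coe_invUnitsEquiv (N : Subgroup (L ≃ₐ[K] L))
    (x : Representation.invariants ((Rep.ofAlgebraAutOnUnits K L).ρ.comp N.subtype)) :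
    (((Additive.toMul (invUnitsEquiv N x) : (fixedField N)ˣ) : fixedField N) : L) =
      ((Additive.toMul x.1 : Lˣ) : L) := rfl

/-- `(G ⧸ N, (Lˣ)^N) ≅ (Gal(L^N/K), (L^N)ˣ)`. -/
def quotPair (N : Subgroup (L ≃ₐ[K] L)) [N.Normal] :
    PairIso ((Rep.ofAlgebraAutOnUnits K L).quotientToInvariants N)
      (Rep.ofAlgebraAutOnUnits K (fixedField N)) where
  e := IsGalois.normalAutEquivQuotient N
  e' :=
    { (invUnitsEquiv N) with
      map_smul' := fun c x => by
        have := map_intCast_smul (invUnitsEquiv N).toAddMonoidHom ℤ ℤ c x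
        simp only [Int.cast_id] at this
        exact this }
  comm := by
    intro g
    induction g using QuotientGroup.induction_on with
    | H g =>
      ext x
      apply Additive.toMul.injective
      apply Units.ext
      apply Subtype.ext
      change _ = ((IsGalois.normalAutEquivQuotient N (g : (L ≃ₐ[K] L) ⧸ N)) _ : L)
      rw [IsGalois.normalAutEquivQuotient_apply, AlgEquiv.restrictNormalHom_apply]
      rfl

end Galois

end Fermat.Agent.GC.Local.GalPair
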