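/-
GATE-C / C3 (LOCAL) — INV, helper3.  UPPER BOUND of the local class-formation axiom:
for a finite Galois extension `L/K` of `q`-adic fields and EVERY prime `ℓ`, `H¹(Gal(L/K), Lˣ)` is
zero and the `ℓ`-primary part of `H²(Gal(L/K), Lˣ)` is finite of order dividing `ℓ^{v_ℓ([L:K])}`.
Devissage = helper11's `GC/Global/Devissage.lean` applied to the class of "local Galois pairs"
(closed under subgroups and quotients by `GalPair.subPair` / `GalPair.quotPair`).
Inputs kept as hypotheses: `InfRes2 ℤ` (helper1) and the cyclic prime-degree case (HERBRAND).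
-/
import Mathlib
import Fermat.Agent.GC.Local.GalPair
import Fermat.Agent.GC.Global.DevissageInst

set_option autoImplicit false
set_option linter.unusedSectionVars false

open CategoryTheory groupCohomology Rep
open scoped Padic
open Fermat.Agent.GC.Global.Devissage Fermat.Agent.GC.Local.GalPair

noncomputable section

namespace Fermat.Agent.GC.Local.InvUpper

variable (q : ℕ) [Fact q.Prime]

/-- `Good` is invariant under isomorphisms of pairs. -/
lemma good_of_pairIso {Q Q' : Type} [Group Q] [Group Q'] {B : Rep.{0} ℤ Q} {B' : Rep.{0} ℤ Q'}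
    (φ : PairIso B B') (h : Good B') : Good B :=
  Good.of_mulEquiv φ.e φ.e' φ.comm h

/-- the missing tower instance `R → F → L` for an intermediate field `F` of `L/K`. -/
lemma isScalarTower_intermediate {R K L : Type*} [CommSemiring R] [Field K] [Field L]
    [Algebra K L] [Algebra R K] [Algebra R L] [IsScalarTower R K L] (F : IntermediateField K L) :
    IsScalarTower R F L :=
  IsScalarTower.of_algebraMap_eq fun _ => rfl

/-- The class of pairs isomorphic to `(Gal(L/K), Lˣ)` for a finite Galois extension `L/K` of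
finite extensions of `ℚ_q`. -/
def LocClass (Q : Type) [Group Q] (B : Rep.{0} ℤ Q) : Prop :=
  ∃ (K L : Type) (_ : Field K) (_ : Field L) (_ : Algebra ℚ_[q] K) (_ : Algebra ℚ_[q] L)
    (_ : Algebra K L) (_ : IsScalarTower ℚ_[q] K L) (_ : FiniteDimensional ℚ_[q] L)
    (_ : FiniteDimensional K L) (_ : IsGalois K L),
    Nonempty (PairIso B (Rep.ofAlgebraAutOnUnits K L))

theorem isLayerClass_locClass : IsLayerClass (k := ℤ) (LocClass q) where
  res := by
    intro Q _ _ B S hB
    obtain ⟨K, L, _, _, _, _, _, _, _, _, _, ⟨φ⟩⟩ := hB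
    let S' : Subgroup (L ≃ₐ[K] L) := S.map φ.e.toMonoidHom
    have := isScalarTower_intermediate (R := ℚ_[q]) (IntermediateField.fixedField S')
    have : FiniteDimensional ℚ_[q] (IntermediateField.fixedField S') :=
      FiniteDimensional.left ℚ_[q] (IntermediateField.fixedField S') L
    exact ⟨IntermediateField.fixedField S', L, inferInstance, inferInstance, inferInstance,
      inferInstance, inferInstance, inferInstance, inferInstance, inferInstance, inferInstance,
      ⟨(φ.res S).trans (subPair K L S')⟩⟩
  quot := by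
    intro Q _ _ B N _ hB
    obtain ⟨K, L, _, _, _, _, _, _, _, _, _, ⟨φ⟩⟩ := hB
    let N' : Subgroup (L ≃ₐ[K] L) := N.map φ.e.toMonoidHom
    have : N'.Normal := φ.normal_map N
    have := isScalarTower_intermediate (R := ℚ_[q]) (IntermediateField.fixedField N')
    have : FiniteDimensional ℚ_[q] (IntermediateField.fixedField N') :=
      FiniteDimensional.left ℚ_[q] (IntermediateField.fixedField N') L
    exact ⟨K, IntermediateField.fixedField N', inferInstance, inferInstance, inferInstance,
      inferInstance, inferInstance, inferInstance, inferInstance, inferInstance, inferInstance,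
      ⟨(φ.quot N).trans (quotPair N')⟩⟩

/-- The cyclic prime-degree input (HERBRAND norm index + CYC-BRIDGE), as a hypothesis:
for a Galois extension of prime degree of `q`-adic fields, `H²` is finite of order dividing the
degree. -/
def CyclicInput : Prop :=
  ∀ (K L : Type) [Field K] [Field L] [Algebra ℚ_[q] K] [Algebra ℚ_[q] L] [Algebra K L]
    [IsScalarTower ℚ_[q] K L] [FiniteDimensional ℚ_[q] L] [FiniteDimensional K L] [IsGalois K L],
    (Nat.card (L ≃ₐ[K] L)).Prime →
      Finite (H2 (Rep.ofAlgebraAutOnUnits K L)) ∧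
        Nat.card (H2 (Rep.ofAlgebraAutOnUnits K L)) ∣ Nat.card (L ≃ₐ[K] L)

variable {q}

lemma good_of_locClass_of_card_prime (hc : CyclicInput q) {ℓ : ℕ} (hℓ : ℓ.Prime)
    {Q : Type} [Group Q] [Finite Q] (B : Rep.{0} ℤ Q) (hB : LocClass q Q B)
    (hQ : Nat.card Q = ℓ) : Good B := by
  obtain ⟨K, L, _, _, _, _, _, _, _, _, _, ⟨φ⟩⟩ := hB
  refine good_of_pairIso φ ?_
  have hcard : Nat.card (L ≃ₐ[K] L) = ℓ := by
    rw [← hQ]; exact (Nat.card_congr φ.e.toEquiv).symm
  obtain ⟨hfin, hdvd⟩ := hc K L (by rw [hcard]; exact hℓ)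
  refine ⟨?_, hfin, hdvd⟩
  rw [ModuleCat.isZero_iff_subsingleton]
  exact (groupCohomology.H1ofAutOnUnitsUnique K L).instSubsingleton

/-- **Upper bound** (local second inequality), `ℓ`-primary form, for every prime `ℓ`. -/
theorem primaryPart_H2_card_dvd (hIR : InfRes2 ℤ) (hc : CyclicInput q) (ℓ : ℕ) [Fact ℓ.Prime]
    (K L : Type) [Field K] [Field L] [Algebra ℚ_[q] K] [Algebra ℚ_[q] L] [Algebra K L]
    [IsScalarTower ℚ_[q] K L] [FiniteDimensional ℚ_[q] L] [FiniteDimensional K L] [IsGalois K L] :
    Finite (primaryPart ℓ (H2 (Rep.ofAlgebraAutOnUnits K L))) ∧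
      Nat.card (primaryPart ℓ (H2 (Rep.ofAlgebraAutOnUnits K L))) ∣
        ℓ ^ (Module.finrank K L).factorization ℓ := by
  have hB : LocClass q (L ≃ₐ[K] L) (Rep.ofAlgebraAutOnUnits K L) :=
    ⟨K, L, inferInstance, inferInstance, inferInstance, inferInstance, inferInstance,
      inferInstance, inferInstance, inferInstance, inferInstance, ⟨PairIso.refl _⟩⟩
  have := devissage_primary' hIR ℓ (isLayerClass_locClass q)
    (fun B hB hQ => good_of_locClass_of_card_prime hc (Fact.out : ℓ.Prime) B hB hQ)
    (Rep.ofAlgebraAutOnUnits K L) hB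
  rw [IsGalois.card_aut_eq_finrank] at this
  exact this.2

end Fermat.Agent.GC.Local.InvUpper
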