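import Mathlib

/-!
# GATE-C / C3-STRUCT-A (part 2): the unit ball of a finite normed extension of `ℚ_[q]`
as a `ValuationSubring`, in the binder shape of the abstract C3 bricks
(`(O : ValuationSubring E) [IsDiscreteValuationRing O] [Finite (ResidueField O)]
[IsAdicComplete (maximalIdeal O) O]`), Galois stability, and the version for an abstract finite
extension `L` of `ℚ_[q]` (no norm given: the spectral norm is used).
-/

open scoped Padic NNReal Topology
open ValuativeRel Polynomial IntermediateField

namespace Fermat.Agent.GC.Local

section UnitBall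

variable (L : Type*) [NormedField L] [IsUltrametricDist L]

/-- The closed unit ball of an ultrametric normed field, as a valuation subring. -/
noncomputable def unitBallVS : ValuationSubring L :=
  (NormedField.valuation (K := L)).valuationSubring

variable {L}

lemma mem_unitBallVS_iff {x : L} : x ∈ unitBallVS L ↔ ‖x‖ ≤ 1 := by
  rw [unitBallVS, Valuation.mem_valuationSubring_iff, NormedField.valuation_apply,
    ← NNReal.coe_le_coe, coe_nnnorm, NNReal.coe_one]

lemma mem_nonunits_unitBallVS_iff {x : L} : x ∈ (unitBallVS L).nonunits ↔ ‖x‖ < 1 := by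
  rw [ValuationSubring.mem_nonunits_iff_or, mem_unitBallVS_iff]
  rcases eq_or_ne x 0 with rfl | hx
  · simp
  · have h0 : 0 < ‖x‖ := norm_pos_iff.mpr hx
    rw [norm_inv, not_le, one_lt_inv₀ h0]
    simp [hx]

end UnitBall

section Generic

variable (q : ℕ) [Fact q.Prime] (L : Type*) [NormedField L] [NormedAlgebra ℚ_[q] L]
  [IsUltrametricDist L] [FiniteDimensional ℚ_[q] L]

/-- The valuative relation defined by the norm (not an instance: used locally). -/
@[reducible] noncomputable def normValuativeRel (L : Type*) [NormedField L] [IsUltrametricDist L] :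
    ValuativeRel L := .ofValuation (NormedField.valuation (K := L))

lemma normValuativeRel_compatible (L : Type*) [NormedField L] [IsUltrametricDist L] :
    letI := normValuativeRel L
    (NormedField.valuation (K := L)).Compatible := by
  let _ := normValuativeRel L
  exact .ofValuation _

include q in
/-- A normed field which is a finite-dimensional normed algebra over `ℚ_[q]` is a nonarchimedean
local field (for the valuative relation given by its norm). -/
theorem isNonarchimedeanLocalField_of_finiteDimensional :
    @IsNonarchimedeanLocalField L _ (normValuativeRel L) _ := by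
  let _ : ValuativeRel L := normValuativeRel L
  have : (NormedField.valuation (K := L)).Compatible := normValuativeRel_compatible L
  have : ProperSpace L := FiniteDimensional.proper ℚ_[q] L
  have : IsValuativeTopology L :=
    IsValuativeTopology.of_mem_nhds_zero_iff_vle (NormedField.valuation (K := L))
      (fun {s} => (NormedField.toValued (K := L)).is_topological_valuation s)
  have hq : (1 : ℝ) < q := by exact_mod_cast (Fact.out : q.Prime).one_lt
  have hnq : ‖algebraMap ℚ_[q] L (q : ℚ_[q])‖ = (q : ℝ)⁻¹ := by
    rw [norm_algebraMap' L]; exact Padic.norm_p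
  have : IsNontrivial L := by
    refine ⟨ValuativeRel.valuation L (algebraMap ℚ_[q] L (q : ℚ_[q])), ?_, ?_⟩
    · rw [ne_eq, (isEquiv (ValuativeRel.valuation L) (NormedField.valuation (K := L))).eq_zero,
        NormedField.valuation_apply, nnnorm_eq_zero, ← norm_eq_zero, hnq]
      positivity
    · rw [ne_eq,
        (isEquiv (ValuativeRel.valuation L) (NormedField.valuation (K := L))).eq_one_iff_eq_one,
        NormedField.valuation_apply, ← NNReal.coe_inj, coe_nnnorm, hnq, NNReal.coe_one,
        inv_eq_one]
      exact hq.ne'
  exact {}

/-- The unit ball coincides with the ring of integers of the valuative relation. -/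
lemma unitBallVS_toSubring_eq (L : Type*) [NormedField L] [IsUltrametricDist L] :
    (unitBallVS L).toSubring =
      @Valuation.integer L _ _ _ (@ValuativeRel.valuation L _ (normValuativeRel L)) := by
  let _ : ValuativeRel L := normValuativeRel L
  have : (NormedField.valuation (K := L)).Compatible := normValuativeRel_compatible L
  ext x
  rw [ValuationSubring.mem_toSubring, mem_unitBallVS_iff, Valuation.mem_integer_iff]
  have := (isEquiv (ValuativeRel.valuation L) (NormedField.valuation (K := L))) x 1
  rw [map_one, map_one] at this
  rw [this, NormedField.valuation_apply, ← NNReal.coe_le_coe, coe_nnnorm, NNReal.coe_one]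

section Transport

variable {K : Type*} [Field K]

lemma isDiscreteValuationRing_of_subring_eq {S T : Subring K} (h : S = T)
    [IsDiscreteValuationRing T] : IsDiscreteValuationRing S := by
  subst h; infer_instance

lemma finite_residueField_of_subring_eq {S T : Subring K} (h : S = T) [IsLocalRing S]
    [IsLocalRing T] [Finite (IsLocalRing.ResidueField T)] :
    Finite (IsLocalRing.ResidueField S) := by
  subst h; assumption

lemma isAdicComplete_of_subring_eq {S T : Subring K} (h : S = T) [IsLocalRing S]
    [IsLocalRing T] [IsAdicComplete (IsLocalRing.maximalIdeal T) T] :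
    IsAdicComplete (IsLocalRing.maximalIdeal S) S := by
  subst h; assumption

end Transport

include q in
/-- The unit ball of a finite normed extension of `ℚ_[q]` is a discrete valuation ring. -/
theorem unitBallVS_isDiscreteValuationRing : IsDiscreteValuationRing (unitBallVS L) := by
  let _ : ValuativeRel L := normValuativeRel L
  have : IsNonarchimedeanLocalField L := isNonarchimedeanLocalField_of_finiteDimensional q L
  exact isDiscreteValuationRing_of_subring_eq (unitBallVS_toSubring_eq L)

include q in
/-- The residue field of the unit ball of a finite normed extension of `ℚ_[q]` is finite. -/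
theorem unitBallVS_finite_residueField :
    Finite (IsLocalRing.ResidueField (unitBallVS L)) := by
  let _ : ValuativeRel L := normValuativeRel L
  have : IsNonarchimedeanLocalField L := isNonarchimedeanLocalField_of_finiteDimensional q L
  have : IsLocalRing (unitBallVS L).toSubring := inferInstanceAs (IsLocalRing (unitBallVS L))
  exact finite_residueField_of_subring_eq (unitBallVS_toSubring_eq L)

include q in
/-- The unit ball of a finite normed extension of `ℚ_[q]` is adically complete. -/
theorem unitBallVS_isAdicComplete :
    IsAdicComplete (IsLocalRing.maximalIdeal (unitBallVS L)) (unitBallVS L) := by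
  let _ : ValuativeRel L := normValuativeRel L
  have : IsNonarchimedeanLocalField L := isNonarchimedeanLocalField_of_finiteDimensional q L
  let _ : UniformSpace L := inferInstance
  have : IsLocalRing (unitBallVS L).toSubring := inferInstanceAs (IsLocalRing (unitBallVS L))
  exact isAdicComplete_of_subring_eq (unitBallVS_toSubring_eq L)

omit [FiniteDimensional ℚ_[q] L] [IsUltrametricDist L] in
/-- `ℚ_[q]`-algebra automorphisms of a normed algebraic extension are isometries. -/
theorem norm_algEquiv_apply [Algebra.IsAlgebraic ℚ_[q] L] (σ : L ≃ₐ[ℚ_[q]] L) (x : L) :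
    ‖σ x‖ = ‖x‖ := by
  rw [NormedAlgebra.norm_eq_spectralNorm ℚ_[q], NormedAlgebra.norm_eq_spectralNorm ℚ_[q]]
  exact (spectralNorm_eq_of_equiv σ x).symm

omit [FiniteDimensional ℚ_[q] L] [IsUltrametricDist L] in
/-- Automorphisms over an intermediate field are isometries as well. -/
theorem norm_algEquiv_tower_apply [Algebra.IsAlgebraic ℚ_[q] L] (F : Type*) [Field F]
    [Algebra ℚ_[q] F] [Algebra F L] [IsScalarTower ℚ_[q] F L] (σ : L ≃ₐ[F] L) (x : L) :
    ‖σ x‖ = ‖x‖ :=
  norm_algEquiv_apply q L (σ.restrictScalars ℚ_[q]) x

omit [FiniteDimensional ℚ_[q] L] in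
/-- Galois stability of the unit ball (the hypothesis `GalStable` of the abstract C3 bricks). -/
theorem unitBallVS_galStable [Algebra.IsAlgebraic ℚ_[q] L] (F : Type*) [Field F]
    [Algebra ℚ_[q] F] [Algebra F L] [IsScalarTower ℚ_[q] F L] (σ : L ≃ₐ[F] L) (x : L)
    (hx : x ∈ unitBallVS L) : σ x ∈ unitBallVS L := by
  rw [mem_unitBallVS_iff] at hx ⊢
  rwa [norm_algEquiv_tower_apply q L F σ x]

omit [FiniteDimensional ℚ_[q] L] in
/-- The prime `q`, coming from any intermediate field, is a nonzero nonunit of the unit ball
(the hypothesis `BottomNontrivial` of the abstract C3 bricks). -/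
theorem unitBallVS_bottomNontrivial (F : Type*) [Field F]
    [Algebra ℚ_[q] F] [Algebra F L] [IsScalarTower ℚ_[q] F L] :
    ∃ c : F, c ≠ 0 ∧ algebraMap F L c ∈ (unitBallVS L).nonunits := by
  have hq0 : (0 : ℝ) < q := by exact_mod_cast (Fact.out : q.Prime).pos
  have hq : (1 : ℝ) < q := by exact_mod_cast (Fact.out : q.Prime).one_lt
  have hnq : ‖algebraMap ℚ_[q] L (q : ℚ_[q])‖ = (q : ℝ)⁻¹ := by
    rw [norm_algebraMap' L]; exact Padic.norm_p
  refine ⟨algebraMap ℚ_[q] F (q : ℚ_[q]), ?_, ?_⟩
  · intro h
    have : algebraMap ℚ_[q] L (q : ℚ_[q]) = 0 := by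
      rw [IsScalarTower.algebraMap_apply ℚ_[q] F L, h, map_zero]
    rw [this, norm_zero] at hnq
    exact (inv_pos.mpr hq0).ne hnq
  · rw [← IsScalarTower.algebraMap_apply ℚ_[q] F L, mem_nonunits_unitBallVS_iff, hnq]
    exact inv_lt_one_of_one_lt₀ hq

end Generic

section Abstract

variable (q : ℕ) [Fact q.Prime] (L : Type*) [Field L] [Algebra ℚ_[q] L]
  [FiniteDimensional ℚ_[q] L]

/-- The valuation ring of an abstract finite extension `L` of `ℚ_[q]`: the unit ball of the
spectral norm (equivalently, the integral closure of `ℤ_[q]`). -/
noncomputable def padicVS : ValuationSubring L :=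
  letI : NormedField L := spectralNorm.normedField ℚ_[q] L
  haveI : IsUltrametricDist L :=
    IsUltrametricDist.isUltrametricDist_of_forall_norm_add_le_max_norm
      (isNonarchimedean_spectralNorm (K := ℚ_[q]) (L := L))
  unitBallVS L

lemma mem_padicVS_iff {x : L} : x ∈ padicVS q L ↔ spectralNorm ℚ_[q] L x ≤ 1 := by
  let _ : NormedField L := spectralNorm.normedField ℚ_[q] L
  have : IsUltrametricDist L :=
    IsUltrametricDist.isUltrametricDist_of_forall_norm_add_le_max_norm
      (isNonarchimedean_spectralNorm (K := ℚ_[q]) (L := L))
  exact mem_unitBallVS_iff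

lemma mem_nonunits_padicVS_iff {x : L} :
    x ∈ (padicVS q L).nonunits ↔ spectralNorm ℚ_[q] L x < 1 := by
  let _ : NormedField L := spectralNorm.normedField ℚ_[q] L
  have : IsUltrametricDist L :=
    IsUltrametricDist.isUltrametricDist_of_forall_norm_add_le_max_norm
      (isNonarchimedean_spectralNorm (K := ℚ_[q]) (L := L))
  exact mem_nonunits_unitBallVS_iff

theorem padicVS_isDiscreteValuationRing : IsDiscreteValuationRing (padicVS q L) := by
  let _ : NormedField L := spectralNorm.normedField ℚ_[q] L
  have : IsUltrametricDist L :=
    IsUltrametricDist.isUltrametricDist_of_forall_norm_add_le_max_norm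
      (isNonarchimedean_spectralNorm (K := ℚ_[q]) (L := L))
  let _ : NormedAlgebra ℚ_[q] L := spectralNorm.normedAlgebra ℚ_[q] L
  exact unitBallVS_isDiscreteValuationRing q L

theorem padicVS_finite_residueField : Finite (IsLocalRing.ResidueField (padicVS q L)) := by
  let _ : NormedField L := spectralNorm.normedField ℚ_[q] L
  have : IsUltrametricDist L :=
    IsUltrametricDist.isUltrametricDist_of_forall_norm_add_le_max_norm
      (isNonarchimedean_spectralNorm (K := ℚ_[q]) (L := L))
  let _ : NormedAlgebra ℚ_[q] L := spectralNorm.normedAlgebra ℚ_[q] L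
  exact unitBallVS_finite_residueField q L

theorem padicVS_isAdicComplete :
    IsAdicComplete (IsLocalRing.maximalIdeal (padicVS q L)) (padicVS q L) := by
  let _ : NormedField L := spectralNorm.normedField ℚ_[q] L
  have : IsUltrametricDist L :=
    IsUltrametricDist.isUltrametricDist_of_forall_norm_add_le_max_norm
      (isNonarchimedean_spectralNorm (K := ℚ_[q]) (L := L))
  let _ : NormedAlgebra ℚ_[q] L := spectralNorm.normedAlgebra ℚ_[q] L
  exact unitBallVS_isAdicComplete q L

/-- Galois stability: every automorphism of `L` over an intermediate field preserves `padicVS`. -/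
theorem padicVS_galStable (F : Type*) [Field F] [Algebra ℚ_[q] F] [Algebra F L]
    [IsScalarTower ℚ_[q] F L] (σ : L ≃ₐ[F] L) (x : L) (hx : x ∈ padicVS q L) :
    σ x ∈ padicVS q L := by
  rw [mem_padicVS_iff] at hx ⊢
  have h := spectralNorm_eq_of_equiv (σ.restrictScalars ℚ_[q]) x
  rw [AlgEquiv.restrictScalars_apply] at h
  rwa [← h]

/-- `q` (viewed in any intermediate field `F`) is a nonzero nonunit of `padicVS`. -/
theorem padicVS_bottomNontrivial (F : Type*) [Field F] [Algebra ℚ_[q] F] [Algebra F L]
    [IsScalarTower ℚ_[q] F L] :
    ∃ c : F, c ≠ 0 ∧ algebraMap F L c ∈ (padicVS q L).nonunits := by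
  let _ : NormedField L := spectralNorm.normedField ℚ_[q] L
  have : IsUltrametricDist L :=
    IsUltrametricDist.isUltrametricDist_of_forall_norm_add_le_max_norm
      (isNonarchimedean_spectralNorm (K := ℚ_[q]) (L := L))
  let _ : NormedAlgebra ℚ_[q] L := spectralNorm.normedAlgebra ℚ_[q] L
  exact unitBallVS_bottomNontrivial q L F

/-- The valuation ring of the bottom field of a tower is the comap of the one on top. -/
theorem padicVS_comap (F : Type*) [Field F] [Algebra ℚ_[q] F] [Algebra F L]
    [IsScalarTower ℚ_[q] F L] [FiniteDimensional ℚ_[q] F] :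
    (padicVS q L).comap (algebraMap F L) = padicVS q F := by
  ext x
  rw [ValuationSubring.mem_comap, mem_padicVS_iff, mem_padicVS_iff,
    ← spectralNorm.eq_of_tower (K := ℚ_[q]) (E := F) (L := L) x]

end Abstract

section Concrete

variable (q : ℕ) [Fact q.Prime] (E : IntermediateField ℚ_[q] (PadicAlgCl q))
  [FiniteDimensional ℚ_[q] E]

/-- For a concrete finite `E ⊆ PadicAlgCl q` the abstract valuation ring is the unit ball of the
restricted norm. -/
theorem padicVS_eq_unitBallVS : padicVS q E = unitBallVS E := by
  ext x
  rw [mem_padicVS_iff, mem_unitBallVS_iff,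
    spectralNorm.eq_of_tower (K := ℚ_[q]) (E := E) (L := PadicAlgCl q) x]
  rfl

end Concrete

end Fermat.Agent.GC.Local
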