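/-
GATE-C / C3 (helper26): (COR-INJ) — corestriction `Hlc²(G_E, Ωˣ) → Hlc²(G_K, Ωˣ)` is INJECTIVE,
WITHOUT any compatibility of `HlcCor` with the finite-level corestriction.

* `coindTrace_naturality`, `HlcMap_comp_HlcCor` : naturality of `HlcCor` in the coefficients;
* `HlcCor_injective_of_layers` : ABSTRACT criterion.  If every class `x ∈ Hlcⁿ(S, Res A)` lies in
  the image of a "layer" `iS : HS → Hlcⁿ(S, Res A)` sitting in a commutative square
  `HlcResS ∘ iG = iS ∘ r` with `iG : HG → Hlcⁿ(G, A)` INJECTIVE, `r : HG → HS` surjective and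
  killing the `[G:S]`-torsion, then `HlcCor` is injective (only `cor ∘ res = [G:S]` is used);
* finite level: for a finite group `G`, `C : Rep ℤ G`, `H ≤ G`, a class `u ∈ H²(G, C)` of exact
  order `|G| = |H²(G,C)|`, `|H²(H,C)| = |H|` and `res u` generating `H²(H, C)`:
  `res` is surjective and kills the `[G:H]`-torsion of `H²(G, C)`;
* the `q`-adic instance (UNCONDITIONAL, from `Unram/LocalCFT.lean`).
-/
import Mathlib
import Fermat.Agent.GC.Prof.Cor
import Fermat.Agent.GC.Local.Unram.LocalCFT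

set_option autoImplicit false

open CategoryTheory groupCohomology

noncomputable section

namespace Fermat.Agent.GC.Local.CorInj

open Fermat.Agent.GC.Prof Fermat.Agent.GC.Tate

universe u v

/-! ### Naturality of `HlcCor` in the coefficients -/

section Naturality

variable {k G : Type u} [CommRing k] [Group G] {𝒰 : LevelSystem G} {S : Subgroup G}
  [S.FiniteIndex]

/-- the trace `Coind_S^G Res_S A ⟶ A` is natural in `A` -/
theorem coindTrace_naturality {A B : Rep.{u} k G} (φ : A ⟶ B) :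
    Rep.coindMap S.subtype ((Rep.resFunctor S.subtype).map φ) ≫ coindTrace S B =
      coindTrace S A ≫ φ := by
  ext f
  change (coindTrace S B).hom ((Rep.coindMap S.subtype ((Rep.resFunctor S.subtype).map φ)).hom f) =
    φ.hom ((coindTrace S A).hom f)
  rw [coindTrace_hom_apply, coindTrace_hom_apply, map_sum]
  refine Finset.sum_congr rfl fun q _ => ?_
  unfold twistFun
  exact (Rep.hom_comm_apply φ _ _).symm

variable {A B : Rep.{u} k G} [IsDiscrete 𝒰 A] [IsDiscrete 𝒰 B]
  [IsDiscrete (𝒰.comap S.subtype) (Rep.res S.subtype A)]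
  [IsDiscrete (𝒰.comap S.subtype) (Rep.res S.subtype B)]
  [IsDiscrete 𝒰 (Rep.coind S.subtype (Rep.res S.subtype A))]
  [IsDiscrete 𝒰 (Rep.coind S.subtype (Rep.res S.subtype B))]
  (hS : IsOpenSub 𝒰 S)

/-- **naturality of the corestriction in the coefficients** -/
theorem HlcMap_comp_HlcCor (φ : A ⟶ B) (n : ℕ) :
    HlcMap (𝒰.comap S.subtype) ((Rep.resFunctor S.subtype).map φ) n ≫ HlcCor B hS n =
      HlcCor A hS n ≫ HlcMap 𝒰 φ n := by
  unfold HlcCor
  have h1 := HlcShapiro_naturality (𝒰 := 𝒰) (S := S) ((Rep.resFunctor S.subtype).map φ) n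
  rw [← HlcShapiroIso_hom hS, ← HlcShapiroIso_hom hS] at h1
  have h2 : HlcMap (𝒰.comap S.subtype) ((Rep.resFunctor S.subtype).map φ) n ≫
      (HlcShapiroIso hS n (Rep.res S.subtype B)).inv =
      (HlcShapiroIso hS n (Rep.res S.subtype A)).inv ≫
        HlcMap 𝒰 (Rep.coindMap S.subtype ((Rep.resFunctor S.subtype).map φ)) n := by
    rw [Iso.comp_inv_eq, Category.assoc, h1, Iso.inv_hom_id_assoc]
  rw [← Category.assoc, h2, Category.assoc, Category.assoc, ← HlcMap_comp, ← HlcMap_comp,
    coindTrace_naturality]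

theorem HlcCor_HlcMap_apply (φ : A ⟶ B) (n : ℕ)
    (x : Hlc (𝒰.comap S.subtype) (Rep.res S.subtype A) n) :
    HlcCor B hS n (HlcMap (𝒰.comap S.subtype) ((Rep.resFunctor S.subtype).map φ) n x) =
      HlcMap 𝒰 φ n (HlcCor A hS n x) := by
  have := congr($(HlcMap_comp_HlcCor hS φ n) x)
  simpa using this

end Naturality

/-! ### The abstract criterion -/

section Abstract

variable {k G : Type u} [CommRing k] [Group G] {𝒰 : LevelSystem G} {S : Subgroup G}
  (A : Rep.{u} k G) [IsDiscrete 𝒰 A]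
  [IsDiscrete (𝒰.comap S.subtype) (Rep.res S.subtype A)]
  [IsDiscrete 𝒰 (Rep.coind S.subtype (Rep.res S.subtype A))]
  (hS : IsOpenSub 𝒰 S) [S.FiniteIndex]

/-- **(COR-INJ), abstract form.**  If every class of `Hlcⁿ(S, Res A)` comes from a layer
`iS : HS → Hlcⁿ(S, Res A)` in a square `res ∘ iG = iS ∘ r` with `iG` injective, `r` surjective and
killing the `[G:S]`-torsion, then the corestriction is injective. -/
theorem HlcCor_injective_of_layers (n : ℕ)
    (h : ∀ x : Hlc (𝒰.comap S.subtype) (Rep.res S.subtype A) n,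
      ∃ (HG HS : Type v) (_ : AddCommGroup HG) (_ : AddCommGroup HS)
        (iG : HG →+ Hlc 𝒰 A n)
        (iS : HS →+ Hlc (𝒰.comap S.subtype) (Rep.res S.subtype A) n) (r : HG →+ HS),
        Function.Injective iG ∧ (∀ z, HlcResS (S := S) A n (iG z) = iS (r z)) ∧
        (∃ y, iS y = x) ∧ Function.Surjective r ∧ ∀ z : HG, S.index • z = 0 → r z = 0) :
    Function.Injective (HlcCor A hS n) := by
  rw [injective_iff_map_eq_zero]
  intro x hx
  obtain ⟨HG, HS, _, _, iG, iS, r, hinj, hcomm, ⟨y, rfl⟩, hsurj, htors⟩ := h x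
  obtain ⟨z, rfl⟩ := hsurj y
  rw [← hcomm, HlcCor_HlcResS_apply] at hx
  have h1 : iG (S.index • z) = 0 := by rw [map_nsmul]; exact hx
  have hz : S.index • z = 0 := hinj (h1.trans (map_zero iG).symm)
  rw [htors z hz, map_zero]

end Abstract

/-! ### Finite level -/

section Finite

variable {G : Type} [Group G] [Finite G] (C : Rep ℤ G) (H : Subgroup G) (u : H2 C)

omit [Finite G] in
/-- `res` is surjective on `H²` when `res u` generates -/
theorem resH2_surjective
    (hgen : ∀ x : H2 (resSub C H), ∃ n : ℤ, x = n • (resH2 C H).hom u) :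
    Function.Surjective (resH2 C H).hom := by
  intro x
  obtain ⟨n, rfl⟩ := hgen x
  exact ⟨n • u, map_zsmul _ _ _⟩

/-- `res` kills the `[G:H]`-torsion of `H²(G, C)`, for a "class formation layer" -/
theorem resH2_eq_zero_of_index_nsmul (hu : ∀ j : ℕ, j • u = 0 → Nat.card G ∣ j)
    (hG : Nat.card (H2 C) = Nat.card G) (hH : Nat.card (H2 (resSub C H)) = Nat.card H)
    (z : H2 C) (hz : H.index • z = 0) : (resH2 C H).hom z = 0 := by
  have hfin : Finite (H2 C) := Nat.finite_of_card_ne_zero (by rw [hG]; exact Nat.card_pos.ne')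
  have hfinH : Finite (H2 (resSub C H)) :=
    Nat.finite_of_card_ne_zero (by rw [hH]; exact Nat.card_pos.ne')
  -- `u` generates
  have hord : addOrderOf u = Nat.card G := by
    refine Nat.dvd_antisymm ?_ (hu _ (addOrderOf_nsmul_eq_zero u))
    rw [← hG]; exact addOrderOf_dvd_natCard u
  have htop : AddSubgroup.zmultiples u = ⊤ := by
    apply AddSubgroup.eq_top_of_card_eq
    rw [Nat.card_zmultiples, hord, hG]
  have hmem : z ∈ AddSubgroup.zmultiples u := by rw [htop]; trivial
  obtain ⟨m, rfl⟩ := AddSubgroup.mem_zmultiples_iff.1 hmem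
  -- `|G| ∣ [G:H] * m`
  have h1 : ((H.index : ℤ) * m) • u = 0 := by
    rw [mul_smul, natCast_zsmul]; exact hz
  have h2 : (addOrderOf u : ℤ) ∣ (H.index : ℤ) * m := addOrderOf_dvd_iff_zsmul_eq_zero.2 h1
  rw [hord, ← H.card_mul_index, Nat.cast_mul, mul_comm (Nat.card H : ℤ)] at h2
  have hidx : (H.index : ℤ) ≠ 0 := by
    exact_mod_cast (Nat.pos_of_ne_zero Subgroup.FiniteIndex.index_ne_zero).ne'
  have h3 : (Nat.card H : ℤ) ∣ m := (mul_dvd_mul_iff_left hidx).1 h2
  obtain ⟨t, rfl⟩ := h3
  rw [map_zsmul, mul_comm, mul_smul, natCast_zsmul, ← hH, card_nsmul_eq_zero']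
  exact zsmul_zero t

end Finite

/-! ### The `q`-adic instance -/

section Padic

open scoped Padic

variable (q : ℕ) [Fact q.Prime] (K N : Type) [Field K] [Field N]
  [Algebra ℚ_[q] K] [Algebra ℚ_[q] N] [Algebra K N] [IsScalarTower ℚ_[q] K N]
  [FiniteDimensional ℚ_[q] N] [FiniteDimensional K N] [IsGalois K N]
  (H : Subgroup (N ≃ₐ[K] N))

include q

/-- restriction `H²(Gal(N/K), Nˣ) → H²(H, Nˣ)` is surjective, for every subgroup `H` -/
theorem local_resH2_surjective :
    Function.Surjective (resH2 (Rep.ofAlgebraAutOnUnits K N) H).hom := by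
  obtain ⟨u, hu⟩ := Unram.local_exists_fundamental q K N
  exact resH2_surjective _ H u
    (ClassModuleLocal.res_fundamental_generates q (Unram.lowerDataAll q) K N u hu H)

/-- restriction kills the `[Gal(N/K):H]`-torsion of `H²(Gal(N/K), Nˣ)` -/
theorem local_resH2_eq_zero_of_index_nsmul (z : H2 (Rep.ofAlgebraAutOnUnits K N))
    (hz : H.index • z = 0) : (resH2 (Rep.ofAlgebraAutOnUnits K N) H).hom z = 0 := by
  obtain ⟨u, hu⟩ := Unram.local_exists_fundamental q K N
  refine resH2_eq_zero_of_index_nsmul _ H u ?_ ?_ (Unram.local_card_H2_res q K N H) z hz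
  · rw [IsGalois.card_aut_eq_finrank]; exact hu
  · rw [IsGalois.card_aut_eq_finrank]; exact Unram.local_card_H2_eq_finrank q K N

end Padic

end Fermat.Agent.GC.Local.CorInj
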