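/-
GATE-C / C3 (COR-INJ), abstract part (helper21).

For a Galois extension `Ω/K`, an open subgroup `S ≤ Gal(Ω/K)` and the multiplicative module `Ωˣ`:
the corestriction `HlcCor : Hlc²(S, Ωˣ) → Hlc²(Gal(Ω/K), Ωˣ)` (helper20, `Prof/Cor.lean`) is
INJECTIVE as soon as, at every finite Galois level `N/K` deep enough, the finite-level restriction
`H²(Gal(N/K), Nˣ) → H²(V, Nˣ)` (`V` = image of `S`) is surjective and kills the `[G:S]`-torsion.
No corestriction at finite level, no Shapiro, no trace: only `cor ∘ res = [G:S]` and the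
compatibility of RESTRICTION with inflation, which is an identity of cochains.
-/
import Mathlib
import Fermat.Agent.GC.Prof.Cor
import Fermat.Agent.GC.Local.Abs.BrauerTrans

set_option autoImplicit false

open CategoryTheory IntermediateField groupCohomology

noncomputable section

namespace Fermat.Agent.GC.Local.CorInj

open Fermat.Agent.GC.Prof Fermat.Agent.GC.Prof.Elt Fermat.Agent.GC.Local.Abs

/-! ### Pure algebra -/

/-- `cor ∘ res = n`, `res` surjective, and `res` kills the `n`-torsion: then `cor` is injective. -/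
theorem injective_of_cor_res {B B' : Type*} [AddCommGroup B] [AddCommGroup B']
    (res : B →+ B') (cor : B' →+ B) (n : ℕ) (hcr : ∀ x, cor (res x) = n • x)
    (hsurj : Function.Surjective res) (hker : ∀ x, n • x = 0 → res x = 0) :
    Function.Injective cor := by
  rw [injective_iff_map_eq_zero]
  intro x' hx'
  obtain ⟨x, rfl⟩ := hsurj x'
  exact hker x (by rw [← hcr, hx'])

/-- A cyclic group generated by `u` of order `m * i`, mapped to a group killed by `m`:
the `i`-torsion dies. -/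
theorem map_eq_zero_of_nsmul_eq_zero {A A' : Type*} [AddCommGroup A] [AddCommGroup A']
    (r : A →+ A') (u : A) (hgen : ∀ y : A, ∃ j : ℤ, y = j • u) (m i : ℕ) (hi : i ≠ 0)
    (hu : addOrderOf u = m * i) (hA' : ∀ z : A', m • z = 0) (y : A) (hy : i • y = 0) :
    r y = 0 := by
  obtain ⟨j, rfl⟩ := hgen y
  have h1 : ((i : ℤ) * j) • u = 0 := by
    rw [mul_smul, natCast_zsmul]
    exact hy
  have h2 : ((m * i : ℕ) : ℤ) ∣ (i : ℤ) * j := by
    rw [← hu]
    exact (addOrderOf_dvd_iff_zsmul_eq_zero).2 h1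
  have h3 : (m : ℤ) ∣ j := by
    have : (i : ℤ) * (m : ℤ) ∣ (i : ℤ) * j := by
      rw [mul_comm (i : ℤ) (m : ℤ)]
      exact_mod_cast h2
    exact (mul_dvd_mul_iff_left (by exact_mod_cast hi)).1 this
  obtain ⟨t, rfl⟩ := h3
  rw [map_zsmul, mul_comm, mul_smul, natCast_zsmul, hA', smul_zero]

/-! ### Inflation from a finite level to the open subgroup `S` -/

section Glue

variable (K : Type) (Ω : Type) [Field K] [Field Ω] [Algebra K Ω]
  (S : Subgroup (Ω ≃ₐ[K] Ω)) (N : IntermediateField K Ω) [Normal K N]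

/-- the image of `S` in `Gal(N/K)` -/
abbrev imS : Subgroup (N ≃ₐ[K] N) := S.map (resN K N Ω)

/-- restriction `S → V` -/
def resNS : S →* imS K Ω S N := (resN K N Ω).subgroupMap S

lemma resNS_surjective : Function.Surjective (resNS K Ω S N) :=
  MonoidHom.subgroupMap_surjective _ _

lemma coe_resNS (s : S) : ((resNS K Ω S N s : imS K Ω S N) : N ≃ₐ[K] N) = resN K N Ω s := rfl

/-- `Ωˣ` as an `S`-module -/
abbrev unitsS : Rep ℤ S := Rep.res S.subtype (unitsRep K Ω)

/-- `Nˣ` as a `V`-module -/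
abbrev unitsV : Rep ℤ (imS K Ω S N) :=
  Rep.res (imS K Ω S N).subtype (Rep.ofAlgebraAutOnUnits K N)

/-- the inclusion `Nˣ → Ωˣ`, equivariant along `S → V` -/
def unitsInclS : Rep.res (resNS K Ω S N) (unitsV K Ω S N) ⟶ unitsS K Ω S :=
  Rep.ofHom ⟨(unitsIncl K N Ω).hom.toLinearMap, fun s => (unitsIncl K N Ω).hom.2 (s : Ω ≃ₐ[K] Ω)⟩

lemma unitsInclS_apply (x : Additive Nˣ) :
    (unitsInclS K Ω S N).hom x = (unitsIncl K N Ω).hom x := rfl

/-- inflation of cochains `Cⁿ(V, Nˣ) → Cⁿ(S, Ωˣ)` -/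
abbrev inflSUChain : inhomogeneousCochains (unitsV K Ω S N) ⟶
    inhomogeneousCochains (unitsS K Ω S) :=
  cochainsMap (resNS K Ω S N) (unitsInclS K Ω S N)

lemma inflSUChain_f_apply (n : ℕ) (f : (Fin n → imS K Ω S N) → unitsV K Ω S N)
    (g : Fin n → S) :
    ((inflSUChain K Ω S N).f n f : (Fin n → S) → unitsS K Ω S) g =
      (unitsIncl K N Ω).hom (f fun i => resNS K Ω S N (g i)) := rfl

variable [IsGalois K Ω] [FiniteDimensional K N]

/-- the level system on `S` -/
abbrev levS : LevelSystem S := (galLevels K Ω).comap S.subtype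

instance isDiscrete_unitsS : IsDiscrete (levS K Ω S) (unitsS K Ω S) :=
  IsDiscrete.res (isContHom_comap S.subtype (galLevels K Ω)) (unitsRep K Ω)

omit [FiniteDimensional K N] [IsGalois K Ω] in
lemma resNS_mul_of_mem (g s : S) (hs : s ∈ (N.fixingSubgroup).comap S.subtype) :
    resNS K Ω S N (g * s) = resNS K Ω S N g := by
  have h : resN K N Ω (s : Ω ≃ₐ[K] Ω) = 1 := (mem_fixingSubgroup_iff_resN N).1 hs
  apply Subtype.ext
  rw [coe_resNS, coe_resNS, Subgroup.coe_mul, map_mul, h, mul_one]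

lemma isLC_inflSUChain (n : ℕ) (f : (Fin n → imS K Ω S N) → unitsV K Ω S N) :
    IsLC (levS K Ω S)
      ((inflSUChain K Ω S N).f n f : (Fin n → S) → unitsS K Ω S) := by
  refine ⟨(N.fixingSubgroup).comap S.subtype,
    ⟨_, fixingSubgroup_mem_galLevels N, rfl⟩, fun g s hs => ?_⟩
  rw [inflSUChain_f_apply, inflSUChain_f_apply]
  congr 2
  funext i
  exact resNS_mul_of_mem K Ω S N (g i) (s i) (hs i)

/-- inflation, as a linear map into level-constant cochains on `S` -/
def inflSLin (n : ℕ) : ((Fin n → imS K Ω S N) → unitsV K Ω S N) →ₗ[ℤ]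
    lcSub (levS K Ω S) (unitsS K Ω S) n :=
  ((inflSUChain K Ω S N).f n).hom.codRestrict (lcSub (levS K Ω S) (unitsS K Ω S) n)
    (isLC_inflSUChain K Ω S N n)

lemma inflSLin_coe (n : ℕ) (f : (Fin n → imS K Ω S N) → unitsV K Ω S N) :
    ((inflSLin K Ω S N n f : lcSub (levS K Ω S) (unitsS K Ω S) n) :
      (Fin n → S) → unitsS K Ω S) = (inflSUChain K Ω S N).f n f := rfl

/-- inflation as a chain map into the level-constant cochains on `S` -/
def inflSChain : inhomogeneousCochains (unitsV K Ω S N) ⟶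
    lcCochains (levS K Ω S) (unitsS K Ω S) :=
  CochainComplex.ofHom (fun n => ModuleCat.ofHom (inflSLin K Ω S N n)) fun n => by
    ext f : 2
    simp only [lcCochains, CochainComplex.of_d]
    apply Subtype.ext
    have := congr($((inflSUChain K Ω S N).comm n (n + 1)) f)
    simp only [CochainComplex.of_d, ModuleCat.hom_comp, LinearMap.comp_apply] at this
    exact this

@[simp]
lemma inflSChain_f (n : ℕ) :
    (inflSChain K Ω S N).f n = ModuleCat.ofHom (inflSLin K Ω S N n) := rfl

/-- **inflation** `Hⁿ(V, Nˣ) ⟶ Hlcⁿ(S, Ωˣ)` -/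
def inflS (n : ℕ) : groupCohomology (unitsV K Ω S N) n ⟶ Hlc (levS K Ω S) (unitsS K Ω S) n :=
  HomologicalComplex.homologyMap (inflSChain K Ω S N) n

/-- restriction of cochains from `Gal(N/K)` to `V` -/
abbrev resVChain : inhomogeneousCochains (Rep.ofAlgebraAutOnUnits K N) ⟶
    inhomogeneousCochains (unitsV K Ω S N) :=
  cochainsMap (imS K Ω S N).subtype (𝟙 _)

/-- **restriction commutes with inflation**, on cochains -/
theorem resVChain_comp_inflSChain :
    resVChain K Ω S N ≫ inflSChain K Ω S N =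
      inflBrChain K N Ω ≫ lcPull (isContHom_comap S.subtype (galLevels K Ω)) (𝟙 (unitsS K Ω S)) := by
  ext n f : 3
  rfl

/-- **restriction commutes with inflation**, on cohomology -/
theorem res_comp_inflS (n : ℕ) :
    groupCohomology.map (imS K Ω S N).subtype (𝟙 (unitsV K Ω S N)) n ≫ inflS K Ω S N n =
      inflBr K N Ω n ≫ HlcResS (S := S) (unitsRep K Ω) n := by
  have h1 := HomologicalComplex.homologyMap_comp (resVChain K Ω S N) (inflSChain K Ω S N) n
  have h2 := HomologicalComplex.homologyMap_comp (inflBrChain K N Ω)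
    (lcPull (isContHom_comap S.subtype (galLevels K Ω)) (𝟙 (unitsS K Ω S))) n
  rw [resVChain_comp_inflSChain] at h1
  exact h1.symm.trans h2


/-! ### Every class on `S` comes from a finite level -/

omit [FiniteDimensional K N] [IsGalois K Ω] in
lemma inflSLin_injective' (n : ℕ) (f f' : (Fin n → imS K Ω S N) → unitsV K Ω S N)
    (h : ∀ g : Fin n → S, (unitsIncl K N Ω).hom (f fun i => resNS K Ω S N (g i)) =
      (unitsIncl K N Ω).hom (f' fun i => resNS K Ω S N (g i))) : f = f' := by
  funext σ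
  obtain ⟨g, hg⟩ : ∃ g : Fin n → S, ∀ i, resNS K Ω S N (g i) = σ i :=
    ⟨fun i => (resNS_surjective K Ω S N (σ i)).choose,
      fun i => (resNS_surjective K Ω S N (σ i)).choose_spec⟩
  have h1 := h g
  have h2 : (fun i => resNS K Ω S N (g i)) = σ := funext hg
  rw [h2] at h1
  exact unitsIncl_injective K N Ω h1

lemma inflSLin_injective (n : ℕ) : Function.Injective (inflSLin K Ω S N n) := by
  intro f f' h
  refine inflSLin_injective' K Ω S N n f f' fun g => ?_
  have h1 := congrFun (congrArg Subtype.val h) g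
  rw [inflSLin_coe, inflSLin_coe, inflSUChain_f_apply, inflSUChain_f_apply] at h1
  exact h1

end Glue

section Surj

variable {K : Type} {Ω : Type} [Field K] [Field Ω] [Algebra K Ω] [IsGalois K Ω]
  {S : Subgroup (Ω ≃ₐ[K] Ω)}

/-- cochain level: every level-constant cochain on `S` with values in `Ωˣ` is inflated from a
finite Galois level `N` with `Gal(Ω/N) ≤ S`. -/
theorem exists_eq_inflSLin (hS : IsOpenSub (galLevels K Ω) S) {n : ℕ}
    (f : lcSub (levS K Ω S) (unitsS K Ω S) n) :
    ∃ (N : IntermediateField K Ω) (_ : FiniteDimensional K N) (_ : IsGalois K N),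
      N.fixingSubgroup ≤ S ∧
      ∃ fbar : (Fin n → imS K Ω S N) → unitsV K Ω S N, inflSLin K Ω S N n fbar = f := by
  classical
  obtain ⟨W, hW, hWn, -, hlev, hfix⟩ := IsLC.exists_level (unitsS K Ω S) f.2
  obtain ⟨U, hU, rfl⟩ := hW
  obtain ⟨U₀, hU₀, hU₀S⟩ := hS
  obtain ⟨U₁, hU₁, hle⟩ := (galLevels K Ω).directed U hU U₀ hU₀
  obtain ⟨N, hfd, hgal, hNle⟩ := exists_isGalois_le hU₁
  have hNU : N.fixingSubgroup ≤ U := hNle.trans (hle.trans inf_le_left)
  have hNS : N.fixingSubgroup ≤ S := hNle.trans (hle.trans (inf_le_right.trans hU₀S))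
  refine ⟨N, hfd, hgal, hNS, ?_⟩
  -- values lie in `N`
  have hval : ∀ g, ((Additive.toMul ((f : (Fin n → S) → unitsS K Ω S) g) : Ωˣ) : Ω) ∈ N := by
    intro g
    rw [← InfiniteGalois.fixedField_fixingSubgroup N, IntermediateField.mem_fixedField_iff]
    intro s hs
    have := hfix ⟨s, hNS hs⟩ (hNU hs) g
    have h2 := congrArg (fun z : Additive Ωˣ => ((Additive.toMul z : Ωˣ) : Ω)) this
    exact h2
  let lift : (Fin n → imS K Ω S N) → (Fin n → S) :=
    fun σ i => (resNS_surjective K Ω S N (σ i)).choose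
  have hlift : ∀ σ i, resNS K Ω S N (lift σ i) = σ i :=
    fun σ i => (resNS_surjective K Ω S N (σ i)).choose_spec
  let fbar : (Fin n → imS K Ω S N) → unitsV K Ω S N := fun σ =>
    Additive.ofMul (Units.mk0 ⟨_, hval (lift σ)⟩ (by
      intro h
      exact (Additive.toMul ((f : (Fin n → S) → unitsS K Ω S) (lift σ))).ne_zero
        (congrArg Subtype.val h)))
  refine ⟨fbar, ?_⟩
  apply Subtype.ext
  funext g
  rw [inflSLin_coe, inflSUChain_f_apply]
  have h1 : (unitsIncl K N Ω).hom (fbar fun i => resNS K Ω S N (g i)) =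
      (f : (Fin n → S) → unitsS K Ω S) (lift fun i => resNS K Ω S N (g i)) := by
    apply Additive.toMul.injective
    apply Units.ext
    rfl
  rw [h1]
  have h2 : g = (lift fun i => resNS K Ω S N (g i)) *
      fun i => ((lift fun i => resNS K Ω S N (g i)) i)⁻¹ * g i := by
    funext i
    simp
  conv_rhs => rw [h2]
  refine (hlev _ _ fun i => ?_).symm
  show ((((lift fun i => resNS K Ω S N (g i)) i)⁻¹ * g i : S) : Ω ≃ₐ[K] Ω) ∈ U
  apply hNU
  have hl := hlift (fun i => resNS K Ω S N (g i)) i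
  rw [mem_fixingSubgroup_iff_resN, ← coe_resNS, map_mul, map_inv, hl, inv_mul_cancel]
  rfl

/-- **every class of `Hlcⁿ(S, Ωˣ)` is inflated from a finite Galois level `N`, `Gal(Ω/N) ≤ S`.** -/
theorem exists_inflS_eq (hS : IsOpenSub (galLevels K Ω) S) {n : ℕ}
    (x : Hlc (levS K Ω S) (unitsS K Ω S) n) :
    ∃ (N : IntermediateField K Ω) (_ : FiniteDimensional K N) (_ : IsGalois K N),
      N.fixingSubgroup ≤ S ∧
      ∃ y : groupCohomology (unitsV K Ω S N) n, inflS K Ω S N n y = x := by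
  obtain ⟨z, rfl⟩ := hMk_surjective (lcCochains (levS K Ω S) (unitsS K Ω S)) n x
  have hz : lcD (levS K Ω S) (unitsS K Ω S) n z.1 = 0 := by
    have := z.2
    rw [mem_zSub_iff, lcCochains_d] at this
    exact this
  obtain ⟨N, hfd, hgal, hNS, fbar, hf⟩ := exists_eq_inflSLin (K := K) (Ω := Ω) hS
    (show lcSub (levS K Ω S) (unitsS K Ω S) n from z.1)
  refine ⟨N, hfd, hgal, hNS, ?_⟩
  have hcoc : fbar ∈ zSub (inhomogeneousCochains (unitsV K Ω S N)) n := by
    rw [mem_zSub_iff]
    apply inflSLin_injective K Ω S N (n + 1)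
    have hcomm := congr($((inflSChain K Ω S N).comm n (n + 1)) fbar)
    rw [lcCochains_d] at hcomm
    simp only [inflSChain_f] at hcomm
    rw [map_zero]
    refine hcomm.symm.trans ?_
    show lcD (levS K Ω S) (unitsS K Ω S) n (inflSLin K Ω S N n fbar) = 0
    rw [hf]
    exact hz
  refine ⟨hMk _ n ⟨fbar, hcoc⟩, ?_⟩
  refine (homologyMap_hMk (inflSChain K Ω S N) n ⟨fbar, hcoc⟩).trans ?_
  congr 1
  apply Subtype.ext
  exact hf

end Surj

/-! ### The main theorem -/

section Main

variable {K : Type} {Ω : Type} [Field K] [Field Ω] [Algebra K Ω] [IsGalois K Ω]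
  {S : Subgroup (Ω ≃ₐ[K] Ω)}

variable (S) in
/-- The finite-level input at a finite Galois level `N/K`: the restriction
`H²(Gal(N/K), Nˣ) → H²(V, Nˣ)` (`V` = image of `S`) is surjective and kills the `[G:S]`-torsion. -/
def FiniteLevelHyp (N : IntermediateField K Ω) [Normal K N] : Prop :=
  Function.Surjective (groupCohomology.map (imS K Ω S N).subtype (𝟙 (unitsV K Ω S N)) 2) ∧
    ∀ y : groupCohomology (Rep.ofAlgebraAutOnUnits K N) 2, S.index • y = 0 →
      groupCohomology.map (imS K Ω S N).subtype (𝟙 (unitsV K Ω S N)) 2 y = 0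

/-- (b) restriction to an open subgroup is SURJECTIVE on `Hlc²(-, Ωˣ)`. -/
theorem HlcResS_two_surjective (hS : IsOpenSub (galLevels K Ω) S)
    (hFL : ∀ (N : IntermediateField K Ω) [FiniteDimensional K N] [IsGalois K N],
      N.fixingSubgroup ≤ S → FiniteLevelHyp S N) :
    Function.Surjective (HlcResS (S := S) (𝒰 := galLevels K Ω) (unitsRep K Ω) 2) := by
  intro x'
  obtain ⟨N, hfd, hgal, hNS, y', rfl⟩ := exists_inflS_eq hS x'
  obtain ⟨y, rfl⟩ := (hFL N hNS).1 y'
  refine ⟨inflBr K N Ω 2 y, ?_⟩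
  exact (congr($(res_comp_inflS K Ω S N 2) y)).symm

/-- (c) restriction to an open subgroup kills the `[G:S]`-torsion of `Hlc²(-, Ωˣ)`. -/
theorem HlcResS_two_eq_zero_of_index_nsmul (hS : IsOpenSub (galLevels K Ω) S)
    (hFL : ∀ (N : IntermediateField K Ω) [FiniteDimensional K N] [IsGalois K N],
      N.fixingSubgroup ≤ S → FiniteLevelHyp S N)
    (x : Hlc (galLevels K Ω) (unitsRep K Ω) 2) (hx : S.index • x = 0) :
    HlcResS (S := S) (𝒰 := galLevels K Ω) (unitsRep K Ω) 2 x = 0 := by
  obtain ⟨U₀, ⟨E₀, hE₀, rfl⟩, hU₀S⟩ := hS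
  obtain ⟨N, hfd, hgal, hle, y, rfl⟩ := exists_inflBr_eq x E₀
  have hNS : N.fixingSubgroup ≤ S :=
    (IntermediateField.fixingSubgroup_antitone hle).trans hU₀S
  have hy : S.index • y = 0 := by
    apply inflBr_two_eq_zero K N Ω
    rw [map_nsmul]
    exact hx
  have h0 := (hFL N hNS).2 y hy
  have := congr($(res_comp_inflS K Ω S N 2) y)
  rw [ModuleCat.comp_apply, ModuleCat.comp_apply, h0, map_zero] at this
  exact this.symm

/-- **(COR-INJ), abstract form**: corestriction from an open subgroup is injective on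
`Hlc²(-, Ωˣ)`, given the finite-level inputs. -/
theorem HlcCor_two_injective_of_finiteLevel (hS : IsOpenSub (galLevels K Ω) S) [S.FiniteIndex]
    [IsDiscrete (galLevels K Ω) (Rep.coind S.subtype (unitsS K Ω S))]
    (hFL : ∀ (N : IntermediateField K Ω) [FiniteDimensional K N] [IsGalois K N],
      N.fixingSubgroup ≤ S → FiniteLevelHyp S N) :
    Function.Injective (HlcCor (unitsRep K Ω) hS 2) := by
  rw [injective_iff_map_eq_zero]
  intro x' hx'
  obtain ⟨x, rfl⟩ := HlcResS_two_surjective hS hFL x'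
  apply HlcResS_two_eq_zero_of_index_nsmul hS hFL
  rw [← HlcCor_HlcResS_apply (unitsRep K Ω) hS 2 x]
  exact hx'

end Main

end Fermat.Agent.GC.Local.CorInj
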