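/-
GATE-C / C3 (LOCAL) — INV brick, helper3.
Explicit second cohomology of a finite cyclic group `⟨σ⟩` of order `m` on INHOMOGENEOUS cocycles.
For a 2-cocycle `f` put `gam f = ∑_{i<m} f (σ^i, σ)`.  Then
* `gam f` is invariant, `gam (∂x) = N (x σ)`;
* `f = stdCocycle (gam f) + ∂x` for an explicit `x`;
* `f` is a coboundary iff `gam f ∈ N(A)`.
Mathlib only, elementary (`IsCocycle₂`, `IsCoboundary₂`).
-/
import Mathlib

set_option autoImplicit false
set_option linter.unusedSectionVars false

open groupCohomology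

namespace Fermat.Agent.GC.Local.CycH2

section NoAction

variable {G A : Type*} [Group G] [AddCommGroup A]

/-- partial sums `t_a = ∑_{i<a} f (σ^i, σ)`. -/
def tsum (σ : G) (f : G × G → A) (a : ℕ) : A := ∑ i ∈ Finset.range a, f (σ ^ i, σ)

/-- the invariant `γ(f) = ∑_{i<m} f (σ^i, σ)` of a 2-cochain. -/
def gam (σ : G) (m : ℕ) (f : G × G → A) : A := tsum σ f m

@[simp] lemma tsum_zero (σ : G) (f : G × G → A) : tsum σ f 0 = 0 := by simp [tsum]

lemma tsum_succ (σ : G) (f : G × G → A) (a : ℕ) :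
    tsum σ f (a + 1) = tsum σ f a + f (σ ^ a, σ) := by
  simp [tsum, Finset.sum_range_succ]

lemma gam_add (σ : G) (m : ℕ) (f f' : G × G → A) : gam σ m (f + f') = gam σ m f + gam σ m f' := by
  simp [gam, tsum, Finset.sum_add_distrib]

lemma gam_sub (σ : G) (m : ℕ) (f f' : G × G → A) : gam σ m (f - f') = gam σ m f - gam σ m f' := by
  simp [gam, tsum, Finset.sum_sub_distrib]

lemma gam_zero (σ : G) (m : ℕ) : gam σ m (0 : G × G → A) = 0 := by
  simp [gam, tsum]

end NoAction

variable {G A : Type*} [Group G] [AddCommGroup A] [DistribMulAction G A]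

/-- the norm `N y = ∑_{i<m} σ^i • y`. -/
def nrm (σ : G) (m : ℕ) (y : A) : A := ∑ i ∈ Finset.range m, σ ^ i • y

lemma nrm_add (σ : G) (m : ℕ) (y y' : A) : nrm σ m (y + y') = nrm σ m y + nrm σ m y' := by
  simp [nrm, Finset.sum_add_distrib]

lemma nrm_neg (σ : G) (m : ℕ) (y : A) : nrm σ m (-y) = - nrm σ m y := by
  simp [nrm]

lemma nrm_sub (σ : G) (m : ℕ) (y y' : A) : nrm σ m (y - y') = nrm σ m y - nrm σ m y' := by
  simp [nrm, smul_sub, Finset.sum_sub_distrib]

/-- the fundamental identity `(★★)`. -/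
lemma cocycle_formula {σ : G} {f : G × G → A} (hf : IsCocycle₂ f) (a b : ℕ) :
    f (σ ^ a, σ ^ b) =
      - (σ ^ a • tsum σ f b) + tsum σ f (a + b) - tsum σ f a + σ ^ a • f (1, 1) := by
  induction b with
  | zero =>
    simp only [pow_zero, tsum_zero, smul_zero, neg_zero, add_zero, zero_add, sub_self]
    exact map_one_snd_of_isCocycle₂ hf _
  | succ b ih =>
    have h := hf (σ ^ a) (σ ^ b) σ
    rw [← pow_add, ← pow_succ] at h
    rw [← add_assoc, tsum_succ, tsum_succ, smul_add]
    have h' : f (σ ^ a, σ ^ (b + 1)) = f (σ ^ (a + b), σ) + f (σ ^ a, σ ^ b) - σ ^ a • f (σ ^ b, σ) :=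
      eq_sub_of_add_eq' h.symm
    rw [h', ih]
    abel

variable {σ : G} {m : ℕ}

lemma tsum_add_of_pow_eq_one (hσ : σ ^ m = 1) {f : G × G → A} (hf : IsCocycle₂ f) (b : ℕ) :
    tsum σ f (m + b) = tsum σ f b + gam σ m f := by
  have h := cocycle_formula (σ := σ) hf m b
  rw [hσ, map_one_fst_of_isCocycle₂ hf, one_smul, one_smul] at h
  have : tsum σ f (m + b) = tsum σ f b + tsum σ f m := by
    have h2 : (0 : A) = -tsum σ f b + tsum σ f (m + b) - tsum σ f m := by
      have := sub_eq_zero.2 h.symm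
      rw [← this]; abel
    have h3 := sub_eq_zero.1 h2.symm
    rw [← h3]; abel
  exact this

lemma smul_gam_of_pow_eq_one (hσ : σ ^ m = 1) {f : G × G → A} (hf : IsCocycle₂ f) (a : ℕ) :
    σ ^ a • gam σ m f = gam σ m f := by
  have h := cocycle_formula (σ := σ) hf a m
  rw [hσ, map_one_snd_of_isCocycle₂ hf] at h
  have h1 := tsum_add_of_pow_eq_one hσ hf a
  rw [add_comm a m, h1] at h
  have : σ ^ a • tsum σ f m = gam σ m f := by
    have h2 : (0 : A) = -(σ ^ a • tsum σ f m) + gam σ m f := by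
      have := sub_eq_zero.2 h.symm
      rw [← this]; abel
    have := neg_add_eq_zero.1 h2.symm
    exact this
  exact this

lemma tsum_add_mul (hσ : σ ^ m = 1) {f : G × G → A} (hf : IsCocycle₂ f) (b k : ℕ) :
    tsum σ f (b + m * k) = tsum σ f b + k • gam σ m f := by
  induction k with
  | zero => simp
  | succ k ih =>
    rw [Nat.mul_succ, ← add_assoc, add_comm _ m, tsum_add_of_pow_eq_one hσ hf, ih, succ_nsmul]
    abel

/-- `γ(∂x) = N(x σ)`. -/
lemma gam_coboundary (hσ : σ ^ m = 1) (x : G → A) :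
    gam σ m (fun p : G × G => p.1 • x p.2 - x (p.1 * p.2) + x p.1) = nrm σ m (x σ) := by
  simp only [gam, tsum, nrm]
  have : ∀ i ∈ Finset.range m, σ ^ i • x σ - x (σ ^ i * σ) + x (σ ^ i) =
      σ ^ i • x σ - (x (σ ^ (i + 1)) - x (σ ^ i)) := by
    intro i _; rw [pow_succ]; abel
  rw [Finset.sum_congr rfl this, Finset.sum_sub_distrib, Finset.sum_range_sub
    (fun i => x (σ ^ i)), hσ, pow_zero, sub_self, sub_zero]

/-! ### Generators and discrete logarithms -/

/-- `σ` has order `m > 0` and generates `G`. -/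
structure IsGen (σ : G) (m : ℕ) : Prop where
  pos : 0 < m
  order : orderOf σ = m
  gen : ∀ x : G, x ∈ Subgroup.zpowers σ

namespace IsGen

variable (h : IsGen σ m)
include h

lemma pow_eq_one : σ ^ m = 1 := by rw [← h.order]; exact pow_orderOf_eq_one σ

lemma exists_pow (x : G) : ∃ a, a < m ∧ σ ^ a = x := by
  obtain ⟨k, rfl⟩ := Subgroup.mem_zpowers_iff.1 (h.gen x)
  have hm : (0 : ℤ) < m := by exact_mod_cast h.pos
  refine ⟨(k % m).toNat, ?_, ?_⟩
  · have := Int.emod_lt_of_pos k hm
    omega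
  · rw [← zpow_natCast, Int.toNat_of_nonneg (Int.emod_nonneg _ hm.ne'), ← h.order,
      zpow_mod_orderOf]

/-- the discrete logarithm with values in `[0, m)`. -/
noncomputable def lg (x : G) : ℕ := Classical.choose (h.exists_pow x)

lemma lg_lt (x : G) : h.lg x < m := (Classical.choose_spec (h.exists_pow x)).1

@[simp] lemma pow_lg (x : G) : σ ^ h.lg x = x := (Classical.choose_spec (h.exists_pow x)).2

lemma lg_eq_of_pow_eq {a : ℕ} {x : G} (hx : σ ^ a = x) : h.lg x = a % m := by
  have h1 : σ ^ h.lg x = σ ^ a := by rw [h.pow_lg, hx]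
  have h2 := (pow_eq_pow_iff_modEq).1 h1
  rw [h.order] at h2
  rw [← Nat.mod_eq_of_lt (h.lg_lt x)]
  exact h2

lemma lg_pow (a : ℕ) : h.lg (σ ^ a) = a % m := h.lg_eq_of_pow_eq rfl

lemma lg_mul (x y : G) : h.lg (x * y) = (h.lg x + h.lg y) % m :=
  h.lg_eq_of_pow_eq (by rw [pow_add, h.pow_lg, h.pow_lg])

lemma lg_one : h.lg (1 : G) = 0 := by
  have := h.lg_pow 0
  simpa using this

lemma lg_self : h.lg σ = 1 % m := by
  have := h.lg_pow 1
  simpa using this

/-- the standard 2-cocycle attached to `γ`. -/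
noncomputable def stdCocycle (γ : A) : G × G → A := fun p => ((h.lg p.1 + h.lg p.2) / m) • γ

lemma stdCocycle_apply (γ : A) (x y : G) :
    h.stdCocycle γ (x, y) = ((h.lg x + h.lg y) / m) • γ := rfl

/-- every 2-cocycle is the standard cocycle of its invariant plus an explicit coboundary. -/
theorem exists_eq_stdCocycle_add {f : G × G → A} (hf : IsCocycle₂ f) :
    ∃ x : G → A, ∀ g k : G, g • x k - x (g * k) + x g = f (g, k) - h.stdCocycle (gam σ m f) (g, k) := by
  refine ⟨fun g => f (1, 1) - tsum σ f (h.lg g), fun g k => ?_⟩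
  beta_reduce
  have hg := h.pow_lg g
  have hk := h.pow_lg k
  set a := h.lg g with ha
  set b := h.lg k with hb
  have h1 := cocycle_formula (σ := σ) hf a b
  rw [hg, hk] at h1
  have h2 : tsum σ f (a + b) = tsum σ f ((a + b) % m) + ((a + b) / m) • gam σ m f := by
    conv_lhs => rw [← Nat.mod_add_div (a + b) m]
    exact tsum_add_mul h.pow_eq_one hf _ _
  rw [h.stdCocycle_apply, h.lg_mul, ← ha, ← hb, h1, h2]
  rw [smul_sub]
  abel

/-- the invariant of a cocycle is `G`-invariant. -/
theorem smul_gam {f : G × G → A} (hf : IsCocycle₂ f) (g : G) : g • gam σ m f = gam σ m f := by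
  rw [← h.pow_lg g]
  exact smul_gam_of_pow_eq_one h.pow_eq_one hf _

/-- the standard cocycle of an invariant element is a cocycle. -/
theorem isCocycle₂_stdCocycle {γ : A} (hγ : ∀ g : G, g • γ = γ) : IsCocycle₂ (h.stdCocycle γ) := by
  intro g k j
  have hγ' : ∀ n : ℕ, g • (n • γ) = n • γ := fun n => by rw [smul_comm, hγ]
  simp only [stdCocycle_apply, hγ', h.lg_mul, ← add_nsmul]
  congr 1
  set a := h.lg g
  set b := h.lg k
  set c := h.lg j
  have hm := h.pos
  have e1 : ((a + b) % m + c) / m + (a + b) / m = (a + b + c) / m := by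
    conv_rhs => rw [← Nat.mod_add_div (a + b) m, add_right_comm, Nat.add_mul_div_left _ _ hm]
  have e2 : (b + c) / m + (a + (b + c) % m) / m = (a + b + c) / m := by
    conv_rhs => rw [add_assoc, ← Nat.mod_add_div (b + c) m, ← add_assoc,
      Nat.add_mul_div_left _ _ hm]
    rw [add_comm]
  rw [e1, e2]

lemma stdCocycle_zero : h.stdCocycle (0 : A) = 0 := by
  funext p; simp [stdCocycle]

lemma stdCocycle_add (γ γ' : A) : h.stdCocycle (γ + γ') = h.stdCocycle γ + h.stdCocycle γ' := by
  funext p; simp [stdCocycle]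

lemma stdCocycle_nsmul (n : ℕ) (γ : A) : h.stdCocycle (n • γ) = n • h.stdCocycle γ := by
  funext p; simp only [stdCocycle, Pi.smul_apply]; rw [smul_comm]

/-- the invariant of the standard cocycle (for `m ≥ 2`). -/
theorem gam_stdCocycle (hm : 2 ≤ m) (γ : A) : gam σ m (h.stdCocycle γ) = γ := by
  obtain ⟨n, rfl⟩ : ∃ n, m = n + 1 := ⟨m - 1, by omega⟩
  simp only [gam, tsum, stdCocycle_apply, h.lg_pow, h.lg_self]
  rw [Finset.sum_range_succ, Finset.sum_eq_zero, zero_add]
  · have h1 : (n % (n + 1) + 1 % (n + 1)) / (n + 1) = 1 := by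
      rw [Nat.mod_eq_of_lt (by omega), Nat.mod_eq_of_lt (by omega), Nat.div_self (by omega)]
    rw [h1, one_smul]
  · intro i hi
    have hi' := Finset.mem_range.1 hi
    have h1 : (i % (n + 1) + 1 % (n + 1)) / (n + 1) = 0 := by
      rw [Nat.mod_eq_of_lt (by omega), Nat.mod_eq_of_lt (by omega), Nat.div_eq_of_lt (by omega)]
    rw [h1, zero_smul]

/-- **Main theorem**: a 2-cocycle of a finite cyclic group is a coboundary iff its invariant
is a norm. -/
theorem isCoboundary₂_iff {f : G × G → A} (hf : IsCocycle₂ f) :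
    IsCoboundary₂ f ↔ ∃ b : A, gam σ m f = nrm σ m b := by
  constructor
  · rintro ⟨x, hx⟩
    refine ⟨x σ, ?_⟩
    rw [← gam_coboundary h.pow_eq_one x]
    congr 1
    funext p
    exact (hx p.1 p.2).symm
  · rintro ⟨b, hb⟩
    -- subtract the coboundary of the constant cochain `b`
    have hf' : IsCocycle₂ (fun p : G × G => f p - p.1 • b) := by
      intro g k j
      have := hf g k j
      simp only [mul_smul, smul_sub]
      rw [sub_add_sub_comm, this]
      abel
    have hg' : gam σ m (fun p : G × G => f p - p.1 • b) = 0 := by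
      have : (fun p : G × G => f p - p.1 • b) = f - fun p : G × G => p.1 • b := rfl
      rw [this, gam_sub, hb]
      simp [gam, tsum, nrm]
    obtain ⟨x, hx⟩ := h.exists_eq_stdCocycle_add hf'
    refine ⟨fun g => x g + b, fun g k => ?_⟩
    beta_reduce
    have := hx g k
    rw [hg', stdCocycle_zero, Pi.zero_apply, sub_zero] at this
    have h2 : f (g, k) = (g • x k - x (g * k) + x g) + g • b := by rw [this]; abel
    rw [h2, smul_add]
    abel

/-- the standard cocycle of an invariant `γ` is a coboundary iff `γ` is a norm. -/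
theorem isCoboundary₂_stdCocycle_iff {γ : A} (hγ : ∀ g : G, g • γ = γ) :
    IsCoboundary₂ (h.stdCocycle γ) ↔ ∃ b : A, γ = nrm σ m b := by
  rw [h.isCoboundary₂_iff (h.isCocycle₂_stdCocycle hγ)]
  rcases Nat.lt_or_ge m 2 with hm | hm
  · -- `m = 1`: everything is a norm
    have hm1 : m = 1 := by have := h.pos; omega
    subst hm1
    constructor
    · intro _; exact ⟨γ, by simp [nrm]⟩
    · intro _; exact ⟨gam σ 1 (h.stdCocycle γ), by simp [nrm]⟩
  · rw [h.gam_stdCocycle hm]

/-- the norm as a sum over the group. -/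
theorem nrm_eq_sum [Fintype G] (y : A) : nrm σ m y = ∑ g : G, g • y := by
  classical
  unfold nrm
  refine Finset.sum_bij (fun i _ => σ ^ i) (fun _ _ => Finset.mem_univ _) ?_ ?_ (fun _ _ => rfl)
  · intro a ha b hb hab
    have ha' := Finset.mem_range.1 ha
    have hb' := Finset.mem_range.1 hb
    have h1 := h.lg_pow a
    rw [hab, h.lg_pow, Nat.mod_eq_of_lt ha', Nat.mod_eq_of_lt hb'] at h1
    exact h1.symm
  · intro g _
    exact ⟨h.lg g, Finset.mem_range.2 (h.lg_lt g), h.pow_lg g⟩

end IsGen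

/-! ### The representation-theoretic form -/

section Rep

universe u

variable {k G : Type u} [CommRing k] [Group G] (A : Rep k G)

/-- the action of `G` on a representation as a `DistribMulAction` (used as a local instance). -/
@[reducible] def repAction : DistribMulAction G A where
  smul g a := A.ρ g a
  one_smul a := by change A.ρ 1 a = a; simp
  mul_smul g g' a := by change A.ρ (g * g') a = A.ρ g (A.ρ g' a); simp
  smul_zero g := map_zero (A.ρ g)
  smul_add g a b := map_add (A.ρ g) a b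

attribute [local instance] repAction

lemma repAction_smul (g : G) (a : A) : g • a = A.ρ g a := rfl

lemma isCocycle₂_iff_mem (f : G × G → A) : IsCocycle₂ f ↔ f ∈ cocycles₂ A :=
  (mem_cocycles₂_iff f).symm

lemma isCoboundary₂_iff_mem (f : G × G → A) : IsCoboundary₂ f ↔ f ∈ coboundaries₂ A := by
  constructor
  · rintro ⟨x, hx⟩
    exact ⟨x, funext fun p => hx p.1 p.2⟩
  · rintro ⟨x, rfl⟩
    exact ⟨x, fun _ _ => rfl⟩

variable {A} {σ : G} {m : ℕ}

/-- a class in `H²` of a finite cyclic group vanishes iff the invariant of a representing cocycle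
is a norm. -/
theorem H2π_eq_zero_iff_gam (h : IsGen σ m) (f : cocycles₂ A) :
    H2π A f = 0 ↔ ∃ b : A, gam σ m (f : G × G → A) = nrm σ m b := by
  rw [H2π_eq_zero_iff, ← isCoboundary₂_iff_mem]
  exact h.isCoboundary₂_iff ((isCocycle₂_iff_mem A _).2 f.2)

/-- the standard cocycle as an element of `cocycles₂`. -/
noncomputable def stdCocycles₂ (h : IsGen σ m) (γ : A.ρ.invariants) : cocycles₂ A :=
  ⟨h.stdCocycle (γ : A), (isCocycle₂_iff_mem A _).1 (h.isCocycle₂_stdCocycle fun g => γ.2 g)⟩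

theorem H2π_stdCocycles₂_eq_zero_iff (h : IsGen σ m) (γ : A.ρ.invariants) :
    H2π A (stdCocycles₂ h γ) = 0 ↔ ∃ b : A, (γ : A) = nrm σ m b := by
  rw [H2π_eq_zero_iff, ← isCoboundary₂_iff_mem]
  exact h.isCoboundary₂_stdCocycle_iff fun g => γ.2 g

/-- every class is the class of a standard cocycle. -/
theorem H2π_eq_stdCocycles₂ (h : IsGen σ m) (f : cocycles₂ A) :
    H2π A f = H2π A (stdCocycles₂ h
      ⟨gam σ m (f : G × G → A), fun g => h.smul_gam ((isCocycle₂_iff_mem A _).2 f.2) g⟩) := by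
  rw [H2π_eq_iff]
  obtain ⟨x, hx⟩ := h.exists_eq_stdCocycle_add ((isCocycle₂_iff_mem A _).2 f.2)
  exact ⟨x, funext fun p => hx p.1 p.2⟩

/-- the norm as a linear endomorphism. -/
noncomputable def nrmLin (A : Rep k G) (σ : G) (m : ℕ) : A.V →ₗ[k] A.V :=
  ∑ i ∈ Finset.range m, A.ρ (σ ^ i)

lemma nrmLin_apply (y : A) : nrmLin A σ m y = nrm σ m y := by
  simp [nrmLin, nrm, LinearMap.sum_apply, repAction_smul]

theorem H2π_eq_zero_iff_gam' (h : IsGen σ m) (f : cocycles₂ A) :
    H2π A f = 0 ↔ ∃ b : A, gam σ m (f : G × G → A) = nrmLin A σ m b := by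
  simp only [nrmLin_apply]
  exact H2π_eq_zero_iff_gam h f

theorem H2π_stdCocycles₂_eq_zero_iff' (h : IsGen σ m) (γ : A.ρ.invariants) :
    H2π A (stdCocycles₂ h γ) = 0 ↔ ∃ b : A, (γ : A) = nrmLin A σ m b := by
  simp only [nrmLin_apply]
  exact H2π_stdCocycles₂_eq_zero_iff h γ

lemma gam_stdCocycles₂ (h : IsGen σ m) (hm : 2 ≤ m) (γ : A.ρ.invariants) :
    gam σ m (stdCocycles₂ h γ : G × G → A) = γ := h.gam_stdCocycle hm _

lemma smul_gam_cocycles₂ (h : IsGen σ m) (f : cocycles₂ A) (g : G) :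
    A.ρ g (gam σ m (f : G × G → A)) = gam σ m (f : G × G → A) :=
  h.smul_gam ((isCocycle₂_iff_mem A _).2 f.2) g

end Rep

section RepEquiv

universe u

variable {k G : Type u} [CommRing k] [Group G] {A : Rep k G} {σ : G} {m : ℕ}

lemma nrmLin_one (y : A) : nrmLin A σ 1 y = y := by
  simp [nrmLin]

/-- the submodule of norms inside the invariants. -/
noncomputable def normSub (A : Rep k G) (σ : G) (m : ℕ) : Submodule k A.ρ.invariants :=
  (LinearMap.range (nrmLin A σ m)).comap A.ρ.invariants.subtype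

lemma mem_normSub_iff (γ : A.ρ.invariants) :
    γ ∈ normSub A σ m ↔ ∃ b : A, (γ : A) = nrmLin A σ m b := by
  simp only [normSub, Submodule.mem_comap, Submodule.subtype_apply, LinearMap.mem_range]
  exact ⟨fun ⟨b, hb⟩ => ⟨b, hb.symm⟩, fun ⟨b, hb⟩ => ⟨b, hb.symm⟩⟩

/-- the invariant `γ` as a linear map on cocycles. -/
noncomputable def gamLin (h : IsGen σ m) : cocycles₂ A →ₗ[k] A.ρ.invariants where
  toFun f := ⟨gam σ m (f : G × G → A), fun g => smul_gam_cocycles₂ h f g⟩
  map_add' f f' := Subtype.ext (gam_add σ m _ _)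
  map_smul' c f := Subtype.ext (by
    simp only [gam, tsum, RingHom.id_apply, Submodule.coe_smul, Finset.smul_sum]
    rfl)

@[simp] lemma gamLin_coe (h : IsGen σ m) (f : cocycles₂ A) :
    ((gamLin h f : A.ρ.invariants) : A) = gam σ m (f : G × G → A) := rfl

/-- the class of the invariant modulo norms. -/
noncomputable def gamQ (h : IsGen σ m) : cocycles₂ A →ₗ[k] (A.ρ.invariants ⧸ normSub A σ m) :=
  (normSub A σ m).mkQ ∘ₗ gamLin h

lemma gamQ_surjective (h : IsGen σ m) : Function.Surjective (gamQ (A := A) h) := by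
  intro q
  obtain ⟨γ, rfl⟩ := Submodule.mkQ_surjective _ q
  rcases Nat.lt_or_ge m 2 with hm | hm
  · have hm1 : m = 1 := by have := h.pos; omega
    refine ⟨0, ?_⟩
    rw [map_zero]
    symm
    rw [Submodule.mkQ_apply, Submodule.Quotient.mk_eq_zero, mem_normSub_iff]
    exact ⟨γ, by subst hm1; rw [nrmLin_one]⟩
  · refine ⟨stdCocycles₂ h γ, ?_⟩
    simp only [gamQ, LinearMap.comp_apply]
    congr 1
    exact Subtype.ext (gam_stdCocycles₂ h hm _)

/-- `H2π` as a plain linear map. -/
noncomputable def H2πLin (A : Rep k G) : cocycles₂ A →ₗ[k] H2 A := (H2π A).hom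

lemma H2πLin_apply (f : cocycles₂ A) : H2πLin A f = H2π A f := rfl

lemma H2πLin_surjective : Function.Surjective (H2πLin A) :=
  (ModuleCat.epi_iff_surjective (H2π A)).1 inferInstance

lemma ker_gamQ (h : IsGen σ m) : LinearMap.ker (gamQ (A := A) h) = LinearMap.ker (H2πLin A) := by
  ext f
  simp only [LinearMap.mem_ker, gamQ, LinearMap.comp_apply, Submodule.mkQ_apply,
    Submodule.Quotient.mk_eq_zero, mem_normSub_iff, gamLin_coe, H2πLin_apply]
  exact (H2π_eq_zero_iff_gam' h f).symm

/-- **`H² ≃ invariants / norms`** for a finite cyclic group, explicit on inhomogeneous cocycles. -/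
noncomputable def H2Equiv (h : IsGen σ m) : H2 A ≃ₗ[k] (A.ρ.invariants ⧸ normSub A σ m) :=
  (((H2πLin A).quotKerEquivOfSurjective H2πLin_surjective).symm ≪≫ₗ
    Submodule.quotEquivOfEq _ _ (ker_gamQ h).symm) ≪≫ₗ
    (gamQ (A := A) h).quotKerEquivOfSurjective (gamQ_surjective h)

lemma H2Equiv_H2π (h : IsGen σ m) (f : cocycles₂ A) :
    H2Equiv h (H2π A f) = Submodule.Quotient.mk (gamLin h f) := by
  have : ((H2πLin A).quotKerEquivOfSurjective H2πLin_surjective).symm (H2π A f) =
      Submodule.Quotient.mk f := by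
    rw [LinearEquiv.symm_apply_eq]
    rfl
  simp only [H2Equiv, LinearEquiv.trans_apply, this]
  rfl

end RepEquiv

end Fermat.Agent.GC.Local.CycH2
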