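/-
GATE-C / C3 (LOCAL) — INV, helper3.  LOWER BOUND, abstract group-cohomological core.
`G` a group, `N, H` normal subgroups, `G ⧸ N = ⟨φ⟩` cyclic of order `n`, `H = ⟨τ⟩` cyclic of order
`m`, `γ` a `G`-invariant element of `A`.  The "unramified class" `u = [stdCocycle γ]` of
`H²(G ⧸ N, A^N)`, inflated to `G` and restricted to `H`, is the class of an explicit cocycle of the
cyclic group `H` whose invariant is `carry • γ`; so it vanishes iff `carry • γ` is an `H`-norm.
With inflation–restriction in degree 2 the inflated class then comes from `H²(G ⧸ H, A^H)`.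
-/
import Mathlib
import Fermat.Agent.GC.Local.CycH2
import Fermat.Agent.GC.Global.Devissage

set_option autoImplicit false
set_option linter.unusedSectionVars false

open CategoryTheory groupCohomology Rep
open Fermat.Agent.GC.Global.Devissage Fermat.Agent.GC.Local.CycH2

noncomputable section

namespace Fermat.Agent.GC.Local.InvLower

universe u

variable {k G : Type u} [CommRing k] [Group G] (A : Rep.{u} k G)
  (N H : Subgroup G) [N.Normal]
  {φ : G ⧸ N} {n : ℕ} (hφ : IsGen φ n) {τ : H} {m : ℕ}
  (γ : A) (hγ : ∀ g, A.ρ g γ = γ)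

/-- `γ` as an invariant element of the `G ⧸ N`-module `A^N`. -/
def gammaInv : (A.quotientToInvariants N).ρ.invariants :=
  ⟨⟨γ, fun g => hγ g⟩, fun g => by
    induction g using QuotientGroup.induction_on with
    | H g => exact Subtype.ext (hγ g)⟩

/-- the class of the standard cocycle of `γ` in `H²(G ⧸ N, A^N)`. -/
def uClass : H2 (A.quotientToInvariants N) :=
  H2π _ (stdCocycles₂ hφ (gammaInv A N γ hγ))

/-- the carry sum `∑_{i<m} ⌊(lg τ̄^i + lg τ̄)/n⌋`. -/
def carry : ℕ :=
  ∑ i ∈ Finset.range m,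
    (hφ.lg (QuotientGroup.mk ((τ ^ i : H) : G)) + hφ.lg (QuotientGroup.mk ((τ : H) : G))) / n

/-- the composite `H → G → G ⧸ N`. -/
def toQuot : H →* G ⧸ N := (QuotientGroup.mk' N).comp H.subtype

/-- the pulled-back cocycle on `H`. -/
def pullCocycle : cocycles₂ (Rep.res H.subtype A) :=
  mapCocycles₂ H.subtype (𝟙 (Rep.res H.subtype A))
    (mapCocycles₂ (QuotientGroup.mk' N) (ofHom (A.ρ.quotientToInvariants_lift N))
      (stdCocycles₂ hφ (gammaInv A N γ hγ)))

lemma pullCocycle_apply (h h' : H) :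
    (pullCocycle A N H hφ γ hγ : H × H → A) (h, h') =
      ((hφ.lg (QuotientGroup.mk (h : G)) + hφ.lg (QuotientGroup.mk (h' : G))) / n) • γ := by
  rfl

lemma rest_infl_uClass :
    rest A H 2 (infl A N 2 (uClass A N hφ γ hγ)) =
      H2π (Rep.res H.subtype A) (pullCocycle A N H hφ γ hγ) := by
  unfold uClass pullCocycle
  rw [H2π_comp_map_apply, H2π_comp_map_apply]

lemma gam_pullCocycle :
    gam τ m (pullCocycle A N H hφ γ hγ : H × H → A) = carry N H hφ (τ := τ) (m := m) • γ := by
  unfold gam CycH2.tsum carry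
  rw [Finset.sum_smul]
  refine Finset.sum_congr rfl fun i _ => ?_
  rw [pullCocycle_apply]

/-- the restriction to `H` of the inflated unramified class vanishes iff `carry • γ` is a norm. -/
theorem rest_infl_uClass_eq_zero_iff (hτ : IsGen τ m) :
    rest A H 2 (infl A N 2 (uClass A N hφ γ hγ)) = 0 ↔
      ∃ b : A, carry N H hφ (τ := τ) (m := m) • γ =
        nrmLin (Rep.res H.subtype A) τ m b := by
  rw [rest_infl_uClass, H2π_eq_zero_iff_gam' hτ, gam_pullCocycle]

section
attribute [local instance] repAction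

lemma stdCocycles₂_nsmul {k G : Type u} [CommRing k] [Group G] {B : Rep.{u} k G} {σ : G} {n : ℕ}
    (h : IsGen σ n) (j : ℕ) (γ : B.ρ.invariants) :
    stdCocycles₂ h (j • γ) = j • stdCocycles₂ h γ := by
  apply Subtype.ext
  exact h.stdCocycle_nsmul j _

end

/-- multiples of the unramified class. -/
theorem nsmul_uClass_eq_zero_iff (j : ℕ) :
    j • uClass A N hφ γ hγ = 0 ↔
      ∃ b : (A.quotientToInvariants N).V,
        ((j • gammaInv A N γ hγ : (A.quotientToInvariants N).ρ.invariants) :
          (A.quotientToInvariants N).V) = nrmLin (A.quotientToInvariants N) φ n b := by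
  have h1 : j • uClass A N hφ γ hγ =
      H2π _ (stdCocycles₂ hφ (j • gammaInv A N γ hγ)) := by
    unfold uClass
    rw [← map_nsmul, stdCocycles₂_nsmul]
  rw [h1, H2π_stdCocycles₂_eq_zero_iff']

variable [H.Normal]

/-- **Abstract lower bound.**  If `carry • γ` is an `H`-norm, the inflated unramified class comes
from `H²(G ⧸ H, A^H)`; if moreover `j • γ` is a `G ⧸ N`-norm only for `n ∣ j`, the preimage has
exact order `n`. -/
theorem exists_class_of_order (hIR : InfRes2 k) (hτ : IsGen τ m)
    (hH1 : Limits.IsZero (groupCohomology (Rep.res H.subtype A) 1))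
    (hN1 : Limits.IsZero (groupCohomology (Rep.res N.subtype A) 1))
    (hb : ∃ b : A, carry N H hφ (τ := τ) (m := m) • γ = nrmLin (Rep.res H.subtype A) τ m b)
    (hord : ∀ j : ℕ, (∃ b : (A.quotientToInvariants N).V,
        ((j • gammaInv A N γ hγ : (A.quotientToInvariants N).ρ.invariants) :
          (A.quotientToInvariants N).V) = nrmLin (A.quotientToInvariants N) φ n b) → n ∣ j) :
    ∃ y : groupCohomology (A.quotientToInvariants H) 2, ∀ j : ℕ, j • y = 0 → n ∣ j := by
  obtain ⟨-, hex⟩ := hIR A H hH1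
  obtain ⟨hinjN, -⟩ := hIR A N hN1
  obtain ⟨y, hy⟩ := hex _ ((rest_infl_uClass_eq_zero_iff A N H hφ γ hγ hτ).2 hb)
  refine ⟨y, fun j hj => ?_⟩
  apply hord j
  rw [← nsmul_uClass_eq_zero_iff A N hφ γ hγ j]
  apply hinjN
  rw [map_nsmul, ← hy, ← map_nsmul, hj, map_zero, map_zero]

end Fermat.Agent.GC.Local.InvLower
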