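/-
GATE-C / C3 (LOCAL) — INV, helper3.  LOWER BOUND, field-level form (generic fields).
`Ω/K` finite Galois, `H, N` normal subgroups of `G = Gal(Ω/K)` with `G ⧸ N` and `H` cyclic,
`L = Ω^H`, `M = Ω^N`, `π ∈ Kˣ`.  If `π` is a norm from `Ω` to `L` and `π^j ∈ N_{M/K}(Mˣ)` only for
`|G ⧸ N| ∣ j`, then `H²(Gal(L/K), Lˣ)` contains a class whose order is a multiple of `|G ⧸ N|`.
-/
import Mathlib
import Fermat.Agent.GC.Local.InvLower
import Fermat.Agent.GC.Local.GalPair
import Fermat.Agent.GC.Tate.InfRes2Inst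

set_option autoImplicit false
set_option linter.unusedSectionVars false

open CategoryTheory groupCohomology Rep IntermediateField
open Fermat.Agent.GC.Global.Devissage Fermat.Agent.GC.Local.CycH2 Fermat.Agent.GC.Local.GalPair

noncomputable section

namespace Fermat.Agent.GC.Local.InvLowerField

universe u

section Generic

variable {k : Type u} [CommRing k] {Q Q' : Type u} [Group Q] [Group Q']
  {B : Rep.{u} k Q} {B' : Rep.{u} k Q'}

section
attribute [local instance] repAction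

/-- the cyclic norm is the sum over the group. -/
lemma nrmLin_eq_sum [Fintype Q] {σ : Q} {n : ℕ} (h : IsGen σ n) (y : B) :
    nrmLin B σ n y = ∑ g : Q, B.ρ g y := by
  rw [nrmLin_apply]
  exact h.nrm_eq_sum y

end

/-- isomorphisms of pairs commute with the norm. -/
lemma pairIso_map_sum (ψ : PairIso B B') [Fintype Q] [Fintype Q'] (y : B) :
    ψ.e' (∑ g : Q, B.ρ g y) = ∑ g' : Q', B'.ρ g' (ψ.e' y) := by
  rw [_root_.map_sum]
  simp_rw [ψ.comm_apply]
  exact Fintype.sum_equiv ψ.e.toEquiv _ _ fun _ => rfl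

/-- a generator of a finite cyclic group. -/
lemma exists_isGen [Finite Q] [IsCyclic Q] : ∃ σ : Q, IsGen σ (Nat.card Q) := by
  obtain ⟨σ, hσ⟩ := IsCyclic.exists_generator (α := Q)
  exact ⟨σ, Nat.card_pos, orderOf_eq_card_of_forall_mem_zpowers hσ, hσ⟩

end Generic

section Field

variable (K L : Type) [Field K] [Field L] [Algebra K L] [FiniteDimensional K L] [IsGalois K L]

/-- the sum over the Galois group of the action on `Additive Lˣ` is the field norm. -/
lemma coe_toMul_sum_rho (x : Additive Lˣ) :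
    ((Additive.toMul (∑ g : L ≃ₐ[K] L, (Rep.ofAlgebraAutOnUnits K L).ρ g x) : Lˣ) : L) =
      algebraMap K L (Algebra.norm K ((Additive.toMul x : Lˣ) : L)) := by
  rw [Algebra.norm_eq_prod_automorphisms]
  change ((Additive.toMul (∑ g : L ≃ₐ[K] L, Additive.ofMul (g • Additive.toMul x)) : Lˣ) : L) = _
  rw [toMul_sum, Units.coe_prod]
  rfl

end Field

section Main

variable (K Ω : Type) [Field K] [Field Ω] [Algebra K Ω] [FiniteDimensional K Ω] [IsGalois K Ω]

/-- Hilbert 90 on every subgroup. -/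
lemma isZero_H1_res (S : Subgroup (Ω ≃ₐ[K] Ω)) :
    Limits.IsZero (groupCohomology (Rep.res S.subtype (Rep.ofAlgebraAutOnUnits K Ω)) 1) := by
  refine Limits.IsZero.of_iso ?_ ((subPair K Ω S).cohIso 1)
  rw [ModuleCat.isZero_iff_subsingleton]
  exact (groupCohomology.H1ofAutOnUnitsUnique (fixedField S) Ω).instSubsingleton

/-- an element of the base field as an element of the module `Additive Ωˣ`. -/
def baseElt (π : Kˣ) : (Rep.ofAlgebraAutOnUnits K Ω).V :=
  Additive.ofMul (Units.map (algebraMap K Ω).toMonoidHom π)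

lemma rho_baseElt (π : Kˣ) (g : Ω ≃ₐ[K] Ω) :
    (Rep.ofAlgebraAutOnUnits K Ω).ρ g (baseElt K Ω π) = baseElt K Ω π := by
  apply Additive.toMul.injective
  apply Units.ext
  exact g.commutes _

variable {K Ω}

/-- `H`-norms in `Additive Ωˣ` are field norms from `Ω` to `Ω^H`. -/
lemma exists_nrmLin_eq_of_norm (H : Subgroup (Ω ≃ₐ[K] Ω)) {τ : H} {m : ℕ} (hτ : IsGen τ m)
    (π : Kˣ) (y : Ω) (hy : Algebra.norm (fixedField H) y = algebraMap K (fixedField H) π)
    (c : ℕ) :
    ∃ b : (Rep.ofAlgebraAutOnUnits K Ω).V,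
      c • baseElt K Ω π = nrmLin (Rep.res H.subtype (Rep.ofAlgebraAutOnUnits K Ω)) τ m b := by
  classical
  have hy0 : y ≠ 0 := by
    rintro rfl
    rw [Algebra.norm_zero] at hy
    exact (π.ne_zero) ((algebraMap K (fixedField H)).injective (by rw [← hy, map_zero]))
  let b : (Rep.ofAlgebraAutOnUnits K Ω).V := Additive.ofMul ((Units.mk0 y hy0) ^ c)
  refine ⟨b, ?_⟩
  let _ : Fintype H := Fintype.ofFinite H
  rw [nrmLin_eq_sum hτ]
  have h1 := pairIso_map_sum (subPair K Ω H) b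
  change (∑ g : H, (Rep.res H.subtype (Rep.ofAlgebraAutOnUnits K Ω)).ρ g b) = _ at h1
  rw [h1]
  have key : ∀ a a' : Additive Ωˣ,
      ((Additive.toMul a : Ωˣ) : Ω) = ((Additive.toMul a' : Ωˣ) : Ω) → a = a' :=
    fun a a' h => Additive.toMul.injective (Units.ext h)
  have h2 := coe_toMul_sum_rho (fixedField H) Ω ((subPair K Ω H).e' b)
  have h3 : ((Additive.toMul (c • baseElt K Ω π : Additive Ωˣ) : Ωˣ) : Ω) =
      algebraMap K Ω π ^ c := by
    change ((Units.map (algebraMap K Ω).toMonoidHom π ^ c : Ωˣ) : Ω) = _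
    rw [Units.val_pow_eq_pow_val]
    rfl
  have h4 : algebraMap (fixedField H) Ω (Algebra.norm (fixedField H)
      ((Additive.toMul ((subPair K Ω H).e' b) : Ωˣ) : Ω)) = algebraMap K Ω π ^ c := by
    change algebraMap (fixedField H) Ω (Algebra.norm (fixedField H)
      (((Units.mk0 y hy0) ^ c : Ωˣ) : Ω)) = _
    rw [Units.val_pow_eq_pow_val, Units.val_mk0, map_pow, hy, map_pow]
    rfl
  exact key _ _ (h3.trans (h4.symm.trans h2.symm))

/-- `G ⧸ N`-norms in `(Additive Ωˣ)^N` are field norms from `Ω^N` to `K`. -/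
lemma exists_norm_eq_of_nrmLin (N : Subgroup (Ω ≃ₐ[K] Ω)) [N.Normal]
    {φ : (Ω ≃ₐ[K] Ω) ⧸ N} {n : ℕ} (hφ : IsGen φ n) (π : Kˣ) (j : ℕ)
    (h : ∃ b : ((Rep.ofAlgebraAutOnUnits K Ω).quotientToInvariants N).V,
      ((j • InvLower.gammaInv (Rep.ofAlgebraAutOnUnits K Ω) N (baseElt K Ω π)
          (rho_baseElt K Ω π) :
          ((Rep.ofAlgebraAutOnUnits K Ω).quotientToInvariants N).ρ.invariants) :
        ((Rep.ofAlgebraAutOnUnits K Ω).quotientToInvariants N).V) =
      nrmLin ((Rep.ofAlgebraAutOnUnits K Ω).quotientToInvariants N) φ n b) :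
    ∃ y : fixedField N, Algebra.norm K y = (π : K) ^ j := by
  classical
  obtain ⟨b, hb⟩ := h
  let _ : Fintype ((Ω ≃ₐ[K] Ω) ⧸ N) := Fintype.ofFinite _
  rw [nrmLin_eq_sum hφ] at hb
  have h1 := pairIso_map_sum (quotPair N) b
  have h2 := coe_toMul_sum_rho K (fixedField N) ((quotPair N).e' b)
  refine ⟨((Additive.toMul ((quotPair N).e' b) : (fixedField N)ˣ) : fixedField N), ?_⟩
  apply (algebraMap K (fixedField N)).injective
  have h5 := h1.symm.trans (congrArg (quotPair N).e' hb.symm)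
  have h6 : ((Additive.toMul ((quotPair N).e'
      ((j • InvLower.gammaInv (Rep.ofAlgebraAutOnUnits K Ω) N (baseElt K Ω π)
          (rho_baseElt K Ω π) :
          ((Rep.ofAlgebraAutOnUnits K Ω).quotientToInvariants N).ρ.invariants) :
        ((Rep.ofAlgebraAutOnUnits K Ω).quotientToInvariants N).V)) : (fixedField N)ˣ) :
        fixedField N) = algebraMap K (fixedField N) ((π : K) ^ j) := by
    apply Subtype.ext
    rw [map_pow]
    change ((Units.map (algebraMap K Ω).toMonoidHom π ^ j : Ωˣ) : Ω) = _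
    rw [Units.val_pow_eq_pow_val]
    rfl
  exact h2.symm.trans ((congrArg (fun a : Additive (fixedField N)ˣ =>
    ((Additive.toMul a : (fixedField N)ˣ) : fixedField N)) h5).trans h6)

/-- **Lower bound, field form.**  `Ω/K` finite Galois, `H, N` normal in `G = Gal(Ω/K)`,
`G ⧸ N` and `H` cyclic, `π ∈ Kˣ` a norm from `Ω` to `Ω^H` whose powers `π^j` are norms from `Ω^N`
only when `|G ⧸ N|` divides `j`.  Then `H²(Gal(Ω^H/K), (Ω^H)ˣ)` contains a class `y` with
`j • y = 0 → |G ⧸ N| ∣ j`. -/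
theorem exists_class_of_order_field (H N : Subgroup (Ω ≃ₐ[K] Ω)) [H.Normal] [N.Normal]
    [IsCyclic H] [IsCyclic ((Ω ≃ₐ[K] Ω) ⧸ N)] (π : Kˣ)
    (hL : ∃ y : Ω, Algebra.norm (fixedField H) y = algebraMap K (fixedField H) π)
    (hM : ∀ j : ℕ, (∃ y : fixedField N, Algebra.norm K y = (π : K) ^ j) →
      Nat.card ((Ω ≃ₐ[K] Ω) ⧸ N) ∣ j) :
    ∃ y : H2 (Rep.ofAlgebraAutOnUnits K (fixedField H)),
      ∀ j : ℕ, j • y = 0 → Nat.card ((Ω ≃ₐ[K] Ω) ⧸ N) ∣ j := by
  obtain ⟨φ, hφ⟩ := exists_isGen (Q := (Ω ≃ₐ[K] Ω) ⧸ N)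
  obtain ⟨τ, hτ⟩ := exists_isGen (Q := H)
  obtain ⟨y0, hy0⟩ := hL
  obtain ⟨y, hy⟩ := InvLower.exists_class_of_order (Rep.ofAlgebraAutOnUnits K Ω) N H hφ
    (baseElt K Ω π) (rho_baseElt K Ω π) (Fermat.Agent.GC.Tate.InfRes2.infRes2 ℤ) hτ
    (isZero_H1_res K Ω H) (isZero_H1_res K Ω N)
    (exists_nrmLin_eq_of_norm H hτ π y0 hy0 _)
    (fun j hj => hM j (exists_norm_eq_of_nrmLin N hφ π j hj))
  refine ⟨((quotPair H).cohIso 2).hom y, fun j hj => hy j ?_⟩
  have hinj : Function.Injective ((quotPair H).cohIso 2).hom :=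
    (ModuleCat.mono_iff_injective _).1 inferInstance
  apply hinj
  rw [map_nsmul, hj, map_zero]

end Main

end Fermat.Agent.GC.Local.InvLowerField
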