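/-
GATE-C / C3 (LOCAL) — INV, helper3.  ASSEMBLY of the local class-formation axiom:
for a finite Galois extension `L/K` of `q`-adic fields, `H²(Gal(L/K), Lˣ)` is CYCLIC of order
exactly `[L:K]`.
* upper bound: helper67's `card_H2_dvd_finrank` (on `InvUpper` + Devissage + InfRes2 + HERBRAND);
* lower bound: `InvLowerField.exists_class_of_order_field`, fed by `LowerData` (the
  field-theoretic input: an overfield `Ω ⊇ L` containing the unramified extension of degree `[L:K]`
  of `K`, over which `π_K` becomes a norm) — supplied by UNRAM (helper26).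
-/
import Mathlib
import Fermat.Agent.GC.Local.InvLowerField
import Fermat.Agent.GC.Local.Herbrand.UpperFinal

set_option autoImplicit false
set_option linter.unusedSectionVars false

open CategoryTheory groupCohomology Rep IntermediateField
open scoped Padic
open Fermat.Agent.GC.Local.GalPair

noncomputable section

namespace Fermat.Agent.GC.Local.InvMain

/-! ### Transport along an isomorphism of top fields -/

section Transport

variable {K L L' : Type} [Field K] [Field L] [Field L'] [Algebra K L] [Algebra K L']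

/-- an isomorphism `L ≃ₐ[K] L'` induces an isomorphism of Galois pairs. -/
def pairOfAlgEquiv (e : L ≃ₐ[K] L') :
    PairIso (Rep.ofAlgebraAutOnUnits K L) (Rep.ofAlgebraAutOnUnits K L') where
  e := AlgEquiv.autCongr e
  e' :=
    { (MulEquiv.toAdditive (Units.mapEquiv e.toMulEquiv) : Additive Lˣ ≃+ Additive L'ˣ) with
      map_smul' := fun c x => by
        have := map_intCast_smul
          (MulEquiv.toAdditive (Units.mapEquiv e.toMulEquiv) :
            Additive Lˣ ≃+ Additive L'ˣ).toAddMonoidHom ℤ ℤ c x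
        simp only [Int.cast_id] at this
        exact this }
  comm g := by
    ext x
    apply Additive.toMul.injective
    apply Units.ext
    change e (g ((Additive.toMul x : Lˣ) : L)) = e (g (e.symm (e ((Additive.toMul x : Lˣ) : L))))
    rw [e.symm_apply_apply]

end Transport

/-! ### The field-theoretic input of the lower bound -/

/-- **LowerData**: there is a finite Galois `Ω/K`, normal subgroups `H, N` of `Gal(Ω/K)` with `H`
and `Gal(Ω/K) ⧸ N` cyclic, `Ω^H ≃ L` over `K`, `|Gal(Ω/K) ⧸ N| = [L:K]`, and `π ∈ Kˣ` which is a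
norm from `Ω` to `Ω^H` while `π^j` is a norm from `Ω^N` to `K` only if `[L:K] ∣ j`.
(For `q`-adic fields: `Ω = L(ζ)`, `ζ` a primitive `(#κ_K^n − 1)`-th root of unity, `n = [L:K]`,
`Ω^N = K(ζ)` unramified of degree `n`, `Ω/L` unramified of degree `e(L/K)`, `π` a uniformiser
of `K`.) -/
def LowerData (K L : Type) [Field K] [Field L] [Algebra K L] : Prop :=
  ∃ (Ω : Type) (_ : Field Ω) (_ : Algebra K Ω) (_ : FiniteDimensional K Ω) (_ : IsGalois K Ω)
    (H N : Subgroup (Ω ≃ₐ[K] Ω)) (_ : H.Normal) (_ : N.Normal) (_ : IsCyclic H)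
    (_ : IsCyclic ((Ω ≃ₐ[K] Ω) ⧸ N)) (π : Kˣ),
    Nonempty (L ≃ₐ[K] fixedField H) ∧
    Nat.card ((Ω ≃ₐ[K] Ω) ⧸ N) = Module.finrank K L ∧
    (∃ y : Ω, Algebra.norm (fixedField H) y = algebraMap K (fixedField H) π) ∧
    (∀ j : ℕ, (∃ y : fixedField N, Algebra.norm K y = (π : K) ^ j) →
      Nat.card ((Ω ≃ₐ[K] Ω) ⧸ N) ∣ j)

/-- the lower bound from `LowerData`. -/
theorem exists_class_of_lowerData {K L : Type} [Field K] [Field L] [Algebra K L]
    (h : LowerData K L) :
    ∃ y : H2 (Rep.ofAlgebraAutOnUnits K L), ∀ j : ℕ, j • y = 0 → Module.finrank K L ∣ j := by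
  obtain ⟨Ω, _, _, _, _, H, N, _, _, _, _, π, ⟨e⟩, hcard, hL, hM⟩ := h
  obtain ⟨y, hy⟩ := InvLowerField.exists_class_of_order_field H N π hL hM
  let ψ := pairOfAlgEquiv e
  refine ⟨(ψ.cohIso 2).inv y, fun j hj => ?_⟩
  rw [← hcard]
  apply hy j
  have hinj : Function.Injective (ψ.cohIso 2).inv :=
    (ModuleCat.mono_iff_injective _).1 inferInstance
  apply hinj
  rw [map_nsmul, hj, map_zero]

/-! ### The main theorem -/

section Main

variable (q : ℕ) [Fact q.Prime] (K L : Type) [Field K] [Field L]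
  [Algebra ℚ_[q] K] [Algebra ℚ_[q] L] [Algebra K L] [IsScalarTower ℚ_[q] K L]
  [FiniteDimensional ℚ_[q] L] [FiniteDimensional K L] [IsGalois K L]

include q

/-- **Local class-formation axiom.** `|H²(Gal(L/K), Lˣ)| = [L:K]`. -/
theorem card_H2_eq_finrank (h : LowerData K L) :
    Nat.card (H2 (Rep.ofAlgebraAutOnUnits K L)) = Module.finrank K L := by
  obtain ⟨hfin, hdvd⟩ := Herbrand.card_H2_dvd_finrank q K L
  obtain ⟨y, hy⟩ := exists_class_of_lowerData h
  refine Nat.dvd_antisymm hdvd ?_
  exact hy _ (card_nsmul_eq_zero' (G := H2 (Rep.ofAlgebraAutOnUnits K L)))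

/-- **Local class-formation axiom.** `H²(Gal(L/K), Lˣ)` is cyclic; more precisely every class `y`
with `(j • y = 0 → [L:K] ∣ j)` generates it. -/
theorem isAddCyclic_H2 (h : LowerData K L) :
    IsAddCyclic (H2 (Rep.ofAlgebraAutOnUnits K L)) := by
  obtain ⟨hfin, hdvd⟩ := Herbrand.card_H2_dvd_finrank q K L
  obtain ⟨y, hy⟩ := exists_class_of_lowerData h
  have hcard := card_H2_eq_finrank q K L h
  refine isAddCyclic_of_addOrderOf_eq_card y ?_
  rw [hcard]
  refine Nat.dvd_antisymm ?_ (hy _ (addOrderOf_nsmul_eq_zero y))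
  rw [← hcard]
  exact addOrderOf_dvd_natCard y

end Main

end Fermat.Agent.GC.Local.InvMain
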