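/-
GATE-C / C3 (LOCAL) — INV, helper3.  The multiplicative group of a finite Galois extension of
`q`-adic fields is a CLASS MODULE in the sense of C2 (`GC/Tate/Defs.lean`): for every subgroup
`H ≤ Gal(L/K)`: `H¹(H, Lˣ) = 0`, `H²(H, Lˣ)` cyclic of order `|H|` generated by `res u`.
Consequently (C2, `GC/Tate/Final.lean`) `H³(H, Lˣ) = 0` for every `H`.
Input: `LowerData` for all pairs of `q`-adic fields (UNRAM, helper26).
-/
import Mathlib
import Fermat.Agent.GC.Local.InvMain
import Fermat.Agent.GC.Tate.Final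

set_option autoImplicit false
set_option linter.unusedSectionVars false

open CategoryTheory groupCohomology Rep IntermediateField
open scoped Padic
open Fermat.Agent.GC.Local.GalPair Fermat.Agent.GC.Local.InvMain

noncomputable section

namespace Fermat.Agent.GC.Local.ClassModuleLocal

/-- `LowerData` for every finite Galois extension of `q`-adic fields (to be supplied by UNRAM). -/
def LowerDataAll (q : ℕ) [Fact q.Prime] : Prop :=
  ∀ (K L : Type) [Field K] [Field L] [Algebra ℚ_[q] K] [Algebra ℚ_[q] L] [Algebra K L]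
    [IsScalarTower ℚ_[q] K L] [FiniteDimensional ℚ_[q] L] [FiniteDimensional K L] [IsGalois K L],
    LowerData K L

variable (q : ℕ) [Fact q.Prime] (hLD : LowerDataAll q) (K L : Type) [Field K] [Field L]
  [Algebra ℚ_[q] K] [Algebra ℚ_[q] L] [Algebra K L] [IsScalarTower ℚ_[q] K L]
  [FiniteDimensional ℚ_[q] L] [FiniteDimensional K L] [IsGalois K L]

include q hLD

/-- `|H²(H, Lˣ)| = |H|` for every subgroup `H ≤ Gal(L/K)`. -/
theorem card_H2_res (H : Subgroup (L ≃ₐ[K] L)) :
    Nat.card (H2 (Rep.res H.subtype (Rep.ofAlgebraAutOnUnits K L))) = Nat.card H := by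
  have := InvUpper.isScalarTower_intermediate (R := ℚ_[q]) (fixedField H)
  have : FiniteDimensional ℚ_[q] (fixedField H) :=
    FiniteDimensional.left ℚ_[q] (fixedField H) L
  have e := ((subPair K L H).cohIso 2).toLinearEquiv.toEquiv
  rw [Nat.card_congr e, card_H2_eq_finrank q (fixedField H) L (hLD (fixedField H) L),
    IntermediateField.finrank_fixedField_eq_card]

/-- a generator of `H²(Gal(L/K), Lˣ)`. -/
theorem exists_fundamental :
    ∃ u : H2 (Rep.ofAlgebraAutOnUnits K L), ∀ j : ℕ, j • u = 0 → Module.finrank K L ∣ j :=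
  exists_class_of_lowerData (hLD K L)

/-- the restriction of a fundamental class generates `H²(H, Lˣ)`. -/
theorem res_fundamental_generates (u : H2 (Rep.ofAlgebraAutOnUnits K L))
    (hu : ∀ j : ℕ, j • u = 0 → Module.finrank K L ∣ j) (H : Subgroup (L ≃ₐ[K] L))
    (x : H2 (Rep.res H.subtype (Rep.ofAlgebraAutOnUnits K L))) :
    ∃ n : ℤ, x = n • (groupCohomology.map H.subtype (𝟙 _) 2).hom u := by
  set r := (groupCohomology.map H.subtype
    (𝟙 (Rep.res H.subtype (Rep.ofAlgebraAutOnUnits K L))) 2).hom u with hr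
  have hcard := card_H2_res q hLD K L H
  have hfin : Finite (H2 (Rep.res H.subtype (Rep.ofAlgebraAutOnUnits K L))) :=
    Nat.finite_of_card_ne_zero (by rw [hcard]; exact Nat.card_pos.ne')
  -- the order of `r` is a multiple of `|H|`
  have hord : Nat.card H ∣ addOrderOf r := by
    have h0 : addOrderOf r • r = 0 := addOrderOf_nsmul_eq_zero r
    have h1 : (groupCohomology.map H.subtype
        (𝟙 (Rep.res H.subtype (Rep.ofAlgebraAutOnUnits K L))) 2).hom (addOrderOf r • u) = 0 := by
      rw [map_nsmul]; exact h0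
    have h2 := Fermat.Agent.GC.Tate.index_nsmul_eq_zero_of_res_eq_zero H
      (Rep.ofAlgebraAutOnUnits K L) 2 (addOrderOf r • u) h1
    rw [← mul_nsmul'] at h2
    have h3 := hu _ h2
    rw [← IsGalois.card_aut_eq_finrank, ← H.card_mul_index] at h3
    have hidx : 0 < H.index := Nat.pos_of_ne_zero Subgroup.FiniteIndex.index_ne_zero
    rw [mul_comm H.index (addOrderOf r)] at h3
    exact Nat.dvd_of_mul_dvd_mul_right hidx h3
  have heq : addOrderOf r = Nat.card (H2 (Rep.res H.subtype (Rep.ofAlgebraAutOnUnits K L))) := by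
    rw [hcard]
    refine Nat.dvd_antisymm ?_ hord
    rw [← hcard]
    exact addOrderOf_dvd_natCard r
  have hmem : x ∈ AddSubgroup.zmultiples r := by
    have htop : AddSubgroup.zmultiples r = ⊤ := by
      apply AddSubgroup.eq_top_of_card_eq
      rw [Nat.card_zmultiples, heq]
    rw [htop]; trivial
  obtain ⟨n, hn⟩ := AddSubgroup.mem_zmultiples_iff.1 hmem
  exact ⟨n, hn.symm⟩

/-- **`Lˣ` is a class module** for `Gal(L/K)`. -/
def localClassModule : Fermat.Agent.GC.Tate.ClassModule (L ≃ₐ[K] L) where
  C := Rep.ofAlgebraAutOnUnits K L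
  u := (exists_fundamental q hLD K L).choose
  h1 H := ModuleCat.isZero_iff_subsingleton.1 (InvLowerField.isZero_H1_res K L H)
  h2_card H := card_H2_res q hLD K L H
  h2_gen H x := res_fundamental_generates q hLD K L _
    (exists_fundamental q hLD K L).choose_spec H x

/-- **local `H³ = 0`**: `H³(H, Lˣ) = 0` for every subgroup `H ≤ Gal(L/K)`. -/
theorem isZero_H3_res (H : Subgroup (L ≃ₐ[K] L)) :
    Limits.IsZero (groupCohomology (Rep.res H.subtype (Rep.ofAlgebraAutOnUnits K L)) 3) :=
  Fermat.Agent.GC.Tate.ClassModule.isZero_H3 (localClassModule q hLD K L) H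

end Fermat.Agent.GC.Local.ClassModuleLocal
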