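import Mathlib
import Fermat.Agent.GC.Local.UnitBall

/-!
# GATE-C / C3-STRUCT-A (part 3): integrality, freeness over `ℤ_[q]`, and `e · f = n`

For an abstract finite extension `L` of `ℚ_[q]` and `O := padicVS q L`:
* `O` is the integral closure of `ℤ_[q]` in `L`, a finite free `ℤ_[q]`-module of rank `[L : ℚ_q]`;
* `ramIdx q L` is the exponent `e` with `q O = 𝓂 ^ e`;
* `(#κ) ^ e = q ^ [L : ℚ_q]`.
-/

open scoped Padic NNReal Topology
open Polynomial IntermediateField

namespace Fermat.Agent.GC.Local

section Integral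

variable (q : ℕ) [Fact q.Prime] (L : Type*) [Field L] [Algebra ℚ_[q] L]

/-- The structure map `ℤ_[q] → L`. -/
noncomputable def padicIntToField : ℤ_[q] →+* L :=
  (algebraMap ℚ_[q] L).comp PadicInt.Coe.ringHom

lemma padicIntToField_apply (a : ℤ_[q]) : padicIntToField q L a = algebraMap ℚ_[q] L (a : ℚ_[q]) :=
  rfl

variable [FiniteDimensional ℚ_[q] L]

lemma padicIntToField_mem (a : ℤ_[q]) : padicIntToField q L a ∈ padicVS q L := by
  rw [mem_padicVS_iff, padicIntToField_apply, spectralNorm_extends]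
  exact PadicInt.norm_le_one a

/-- `padicVS q L` is a `ℤ_[q]`-algebra. -/
noncomputable instance padicVS_algebra : Algebra ℤ_[q] (padicVS q L) :=
  RingHom.toAlgebra ((padicIntToField q L).codRestrict (padicVS q L).toSubring
    (fun a => padicIntToField_mem q L a))

lemma padicVS_algebraMap_coe (a : ℤ_[q]) :
    ((algebraMap ℤ_[q] (padicVS q L) a : padicVS q L) : L) = algebraMap ℚ_[q] L (a : ℚ_[q]) :=
  rfl

/-- Local algebra structure `ℤ_[q] → L` (not an instance). -/
@[reducible] noncomputable def padicIntAlgebra (q : ℕ) [Fact q.Prime] (L : Type*) [Field L]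
    [Algebra ℚ_[q] L] : Algebra ℤ_[q] L := (padicIntToField q L).toAlgebra

lemma padicInt_isScalarTower (q : ℕ) [Fact q.Prime] (L : Type*) [Field L] [Algebra ℚ_[q] L] :
    letI := padicIntAlgebra q L
    IsScalarTower ℤ_[q] ℚ_[q] L := by
  let _ := padicIntAlgebra q L
  exact IsScalarTower.of_algebraMap_eq (fun a => rfl)

/-- Elements integral over `ℤ_[q]` lie in the valuation ring. -/
theorem mem_padicVS_of_isIntegralElem {x : L} (hx : (padicIntToField q L).IsIntegralElem x) :
    x ∈ padicVS q L := by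
  let _ := padicIntAlgebra q L
  have := padicInt_isScalarTower q L
  have hx' : IsIntegral ℤ_[q] x := hx
  have hmin := minpoly.isIntegrallyClosed_eq_field_fractions' ℚ_[q] hx'
  rw [mem_padicVS_iff, spectralNorm,
    spectralValue_le_one_iff (minpoly.monic (Algebra.IsIntegral.isIntegral x)), hmin]
  intro n
  rw [coeff_map]
  exact PadicInt.norm_le_one _

/-- Elements of the valuation ring are integral over `ℤ_[q]`. -/
theorem isIntegralElem_of_mem_padicVS {x : L} (hx : x ∈ padicVS q L) :
    (padicIntToField q L).IsIntegralElem x := by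
  have hmon : (minpoly ℚ_[q] x).Monic := minpoly.monic (Algebra.IsIntegral.isIntegral x)
  rw [mem_padicVS_iff, spectralNorm, spectralValue_le_one_iff hmon] at hx
  have hl : minpoly ℚ_[q] x ∈ Polynomial.lifts (PadicInt.Coe.ringHom (p := q)) := by
    rw [Polynomial.lifts_iff_coeff_lifts]
    intro n
    exact ⟨⟨_, hx n⟩, rfl⟩
  obtain ⟨P, hP, -, hPm⟩ := Polynomial.lifts_and_degree_eq_and_monic hl hmon
  refine ⟨P, hPm, ?_⟩
  rw [padicIntToField, ← Polynomial.eval₂_map, hP]
  exact minpoly.aeval ℚ_[q] x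

/-- `padicVS q L` is exactly the set of elements of `L` integral over `ℤ_[q]`. -/
theorem mem_padicVS_iff_isIntegralElem {x : L} :
    x ∈ padicVS q L ↔ (padicIntToField q L).IsIntegralElem x :=
  ⟨isIntegralElem_of_mem_padicVS q L, mem_padicVS_of_isIntegralElem q L⟩

lemma padicVS_isScalarTower : letI := padicIntAlgebra q L
    IsScalarTower ℤ_[q] (padicVS q L) L := by
  let _ := padicIntAlgebra q L
  exact IsScalarTower.of_algebraMap_eq (fun a => rfl)

/-- `padicVS q L` is the integral closure of `ℤ_[q]` in `L`. -/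
theorem padicVS_isIntegralClosure : letI := padicIntAlgebra q L
    IsIntegralClosure (padicVS q L) ℤ_[q] L := by
  let _ := padicIntAlgebra q L
  refine ⟨Subtype.val_injective, fun {x} => ⟨fun hx => ?_, ?_⟩⟩
  · exact ⟨⟨x, mem_padicVS_of_isIntegralElem q L hx⟩, rfl⟩
  · rintro ⟨y, rfl⟩
    exact isIntegralElem_of_mem_padicVS q L y.2

instance padicVS_module_finite : Module.Finite ℤ_[q] (padicVS q L) := by
  let _ := padicIntAlgebra q L
  have := padicInt_isScalarTower q L
  have := padicVS_isScalarTower q L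
  have := padicVS_isIntegralClosure q L
  exact IsIntegralClosure.finite ℤ_[q] ℚ_[q] L (padicVS q L)

instance padicVS_module_free : Module.Free ℤ_[q] (padicVS q L) := by
  let _ := padicIntAlgebra q L
  have := padicInt_isScalarTower q L
  have := padicVS_isScalarTower q L
  have := padicVS_isIntegralClosure q L
  have : Module.IsTorsionFree ℤ_[q] L := .trans_faithfulSMul ℤ_[q] ℚ_[q] L
  exact IsIntegralClosure.module_free ℤ_[q] ℚ_[q] L (padicVS q L)

/-- The valuation ring is a free `ℤ_[q]`-module of rank `[L : ℚ_q]`. -/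
theorem finrank_padicVS : Module.finrank ℤ_[q] (padicVS q L) = Module.finrank ℚ_[q] L := by
  let _ := padicIntAlgebra q L
  have := padicInt_isScalarTower q L
  have := padicVS_isScalarTower q L
  have := padicVS_isIntegralClosure q L
  have : Module.IsTorsionFree ℤ_[q] L := .trans_faithfulSMul ℤ_[q] ℚ_[q] L
  exact IsIntegralClosure.rank ℤ_[q] ℚ_[q] L (padicVS q L)

end Integral

section DVRCard

open IsLocalRing

/-- In a DVR with finite residue field, `#(R ⧸ 𝓂 ^ n) = (#κ) ^ n`. -/
theorem card_quotient_maximalIdeal_pow (R : Type*) [CommRing R] [IsDomain R]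
    [IsDiscreteValuationRing R] [Finite (ResidueField R)] (n : ℕ) :
    Nat.card (R ⧸ maximalIdeal R ^ n) = Nat.card (ResidueField R) ^ n := by
  induction n with
  | zero =>
    simp only [pow_zero, Ideal.one_eq_top]
    exact Nat.card_unique
  | succ n ih =>
    have hle : maximalIdeal R ^ (n + 1) ≤ maximalIdeal R ^ n := Ideal.pow_le_pow_right (by simp)
    have e1 := (DoubleQuot.quotQuotEquivQuotOfLE hle).toEquiv
    have e2 : ResidueField R ≃
        (Ideal.map (Ideal.Quotient.mk (maximalIdeal R ^ (n + 1))) (maximalIdeal R ^ n)) :=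
      (Ideal.quotEquivPowQuotPowSuccEquiv (IsPrincipalIdealRing.principal (maximalIdeal R))
        (IsDiscreteValuationRing.not_a_field R) n).trans
        (Ideal.powQuotPowSuccEquivMapMkPowSuccPow _ n)
    have h3 := AddSubgroup.card_eq_card_quotient_mul_card_addSubgroup
      (Submodule.toAddSubgroup
        (Ideal.map (Ideal.Quotient.mk (maximalIdeal R ^ (n + 1))) (maximalIdeal R ^ n)))
    calc Nat.card (R ⧸ maximalIdeal R ^ (n + 1))
        = Nat.card (R ⧸ maximalIdeal R ^ n) * Nat.card (ResidueField R) := by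
          rw [h3]
          congr 1
          · exact Nat.card_congr e1
          · exact (Nat.card_congr e2).symm
      _ = Nat.card (ResidueField R) ^ (n + 1) := by rw [ih, pow_succ]

end DVRCard

section Ramification

open IsLocalRing

variable (q : ℕ) [Fact q.Prime] (L : Type*) [Field L] [Algebra ℚ_[q] L]
  [FiniteDimensional ℚ_[q] L]

/-- The prime `q` as an element of the valuation ring. -/
noncomputable def primeElt : padicVS q L := algebraMap ℤ_[q] (padicVS q L) (q : ℤ_[q])

lemma primeElt_coe : ((primeElt q L : padicVS q L) : L) = algebraMap ℚ_[q] L (q : ℚ_[q]) := by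
  rw [primeElt, padicVS_algebraMap_coe]; simp

lemma primeElt_ne_zero : primeElt q L ≠ 0 := by
  intro h
  have h1 := congrArg (Subtype.val) h
  rw [primeElt_coe] at h1
  have h2 : (algebraMap ℚ_[q] L) (q : ℚ_[q]) = 0 := h1
  rw [map_eq_zero] at h2
  have : (q : ℚ_[q]) ≠ 0 := by exact_mod_cast (Fact.out : q.Prime).ne_zero
  exact this h2

lemma map_maximalIdeal_padicInt :
    Ideal.map (algebraMap ℤ_[q] (padicVS q L)) (maximalIdeal ℤ_[q]) = Ideal.span {primeElt q L} := by
  rw [PadicInt.maximalIdeal_eq_span_p, Ideal.map_span, Set.image_singleton]; rfl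

/-- `#(O ⧸ q O) = q ^ [L : ℚ_q]`. -/
theorem card_quotient_span_primeElt :
    Nat.card (padicVS q L ⧸ Ideal.span {primeElt q L}) = q ^ Module.finrank ℚ_[q] L := by
  have h1 := IsLocalRing.finrank_quotient_map (R := ℤ_[q]) (S := padicVS q L)
  rw [finrank_padicVS] at h1
  let _ := Ideal.Quotient.field (maximalIdeal ℤ_[q])
  have hfin : Module.Finite (ℤ_[q] ⧸ maximalIdeal ℤ_[q])
      (padicVS q L ⧸ Ideal.map (algebraMap ℤ_[q] (padicVS q L)) (maximalIdeal ℤ_[q])) :=
    Module.Finite.of_restrictScalars_finite ℤ_[q] _ _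
  have h2 := Module.natCard_eq_pow_finrank (K := ℤ_[q] ⧸ maximalIdeal ℤ_[q])
    (V := padicVS q L ⧸ Ideal.map (algebraMap ℤ_[q] (padicVS q L)) (maximalIdeal ℤ_[q]))
  rw [h1] at h2
  have h3 : Nat.card (ℤ_[q] ⧸ maximalIdeal ℤ_[q]) = q := by
    have e : (ℤ_[q] ⧸ maximalIdeal ℤ_[q]) ≃ ZMod q := (PadicInt.residueField (p := q)).toEquiv
    rw [Nat.card_congr e, Nat.card_eq_fintype_card, ZMod.card]
  rw [h3, map_maximalIdeal_padicInt] at h2
  exact h2

lemma spectralNorm_primeElt : spectralNorm ℚ_[q] L (primeElt q L : L) = (q : ℝ)⁻¹ := by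
  rw [primeElt_coe, spectralNorm_extends]; exact Padic.norm_p

lemma primeElt_mem_maximalIdeal : primeElt q L ∈ maximalIdeal (padicVS q L) := by
  rw [← ValuationSubring.coe_mem_nonunits_iff, mem_nonunits_padicVS_iff, spectralNorm_primeElt]
  have hq : (1 : ℝ) < q := by exact_mod_cast (Fact.out : q.Prime).one_lt
  exact inv_lt_one_of_one_lt₀ hq

lemma exists_ramIdx :
    ∃ e : ℕ, Ideal.span {primeElt q L} = maximalIdeal (padicVS q L) ^ e := by
  have := padicVS_isDiscreteValuationRing q L
  obtain ⟨ϖ, hϖ⟩ := IsDiscreteValuationRing.exists_irreducible (padicVS q L)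
  obtain ⟨n, hn⟩ := IsDiscreteValuationRing.ideal_eq_span_pow_irreducible
    (s := Ideal.span {primeElt q L}) (by simpa using primeElt_ne_zero q L) hϖ
  exact ⟨n, by rw [hn, hϖ.maximalIdeal_eq, Ideal.span_singleton_pow]⟩

/-- The (absolute) ramification index of `L / ℚ_q`: `q O = 𝓂 ^ e`. -/
noncomputable def ramIdx : ℕ := (exists_ramIdx q L).choose

lemma span_primeElt_eq :
    Ideal.span {primeElt q L} = maximalIdeal (padicVS q L) ^ ramIdx q L :=
  (exists_ramIdx q L).choose_spec

lemma ramIdx_pos : 0 < ramIdx q L := by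
  rw [Nat.pos_iff_ne_zero]
  intro h
  have h1 := span_primeElt_eq q L
  rw [h, pow_zero, Ideal.one_eq_top, Ideal.span_singleton_eq_top] at h1
  exact (IsLocalRing.mem_maximalIdeal _).mp (primeElt_mem_maximalIdeal q L) h1

/-- **`(#κ) ^ e = q ^ [L : ℚ_q]`**. -/
theorem card_residueField_pow_ramIdx :
    Nat.card (ResidueField (padicVS q L)) ^ ramIdx q L = q ^ Module.finrank ℚ_[q] L := by
  have := padicVS_isDiscreteValuationRing q L
  have := padicVS_finite_residueField q L
  rw [← card_quotient_maximalIdeal_pow, ← span_primeElt_eq, card_quotient_span_primeElt]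

lemma exists_resDeg : ∃ f : ℕ, Nat.card (ResidueField (padicVS q L)) = q ^ f := by
  have h := card_residueField_pow_ramIdx q L
  have hdvd : Nat.card (ResidueField (padicVS q L)) ∣ q ^ Module.finrank ℚ_[q] L := by
    rw [← h]; exact dvd_pow_self _ (ramIdx_pos q L).ne'
  obtain ⟨f, -, hf⟩ := (Nat.dvd_prime_pow (Fact.out : q.Prime)).mp hdvd
  exact ⟨f, hf⟩

/-- The (absolute) residue degree of `L / ℚ_q`: `#κ = q ^ f`. -/
noncomputable def resDeg : ℕ := (exists_resDeg q L).choose

theorem card_residueField_eq : Nat.card (ResidueField (padicVS q L)) = q ^ resDeg q L :=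
  (exists_resDeg q L).choose_spec

/-- **`e · f = [L : ℚ_q]`**. -/
theorem ramIdx_mul_resDeg : ramIdx q L * resDeg q L = Module.finrank ℚ_[q] L := by
  have h := card_residueField_pow_ramIdx q L
  rw [card_residueField_eq, ← pow_mul] at h
  have := Nat.pow_right_injective (Fact.out : q.Prime).two_le h
  rw [mul_comm]; exact this


lemma spectralNorm_unit (u : (padicVS q L)ˣ) :
    spectralNorm ℚ_[q] L ((u : padicVS q L) : L) = 1 := by
  apply le_antisymm
  · exact (mem_padicVS_iff q L).mp (u : padicVS q L).2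
  · by_contra h
    rw [not_le] at h
    have h1 : ((u : padicVS q L) : L) ∈ (padicVS q L).nonunits :=
      (mem_nonunits_padicVS_iff q L).mpr h
    rw [ValuationSubring.coe_mem_nonunits_iff, IsLocalRing.mem_maximalIdeal] at h1
    exact h1 u.isUnit

/-- Any uniformiser `ϖ` of `L` satisfies `‖ϖ‖ ^ e = 1/q`. -/
theorem spectralNorm_irreducible_pow_ramIdx {ϖ : padicVS q L} (hϖ : Irreducible ϖ) :
    spectralNorm ℚ_[q] L (ϖ : L) ^ ramIdx q L = (q : ℝ)⁻¹ := by
  have := padicVS_isDiscreteValuationRing q L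
  have h1 := span_primeElt_eq q L
  rw [hϖ.maximalIdeal_eq, Ideal.span_singleton_pow,
    Ideal.span_singleton_eq_span_singleton] at h1
  obtain ⟨u, hu⟩ := h1
  have h2 : ((primeElt q L : padicVS q L) : L) * ((u : padicVS q L) : L) =
      (ϖ : L) ^ ramIdx q L := by
    have := congrArg (Subtype.val) hu
    simpa using this
  have hmul : ∀ a b : L, spectralNorm ℚ_[q] L (a * b) =
      spectralNorm ℚ_[q] L a * spectralNorm ℚ_[q] L b := fun a b => by
    simpa only [spectralMulAlgNorm_def] using map_mul (spectralMulAlgNorm ℚ_[q] L) a b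
  have h3 := congrArg (spectralNorm ℚ_[q] L) h2
  rw [hmul, spectralNorm_unit, mul_one, spectralNorm_primeElt] at h3
  rw [h3]
  exact ((isPowMul_spectralNorm (K := ℚ_[q]) (L := L)) _ (ramIdx_pos q L)).symm

/-- Uniqueness of the ramification index. -/
theorem ramIdx_eq_of_span_eq {e : ℕ}
    (h : Ideal.span {primeElt q L} = maximalIdeal (padicVS q L) ^ e) : e = ramIdx q L := by
  have := padicVS_isDiscreteValuationRing q L
  have h1 := (span_primeElt_eq q L).symm.trans h
  exact ((Ideal.pow_right_strictAnti (maximalIdeal (padicVS q L))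
    (IsDiscreteValuationRing.not_a_field _) (Ideal.IsPrime.ne_top inferInstance)).injective h1).symm

end Ramification

end Fermat.Agent.GC.Local
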