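import Mathlib
import Fermat.Agent.GC.Local.Ramification

/-!
# GATE-C / C3-STRUCT-A (part 4): `e · f = n` in cardinality form, consumer shapes

`(#κ) ^ e = q ^ [L : ℚ_q]` whenever `q = u · ϖ ^ e` in the valuation ring, for `padicVS q L`
(abstract `L`), for any valuation subring equal to it, and for `unitBallVS E` (concrete `E`).
-/

open scoped Padic NNReal Topology
open Polynomial IntermediateField IsLocalRing

namespace Fermat.Agent.GC.Local

section

variable (q : ℕ) [Fact q.Prime] (L : Type*) [Field L] [Algebra ℚ_[q] L]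
  [FiniteDimensional ℚ_[q] L]

lemma natCast_eq_primeElt : ((q : ℕ) : padicVS q L) = primeElt q L := by
  rw [primeElt, map_natCast]

/-- If `q = u · ϖ ^ e` with `ϖ` a uniformiser and `u` a unit, then `e` is the ramification index. -/
theorem eq_ramIdx_of_natCast_eq {ϖ : padicVS q L} (hϖ : Irreducible ϖ) (u : (padicVS q L)ˣ)
    (e : ℕ) (h : ((q : ℕ) : padicVS q L) = u * ϖ ^ e) : e = ramIdx q L := by
  have := padicVS_isDiscreteValuationRing q L
  apply ramIdx_eq_of_span_eq
  rw [← natCast_eq_primeElt, h, hϖ.maximalIdeal_eq, Ideal.span_singleton_pow,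
    Ideal.span_singleton_eq_span_singleton]
  exact (associated_unit_mul_left _ _ u.isUnit)

/-- **`(#κ) ^ e = q ^ [L : ℚ_q]`** for `q = u · ϖ ^ e` (helper61's requested shape). -/
theorem card_residueField_pow_of_natCast_eq {ϖ : padicVS q L} (hϖ : Irreducible ϖ)
    (u : (padicVS q L)ˣ) (e : ℕ) (h : ((q : ℕ) : padicVS q L) = u * ϖ ^ e) :
    Nat.card (ResidueField (padicVS q L)) ^ e = q ^ Module.finrank ℚ_[q] L := by
  rw [eq_ramIdx_of_natCast_eq q L hϖ u e h]
  exact card_residueField_pow_ramIdx q L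

/-- The same for any valuation subring of `L` that equals `padicVS q L`. -/
theorem card_residueField_pow_of_eq_padicVS (O : ValuationSubring L) (hO : O = padicVS q L)
    {ϖ : O} (hϖ : Irreducible ϖ) (u : Oˣ) (e : ℕ) (h : ((q : ℕ) : O) = u * ϖ ^ e) :
    Nat.card (ResidueField O) ^ e = q ^ Module.finrank ℚ_[q] L := by
  subst hO
  exact card_residueField_pow_of_natCast_eq q L hϖ u e h

/-- `#(O ⧸ q O) = q ^ [L : ℚ_q]` for any valuation subring equal to `padicVS q L`. -/
theorem card_quotient_span_natCast_of_eq_padicVS (O : ValuationSubring L)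
    (hO : O = padicVS q L) :
    Nat.card (O ⧸ Ideal.span {((q : ℕ) : O)}) = q ^ Module.finrank ℚ_[q] L := by
  subst hO
  rw [natCast_eq_primeElt]
  exact card_quotient_span_primeElt q L

end

section Concrete

variable (q : ℕ) [Fact q.Prime] (E : IntermediateField ℚ_[q] (PadicAlgCl q))
  [FiniteDimensional ℚ_[q] E]

/-- Concrete form: `O := unitBallVS E` for a finite `E ⊆ PadicAlgCl q`. -/
theorem card_residueField_unitBallVS_pow {ϖ : unitBallVS E} (hϖ : Irreducible ϖ)
    (u : (unitBallVS E)ˣ) (e : ℕ) (h : ((q : ℕ) : unitBallVS E) = u * ϖ ^ e) :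
    Nat.card (ResidueField (unitBallVS E)) ^ e = q ^ Module.finrank ℚ_[q] E :=
  card_residueField_pow_of_eq_padicVS q E (unitBallVS E) (padicVS_eq_unitBallVS q E).symm hϖ u e h

/-- Concrete form: `#(O ⧸ q O) = q ^ [E : ℚ_q]` for `O := unitBallVS E`. -/
theorem card_quotient_unitBallVS_span_natCast :
    Nat.card (unitBallVS E ⧸ Ideal.span {((q : ℕ) : unitBallVS E)}) =
      q ^ Module.finrank ℚ_[q] E :=
  card_quotient_span_natCast_of_eq_padicVS q E (unitBallVS E) (padicVS_eq_unitBallVS q E).symm

end Concrete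

end Fermat.Agent.GC.Local
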