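/-
GATE-C / C3 (COR-INJ), local instance in SUBGROUP language (helper21), on top of `CorInjAbs.lean`.

For a finite extension `K/ℚ_q`, a Galois extension `Ω/K` (in practice the algebraic closure) and an
OPEN subgroup `S ≤ Gal(Ω/K)` (e.g. `S = E.fixingSubgroup`, `E/K` finite, NOT necessarily Galois):

* `HlcResS_two_unitsRep_surjective` : `res : Hlc²(Gal(Ω/K), Ωˣ) → Hlc²(S, Ωˣ)` is surjective;
* `HlcResS_two_unitsRep_eq_zero`    : `res` kills the `[G:S]`-torsion;
* **`HlcCor_two_unitsRep_injective`** : `HlcCor : Hlc²(S, Ωˣ) → Hlc²(Gal(Ω/K), Ωˣ)` is INJECTIVE.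

Finite-level inputs: helper67 `Herbrand.exists_zsmul_res_of_card` / `card_H2_eq_finrank` and
helper26 `Unram.lowerInput` / `local_card_H2_res` (the local class-formation counting).
-/
import Mathlib
import Fermat.Agent.GC.Local.CorInjAbs
import Fermat.Agent.GC.Local.Unram.LocalCFT

set_option autoImplicit false

open scoped Padic
open CategoryTheory IntermediateField groupCohomology

noncomputable section

namespace Fermat.Agent.GC.Local.CorInjFinal

open Fermat.Agent.GC.Prof Fermat.Agent.GC.Local.Abs Fermat.Agent.GC.Tate Fermat.Agent.GC.Local.CorInj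

/-! ### Finite level: counting ⟹ `FiniteLevelHyp` -/

section Counting

variable {G : Type} [Group G] [Finite G]

/-- If `u ∈ H²(G, C)` has order `|G| = |H²(G, C)|` and `|H²(V, C)| = |V|`, then
`res : H²(G, C) → H²(V, C)` is surjective and kills the `[G:V]`-torsion. -/
theorem res_surjective_and_kills (C : Rep ℤ G) (u : H2 C) (hu : addOrderOf u = Nat.card G)
    (hcardG : Nat.card (H2 C) = Nat.card G) (V : Subgroup G)
    (hcardV : Nat.card (H2 (resSub C V)) = Nat.card V) :
    Function.Surjective (resH2 C V) ∧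
      ∀ y : H2 C, V.index • y = 0 → (resH2 C V) y = 0 := by
  refine ⟨fun x => ?_, fun y hy => ?_⟩
  · obtain ⟨n, hn⟩ := Herbrand.exists_zsmul_res_of_card C u hu V hcardV x
    exact ⟨n • u, by rw [hn]; exact map_zsmul (resH2 C V).hom n u⟩
  · have hfin : Finite (H2 C) :=
      Nat.finite_of_card_ne_zero (by rw [hcardG]; exact Nat.card_pos.ne')
    have htop : AddSubgroup.zmultiples u = ⊤ := by
      rw [← AddSubgroup.card_eq_iff_eq_top, Nat.card_zmultiples, hu, hcardG]
    have hgen : ∀ y : H2 C, ∃ j : ℤ, y = j • u := by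
      intro y
      have hy : y ∈ AddSubgroup.zmultiples u := by rw [htop]; trivial
      obtain ⟨j, hj⟩ := AddSubgroup.mem_zmultiples_iff.1 hy
      exact ⟨j, hj.symm⟩
    exact map_eq_zero_of_nsmul_eq_zero (resH2 C V).hom.toAddMonoidHom u hgen (Nat.card V) V.index
      Subgroup.index_ne_zero_of_finite (by rw [hu, V.card_mul_index])
      (fun z => by rw [← hcardV]; exact card_nsmul_eq_zero') y hy

end Counting

/-! ### The local case -/

section Local

variable (q : ℕ) [Fact q.Prime] {K Ω : Type} [Field K] [Field Ω] [Algebra ℚ_[q] K]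
  [Algebra ℚ_[q] Ω] [Algebra K Ω] [IsScalarTower ℚ_[q] K Ω] [FiniteDimensional ℚ_[q] K]
  [IsGalois K Ω] {S : Subgroup (Ω ≃ₐ[K] Ω)}

include q

/-- the finite-level input holds at every finite Galois level `N/K` with `Gal(Ω/N) ≤ S`. -/
theorem finiteLevelHyp_local (N : IntermediateField K Ω) [FiniteDimensional K N] [IsGalois K N]
    (hNS : N.fixingSubgroup ≤ S) : FiniteLevelHyp S N := by
  have hfdN : FiniteDimensional ℚ_[q] N := Module.Finite.trans K N
  obtain ⟨u, hu⟩ := Unram.lowerInput q K N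
  have hcardG : Nat.card (H2 (Rep.ofAlgebraAutOnUnits K N)) = Nat.card (N ≃ₐ[K] N) := by
    rw [Herbrand.card_H2_eq_finrank (Unram.lowerInput q) K N, IsGalois.card_aut_eq_finrank]
  have hu' : addOrderOf u = Nat.card (N ≃ₐ[K] N) := by
    rw [hu, IsGalois.card_aut_eq_finrank]
  have hidx : (imS K Ω S N).index = S.index := by
    refine Subgroup.index_map_eq S (resN_surjective K N Ω) ?_
    intro s hs
    exact hNS ((mem_fixingSubgroup_iff_resN N).2 (MonoidHom.mem_ker.1 hs))
  have := res_surjective_and_kills (Rep.ofAlgebraAutOnUnits K N) u hu' hcardG (imS K Ω S N)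
    (Unram.local_card_H2_res q K N (imS K Ω S N))
  rw [hidx] at this
  exact this

/-- `res : Hlc²(Gal(Ω/K), Ωˣ) → Hlc²(S, Ωˣ)` is surjective (`S` open). -/
theorem HlcResS_two_unitsRep_surjective (hS : IsOpenSub (galLevels K Ω) S) :
    Function.Surjective (HlcResS (S := S) (𝒰 := galLevels K Ω) (unitsRep K Ω) 2) :=
  HlcResS_two_surjective hS fun N _ _ hNS => finiteLevelHyp_local q N hNS

/-- `res : Hlc²(Gal(Ω/K), Ωˣ) → Hlc²(S, Ωˣ)` kills the `[G:S]`-torsion (`S` open). -/
theorem HlcResS_two_unitsRep_eq_zero (hS : IsOpenSub (galLevels K Ω) S)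
    (x : Hlc (galLevels K Ω) (unitsRep K Ω) 2) (hx : S.index • x = 0) :
    HlcResS (S := S) (𝒰 := galLevels K Ω) (unitsRep K Ω) 2 x = 0 :=
  HlcResS_two_eq_zero_of_index_nsmul hS (fun N _ _ hNS => finiteLevelHyp_local q N hNS) x hx

/-- **(COR-INJ)**: for a `q`-adic field `K` and an open subgroup `S ≤ Gal(Ω/K)`, the corestriction
`Hlc²(S, Ωˣ) → Hlc²(Gal(Ω/K), Ωˣ)` is injective. -/
theorem HlcCor_two_unitsRep_injective (hS : IsOpenSub (galLevels K Ω) S) [S.FiniteIndex]
    [IsDiscrete (galLevels K Ω) (Rep.coind S.subtype (unitsS K Ω S))] :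
    Function.Injective (HlcCor (unitsRep K Ω) hS 2) :=
  HlcCor_two_injective_of_finiteLevel hS fun N _ _ hNS => finiteLevelHyp_local q N hNS

end Local

end Fermat.Agent.GC.Local.CorInjFinal
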