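/-
GATE-C / C3 (COR-INJ), `μ_p` and `ZMod p` forms (helper21).

* generic transfer of injectivity of `HlcCor`:
  - `HlcCor_injective_of_map_injective` : along a coefficient map `φ : A ⟶ B` which is injective on
    `Hlcⁿ(S, -)` (helper26 `HlcCor_HlcMap_apply`);
  - `HlcCor_injective_of_addEquiv` : along an additive equivariant equivalence of coefficients over
    possibly different rings (helper5 `HlcAdd_HlcCor`);
* Hilbert 90 over an open subgroup: `subsingleton_Hlc_one_unitsS` (`Hlc¹(S, Ωˣ) = 0`), any field;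
* `HlcMap_muι_two_res_injective` : `Hlc²(S, μ_p) → Hlc²(S, Ωˣ)` is injective;
* **`HlcCor_two_muRep_injective`** : for a `q`-adic field `K` and `S ≤ Gal(Ω/K)` open, the
  corestriction `Hlc²(S, μ_p) → Hlc²(Gal(Ω/K), μ_p)` is injective;
* **`HlcCor_two_injective_of_muEquiv`** : the same for any `Rep k' G` additively and equivariantly
  equivalent to `μ_p` (e.g. `chiRep χ_cyc` over `ZMod p`).
-/
import Mathlib
import Fermat.Agent.GC.Local.CorInjFinal
import Fermat.Agent.GC.Local.CorInj
import Fermat.Agent.GC.Local.Abs.Kummer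
import Fermat.Agent.GC.Local.GalPair
import Fermat.Agent.GC.Prof.CoeffChangeCup

set_option autoImplicit false

open scoped Padic
open CategoryTheory IntermediateField groupCohomology

noncomputable section

namespace Fermat.Agent.GC.Local.CorInjMu

open Fermat.Agent.GC.Prof Fermat.Agent.GC.Local.Abs Fermat.Agent.GC.Local.CorInj
  Fermat.Agent.GC.KumH

universe u

/-! ### Generic transfer of injectivity -/

section Transfer

variable {k k' G : Type u} [CommRing k] [CommRing k'] [Group G] {𝒰 : LevelSystem G}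
  {S : Subgroup G} [S.FiniteIndex] (hS : IsOpenSub 𝒰 S)

/-- If `HlcCor` is injective for `B` and `φ : A ⟶ B` is injective on `Hlcⁿ(S, -)`, then `HlcCor`
is injective for `A`. -/
theorem HlcCor_injective_of_map_injective {A B : Rep.{u} k G} [IsDiscrete 𝒰 A] [IsDiscrete 𝒰 B]
    [IsDiscrete (𝒰.comap S.subtype) (Rep.res S.subtype A)]
    [IsDiscrete (𝒰.comap S.subtype) (Rep.res S.subtype B)]
    [IsDiscrete 𝒰 (Rep.coind S.subtype (Rep.res S.subtype A))]
    [IsDiscrete 𝒰 (Rep.coind S.subtype (Rep.res S.subtype B))]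
    (φ : A ⟶ B) (n : ℕ) (hB : Function.Injective (HlcCor B hS n))
    (hφ : Function.Injective
      (HlcMap (𝒰.comap S.subtype) ((Rep.resFunctor S.subtype).map φ) n)) :
    Function.Injective (HlcCor A hS n) := by
  rw [injective_iff_map_eq_zero]
  intro x hx
  have h1 := HlcCor_HlcMap_apply hS φ n x
  rw [hx, map_zero] at h1
  have h2 := hB (h1.trans (map_zero _).symm)
  exact hφ (h2.trans (map_zero _).symm)

/-- Injectivity of `HlcCor` transfers along an additive equivariant equivalence of coefficients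
(over possibly different rings of scalars). -/
theorem HlcCor_injective_of_addEquiv {A : Rep.{u} k G} {M : Rep.{u} k' G}
    [IsDiscrete 𝒰 A] [IsDiscrete (𝒰.comap S.subtype) (Rep.res S.subtype A)]
    [IsDiscrete 𝒰 (Rep.coind S.subtype (Rep.res S.subtype A))]
    [IsDiscrete 𝒰 M] [IsDiscrete (𝒰.comap S.subtype) (Rep.res S.subtype M)]
    [IsDiscrete 𝒰 (Rep.coind S.subtype (Rep.res S.subtype M))]
    (e : A ≃+ M) (he : ∀ g a, e (A.ρ g a) = M.ρ g (e a)) (n : ℕ)
    (hA : Function.Injective (HlcCor A hS n)) :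
    Function.Injective (HlcCor M hS n) := by
  rw [injective_iff_map_eq_zero]
  intro z' hz'
  have heS : ∀ (s : S) (a : Rep.res S.subtype A),
      e ((Rep.res S.subtype A).ρ s a) = (Rep.res S.subtype M).ρ s (e a) := fun s a => he (s : G) a
  obtain ⟨z, rfl⟩ := (HlcAddEquiv (𝒰.comap S.subtype) (A := Rep.res S.subtype A)
    (M := Rep.res S.subtype M) e heS n).surjective z'
  rw [HlcAddEquiv_apply] at hz' ⊢
  have h1 := HlcAdd_HlcCor S hS e.toAddMonoidHom he n z
  rw [hz'] at h1
  have h2 : HlcCor A hS n z = 0 :=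
    (HlcAddEquiv 𝒰 e he n).injective (h1.trans (map_zero _).symm)
  rw [hA (h2.trans (map_zero _).symm), map_zero]

end Transfer

/-! ### Hilbert 90 over an open subgroup -/

section H90

variable {K : Type} {Ω : Type} [Field K] [Field Ω] [Algebra K Ω] [IsGalois K Ω]
  {S : Subgroup (Ω ≃ₐ[K] Ω)}

/-- finite level: `H¹(V, Nˣ) = 0` for every subgroup `V ≤ Gal(N/K)`. -/
theorem subsingleton_H1_res (N : Type) [Field N] [Algebra K N] [FiniteDimensional K N]
    [IsGalois K N] (V : Subgroup (N ≃ₐ[K] N)) :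
    Subsingleton (groupCohomology (Rep.res V.subtype (Rep.ofAlgebraAutOnUnits K N)) 1) := by
  have hz : Limits.IsZero
      (groupCohomology (Rep.res V.subtype (Rep.ofAlgebraAutOnUnits K N)) 1) := by
    refine Limits.IsZero.of_iso ?_ ((GalPair.subPair K N V).cohIso 1)
    rw [ModuleCat.isZero_iff_subsingleton]
    exact (groupCohomology.H1ofAutOnUnitsUnique (IntermediateField.fixedField V) N).instSubsingleton
  exact ModuleCat.isZero_iff_subsingleton.1 hz

/-- **Hilbert 90 over an open subgroup**: `Hlc¹(S, Ωˣ) = 0`. -/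
theorem subsingleton_Hlc_one_unitsS (hS : IsOpenSub (galLevels K Ω) S) :
    Subsingleton (Hlc (levS K Ω S) (unitsS K Ω S) 1) := by
  refine ⟨fun x y => ?_⟩
  obtain ⟨N, hfd, hgal, -, a, rfl⟩ := exists_inflS_eq hS x
  obtain ⟨N', hfd', hgal', -, b, rfl⟩ := exists_inflS_eq hS y
  have h1 := subsingleton_H1_res (K := K) N (imS K Ω S N)
  have h2 := subsingleton_H1_res (K := K) N' (imS K Ω S N')
  rw [Subsingleton.elim a 0, Subsingleton.elim b 0, map_zero, map_zero]

end H90

/-! ### `μ_p` over an open subgroup -/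

section Mu

variable {K : Type} {Ω : Type} [Field K] [Field Ω] [Algebra K Ω] [IsGalois K Ω]
  {S : Subgroup (Ω ≃ₐ[K] Ω)} {p : ℕ}

instance isDiscrete_res_muRep :
    IsDiscrete (levS K Ω S) (Rep.res S.subtype (muRep K Ω p)) :=
  IsDiscrete.res (isContHom_comap S.subtype (galLevels K Ω)) (muRep K Ω p)

/-- the Kummer sequence `0 → μ_p → Ωˣ → Ωˣ → 0` of `S`-modules -/
def muKummerS (S : Subgroup (Ω ≃ₐ[K] Ω)) (h : HasRoots Ω p) :
    KummerSeq (Rep.res S.subtype (muRep K Ω p)) (unitsS K Ω S) (p : ℤ) :=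
  kummerSeq (unitsS K Ω S) (p : ℤ) fun a => by
    obtain ⟨y, hy⟩ := h (toU K Ω a)
    refine ⟨ofU K Ω y, ?_⟩
    have h1 := ofU_pow K Ω y p
    rw [hy, ofU_toU] at h1
    exact h1.symm

omit [IsGalois K Ω] in
lemma muKummerS_ι (S : Subgroup (Ω ≃ₐ[K] Ω)) (h : HasRoots Ω p) :
    (muKummerS S h).ι = (Rep.resFunctor S.subtype).map (muι K Ω p) := rfl

/-- **`Hlc²(S, μ_p) → Hlc²(S, Ωˣ)` is injective** (Hilbert 90 over `S`). -/
theorem HlcMap_muι_two_res_injective (h : HasRoots Ω p) (hS : IsOpenSub (galLevels K Ω) S) :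
    Function.Injective
      (HlcMap (levS K Ω S) ((Rep.resFunctor S.subtype).map (muι K Ω p)) 2) := by
  rw [injective_iff_map_eq_zero]
  intro y hy
  have hsub := subsingleton_Hlc_one_unitsS hS
  obtain ⟨x, rfl⟩ := ((muKummerS S h).ι_eq_zero_iff 1 y).1 hy
  rw [Subsingleton.elim x 0, map_zero]

end Mu

/-! ### The `q`-adic theorem -/

section Local

variable (q : ℕ) [Fact q.Prime] {K Ω : Type} [Field K] [Field Ω] [Algebra ℚ_[q] K]
  [Algebra ℚ_[q] Ω] [Algebra K Ω] [IsScalarTower ℚ_[q] K Ω] [FiniteDimensional ℚ_[q] K]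
  [IsGalois K Ω] {S : Subgroup (Ω ≃ₐ[K] Ω)} {p : ℕ}

include q

/-- **(COR-INJ), `μ_p` form**: for a `q`-adic field `K` and an open subgroup `S ≤ Gal(Ω/K)`, the
corestriction `Hlc²(S, μ_p) → Hlc²(Gal(Ω/K), μ_p)` is injective. -/
theorem HlcCor_two_muRep_injective (h : HasRoots Ω p) (hS : IsOpenSub (galLevels K Ω) S)
    [S.FiniteIndex]
    [IsDiscrete (galLevels K Ω) (Rep.coind S.subtype (Rep.res S.subtype (muRep K Ω p)))] :
    Function.Injective (HlcCor (muRep K Ω p) hS 2) := by
  have h1 : IsDiscrete (galLevels K Ω) (Rep.coind S.subtype (unitsS K Ω S)) :=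
    isDiscrete_coind hS _
  exact HlcCor_injective_of_map_injective hS (muι K Ω p) 2
    (CorInjFinal.HlcCor_two_unitsRep_injective q hS) (HlcMap_muι_two_res_injective h hS)

/-- **(COR-INJ), transported form**: the same for any representation `M` of `Gal(Ω/K)` over any
ring `k'` which is additively and equivariantly equivalent to `μ_p` (e.g. `ZMod p` with the
cyclotomic character). -/
theorem HlcCor_two_injective_of_muEquiv {k' : Type} [CommRing k'] (h : HasRoots Ω p)
    (hS : IsOpenSub (galLevels K Ω) S) [S.FiniteIndex]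
    (M : Rep.{0} k' (Ω ≃ₐ[K] Ω)) [IsDiscrete (galLevels K Ω) M]
    [IsDiscrete (levS K Ω S) (Rep.res S.subtype M)]
    [IsDiscrete (galLevels K Ω) (Rep.coind S.subtype (Rep.res S.subtype M))]
    (e : muRep K Ω p ≃+ M) (he : ∀ g a, e ((muRep K Ω p).ρ g a) = M.ρ g (e a)) :
    Function.Injective (HlcCor M hS 2) := by
  have h2 : IsDiscrete (galLevels K Ω)
      (Rep.coind S.subtype (Rep.res S.subtype (muRep K Ω p))) := isDiscrete_coind hS _
  exact HlcCor_injective_of_addEquiv hS e he 2 (HlcCor_two_muRep_injective q h hS)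

end Local

end Fermat.Agent.GC.Local.CorInjMu
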