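/-
GATE-C / C3-INDEX (helper61), abstract core.  Mathlib only.

For a complete discrete valuation ring `O` with finite residue field `κ`, a prime number `p` with
`(p : O) = u * ϖ ^ e` (`ϖ` a uniformiser, `u` a unit; `e = 0` iff `p` is invertible in `O`):
  `[Oˣ : (Oˣ)^p] = #(Oˣ[p]) * #κ ^ e`,
and for a commutative group `G ⊇ Oˣ` with `G / Oˣ ≃ ℤ` (e.g. `G = Kˣ`, `K = Frac O`):
  `[G : G^p] = p * #(G[p]) * #κ ^ e`.

namespace Fermat.Agent.GC.Local.Index
-/
import Mathlib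

set_option autoImplicit false

namespace Fermat.Agent.GC.Local.Index

open Subgroup

/-! ### 1. Group theory: the index of the `p`-th powers -/

section GroupTheory

variable {G : Type*} [CommGroup G]

/-- the `p`-th power endomorphism -/
abbrev powHom (G : Type*) [CommGroup G] (p : ℕ) : G →* G := powMonoidHom p

theorem map_powHom_le (p : ℕ) (V : Subgroup G) : V.map (powHom G p) ≤ V := by
  rintro _ ⟨x, hx, rfl⟩
  exact V.pow_mem hx p

/-- **finite-index invariance** (special case): if `V` has finite index in `G` and contains no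
nontrivial `p`-torsion, then `[G : G^p] = [V : V^p] * #G[p]`. -/
theorem index_range_powHom_eq (p : ℕ) (V : Subgroup G) (hV : V.index ≠ 0)
    (hinj : (powHom G p).ker ⊓ V = ⊥) :
    (powHom G p).range.index = (V.map (powHom G p)).relIndex V * Nat.card (powHom G p).ker := by
  set f := powHom G p with hf
  have h1 := Subgroup.index_map V f
  have h2 := relIndex_mul_index (map_powHom_le p V)
  have h3 := relIndex_mul_index (le_sup_left : V ≤ V ⊔ f.ker)
  have h4 : V.relIndex (V ⊔ f.ker) = V.relIndex f.ker := relIndex_sup_left f.ker V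
  have h5 : V.relIndex f.ker = Nat.card f.ker := by
    rw [← inf_relIndex_left f.ker V, hinj, relIndex_bot_left]
  have hS : (V ⊔ f.ker).index ≠ 0 := by
    intro h0
    rw [h0, mul_zero] at h3
    exact hV h3.symm
  rw [h4, h5] at h3
  apply Nat.eq_of_mul_eq_mul_left (Nat.pos_of_ne_zero hS)
  rw [← h1, ← h2, ← h3]
  ring

/-- if `G / N ≃ ℤ` then `[G : G^p] = p * [N : N^p]` (`p ≠ 0`). -/
theorem index_range_powHom_of_surjective_int (p : ℕ) [NeZero p] (v : G →* Multiplicative ℤ)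
    (hv : Function.Surjective v) :
    (powHom G p).range.index = p * ((v.ker).map (powHom G p)).relIndex v.ker := by
  set f := powHom G p with hf
  set N := v.ker with hN
  -- the character `G → ℤ/p`
  let c : Multiplicative ℤ →* Multiplicative (ZMod p) :=
    AddMonoidHom.toMultiplicative (Int.castAddHom (ZMod p))
  let χ : G →* Multiplicative (ZMod p) := c.comp v
  have hcs : Function.Surjective c := fun y =>
    ⟨Multiplicative.ofAdd ((ZMod.intCast_surjective (Multiplicative.toAdd y)).choose), by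
      have := (ZMod.intCast_surjective (Multiplicative.toAdd y)).choose_spec
      simpa [c] using congrArg Multiplicative.ofAdd this⟩
  have hχs : Function.Surjective χ := hcs.comp hv
  have hχmem : ∀ x, x ∈ χ.ker ↔ (p : ℤ) ∣ Multiplicative.toAdd (v x) := by
    intro x
    rw [MonoidHom.mem_ker]
    show Multiplicative.ofAdd ((Multiplicative.toAdd (v x) : ℤ) : ZMod p) = 1 ↔ _
    rw [← ofAdd_zero, Multiplicative.ofAdd.injective.eq_iff,
      ZMod.intCast_zmod_eq_zero_iff_dvd]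
  -- `ker χ = N ⊔ G^p`
  have hW : χ.ker = N ⊔ f.range := by
    apply le_antisymm
    · intro x hx
      obtain ⟨k, hk⟩ := (hχmem x).mp hx
      obtain ⟨y, hy⟩ := hv (Multiplicative.ofAdd k)
      have hxy : x * (y ^ p)⁻¹ ∈ N := by
        rw [hN, MonoidHom.mem_ker, map_mul, map_inv, map_pow, hy, mul_inv_eq_one]
        apply Multiplicative.toAdd.injective
        rw [hk, toAdd_pow, toAdd_ofAdd, nsmul_eq_mul]
      have : x = (x * (y ^ p)⁻¹) * f y := by
        show x = (x * (y ^ p)⁻¹) * y ^ p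
        rw [inv_mul_cancel_right]
      rw [this]
      exact Subgroup.mul_mem_sup hxy ⟨y, rfl⟩
    · apply sup_le
      · intro x hx
        rw [hχmem, (MonoidHom.mem_ker).mp hx]
        exact dvd_zero _
      · rintro _ ⟨y, rfl⟩
        rw [hχmem]
        show (p : ℤ) ∣ Multiplicative.toAdd (v (y ^ p))
        rw [map_pow, toAdd_pow, nsmul_eq_mul]
        exact dvd_mul_right _ _
  have hidx : (N ⊔ f.range).index = p := by
    rw [← hW, index_ker, MonoidHom.range_eq_top.mpr hχs, Nat.card_congr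
      (Subgroup.topEquiv (G := Multiplicative (ZMod p))).toEquiv, Nat.card_congr
      Multiplicative.toAdd, Nat.card_zmod]
  -- `N ⊓ G^p = N^p`
  have hinf : f.range ⊓ N = N.map f := by
    apply le_antisymm
    · rintro x ⟨⟨y, rfl⟩, hx⟩
      refine ⟨y, ?_, rfl⟩
      have hx' : v (f y) = 1 := (MonoidHom.mem_ker).mp hx
      show y ∈ v.ker
      rw [MonoidHom.mem_ker]
      have h1 : v y ^ p = 1 := by rw [← map_pow]; exact hx'
      apply Multiplicative.toAdd.injective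
      have h2 := congrArg Multiplicative.toAdd h1
      rw [toAdd_pow, toAdd_one, nsmul_eq_mul] at h2
      rw [toAdd_one]
      rcases mul_eq_zero.mp h2 with h | h
      · exact absurd (by exact_mod_cast h) (NeZero.ne p)
      · exact h
    · exact le_inf (Subgroup.map_le_range f N) (map_powHom_le p N)
  have h1 := relIndex_mul_index (le_sup_right : f.range ≤ N ⊔ f.range)
  have h2 : f.range.relIndex (N ⊔ f.range) = f.range.relIndex N := by
    rw [sup_comm]; exact relIndex_sup_left N f.range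
  have h3 : f.range.relIndex N = (N.map f).relIndex N := by
    rw [← hinf, inf_relIndex_right]
  rw [← h1, h2, h3, hidx, mul_comm]

end GroupTheory

/-! ### 2. Higher unit groups of a discrete valuation ring -/

section UnitGroups

variable {O : Type*} [CommRing O]

/-- the higher unit group `U^(k) = {x ∈ Oˣ | ϖ^k ∣ x - 1}` -/
def U (ϖ : O) (k : ℕ) : Subgroup Oˣ where
  carrier := {x | ϖ ^ k ∣ (x : O) - 1}
  one_mem' := by simp
  mul_mem' := by
    intro x y hx hy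
    have : ((x * y : Oˣ) : O) - 1 = ((x : O) - 1) * y + ((y : O) - 1) := by
      rw [Units.val_mul]; ring
    show ϖ ^ k ∣ ((x * y : Oˣ) : O) - 1
    rw [this]
    exact dvd_add (Dvd.dvd.mul_right hx _) hy
  inv_mem' := by
    intro x hx
    have : ((x⁻¹ : Oˣ) : O) - 1 = -((x⁻¹ : Oˣ) : O) * ((x : O) - 1) := by
      have h := x.inv_mul
      have h' : ((x⁻¹ : Oˣ) : O) * (x : O) = 1 := h
      linear_combination h'
    show ϖ ^ k ∣ ((x⁻¹ : Oˣ) : O) - 1
    rw [this]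
    exact Dvd.dvd.mul_left hx _

theorem mem_U {ϖ : O} {k : ℕ} {x : Oˣ} : x ∈ U ϖ k ↔ ϖ ^ k ∣ (x : O) - 1 := Iff.rfl

theorem U_anti (ϖ : O) {k l : ℕ} (h : k ≤ l) : U ϖ l ≤ U ϖ k := fun _ hx =>
  dvd_trans (pow_dvd_pow ϖ h) hx

theorem U_zero (ϖ : O) : U ϖ 0 = ⊤ := by
  ext x; simp [mem_U]

/-- the kernel of `Oˣ → (O/ϖ)ˣ` is `U^(1)` -/
theorem U_one_eq_ker (ϖ : O) :
    U ϖ 1 = (Units.map (Ideal.Quotient.mk (Ideal.span {ϖ})).toMonoidHom).ker := by
  ext x
  rw [mem_U, MonoidHom.mem_ker, pow_one, Units.ext_iff, Units.coe_map, Units.val_one]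
  show _ ↔ Ideal.Quotient.mk (Ideal.span {ϖ}) (x : O) = 1
  rw [← map_one (Ideal.Quotient.mk (Ideal.span {ϖ})), Ideal.Quotient.eq,
    Ideal.mem_span_singleton]

theorem U_one_index_ne_zero (ϖ : O) [Finite (O ⧸ Ideal.span {ϖ})] : (U ϖ 1).index ≠ 0 := by
  rw [U_one_eq_ker, index_ker]
  exact Nat.card_pos.ne'

variable [IsDomain O] [IsDiscreteValuationRing O] {ϖ : O}

/-- `1 + ϖ^k a` is a unit for `k ≥ 1` -/
theorem isUnit_one_add (hϖ : Irreducible ϖ) {k : ℕ} (hk : 1 ≤ k) (a : O) :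
    IsUnit (1 + ϖ ^ k * a) := by
  apply IsLocalRing.isUnit_of_mem_nonunits_one_sub_self
  rw [mem_nonunits_iff]
  intro h
  have h1 : (1 : O) - (1 + ϖ ^ k * a) = ϖ * (-(ϖ ^ (k - 1) * a)) := by
    obtain ⟨j, rfl⟩ := Nat.exists_eq_add_of_le hk
    rw [Nat.add_sub_cancel_left, pow_add, pow_one]; ring
  rw [h1] at h
  exact hϖ.not_isUnit (isUnit_of_mul_isUnit_left h)

omit [IsDomain O] [IsDiscreteValuationRing O] in
/-- the quotient `(x - 1)/ϖ^k` for `x ∈ U^(k)` -/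
noncomputable def quo (ϖ : O) (k : ℕ) (x : U ϖ k) : O := (mem_U.mp x.2).choose

omit [IsDomain O] [IsDiscreteValuationRing O] in
theorem quo_spec (ϖ : O) (k : ℕ) (x : U ϖ k) : ((x : Oˣ) : O) - 1 = ϖ ^ k * quo ϖ k x :=
  (mem_U.mp x.2).choose_spec

omit [IsDiscreteValuationRing O] in
theorem quo_unique (hϖ : Irreducible ϖ) {k : ℕ} (x : U ϖ k) {a : O}
    (h : ((x : Oˣ) : O) - 1 = ϖ ^ k * a) : quo ϖ k x = a := by
  have h1 := quo_spec ϖ k x
  rw [h] at h1
  exact (mul_left_cancel₀ (pow_ne_zero k hϖ.ne_zero) h1).symm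

/-- `U^(k) → (O/ϖ, +)`, `1 + ϖ^k a ↦ a mod ϖ`, a homomorphism for `k ≥ 1` -/
noncomputable def phi (hϖ : Irreducible ϖ) {k : ℕ} (hk : 1 ≤ k) :
    U ϖ k →* Multiplicative (O ⧸ Ideal.span {ϖ}) where
  toFun x := Multiplicative.ofAdd (Ideal.Quotient.mk (Ideal.span {ϖ}) (quo ϖ k x))
  map_one' := by
    have : quo ϖ k (1 : U ϖ k) = 0 := quo_unique hϖ _ (by simp)
    rw [this, map_zero, ofAdd_zero]
  map_mul' x y := by
    have hx := quo_spec ϖ k x
    have hy := quo_spec ϖ k y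
    have hxy : quo ϖ k (x * y) = quo ϖ k x * ((y : Oˣ) : O) + quo ϖ k y := by
      apply quo_unique hϖ
      have : (((x * y : U ϖ k) : Oˣ) : O) - 1 =
          (((x : Oˣ) : O) - 1) * ((y : Oˣ) : O) + (((y : Oˣ) : O) - 1) := by
        rw [Subgroup.coe_mul, Units.val_mul]; ring
      rw [this, hx, hy]; ring
    have hy1 : Ideal.Quotient.mk (Ideal.span {ϖ}) ((y : Oˣ) : O) = 1 := by
      rw [← map_one (Ideal.Quotient.mk (Ideal.span {ϖ})), Ideal.Quotient.eq,
        Ideal.mem_span_singleton, hy]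
      exact Dvd.dvd.mul_right (dvd_pow_self ϖ (by omega)) _
    rw [hxy, map_add, map_mul, hy1, mul_one, ofAdd_add]

theorem phi_surjective (hϖ : Irreducible ϖ) {k : ℕ} (hk : 1 ≤ k) :
    Function.Surjective (phi hϖ hk) := by
  intro c
  obtain ⟨a, ha⟩ := Ideal.Quotient.mk_surjective (Multiplicative.toAdd c)
  let x : Oˣ := (isUnit_one_add hϖ hk a).unit
  have hx : (x : O) - 1 = ϖ ^ k * a := by
    show (1 + ϖ ^ k * a) - 1 = _
    ring
  have hxU : x ∈ U ϖ k := mem_U.mpr ⟨a, hx⟩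
  refine ⟨⟨x, hxU⟩, ?_⟩
  show Multiplicative.ofAdd (Ideal.Quotient.mk (Ideal.span {ϖ}) (quo ϖ k ⟨x, hxU⟩)) = c
  rw [quo_unique hϖ ⟨x, hxU⟩ hx, ha, ofAdd_toAdd]

omit [IsDiscreteValuationRing O] in
theorem phi_ker (hϖ : Irreducible ϖ) {k : ℕ} (hk : 1 ≤ k) :
    (phi hϖ hk).ker = (U ϖ (k + 1)).subgroupOf (U ϖ k) := by
  ext x
  rw [MonoidHom.mem_ker, mem_subgroupOf, mem_U]
  show Multiplicative.ofAdd (Ideal.Quotient.mk (Ideal.span {ϖ}) (quo ϖ k x)) = 1 ↔ _
  rw [← ofAdd_zero, Multiplicative.ofAdd.injective.eq_iff, Ideal.Quotient.eq_zero_iff_mem,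
    Ideal.mem_span_singleton, quo_spec ϖ k x, pow_succ]
  constructor
  · rintro ⟨b, hb⟩
    exact ⟨b, by rw [hb]; ring⟩
  · rintro ⟨b, hb⟩
    refine ⟨b, ?_⟩
    have : ϖ ^ k * quo ϖ k x = ϖ ^ k * (ϖ * b) := by rw [hb]; ring
    exact mul_left_cancel₀ (pow_ne_zero k hϖ.ne_zero) this

/-- `[U^(k) : U^(k+1)] = #(O/ϖ)` for `k ≥ 1` -/
theorem relIndex_U_succ (hϖ : Irreducible ϖ) {k : ℕ} (hk : 1 ≤ k) :
    (U ϖ (k + 1)).relIndex (U ϖ k) = Nat.card (O ⧸ Ideal.span {ϖ}) := by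
  rw [relIndex, ← phi_ker hϖ hk, index_ker,
    MonoidHom.range_eq_top.mpr (phi_surjective hϖ hk),
    Nat.card_congr (Subgroup.topEquiv (G := Multiplicative (O ⧸ Ideal.span {ϖ}))).toEquiv,
    Nat.card_congr Multiplicative.toAdd]

/-- `[U^(n) : U^(n+e)] = #(O/ϖ)^e` for `n ≥ 1` -/
theorem relIndex_U_add (hϖ : Irreducible ϖ) {n : ℕ} (hn : 1 ≤ n) (e : ℕ) :
    (U ϖ (n + e)).relIndex (U ϖ n) = Nat.card (O ⧸ Ideal.span {ϖ}) ^ e := by
  induction e with
  | zero => simp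
  | succ e ih =>
    rw [← relIndex_mul_relIndex (U ϖ (n + (e + 1))) (U ϖ (n + e)) (U ϖ n)
      (U_anti ϖ (by omega)) (U_anti ϖ (by omega)), ih, ← add_assoc,
      relIndex_U_succ hϖ (by omega : 1 ≤ n + e), pow_succ, mul_comm]

theorem U_index_ne_zero (hϖ : Irreducible ϖ) [Finite (O ⧸ Ideal.span {ϖ})] (k : ℕ) :
    (U ϖ k).index ≠ 0 := by
  rcases Nat.eq_zero_or_pos k with rfl | hk
  · rw [U_zero]; simp
  · obtain ⟨j, rfl⟩ := Nat.exists_eq_add_of_le (show 1 ≤ k from hk)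
    rw [← relIndex_mul_index (U_anti ϖ (Nat.le_add_right 1 j)), relIndex_U_add hϖ le_rfl]
    exact mul_ne_zero (pow_ne_zero _ Nat.card_pos.ne') (U_one_index_ne_zero ϖ)

end UnitGroups

/-! ### 3. The `p`-th power map on higher unit groups -/

section PowerMap

variable {O : Type*} [CommRing O]

/-- binomial expansion of `(1 + y)^p`, `p` prime: the middle terms are divisible by `p * y^2` -/
theorem exists_one_add_pow_prime {p : ℕ} (hp : p.Prime) (y : O) :
    ∃ c : O, (1 + y) ^ p = 1 + p * y + p * y ^ 2 * c + y ^ p := by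
  obtain ⟨q, rfl⟩ : ∃ q, p = q + 2 := ⟨p - 2, by have := hp.two_le; omega⟩
  choose! g hg using fun m : ℕ => fun hm : m < q =>
    (hp.dvd_choose_self (Nat.succ_ne_zero (m + 1)) (by omega : m + 2 < q + 2))
  refine ⟨∑ m ∈ Finset.range q, (g m : O) * y ^ m, ?_⟩
  rw [add_comm 1 y, add_pow, Finset.sum_range_succ, Finset.sum_range_succ', Finset.sum_range_succ']
  simp only [one_pow, mul_one, pow_zero, Nat.choose_zero_right, Nat.cast_one, zero_add, pow_one,
    Nat.choose_one_right, Nat.choose_self]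
  have : ∑ m ∈ Finset.range q, y ^ (m + 1 + 1) * (((q + 2).choose (m + 1 + 1) : ℕ) : O) =
      ((q + 2 : ℕ) : O) * y ^ 2 * ∑ m ∈ Finset.range q, (g m : O) * y ^ m := by
    rw [Finset.mul_sum]
    refine Finset.sum_congr rfl fun m hm => ?_
    have h1 := hg m (Finset.mem_range.mp hm)
    have h2 : (((q + 2).choose (m + 1 + 1) : ℕ) : O) = ((q + 2 : ℕ) : O) * (g m : O) := by
      rw [show m + 1 + 1 = (m + 1).succ from rfl, h1, Nat.cast_mul]
    rw [h2]; ring
  rw [this]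
  ring

/-- **key congruence**: if `(p : O) = u ϖ^e`, `ϖ^n ∣ y`, `n ≥ 1` and `e < (p-1) n`, then
`(1+y)^p ≡ 1 + p y  mod ϖ^(n+e+1)` -/
theorem dvd_one_add_pow_sub {p : ℕ} (hp : p.Prime) {ϖ u : O} {e n : ℕ}
    (hpe : (p : O) = u * ϖ ^ e) (hn : 1 ≤ n) (hne : e < (p - 1) * n) {y : O} (hy : ϖ ^ n ∣ y) :
    ϖ ^ (n + e + 1) ∣ (1 + y) ^ p - 1 - p * y := by
  obtain ⟨c, hc⟩ := exists_one_add_pow_prime hp y
  obtain ⟨a, rfl⟩ := hy
  have h1 : (1 + ϖ ^ n * a) ^ p - 1 - p * (ϖ ^ n * a) =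
      (p : O) * (ϖ ^ n * a) ^ 2 * c + (ϖ ^ n * a) ^ p := by rw [hc]; ring
  rw [h1, hpe]
  apply dvd_add
  · have : u * ϖ ^ e * (ϖ ^ n * a) ^ 2 * c = ϖ ^ (e + 2 * n) * (u * a ^ 2 * c) := by
      rw [pow_add, pow_mul']; ring
    rw [this]
    exact Dvd.dvd.mul_right (pow_dvd_pow ϖ (by omega)) _
  · have hp1 : p = (p - 1) + 1 := by have := hp.one_le; omega
    have : (ϖ ^ n * a) ^ p = ϖ ^ (n * p) * a ^ p := by rw [mul_pow, ← pow_mul]
    rw [this]
    refine Dvd.dvd.mul_right (pow_dvd_pow ϖ ?_) _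
    have : n * p = (p - 1) * n + n := by
      conv_lhs => rw [hp1]
      ring
    omega

theorem pow_mem_U {p : ℕ} (hp : p.Prime) {ϖ u : O} {e n : ℕ}
    (hpe : (p : O) = u * ϖ ^ e) (hn : 1 ≤ n) (hne : e < (p - 1) * n) {x : Oˣ}
    (hx : x ∈ U ϖ n) : x ^ p ∈ U ϖ (n + e) := by
  rw [mem_U] at hx ⊢
  have h1 := dvd_one_add_pow_sub hp hpe hn hne hx
  rw [add_sub_cancel] at h1
  obtain ⟨a, ha⟩ := hx
  have h2 : ((x ^ p : Oˣ) : O) - 1 =
      ((x : O) ^ p - 1 - p * ((x : O) - 1)) + ϖ ^ (n + e) * (u * a) := by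
    rw [Units.val_pow_eq_pow_val, hpe, ha, pow_add]; ring
  rw [h2]
  exact dvd_add (dvd_trans (pow_dvd_pow ϖ (Nat.le_succ _)) h1) (Dvd.intro _ rfl)

variable [IsDomain O] [IsDiscreteValuationRing O]

theorem eq_zero_of_forall_pow_dvd {ϖ : O} (hϖ : Irreducible ϖ) {x : O} (h : ∀ k, ϖ ^ k ∣ x) :
    x = 0 := by
  by_contra hx
  obtain ⟨s, w, rfl⟩ := IsDiscreteValuationRing.eq_unit_mul_pow_irreducible hx hϖ
  obtain ⟨b, hb⟩ := h (s + 1)
  have h1 : ϖ ^ s * (w : O) = ϖ ^ s * (ϖ * b) := by rw [mul_comm, hb]; ring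
  have h2 := mul_left_cancel₀ (pow_ne_zero s hϖ.ne_zero) h1
  exact hϖ.not_isUnit (isUnit_of_mul_isUnit_left (h2 ▸ w.isUnit))

/-- the `p`-th power map is injective on `U^(n)` when `e < (p-1) n` -/
theorem eq_one_of_pow_eq_one {p : ℕ} (hp : p.Prime) {ϖ : O} (hϖ : Irreducible ϖ) {u : Oˣ}
    {e n : ℕ} (hpe : (p : O) = u * ϖ ^ e) (hn : 1 ≤ n) (hne : e < (p - 1) * n) {x : Oˣ}
    (hx : x ∈ U ϖ n) (hxp : x ^ p = 1) : x = 1 := by
  by_contra hx1
  have hy : (x : O) - 1 ≠ 0 := fun h => hx1 (Units.ext (by rw [Units.val_one]; exact sub_eq_zero.mp h))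
  obtain ⟨s, w, hs⟩ := IsDiscreteValuationRing.eq_unit_mul_pow_irreducible hy hϖ
  have hns : n ≤ s := by
    rw [mem_U, hs] at hx
    by_contra hlt
    have hlt' : s + 1 ≤ n := by omega
    obtain ⟨b, hb⟩ := dvd_trans (pow_dvd_pow ϖ hlt') hx
    have h1 : ϖ ^ s * (w : O) = ϖ ^ s * (ϖ * b) := by rw [mul_comm, hb]; ring
    have h2 := mul_left_cancel₀ (pow_ne_zero s hϖ.ne_zero) h1
    exact hϖ.not_isUnit (isUnit_of_mul_isUnit_left (h2 ▸ w.isUnit))
  have hs1 : 1 ≤ s := le_trans hn hns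
  have hse : e < (p - 1) * s := lt_of_lt_of_le hne (Nat.mul_le_mul_left _ hns)
  have hdvd : ϖ ^ s ∣ (x : O) - 1 := ⟨w, by rw [hs]; ring⟩
  have h3 := dvd_one_add_pow_sub hp hpe hs1 hse hdvd
  rw [add_sub_cancel] at h3
  have hxp' : (x : O) ^ p = 1 := by
    rw [← Units.val_pow_eq_pow_val, hxp, Units.val_one]
  rw [hxp', sub_self, zero_sub, hs, hpe] at h3
  obtain ⟨b, hb⟩ := h3
  have h4 : ϖ ^ (s + e) * (-(u * w : O)) = ϖ ^ (s + e) * (ϖ * b) := by
    have : ϖ ^ (s + e + 1) * b = ϖ ^ (s + e) * (ϖ * b) := by rw [pow_succ]; ring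
    rw [← this, ← hb, pow_add]; ring
  have h5 := mul_left_cancel₀ (pow_ne_zero (s + e) hϖ.ne_zero) h4
  have h6 : IsUnit (-(u * w : O)) := ((u * w).isUnit).neg
  exact hϖ.not_isUnit (isUnit_of_mul_isUnit_left (h5 ▸ h6))

/-- `ϖ`-adic completeness in divisibility form -/
def IsPiComplete (ϖ : O) : Prop :=
  ∀ f : ℕ → O, (∀ k, ϖ ^ k ∣ f (k + 1) - f k) → ∃ L, ∀ k, ϖ ^ k ∣ L - f k

omit [IsDomain O] [IsDiscreteValuationRing O] in
/-- one step of the successive approximation of a `p`-th root -/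
theorem exists_step {p : ℕ} (hp : p.Prime) {ϖ : O} {u : Oˣ} {e n : ℕ}
    (hpe : (p : O) = u * ϖ ^ e) (hn : 1 ≤ n) (hne : e < (p - 1) * n) (z : O) (k : ℕ) (x : O)
    (hx1 : ϖ ^ n ∣ x - 1) (hxz : ϖ ^ (n + e + k) ∣ x ^ p - z) :
    ∃ x', ϖ ^ n ∣ x' - 1 ∧ ϖ ^ (n + e + (k + 1)) ∣ x' ^ p - z ∧ ϖ ^ (n + k) ∣ x' - x := by
  obtain ⟨c, hc⟩ := hxz
  set d : O := -((u⁻¹ : Oˣ) : O) * c with hd
  set y : O := ϖ ^ (n + k) * d with hy
  have hnk1 : 1 ≤ n + k := by omega
  have hnke : e < (p - 1) * (n + k) := lt_of_lt_of_le hne (Nat.mul_le_mul_left _ (by omega))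
  obtain ⟨b, hb⟩ := dvd_one_add_pow_sub hp hpe hnk1 hnke (y := y) ⟨d, rfl⟩
  have hx1' : ϖ ∣ x - 1 := dvd_trans (dvd_pow_self ϖ (by omega)) hx1
  obtain ⟨t, ht⟩ := dvd_trans hx1' (sub_dvd_pow_sub_pow x 1 p)
  rw [one_pow] at ht
  refine ⟨x * (1 + y), ?_, ?_, ?_⟩
  · have : x * (1 + y) - 1 = (x - 1) + ϖ ^ n * (ϖ ^ k * d * x) := by
      rw [hy, pow_add]; ring
    rw [this]
    exact dvd_add hx1 (Dvd.intro _ rfl)
  · have huu : (u : O) * ((u⁻¹ : Oˣ) : O) = 1 := u.mul_inv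
    have hexp : (1 + y) ^ p = 1 + p * y + ϖ ^ (n + k + e + 1) * b := by
      linear_combination hb
    have : (x * (1 + y)) ^ p - z =
        ϖ ^ (n + e + (k + 1)) * (-(c * t) + x ^ p * b) := by
      have e1 : ϖ ^ (n + e + (k + 1)) = ϖ ^ n * ϖ ^ e * ϖ ^ k * ϖ := by
        rw [← add_assoc, pow_succ, pow_add, pow_add]
      have e2 : ϖ ^ (n + k + e + 1) = ϖ ^ n * ϖ ^ e * ϖ ^ k * ϖ := by
        rw [pow_succ, pow_add, pow_add]; ring
      have e3 : ϖ ^ (n + e + k) = ϖ ^ n * ϖ ^ e * ϖ ^ k := by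
        rw [pow_add, pow_add]
      have e4 : ϖ ^ (n + k) = ϖ ^ n * ϖ ^ k := pow_add _ _ _
      rw [mul_pow, hexp, hy, hd, hpe, e1, e2, e4]
      rw [e3] at hc
      linear_combination (1 : O) * hc - (ϖ ^ n * ϖ ^ e * ϖ ^ k * c) * ht
        - (x ^ p * ϖ ^ n * ϖ ^ e * ϖ ^ k * c) * huu
    rw [this]
    exact Dvd.intro _ rfl
  · have : x * (1 + y) - x = ϖ ^ (n + k) * (d * x) := by rw [hy]; ring
    rw [this]
    exact Dvd.intro _ rfl

/-- **surjectivity of the `p`-th power map** `U^(n) → U^(n+e)` by successive approximation -/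
theorem exists_pow_eq {p : ℕ} (hp : p.Prime) {ϖ : O} (hϖ : Irreducible ϖ) (hc : IsPiComplete ϖ)
    {u : Oˣ} {e n : ℕ} (hpe : (p : O) = u * ϖ ^ e) (hn : 1 ≤ n) (hne : e < (p - 1) * n)
    (z : O) (hz : ϖ ^ (n + e) ∣ z - 1) : ∃ x : O, ϖ ^ n ∣ x - 1 ∧ x ^ p = z := by
  -- the approximating sequence
  let S : ℕ → Type _ := fun k => {x : O // ϖ ^ n ∣ x - 1 ∧ ϖ ^ (n + e + k) ∣ x ^ p - z}
  have h0 : ϖ ^ (n + e + 0) ∣ (1 : O) ^ p - z := by
    rw [one_pow, add_zero, ← neg_sub, dvd_neg]; exact hz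
  let s0 : S 0 := ⟨1, by simp, h0⟩
  let next : ∀ k, S k → S (k + 1) := fun k x =>
    ⟨(exists_step hp hpe hn hne z k x.1 x.2.1 x.2.2).choose,
      (exists_step hp hpe hn hne z k x.1 x.2.1 x.2.2).choose_spec.1,
      (exists_step hp hpe hn hne z k x.1 x.2.1 x.2.2).choose_spec.2.1⟩
  let seq : ∀ k, S k := fun k => Nat.rec s0 next k
  have hseq : ∀ k, ϖ ^ (n + k) ∣ (seq (k + 1)).1 - (seq k).1 := fun k =>
    (exists_step hp hpe hn hne z k (seq k).1 (seq k).2.1 (seq k).2.2).choose_spec.2.2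
  obtain ⟨L, hL⟩ := hc (fun k => (seq k).1)
    (fun k => dvd_trans (pow_dvd_pow ϖ (Nat.le_add_left k n)) (hseq k))
  refine ⟨L, ?_, ?_⟩
  · have : L - 1 = (L - (seq n).1) + ((seq n).1 - 1) := by ring
    rw [this]
    exact dvd_add (hL n) (seq n).2.1
  · rw [← sub_eq_zero]
    apply eq_zero_of_forall_pow_dvd hϖ
    intro k
    have : L ^ p - z = (L ^ p - (seq k).1 ^ p) + ((seq k).1 ^ p - z) := by ring
    rw [this]
    exact dvd_add (dvd_trans (hL k) (sub_dvd_pow_sub_pow _ _ p))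
      (dvd_trans (pow_dvd_pow ϖ (Nat.le_add_left k (n + e))) (seq k).2.2)

/-- the `p`-th power map sends `U^(n)` ONTO `U^(n+e)` -/
theorem map_powHom_U {p : ℕ} (hp : p.Prime) {ϖ : O} (hϖ : Irreducible ϖ) (hc : IsPiComplete ϖ)
    {u : Oˣ} {e n : ℕ} (hpe : (p : O) = u * ϖ ^ e) (hn : 1 ≤ n) (hne : e < (p - 1) * n) :
    (U ϖ n).map (powHom Oˣ p) = U ϖ (n + e) := by
  apply le_antisymm
  · rintro _ ⟨x, hx, rfl⟩
    exact pow_mem_U hp hpe hn hne hx
  · intro z hz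
    obtain ⟨x, hx1, hxz⟩ := exists_pow_eq hp hϖ hc hpe hn hne (z : O) (mem_U.mp hz)
    have hxu : IsUnit x := by
      have : IsUnit (x ^ p) := hxz ▸ z.isUnit
      exact (isUnit_pow_iff hp.ne_zero).mp this
    refine ⟨hxu.unit, mem_U.mpr (by simpa using hx1), ?_⟩
    apply Units.ext
    show ((hxu.unit ^ p : Oˣ) : O) = z
    rw [Units.val_pow_eq_pow_val, IsUnit.unit_spec, hxz]

end PowerMap

/-! ### 4. The index of the `p`-th powers in `Oˣ` and in `Kˣ` -/

section Main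

variable {O : Type*} [CommRing O] [IsDomain O] [IsDiscreteValuationRing O]

/-- **units**: `[Oˣ : (Oˣ)^p] = #Oˣ[p] * #(O/ϖ)^e` where `(p : O) = u ϖ^e` -/
theorem index_range_powHom_units {p : ℕ} (hp : p.Prime) {ϖ : O} (hϖ : Irreducible ϖ)
    (hc : IsPiComplete ϖ) [Finite (O ⧸ Ideal.span {ϖ})] {u : Oˣ} {e : ℕ}
    (hpe : (p : O) = u * ϖ ^ e) :
    (powHom Oˣ p).range.index =
      Nat.card (powHom Oˣ p).ker * Nat.card (O ⧸ Ideal.span {ϖ}) ^ e := by
  have hn : 1 ≤ e + 1 := Nat.le_add_left 1 e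
  have hne : e < (p - 1) * (e + 1) := by
    have h1 : 1 ≤ p - 1 := by have := hp.two_le; omega
    calc e < 1 * (e + 1) := by omega
      _ ≤ (p - 1) * (e + 1) := Nat.mul_le_mul_right _ h1
  have hinj : (powHom Oˣ p).ker ⊓ U ϖ (e + 1) = ⊥ := by
    rw [eq_bot_iff]
    rintro x ⟨hx1, hx2⟩
    rw [Subgroup.mem_bot]
    exact eq_one_of_pow_eq_one hp hϖ hpe hn hne hx2 ((MonoidHom.mem_ker).mp hx1)
  rw [index_range_powHom_eq p (U ϖ (e + 1)) (U_index_ne_zero hϖ _) hinj,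
    map_powHom_U hp hϖ hc hpe hn hne, relIndex_U_add hϖ hn, mul_comm]

/-- **the multiplicative group of the fraction field**, abstractly: `G ⊇ Oˣ` with `G/Oˣ ≃ ℤ`.
Then `[G : G^p] = p * #G[p] * #(O/ϖ)^e`. -/
theorem index_range_powHom_of_units {p : ℕ} (hp : p.Prime) {ϖ : O} (hϖ : Irreducible ϖ)
    (hc : IsPiComplete ϖ) [Finite (O ⧸ Ideal.span {ϖ})] {u : Oˣ} {e : ℕ}
    (hpe : (p : O) = u * ϖ ^ e) {G : Type*} [CommGroup G] (ι : Oˣ →* G)
    (hι : Function.Injective ι) (v : G →* Multiplicative ℤ) (hv : Function.Surjective v)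
    (hker : ι.range = v.ker) :
    (powHom G p).range.index =
      p * Nat.card (powHom G p).ker * Nat.card (O ⧸ Ideal.span {ϖ}) ^ e := by
  have : NeZero p := ⟨hp.ne_zero⟩
  have hcomm : ∀ H : Subgroup Oˣ, (H.map ι).map (powHom G p) = (H.map (powHom Oˣ p)).map ι := by
    intro H
    rw [Subgroup.map_map, Subgroup.map_map]
    congr 1
    ext x
    simp [powHom, map_pow]
  -- the index
  have h1 : ((v.ker).map (powHom G p)).relIndex v.ker = (powHom Oˣ p).range.index := by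
    rw [← hker, MonoidHom.range_eq_map, hcomm, relIndex_map_map,
      (MonoidHom.ker_eq_bot_iff ι).mpr hι, sup_bot_eq, sup_bot_eq, relIndex_top_right,
      ← MonoidHom.range_eq_map]
  -- the torsion
  have h2 : (powHom G p).ker = ((powHom Oˣ p).ker).map ι := by
    ext x
    constructor
    · intro hx
      have hx' : x ^ p = 1 := (MonoidHom.mem_ker).mp hx
      have hxv : x ∈ v.ker := by
        rw [MonoidHom.mem_ker]
        have h3 : v x ^ p = 1 := by rw [← map_pow, hx', map_one]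
        apply Multiplicative.toAdd.injective
        have h4 := congrArg Multiplicative.toAdd h3
        rw [toAdd_pow, toAdd_one, nsmul_eq_mul] at h4
        rw [toAdd_one]
        rcases mul_eq_zero.mp h4 with h | h
        · exact absurd (by exact_mod_cast h) hp.ne_zero
        · exact h
      rw [← hker] at hxv
      obtain ⟨y, rfl⟩ := hxv
      refine ⟨y, ?_, rfl⟩
      show y ∈ (powHom Oˣ p).ker
      rw [MonoidHom.mem_ker]
      apply hι
      rw [map_one]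
      show ι (y ^ p) = 1
      rw [map_pow]; exact hx'
    · rintro ⟨y, hy, rfl⟩
      have hy' : y ^ p = 1 := (MonoidHom.mem_ker).mp (SetLike.mem_coe.mp hy)
      rw [MonoidHom.mem_ker]
      show ι y ^ p = 1
      rw [← map_pow, hy', map_one]
  have h3 : Nat.card (powHom G p).ker = Nat.card (powHom Oˣ p).ker := by
    rw [h2]
    exact (Nat.card_congr ((powHom Oˣ p).ker.equivMapOfInjective ι hι).toEquiv).symm
  rw [index_range_powHom_of_surjective_int p v hv, h1, h3,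
    index_range_powHom_units hp hϖ hc hpe, mul_assoc]

end Main

/-! ### 5. Bridge to Mathlib's adic completeness and to the residue field -/

section Bridge

variable {O : Type*} [CommRing O] [IsDomain O] [IsDiscreteValuationRing O]

theorem isPiComplete_of_isAdicComplete {ϖ : O} (hϖ : Irreducible ϖ)
    [IsAdicComplete (IsLocalRing.maximalIdeal O) O] : IsPiComplete ϖ := by
  intro f hf
  have hI : ∀ k : ℕ, ((IsLocalRing.maximalIdeal O) ^ k • (⊤ : Submodule O O)) =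
      Ideal.span {ϖ ^ k} := by
    intro k
    rw [hϖ.maximalIdeal_eq, smul_eq_mul, Ideal.mul_top, Ideal.span_singleton_pow]
  have hcauchy : ∀ {m n : ℕ}, m ≤ n →
      f m ≡ f n [SMOD ((IsLocalRing.maximalIdeal O) ^ m • (⊤ : Submodule O O))] := by
    intro m n hmn
    rw [hI, SModEq.sub_mem, Ideal.mem_span_singleton]
    induction n, hmn using Nat.le_induction with
    | base => simp
    | succ n hmn ih =>
      have : f m - f (n + 1) = (f m - f n) - (f (n + 1) - f n) := by ring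
      rw [this]
      exact dvd_sub ih (dvd_trans (pow_dvd_pow ϖ hmn) (hf n))
  obtain ⟨L, hL⟩ := IsPrecomplete.prec (I := IsLocalRing.maximalIdeal O) (M := O)
    inferInstance hcauchy
  refine ⟨L, fun k => ?_⟩
  have := hL k
  rw [hI, SModEq.sub_mem, Ideal.mem_span_singleton] at this
  rw [← neg_sub, dvd_neg]
  exact this

theorem card_quotient_span_eq_card_residueField {ϖ : O} (hϖ : Irreducible ϖ) :
    Nat.card (O ⧸ Ideal.span {ϖ}) = Nat.card (IsLocalRing.ResidueField O) :=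
  Nat.card_congr (Ideal.quotEquivOfEq hϖ.maximalIdeal_eq.symm).toEquiv

end Bridge

end Fermat.Agent.GC.Local.Index
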