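/-
GATE-C / C3-INDEX (helper61), part 2: the fraction field of a complete DVR.  Mathlib only.

For a DVR `O` with fraction field `K` and uniformiser `ϖ`: `Kˣ ≃ Oˣ × ℤ`, hence a surjective
`v : Kˣ →* Multiplicative ℤ` with kernel the image of `Oˣ`; together with `IndexAbstract.lean`:
  `[Kˣ : (Kˣ)^p] = p * #μ_p(K) * #κ^e`   where `(p : O) = u ϖ^e`.
-/
import Mathlib
import Fermat.Agent.GC.Local.IndexAbstract

set_option autoImplicit false

namespace Fermat.Agent.GC.Local.Index

open Subgroup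

section Frac

variable (O K : Type*) [CommRing O] [IsDomain O] [IsDiscreteValuationRing O] [Field K]
  [Algebra O K] [IsFractionRing O K]

/-- the inclusion `Oˣ → Kˣ` -/
noncomputable def unitsIncl : Oˣ →* Kˣ := Units.map (algebraMap O K).toMonoidHom

omit [IsDomain O] [IsDiscreteValuationRing O] in
theorem unitsIncl_injective : Function.Injective (unitsIncl O K) :=
  Units.map_injective (IsFractionRing.injective O K)

variable {O}

omit [IsDomain O] [IsDiscreteValuationRing O] [IsFractionRing O K] in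
@[simp] theorem coe_unitsIncl (u : Oˣ) : ((unitsIncl O K u : Kˣ) : K) = algebraMap O K u := rfl

/-- a uniformiser as a unit of the fraction field -/
noncomputable def piK {ϖ : O} (hϖ : Irreducible ϖ) : Kˣ :=
  Units.mk0 (algebraMap O K ϖ)
    ((map_ne_zero_iff _ (IsFractionRing.injective O K)).mpr hϖ.ne_zero)

/-- `Oˣ × ℤ → Kˣ`, `(u, k) ↦ u ϖ^k` -/
noncomputable def decompHom {ϖ : O} (hϖ : Irreducible ϖ) : Oˣ × Multiplicative ℤ →* Kˣ :=
  (unitsIncl O K).coprod (zpowersHom Kˣ (piK K hϖ))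

omit [IsDomain O] [IsDiscreteValuationRing O] in
theorem decompHom_apply {ϖ : O} (hϖ : Irreducible ϖ) (u : Oˣ) (k : Multiplicative ℤ) :
    decompHom K hϖ (u, k) = unitsIncl O K u * piK K hϖ ^ (Multiplicative.toAdd k) := by
  rw [decompHom, MonoidHom.coprod_apply, zpowersHom_apply]

omit [IsDomain O] [IsDiscreteValuationRing O] in
theorem not_isUnit_mul_pow {ϖ : O} (hϖ : Irreducible ϖ) (u : O) {n : ℕ} (hn : 0 < n)
    (h : u * ϖ ^ n = 1) : False := by
  obtain ⟨m, rfl⟩ := Nat.exists_eq_succ_of_ne_zero hn.ne'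
  have : ϖ * (u * ϖ ^ m) = 1 := by rw [← h, pow_succ]; ring
  exact hϖ.not_isUnit (IsUnit.of_mul_eq_one _ this)

omit [IsDomain O] [IsDiscreteValuationRing O] in
theorem decompHom_injective {ϖ : O} (hϖ : Irreducible ϖ) :
    Function.Injective (decompHom K hϖ) := by
  rw [injective_iff_map_eq_one]
  rintro ⟨u, k⟩ h
  rw [decompHom_apply] at h
  have hinj := IsFractionRing.injective O K
  -- pass to `K`
  have hK : algebraMap O K u * (algebraMap O K ϖ) ^ (Multiplicative.toAdd k) = 1 := by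
    have := congrArg (fun x : Kˣ => (x : K)) h
    simpa [piK] using this
  have hπ0 : algebraMap O K ϖ ≠ 0 := (map_ne_zero_iff _ hinj).mpr hϖ.ne_zero
  rcases lt_trichotomy (Multiplicative.toAdd k) 0 with hk | hk | hk
  · -- `u = ϖ^n`, `n > 0`
    exfalso
    obtain ⟨n, hn⟩ := Int.exists_eq_neg_ofNat hk.le
    have hn0 : 0 < n := by omega
    rw [hn, zpow_neg, zpow_natCast, mul_inv_eq_one₀ (pow_ne_zero _ hπ0)] at hK
    have h1 : (u : O) = ϖ ^ n := hinj (by rw [hK, map_pow])
    have h2 : ((u⁻¹ : Oˣ) : O) * ϖ ^ n = 1 := by rw [← h1]; exact u.inv_mul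
    exact not_isUnit_mul_pow hϖ _ hn0 h2
  · rw [hk, zpow_zero, mul_one] at hK
    have h1 : (u : O) = 1 := hinj (by rw [hK, map_one])
    have hu : u = 1 := Units.ext h1
    have hk' : k = 1 := Multiplicative.toAdd.injective (by rw [hk, toAdd_one])
    rw [hu, hk']; rfl
  · exfalso
    obtain ⟨n, hn⟩ := Int.eq_ofNat_of_zero_le hk.le
    have hn0 : 0 < n := by omega
    rw [hn, zpow_natCast, ← map_pow, ← map_mul] at hK
    have h1 : (u : O) * ϖ ^ n = 1 := hinj (by rw [hK, map_one])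
    exact not_isUnit_mul_pow hϖ _ hn0 h1

theorem decompHom_surjective {ϖ : O} (hϖ : Irreducible ϖ) :
    Function.Surjective (decompHom K hϖ) := by
  intro x
  obtain ⟨a, b, hb, hab⟩ := IsFractionRing.div_surjective (A := O) (x : K)
  have hb0 : b ≠ 0 := nonZeroDivisors.ne_zero hb
  have ha0 : a ≠ 0 := by
    rintro rfl
    rw [map_zero, zero_div] at hab
    exact x.ne_zero hab.symm
  obtain ⟨m, u, rfl⟩ := IsDiscreteValuationRing.eq_unit_mul_pow_irreducible ha0 hϖ
  obtain ⟨n, w, rfl⟩ := IsDiscreteValuationRing.eq_unit_mul_pow_irreducible hb0 hϖ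
  refine ⟨(u * w⁻¹, Multiplicative.ofAdd ((m : ℤ) - n)), ?_⟩
  rw [decompHom_apply]
  apply Units.ext
  have hinj := IsFractionRing.injective O K
  have hπ0 : algebraMap O K ϖ ≠ 0 := (map_ne_zero_iff _ hinj).mpr hϖ.ne_zero
  have hw0 : algebraMap O K (w : O) ≠ 0 := (map_ne_zero_iff _ hinj).mpr w.ne_zero
  have hwinv : algebraMap O K ((w⁻¹ : Oˣ) : O) = (algebraMap O K (w : O))⁻¹ := by
    apply eq_inv_of_mul_eq_one_left
    rw [← map_mul, Units.inv_mul, map_one]
  rw [Units.val_mul, coe_unitsIncl, Units.val_zpow_eq_zpow_val, toAdd_ofAdd, ← hab]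
  simp only [piK, Units.val_mk0, Units.val_mul, map_mul, map_pow, hwinv]
  rw [zpow_sub₀ hπ0, zpow_natCast, zpow_natCast]
  field_simp

/-- `Oˣ × ℤ ≃ Kˣ` -/
noncomputable def decompEquiv {ϖ : O} (hϖ : Irreducible ϖ) : Oˣ × Multiplicative ℤ ≃* Kˣ :=
  MulEquiv.ofBijective (decompHom K hϖ) ⟨decompHom_injective K hϖ, decompHom_surjective K hϖ⟩

/-- the normalised valuation `Kˣ → ℤ` -/
noncomputable def valHom {ϖ : O} (hϖ : Irreducible ϖ) : Kˣ →* Multiplicative ℤ :=
  (MonoidHom.snd Oˣ (Multiplicative ℤ)).comp (decompEquiv K hϖ).symm.toMonoidHom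

theorem valHom_decompHom {ϖ : O} (hϖ : Irreducible ϖ) (u : Oˣ) (k : Multiplicative ℤ) :
    valHom K hϖ (decompHom K hϖ (u, k)) = k := by
  have : (decompEquiv K hϖ).symm (decompHom K hϖ (u, k)) = (u, k) :=
    (decompEquiv K hϖ).symm_apply_apply (u, k)
  show ((decompEquiv K hϖ).symm (decompHom K hϖ (u, k))).2 = k
  rw [this]

theorem valHom_surjective {ϖ : O} (hϖ : Irreducible ϖ) : Function.Surjective (valHom K hϖ) :=
  fun k => ⟨decompHom K hϖ (1, k), valHom_decompHom K hϖ 1 k⟩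

theorem range_unitsIncl_eq_ker {ϖ : O} (hϖ : Irreducible ϖ) :
    (unitsIncl O K).range = (valHom K hϖ).ker := by
  ext x
  rw [MonoidHom.mem_range, MonoidHom.mem_ker]
  constructor
  · rintro ⟨u, rfl⟩
    have : unitsIncl O K u = decompHom K hϖ (u, 1) := by
      rw [decompHom_apply, toAdd_one, zpow_zero, mul_one]
    rw [this, valHom_decompHom]
  · intro hx
    obtain ⟨⟨u, k⟩, rfl⟩ := decompHom_surjective K hϖ x
    rw [valHom_decompHom] at hx
    refine ⟨u, ?_⟩
    rw [hx, decompHom_apply, toAdd_one, zpow_zero, mul_one]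

end Frac

section MainFrac

variable {O : Type*} (K : Type*) [CommRing O] [IsDomain O] [IsDiscreteValuationRing O] [Field K]
  [Algebra O K] [IsFractionRing O K]

/-- **the index of the `p`-th powers in `Kˣ`**, `K` the fraction field of a complete DVR with
finite residue field: `[Kˣ : (Kˣ)^p] = p * #μ_p(K) * #(O/ϖ)^e`, `(p : O) = u ϖ^e`. -/
theorem index_range_powHom_frac {p : ℕ} (hp : p.Prime) {ϖ : O} (hϖ : Irreducible ϖ)
    (hc : IsPiComplete ϖ) [Finite (O ⧸ Ideal.span {ϖ})] {u : Oˣ} {e : ℕ}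
    (hpe : (p : O) = u * ϖ ^ e) :
    (powHom Kˣ p).range.index =
      p * Nat.card (powHom Kˣ p).ker * Nat.card (O ⧸ Ideal.span {ϖ}) ^ e :=
  index_range_powHom_of_units hp hϖ hc hpe (unitsIncl O K) (unitsIncl_injective O K)
    (valHom K hϖ) (valHom_surjective K hϖ) (range_unitsIncl_eq_ker K hϖ)

theorem rootsOfUnity_eq_ker (p : ℕ) : rootsOfUnity p K = (powHom Kˣ p).ker := by
  ext x
  rw [mem_rootsOfUnity, MonoidHom.mem_ker]
  rfl

/-- the final form with `Nat.card` of the quotient, `rootsOfUnity` and the residue field -/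
theorem card_units_quot_pow {p : ℕ} (hp : p.Prime) [IsAdicComplete (IsLocalRing.maximalIdeal O) O]
    [Finite (IsLocalRing.ResidueField O)] {ϖ : O} (hϖ : Irreducible ϖ) {u : Oˣ} {e : ℕ}
    (hpe : (p : O) = u * ϖ ^ e) :
    Nat.card (Kˣ ⧸ (powMonoidHom p : Kˣ →* Kˣ).range) =
      p * Nat.card (rootsOfUnity p K) * Nat.card (IsLocalRing.ResidueField O) ^ e := by
  have : Finite (O ⧸ Ideal.span {ϖ}) :=
    Finite.of_equiv (IsLocalRing.ResidueField O) (Ideal.quotEquivOfEq hϖ.maximalIdeal_eq).toEquiv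
  have h := index_range_powHom_frac K hp hϖ (isPiComplete_of_isAdicComplete hϖ) hpe
  rw [card_quotient_span_eq_card_residueField hϖ] at h
  rw [rootsOfUnity_eq_ker]
  exact h

end MainFrac

end Fermat.Agent.GC.Local.Index
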