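/-
GATE-C / C3-INDEX (helper61), part 3: finite extensions of `ℚ_q`.

`Nat.card (Lˣ ⧸ p-th powers) = p * #μ_p(L) * (if q = p then p^[L:ℚ_p] else 1)` for a finite
normed extension `L/ℚ_q` (in particular for `E ≤ PadicAlgCl q`), from `IndexFrac.lean` applied to
helper60's `unitBallVS L`, GIVEN the cardinality form of `e · f = n`:
  `EFCard q L : ∀ ϖ u e, Irreducible ϖ → (q : O) = u ϖ^e → #κ ^ e = q ^ [L : ℚ_q]`.
-/
import Mathlib
import Fermat.Agent.GC.Local.IndexFrac
import Fermat.Agent.GC.Local.IndexEF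
import Fermat.Agent.GC.Local.UnitBall

set_option autoImplicit false

open scoped Padic

namespace Fermat.Agent.GC.Local.Index

open Fermat.Agent.GC.Local

section Concrete

variable (q : ℕ) [Fact q.Prime] (L : Type*) [NormedField L] [NormedAlgebra ℚ_[q] L]
  [IsUltrametricDist L] [FiniteDimensional ℚ_[q] L]

/-- the cardinality form of `e · f = n` for the unit ball of `L` -/
def EFCard : Prop :=
  ∀ (ϖ : unitBallVS L) (u : (unitBallVS L)ˣ) (e : ℕ), Irreducible ϖ →
    ((q : ℕ) : unitBallVS L) = u * ϖ ^ e →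
      Nat.card (IsLocalRing.ResidueField (unitBallVS L)) ^ e = q ^ Module.finrank ℚ_[q] L

omit [IsUltrametricDist L] [FiniteDimensional ℚ_[q] L] in
theorem norm_natCast_eq (n : ℕ) : ‖(n : L)‖ = ‖(n : ℚ_[q])‖ := by
  rw [← norm_algebraMap' L (n : ℚ_[q]), map_natCast]

omit [NormedAlgebra ℚ_[q] L] [FiniteDimensional ℚ_[q] L] in
theorem coe_natCast_unitBallVS (n : ℕ) : (((n : ℕ) : unitBallVS L) : L) = (n : L) :=
  map_natCast (algebraMap (unitBallVS L) L) n

/-- **INDEX** given `e · f = n` -/
theorem card_units_mod_pow_of_efCard (hEF : EFCard q L) (p : ℕ) [Fact p.Prime] :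
    Nat.card (Lˣ ⧸ (powMonoidHom p : Lˣ →* Lˣ).range) =
      p * Nat.card (rootsOfUnity p L) *
        (if q = p then p ^ Module.finrank ℚ_[q] L else 1) := by
  have hp : p.Prime := Fact.out
  have hq : q.Prime := Fact.out
  have := unitBallVS_isDiscreteValuationRing q L
  have := unitBallVS_finite_residueField q L
  have := unitBallVS_isAdicComplete q L
  obtain ⟨ϖ, hϖ⟩ := IsDiscreteValuationRing.exists_irreducible (unitBallVS L)
  by_cases hqp : q = p
  · subst hqp
    rw [if_pos rfl]
    have hq0 : ((q : ℕ) : unitBallVS L) ≠ 0 := by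
      intro h
      have h1 : (q : L) = 0 := by
        rw [← coe_natCast_unitBallVS L q, h]; rfl
      have h2 : ‖(q : L)‖ = 0 := by rw [h1, norm_zero]
      rw [norm_natCast_eq q L, Padic.norm_p] at h2
      have : (0 : ℝ) < (q : ℝ)⁻¹ := by
        have : (0 : ℝ) < q := by exact_mod_cast hq.pos
        positivity
      linarith
    obtain ⟨e, u, hpe⟩ := IsDiscreteValuationRing.eq_unit_mul_pow_irreducible hq0 hϖ
    rw [card_units_quot_pow L hp hϖ hpe, hEF ϖ u e hϖ hpe]
  · rw [if_neg hqp, mul_one]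
    have hnorm : ‖(p : L)‖ = 1 := by
      rw [norm_natCast_eq q L, Padic.norm_natCast_eq_one_iff]
      exact (Nat.coprime_primes hq hp).mpr hqp
    have hmem : (p : L) ∈ unitBallVS L := mem_unitBallVS_iff.mpr hnorm.le
    have hunit : IsUnit ((p : ℕ) : unitBallVS L) := by
      by_contra hnu
      have h1 : ((p : ℕ) : unitBallVS L) ∈ nonunits (unitBallVS L) := hnu
      have h2 : (((p : ℕ) : unitBallVS L) : L) ∈ (unitBallVS L).nonunits :=
        ValuationSubring.coe_mem_nonunits_iff.mpr h1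
      rw [coe_natCast_unitBallVS, mem_nonunits_unitBallVS_iff, hnorm] at h2
      exact lt_irrefl _ h2
    have hpe : ((p : ℕ) : unitBallVS L) = (hunit.unit : (unitBallVS L)ˣ) * ϖ ^ 0 := by
      rw [pow_zero, mul_one, IsUnit.unit_spec]
    rw [card_units_quot_pow L hp hϖ hpe, pow_zero, mul_one]

theorem efCard : EFCard q L :=
  fun ϖ u e hϖ hq => card_residueField_pow_eq q L ϖ u e hϖ hq

/-- **INDEX** for a finite normed extension `L/ℚ_q` -/
theorem card_units_mod_pow_normed (p : ℕ) [Fact p.Prime] :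
    Nat.card (Lˣ ⧸ (powMonoidHom p : Lˣ →* Lˣ).range) =
      p * Nat.card (rootsOfUnity p L) *
        (if q = p then p ^ Module.finrank ℚ_[q] L else 1) :=
  card_units_mod_pow_of_efCard q L (efCard q L) p

end Concrete

section Skeleton

variable (q : ℕ) [Fact q.Prime]

/-- **INDEX** (Skeleton form, verbatim): the index of the `p`-th powers in `E^×`. -/
theorem card_units_mod_pow (E : IntermediateField ℚ_[q] (PadicAlgCl q))
    [FiniteDimensional ℚ_[q] E] (p : ℕ) [Fact p.Prime] :
    Nat.card (Eˣ ⧸ (powMonoidHom p : Eˣ →* Eˣ).range) =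
      p * Nat.card (rootsOfUnity p E) * (if q = p then p ^ Module.finrank ℚ_[q] E else 1) :=
  card_units_mod_pow_normed q E p

end Skeleton

end Fermat.Agent.GC.Local.Index
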