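/-
GATE-C / C3 LOCAL-NUM (helper41).  Sizes of the local cohomology groups of `μ_p`.

Abs language (helper81): `K ⊆ Ω` Galois, `G_K = Ω ≃ₐ[K] Ω`, `galLevels K Ω`, `muRep K Ω p`.
* `card_hlc_zero_mu` : `#H⁰(G_K, μ_p) = #μ_p(K)`;
* `card_hlc_two_mu`  : `#H²(G_K, μ_p) = #H²(G_K, Ωˣ)[p]`.

Local case `E/ℚ_q` finite inside `Ω = PadicAlgCl q`, `p` prime (`q = p` allowed), all UNCONDITIONAL:
* `local_card_hlc_zero` : `#H⁰(G_E, μ_p) = #μ_p(E)`;
* `local_card_hlc_one`  : `#H¹(G_E, μ_p) = p · #μ_p(E) · (if q = p then p^[E:ℚ_q] else 1)`;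
* `classFormationAbove_local`, `exists_galois_layer_dvd`,
  `local_card_torsion_hlc_two_units` : `#Br(E)[p] = p`;
* `local_card_hlc_two`  : `#H²(G_E, μ_p) = p`;
* `local_euler_mu` : `#H⁰ · #H² · p^{[E:ℚ_p][q=p]} = #H¹`.
-/
import Fermat.Agent.GC.Local.Abs.Kummer
import Fermat.Agent.GC.Local.Abs.BrauerTorsion
import Fermat.Agent.GC.Local.Index
import Fermat.Agent.GC.Prof.Prod
import Fermat.Agent.GC.Local.Unram.LowerData
import Fermat.Agent.GC.Local.CycloDegGrowthPadic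

set_option autoImplicit false

open CategoryTheory

noncomputable section

namespace Fermat.Agent.GC.Local.LocalNum

open Fermat.Agent.GC.Prof Fermat.Agent.GC.Local.Abs

section General

variable (K : Type*) (Ω : Type) [Field K] [Field Ω] [Algebra K Ω] (p : ℕ)

/-- A unit `u` of `Ω` with `u ^ p = 1` as an element of `μ_p(Ω)`. -/
def muMk (u : Ωˣ) (hu : u ^ p = 1) : muRep K Ω p :=
  (⟨ofU K Ω u, (mem_torsSub_iff _ _ _).2 ((natCast_smul_eq_zero_iff K Ω p _).2 hu)⟩ :
    torsSub (unitsRep K Ω) (p : ℤ))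

@[simp] lemma muι_muMk (u : Ωˣ) (hu : u ^ p = 1) :
    (muι K Ω p).hom (muMk K Ω p u hu) = ofU K Ω u := rfl

lemma toU_muι_muMk (u : Ωˣ) (hu : u ^ p = 1) :
    toU K Ω ((muι K Ω p).hom (muMk K Ω p u hu)) = u := rfl

lemma muι_injective : Function.Injective (muι K Ω p).hom := torsι_injective _ _

/-- The unit underlying an element of `μ_p(Ω)`. -/
def muU (y : muRep K Ω p) : Ωˣ := toU K Ω ((muι K Ω p).hom y)

lemma muU_pow (y : muRep K Ω p) : muU K Ω p y ^ p = 1 := toU_muι_pow K Ω p y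

lemma muU_injective : Function.Injective (muU K Ω p) :=
  (toU_injective K Ω).comp (muι_injective K Ω p)

@[simp] lemma muU_muMk (u : Ωˣ) (hu : u ^ p = 1) : muU K Ω p (muMk K Ω p u hu) = u := rfl

lemma muMk_muU (y : muRep K Ω p) : muMk K Ω p (muU K Ω p y) (muU_pow K Ω p y) = y :=
  muU_injective K Ω p rfl

lemma muU_ρ (g : Ω ≃ₐ[K] Ω) (y : muRep K Ω p) :
    muU K Ω p ((muRep K Ω p).ρ g y) = Units.map (g : Ω →* Ω) (muU K Ω p y) := by
  unfold muU
  rw [Rep.hom_comm_apply, toU_ρ]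

lemma muU_zero : muU K Ω p 0 = 1 := by
  unfold muU
  rw [map_zero]
  rfl

lemma muU_add (x y : muRep K Ω p) : muU K Ω p (x + y) = muU K Ω p x * muU K Ω p y := by
  unfold muU
  rw [map_add]
  rfl

lemma muU_nsmul (n : ℕ) (x : muRep K Ω p) : muU K Ω p (n • x) = muU K Ω p x ^ n := by
  induction n with
  | zero => rw [zero_smul, pow_zero, muU_zero]
  | succ n ih => rw [succ_nsmul, muU_add, ih, pow_succ]

/-- `μ_p(Ω) ≃ rootsOfUnity p Ω` as sets. -/
def muEquivRoots : muRep K Ω p ≃ rootsOfUnity p Ω where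
  toFun y := ⟨muU K Ω p y, (mem_rootsOfUnity _ _).2 (muU_pow K Ω p y)⟩
  invFun ζ := muMk K Ω p (ζ : Ωˣ) ((mem_rootsOfUnity _ _).1 ζ.2)
  left_inv y := muMk_muU K Ω p y
  right_inv _ := Subtype.ext rfl

/-- A `p`-th root of unity of the base field as an invariant of `μ_p(Ω)`. -/
def rootToInv (ζ : rootsOfUnity p K) : (muRep K Ω p).ρ.invariants :=
  ⟨muMk K Ω p (Units.map (algebraMap K Ω : K →* Ω) (ζ : Kˣ)) (by
      rw [← map_pow, (mem_rootsOfUnity _ _).1 ζ.2, map_one]), fun g => by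
    apply muU_injective
    rw [muU_ρ, muU_muMk]
    ext
    simp⟩

lemma muU_rootToInv (ζ : rootsOfUnity p K) :
    muU K Ω p (rootToInv K Ω p ζ).1 = Units.map (algebraMap K Ω : K →* Ω) (ζ : Kˣ) := rfl

lemma rootToInv_injective : Function.Injective (rootToInv K Ω p) := by
  intro a b hab
  have h1 := congrArg (fun x => ((muU K Ω p x.1 : Ωˣ) : Ω)) hab
  simp only [muU_rootToInv, Units.coe_map, MonoidHom.coe_coe] at h1
  exact Subtype.ext (Units.ext ((algebraMap K Ω).injective h1))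

lemma rootToInv_surjective [IsGalois K Ω] : Function.Surjective (rootToInv K Ω p) := by
  rintro ⟨x, hx⟩
  have hfix : ∀ g : Ω ≃ₐ[K] Ω, g ((muU K Ω p x : Ωˣ) : Ω) = ((muU K Ω p x : Ωˣ) : Ω) := by
    intro g
    have := congrArg (fun y => ((muU K Ω p y : Ωˣ) : Ω)) (hx g)
    simpa [muU_ρ] using this
  obtain ⟨a, ha⟩ := (InfiniteGalois.mem_range_algebraMap_iff_fixed _).2 hfix
  have ha0 : a ≠ 0 := by
    rintro rfl
    rw [map_zero] at ha
    exact (muU K Ω p x).ne_zero ha.symm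
  have hap : (Units.mk0 a ha0) ^ p = 1 := by
    apply Units.ext
    apply (algebraMap K Ω).injective
    have h2 := congrArg (fun u : Ωˣ => (u : Ω)) (muU_pow K Ω p x)
    simp only [Units.val_pow_eq_pow_val, Units.val_one] at h2
    simp only [Units.val_pow_eq_pow_val, Units.val_mk0, map_pow, Units.val_one, map_one, ha, h2]
  refine ⟨⟨Units.mk0 a ha0, (mem_rootsOfUnity _ _).2 hap⟩, Subtype.ext ?_⟩
  apply muU_injective
  rw [muU_rootToInv]
  ext
  simpa using ha

/-- **`h⁰`.** `#H⁰(G_K, μ_p) = #μ_p(K)`. -/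
theorem card_hlc_zero_mu [IsGalois K Ω] :
    Nat.card (Hlc (galLevels K Ω) (muRep K Ω p) 0) = Nat.card (rootsOfUnity p K) :=
  Nat.card_congr ((Hlc0Equiv (galLevels K Ω) (muRep K Ω p)).toEquiv.trans
    (Equiv.ofBijective (rootToInv K Ω p)
      ⟨rootToInv_injective K Ω p, rootToInv_surjective K Ω p⟩).symm)

/-- **`h²`.** `#H²(G_K, μ_p) = #H²(G_K, Ωˣ)[p]` (Hilbert 90 + Kummer sequence). -/
theorem card_hlc_two_mu [IsGalois K Ω] {p : ℕ} (h : HasRoots Ω p) :
    Nat.card (Hlc (galLevels K Ω) (muRep K Ω p) 2) =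
      Nat.card {x : Hlc (galLevels K Ω) (unitsRep K Ω) 2 // p • x = 0} := by
  have key : ∀ z : Hlc (galLevels K Ω) (unitsRep K Ω) 2, p • z = 0 ↔ (p : ℤ) • z = 0 := by
    intro z
    rw [natCast_zsmul]
  let φ : Hlc (galLevels K Ω) (muRep K Ω p) 2 →
      {x : Hlc (galLevels K Ω) (unitsRep K Ω) 2 // p • x = 0} :=
    fun y => ⟨HlcMap (galLevels K Ω) (muι K Ω p) 2 y,
      (key _).2 ((exists_HlcMap_muι_eq_iff K Ω h 2 _).1 ⟨y, rfl⟩)⟩
  have hφ : Function.Bijective φ := by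
    constructor
    · intro a b hab
      exact HlcMap_muι_two_injective K Ω h (congrArg Subtype.val hab)
    · rintro ⟨x, hx⟩
      obtain ⟨y, hy⟩ := (exists_HlcMap_muι_eq_iff K Ω h 2 x).2 ((key x).1 hx)
      exact ⟨y, Subtype.ext hy⟩
  exact Nat.card_congr (Equiv.ofBijective φ hφ)

end General

section Local

variable (q : ℕ) [Fact q.Prime] (E : IntermediateField ℚ_[q] (PadicAlgCl q))
  [FiniteDimensional ℚ_[q] E] (p : ℕ) [Fact p.Prime]

/-- `PadicAlgCl q` has all `p`-th roots. -/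
theorem hasRoots_padicAlgCl : HasRoots (PadicAlgCl q) p :=
  hasRoots_of_isAlgClosed (PadicAlgCl q) (Fact.out : p.Prime).ne_zero

omit [FiniteDimensional ℚ_[q] E] [Fact p.Prime] in
/-- **local `h⁰`**: `#H⁰(G_E, μ_p) = #μ_p(E)`. -/
theorem local_card_hlc_zero :
    Nat.card (Hlc (galLevels E (PadicAlgCl q)) (muRep E (PadicAlgCl q) p) 0) =
      Nat.card (rootsOfUnity p E) :=
  card_hlc_zero_mu E (PadicAlgCl q) p

/-- **local `h¹`**: `#H¹(G_E, μ_p) = p · #μ_p(E) · p^{[E:ℚ_p]}` (last factor only for `q = p`). -/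
theorem local_card_hlc_one :
    Nat.card (Hlc (galLevels E (PadicAlgCl q)) (muRep E (PadicAlgCl q) p) 1) =
      p * Nat.card (rootsOfUnity p E) *
        (if q = p then p ^ Module.finrank ℚ_[q] E else 1) := by
  rw [card_hlc_one_mu E (PadicAlgCl q) (hasRoots_padicAlgCl q p),
    Index.card_units_mod_pow q E p]

/-- The class-formation axiom holds above every layer of a `q`-adic field (helper26/helper3). -/
theorem classFormationAbove_local (N₀ : IntermediateField E (PadicAlgCl q)) :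
    ClassFormationAbove N₀ := by
  intro N hfd hgal _
  have : FiniteDimensional ℚ_[q] N := FiniteDimensional.trans ℚ_[q] E N
  exact ⟨Unram.local_isAddCyclic_H2 q E N, Unram.local_card_H2_eq_finrank q E N⟩

/-- A finite Galois extension of `E` inside `PadicAlgCl q` of degree divisible by `p`
(a `p`-power cyclotomic layer, helper73's degree growth). -/
theorem exists_galois_layer_dvd :
    ∃ N₀ : IntermediateField E (PadicAlgCl q), FiniteDimensional E N₀ ∧ IsGalois E N₀ ∧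
      p ∣ Module.finrank E N₀ := by
  obtain ⟨m₀, hm₀⟩ := CycloDegGrowth.padicAlgCl_exists_forall_pow_dvd_finrank q p E 1
  have hpos : 0 < p ^ (m₀ + 1) := pow_pos (Fact.out : p.Prime).pos _
  have hne : NeZero (p ^ (m₀ + 1)) := ⟨hpos.ne'⟩
  have hne' : NeZero ((p ^ (m₀ + 1) : ℕ) : PadicAlgCl q) := ⟨by exact_mod_cast hpos.ne'⟩
  obtain ⟨ζ, hζ⟩ := HasEnoughRootsOfUnity.exists_primitiveRoot (PadicAlgCl q) (p ^ (m₀ + 1))
  have hcyc : IsCyclotomicExtension {p ^ (m₀ + 1)} E (IntermediateField.adjoin E {ζ}) :=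
    CycloDegGrowth.isCyclotomicExtension_adjoin hζ
  refine ⟨IntermediateField.adjoin E {ζ},
    IsCyclotomicExtension.finiteDimensional {p ^ (m₀ + 1)} E _,
    IsCyclotomicExtension.isGalois {p ^ (m₀ + 1)} E _, ?_⟩
  simpa using hm₀ m₀ le_rfl ζ hζ

/-- **`|Br(E)[p]| = p`** in the Abs language. -/
theorem local_card_torsion_hlc_two_units :
    Nat.card {x : Hlc (galLevels E (PadicAlgCl q)) (unitsRep E (PadicAlgCl q)) 2 // p • x = 0} =
      p := by
  obtain ⟨N₀, hfd, hgal, hdvd⟩ := exists_galois_layer_dvd q E p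
  exact card_torsion_hlc_two N₀ (classFormationAbove_local q E N₀) p hdvd

/-- **local `h²`**: `#H²(G_E, μ_p) = p`. -/
theorem local_card_hlc_two :
    Nat.card (Hlc (galLevels E (PadicAlgCl q)) (muRep E (PadicAlgCl q) p) 2) = p := by
  rw [card_hlc_two_mu E (PadicAlgCl q) (hasRoots_padicAlgCl q p),
    local_card_torsion_hlc_two_units]

/-- **Local Euler characteristic of `μ_p`** (multiplicative form):
`#H⁰ · #H² · p^{[E:ℚ_p]·[q = p]} = #H¹`. -/
theorem local_euler_mu :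
    Nat.card (Hlc (galLevels E (PadicAlgCl q)) (muRep E (PadicAlgCl q) p) 0) *
        Nat.card (Hlc (galLevels E (PadicAlgCl q)) (muRep E (PadicAlgCl q) p) 2) *
        (if q = p then p ^ Module.finrank ℚ_[q] E else 1) =
      Nat.card (Hlc (galLevels E (PadicAlgCl q)) (muRep E (PadicAlgCl q) p) 1) := by
  rw [local_card_hlc_zero, local_card_hlc_one, local_card_hlc_two]
  ring

end Local

end Fermat.Agent.GC.Local.LocalNum
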