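/-
GATE-C / C3 LOCAL-NUM part B (helper41).  `ZMod p`-coefficients and the trivial module.

* `trivMuEquiv` : for a primitive `p`-th root of unity `ζ ∈ K`, the additive equivalence
  `ZMod p ≃+ muRep K Ω p`, `a ↦ ζ^a`; `Gal(Ω/K)` acts trivially on `μ_p(Ω)` (`ρ_mu_eq_self`).
* For `E/ℚ_q` finite, `M : Rep (ZMod p) G_E` with an equivariant additive equivalence
  `e : muRep E Ω p ≃+ M` (helper5 `CoeffChange` shape):
  `finiteDimensional_Hlc_of_mu`, `finrank_Hlc_two_of_mu = 1`, `euler_finrank_of_mu`,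
  and for `ζ_p ∈ E`: `finrank_Hlc_zero_of_mu = 1`,
  `finrank_Hlc_one_of_mu = 2 + [E:ℚ_p]·[q = p]`.
* The same for every module with trivial action and underlying group `ZMod p`
  (`finrank_Hlc_*_of_trivial`).
-/
import Fermat.Agent.GC.Local.LocalNum
import Fermat.Agent.GC.Prof.CoeffChangeCup

set_option autoImplicit false

open CategoryTheory

noncomputable section

namespace Fermat.Agent.GC.Local.LocalNum

open Fermat.Agent.GC.Prof Fermat.Agent.GC.Local.Abs

section Triv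

variable (K : Type*) (Ω : Type) [Field K] [Field Ω] [Algebra K Ω] (p : ℕ)

lemma nsmul_self_mu (y : muRep K Ω p) : p • y = 0 := by
  apply muU_injective
  rw [muU_nsmul, muU_pow, muU_zero]

lemma muU_neg (x : muRep K Ω p) : muU K Ω p (-x) = (muU K Ω p x)⁻¹ := by
  unfold muU
  rw [map_neg]
  rfl

lemma muU_zsmul (n : ℤ) (x : muRep K Ω p) : muU K Ω p (n • x) = muU K Ω p x ^ n := by
  obtain ⟨m, rfl | rfl⟩ := n.eq_nat_or_neg
  · rw [natCast_zsmul, zpow_natCast, muU_nsmul]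
  · rw [neg_smul, muU_neg, natCast_zsmul, muU_nsmul, zpow_neg, zpow_natCast]

variable [NeZero p] {ζ : K} (hζ : IsPrimitiveRoot ζ p)

/-- The generator of `μ_p(Ω)` coming from a primitive `p`-th root of unity of `K`. -/
def muGen : muRep K Ω p := (rootToInv K Ω p hζ.toRootsOfUnity).1

lemma coe_muU_muGen : ((muU K Ω p (muGen K Ω p hζ) : Ωˣ) : Ω) = algebraMap K Ω ζ := rfl

lemma ρ_muGen (g : Ω ≃ₐ[K] Ω) : (muRep K Ω p).ρ g (muGen K Ω p hζ) = muGen K Ω p hζ :=
  (rootToInv K Ω p hζ.toRootsOfUnity).2 g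

lemma isPrimitiveRoot_muU_muGen : IsPrimitiveRoot (muU K Ω p (muGen K Ω p hζ)) p := by
  rw [← IsPrimitiveRoot.coe_units_iff, coe_muU_muGen]
  exact hζ.map_of_injective (algebraMap K Ω).injective

/-- `ZMod p → μ_p(Ω)`, `a ↦ ζ^a`. -/
def trivToMu : ZMod p →+ muRep K Ω p :=
  ZMod.lift p ⟨zmultiplesHom (muRep K Ω p) (muGen K Ω p hζ), by
    rw [zmultiplesHom_apply, natCast_zsmul]
    exact nsmul_self_mu K Ω p _⟩

lemma trivToMu_intCast (i : ℤ) :
    trivToMu K Ω p hζ (i : ZMod p) = i • muGen K Ω p hζ := by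
  rw [trivToMu, ZMod.lift_coe]
  rfl

lemma ρ_trivToMu (g : Ω ≃ₐ[K] Ω) (a : ZMod p) :
    (muRep K Ω p).ρ g (trivToMu K Ω p hζ a) = trivToMu K Ω p hζ a := by
  obtain ⟨i, rfl⟩ := ZMod.intCast_surjective a
  rw [trivToMu_intCast, map_zsmul, ρ_muGen]

lemma trivToMu_injective : Function.Injective (trivToMu K Ω p hζ) := by
  rw [injective_iff_map_eq_zero]
  intro a ha
  obtain ⟨i, rfl⟩ := ZMod.intCast_surjective a
  rw [trivToMu_intCast] at ha
  have h1 := congrArg (muU K Ω p) ha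
  rw [muU_zsmul, muU_zero, (isPrimitiveRoot_muU_muGen K Ω p hζ).zpow_eq_one_iff_dvd] at h1
  exact (ZMod.intCast_zmod_eq_zero_iff_dvd i p).2 h1

lemma trivToMu_surjective : Function.Surjective (trivToMu K Ω p hζ) := by
  intro y
  have h1 : ((muU K Ω p y : Ωˣ) : Ω) ^ p = 1 := by
    rw [← Units.val_pow_eq_pow_val, muU_pow, Units.val_one]
  obtain ⟨i, -, hi⟩ :=
    (hζ.map_of_injective (algebraMap K Ω).injective).eq_pow_of_pow_eq_one h1
  refine ⟨((i : ℤ) : ZMod p), ?_⟩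
  apply muU_injective
  rw [trivToMu_intCast, muU_zsmul, zpow_natCast]
  apply Units.ext
  rw [Units.val_pow_eq_pow_val, coe_muU_muGen]
  exact hi

/-- **`ZMod p ≃+ μ_p(Ω)`** for `ζ_p ∈ K`. -/
def trivMuEquiv : ZMod p ≃+ muRep K Ω p :=
  AddEquiv.ofBijective (trivToMu K Ω p hζ)
    ⟨trivToMu_injective K Ω p hζ, trivToMu_surjective K Ω p hζ⟩

lemma trivMuEquiv_apply (a : ZMod p) : trivMuEquiv K Ω p hζ a = trivToMu K Ω p hζ a := rfl

include hζ in
/-- For `ζ_p ∈ K` the Galois group `Gal(Ω/K)` acts trivially on `μ_p(Ω)`. -/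
lemma ρ_mu_eq_self (g : Ω ≃ₐ[K] Ω) (y : muRep K Ω p) : (muRep K Ω p).ρ g y = y := by
  obtain ⟨a, rfl⟩ := trivToMu_surjective K Ω p hζ y
  exact ρ_trivToMu K Ω p hζ g a

end Triv

section ZModCoeff

variable (q : ℕ) [Fact q.Prime] (E : IntermediateField ℚ_[q] (PadicAlgCl q))
  [FiniteDimensional ℚ_[q] E] (p : ℕ) [Fact p.Prime]

omit [FiniteDimensional ℚ_[q] E] in
/-- `#μ_p(E) = p` when `ζ_p ∈ E`. -/
lemma card_rootsOfUnity_of_primitiveRoot {ζ : E} (hζ : IsPrimitiveRoot ζ p) :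
    Nat.card (rootsOfUnity p E) = p :=
  have : NeZero p := ⟨(Fact.out : p.Prime).ne_zero⟩
  hζ.card_rootsOfUnity

instance finite_local_hlc_mu_zero :
    Finite (Hlc (galLevels E (PadicAlgCl q)) (muRep E (PadicAlgCl q) p) 0) := by
  have : NeZero p := ⟨(Fact.out : p.Prime).ne_zero⟩
  apply Nat.finite_of_card_ne_zero
  rw [local_card_hlc_zero]
  exact Nat.card_pos.ne'

instance finite_local_hlc_mu_one :
    Finite (Hlc (galLevels E (PadicAlgCl q)) (muRep E (PadicAlgCl q) p) 1) := by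
  have : NeZero p := ⟨(Fact.out : p.Prime).ne_zero⟩
  have hp : 0 < p := (Fact.out : p.Prime).pos
  apply Nat.finite_of_card_ne_zero
  rw [local_card_hlc_one]
  refine (Nat.mul_pos (Nat.mul_pos hp Nat.card_pos) ?_).ne'
  split_ifs
  · exact pow_pos hp _
  · exact Nat.one_pos

instance finite_local_hlc_mu_two :
    Finite (Hlc (galLevels E (PadicAlgCl q)) (muRep E (PadicAlgCl q) p) 2) := by
  apply Nat.finite_of_card_ne_zero
  rw [local_card_hlc_two]
  exact (Fact.out : p.Prime).ne_zero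

variable (M : Rep.{0} (ZMod p) (PadicAlgCl q ≃ₐ[E] PadicAlgCl q))
  [IsDiscrete (galLevels E (PadicAlgCl q)) M]
  (e : muRep E (PadicAlgCl q) p ≃+ M)
  (he : ∀ g a, e ((muRep E (PadicAlgCl q) p).ρ g a) = M.ρ g (e a))

include e he

/-- `Hlc^i(G_E, M)` is finite-dimensional for `i ≤ 2`, `M ≃ μ_p`. -/
theorem finiteDimensional_Hlc_of_mu (i : ℕ) (hi : i ≤ 2) :
    FiniteDimensional (ZMod p) (Hlc (galLevels E (PadicAlgCl q)) M i) := by
  interval_cases i
  · exact finiteDimensional_Hlc_of_addEquiv _ p M e he 0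
  · exact finiteDimensional_Hlc_of_addEquiv _ p M e he 1
  · exact finiteDimensional_Hlc_of_addEquiv _ p M e he 2

/-- **local `h²`** over `ZMod p`: `dim Hlc²(G_E, μ_p) = 1`. -/
theorem finrank_Hlc_two_of_mu :
    Module.finrank (ZMod p) (Hlc (galLevels E (PadicAlgCl q)) M 2) = 1 := by
  have h1 := pow_finrank_Hlc_eq_card_of_addEquiv (galLevels E (PadicAlgCl q)) p M e he 2
  rw [local_card_hlc_two] at h1
  exact Nat.pow_right_injective (Fact.out : p.Prime).two_le (h1.trans (pow_one p).symm)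

/-- **local Euler characteristic** over `ZMod p` (no root of unity needed):
`h⁰ + h² + [E:ℚ_p]·[q = p] = h¹`. -/
theorem euler_finrank_of_mu :
    Module.finrank (ZMod p) (Hlc (galLevels E (PadicAlgCl q)) M 0) +
        Module.finrank (ZMod p) (Hlc (galLevels E (PadicAlgCl q)) M 2) +
        (if q = p then Module.finrank ℚ_[q] E else 0) =
      Module.finrank (ZMod p) (Hlc (galLevels E (PadicAlgCl q)) M 1) := by
  have h0 := pow_finrank_Hlc_eq_card_of_addEquiv (galLevels E (PadicAlgCl q)) p M e he 0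
  have h1 := pow_finrank_Hlc_eq_card_of_addEquiv (galLevels E (PadicAlgCl q)) p M e he 1
  have h2 := pow_finrank_Hlc_eq_card_of_addEquiv (galLevels E (PadicAlgCl q)) p M e he 2
  have hE := local_euler_mu q E p
  rw [← h0, ← h1, ← h2] at hE
  apply Nat.pow_right_injective (Fact.out : p.Prime).two_le
  show p ^ _ = p ^ _
  rw [← hE, pow_add, pow_add]
  congr 1
  split_ifs
  · rfl
  · rw [pow_zero]

omit [FiniteDimensional ℚ_[q] E] in
/-- **local `h⁰`** over `ZMod p` for `ζ_p ∈ E`: `dim Hlc⁰(G_E, μ_p) = 1`. -/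
theorem finrank_Hlc_zero_of_mu {ζ : E} (hζ : IsPrimitiveRoot ζ p) :
    Module.finrank (ZMod p) (Hlc (galLevels E (PadicAlgCl q)) M 0) = 1 := by
  have h1 := pow_finrank_Hlc_eq_card_of_addEquiv (galLevels E (PadicAlgCl q)) p M e he 0
  rw [local_card_hlc_zero, card_rootsOfUnity_of_primitiveRoot q E p hζ] at h1
  exact Nat.pow_right_injective (Fact.out : p.Prime).two_le (h1.trans (pow_one p).symm)

/-- **local `h¹`** over `ZMod p` for `ζ_p ∈ E`: `dim Hlc¹(G_E, μ_p) = 2 + [E:ℚ_p]·[q = p]`. -/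
theorem finrank_Hlc_one_of_mu {ζ : E} (hζ : IsPrimitiveRoot ζ p) :
    Module.finrank (ZMod p) (Hlc (galLevels E (PadicAlgCl q)) M 1) =
      2 + (if q = p then Module.finrank ℚ_[q] E else 0) := by
  rw [← euler_finrank_of_mu q E p M e he, finrank_Hlc_zero_of_mu q E p M e he hζ,
    finrank_Hlc_two_of_mu q E p M e he]

end ZModCoeff

section TrivialModule

variable (q : ℕ) [Fact q.Prime] (E : IntermediateField ℚ_[q] (PadicAlgCl q))
  [FiniteDimensional ℚ_[q] E] (p : ℕ) [Fact p.Prime]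
  (M : Rep.{0} (ZMod p) (PadicAlgCl q ≃ₐ[E] PadicAlgCl q))
  [IsDiscrete (galLevels E (PadicAlgCl q)) M]
  (hM : ∀ g m, M.ρ g m = m) (eM : ZMod p ≃+ M) {ζ : E} (hζ : IsPrimitiveRoot ζ p)

/-- `μ_p(Ω) ≃+ M` for a module `M ≃+ ZMod p` (`ζ_p ∈ E`). -/
def muEquivOfTrivial : muRep E (PadicAlgCl q) p ≃+ M :=
  have : NeZero p := ⟨(Fact.out : p.Prime).ne_zero⟩
  (trivMuEquiv E (PadicAlgCl q) p hζ).symm.trans eM

include hM in
omit [FiniteDimensional ℚ_[q] E] [IsDiscrete (galLevels E (PadicAlgCl q)) M] in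
lemma muEquivOfTrivial_equivariant (g : PadicAlgCl q ≃ₐ[E] PadicAlgCl q)
    (a : muRep E (PadicAlgCl q) p) :
    muEquivOfTrivial q E p M eM hζ ((muRep E (PadicAlgCl q) p).ρ g a) =
      M.ρ g (muEquivOfTrivial q E p M eM hζ a) := by
  have : NeZero p := ⟨(Fact.out : p.Prime).ne_zero⟩
  rw [hM, ρ_mu_eq_self E (PadicAlgCl q) p hζ]

include hM eM hζ

/-- For a module with trivial action and underlying group `ZMod p` (`ζ_p ∈ E`):
`Hlc^i(G_E, M)` is finite-dimensional, `i ≤ 2`. -/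
theorem finiteDimensional_Hlc_of_trivial (i : ℕ) (hi : i ≤ 2) :
    FiniteDimensional (ZMod p) (Hlc (galLevels E (PadicAlgCl q)) M i) :=
  finiteDimensional_Hlc_of_mu q E p M (muEquivOfTrivial q E p M eM hζ)
    (muEquivOfTrivial_equivariant q E p M hM eM hζ) i hi

omit [FiniteDimensional ℚ_[q] E] in
/-- `dim Hlc⁰(G_E, ℤ/p) = 1`. -/
theorem finrank_Hlc_zero_of_trivial :
    Module.finrank (ZMod p) (Hlc (galLevels E (PadicAlgCl q)) M 0) = 1 :=
  finrank_Hlc_zero_of_mu q E p M (muEquivOfTrivial q E p M eM hζ)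
    (muEquivOfTrivial_equivariant q E p M hM eM hζ) hζ

/-- `dim Hlc¹(G_E, ℤ/p) = 2 + [E:ℚ_p]·[q = p]` (`ζ_p ∈ E`). -/
theorem finrank_Hlc_one_of_trivial :
    Module.finrank (ZMod p) (Hlc (galLevels E (PadicAlgCl q)) M 1) =
      2 + (if q = p then Module.finrank ℚ_[q] E else 0) :=
  finrank_Hlc_one_of_mu q E p M (muEquivOfTrivial q E p M eM hζ)
    (muEquivOfTrivial_equivariant q E p M hM eM hζ) hζ

/-- `dim Hlc²(G_E, ℤ/p) = 1` (`ζ_p ∈ E`). -/
theorem finrank_Hlc_two_of_trivial :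
    Module.finrank (ZMod p) (Hlc (galLevels E (PadicAlgCl q)) M 2) = 1 :=
  finrank_Hlc_two_of_mu q E p M (muEquivOfTrivial q E p M eM hζ)
    (muEquivOfTrivial_equivariant q E p M hM eM hζ)

end TrivialModule

end Fermat.Agent.GC.Local.LocalNum
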