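/-
GATE-C / C3 → C4 (N3) (helper60): valuations of norms from a finite extension `E/ℚ_q`.

* `resDeg_dvd_valuation_norm` : `f(E/ℚ_q) ∣ v_q (N_{E/ℚ_q} x)` for every `x ∈ Eˣ`;
* `dvd_pow_resDeg_sub_one`    : `N ∣ q ^ f − 1` when `E` contains a primitive `N`-th root of unity,
  `N` prime to `q`;
* `unitOfCoprime_zpow_valuation_norm` : hence `q ^ v_q (N x) = 1` in `(ℤ/N)ˣ` (the unramified norm
  lemma (N3) of the weighted reciprocity stream).
-/
import Mathlib
import Fermat.Agent.GC.Local.FiniteExt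
import Fermat.Agent.GC.Local.Ramification
import Fermat.Agent.GC.Local.Unram.Cyclotomic

set_option autoImplicit false

open scoped Padic NNReal
open IsLocalRing

noncomputable section

namespace Fermat.Agent.GC.Local

section Abstract

variable (q : ℕ) [Fact q.Prime] (L : Type*) [Field L] [Algebra ℚ_[q] L]
  [FiniteDimensional ℚ_[q] L]

/-- If `L ⊇ μ_N` with `N` prime to `q`, then `N ∣ q ^ f − 1`, `f` the residue degree. -/
theorem dvd_pow_resDeg_sub_one {N : ℕ} (hN : N.Coprime q) (hN0 : 0 < N) {ζ : L}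
    (hζ : IsPrimitiveRoot ζ N) : N ∣ q ^ resDeg q L - 1 := by
  have := padicVS_finite_residueField q L
  have h := Unram.dvd_card_residueField_sub_one (padicVS q L) hN0 hζ
    (Unram.valuation_natCast_of_coprime q L hN)
  rwa [card_residueField_eq] at h

end Abstract

section Concrete

variable (q : ℕ) [Fact q.Prime] (E : IntermediateField ℚ_[q] (PadicAlgCl q))
  [FiniteDimensional ℚ_[q] E]

omit [FiniteDimensional ℚ_[q] E] in
/-- on a concrete `E ⊆ PadicAlgCl q` the restricted norm is the spectral norm -/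
theorem norm_eq_spectralNorm_concrete (x : E) : ‖x‖ = spectralNorm ℚ_[q] E x := by
  rw [spectralNorm.eq_of_tower (K := ℚ_[q]) (E := E) (L := PadicAlgCl q) x]
  rfl

/-- the norm group of `E` is generated by the norm of a uniformiser -/
theorem exists_norm_eq_zpow {ϖ : padicVS q E} (hϖ : Irreducible ϖ) (x : E) (hx : x ≠ 0) :
    ∃ k : ℤ, ‖x‖ = ‖(ϖ : E)‖ ^ k := by
  have := padicVS_isDiscreteValuationRing q E
  have key : ∀ y : padicVS q E, y ≠ 0 → ∃ m : ℕ, ‖(y : E)‖ = ‖(ϖ : E)‖ ^ m := by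
    intro y hy0
    obtain ⟨m, u, hy⟩ := IsDiscreteValuationRing.eq_unit_mul_pow_irreducible hy0 hϖ
    refine ⟨m, ?_⟩
    have h1 : ‖((u : padicVS q E) : E)‖ = 1 := by
      rw [norm_eq_spectralNorm_concrete]; exact spectralNorm_unit q E u
    have h2 := congrArg (fun a : padicVS q E => ‖(a : E)‖) hy
    simp only [MulMemClass.coe_mul, SubmonoidClass.coe_pow, norm_mul, norm_pow, h1, one_mul] at h2
    exact h2
  rcases (padicVS q E).mem_or_inv_mem x with h | h
  · obtain ⟨m, hm⟩ := key ⟨x, h⟩ (fun h0 => hx (congrArg Subtype.val h0))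
    exact ⟨m, by rw [zpow_natCast]; exact hm⟩
  · have hx' : x⁻¹ ≠ 0 := inv_ne_zero hx
    obtain ⟨m, hm⟩ := key ⟨x⁻¹, h⟩ (fun h0 => hx' (congrArg Subtype.val h0))
    refine ⟨-(m : ℤ), ?_⟩
    have h3 : ‖x⁻¹‖ = ‖(ϖ : E)‖ ^ m := hm
    rw [norm_inv] at h3
    rw [zpow_neg, zpow_natCast, ← h3, inv_inv]

/-- **The residue degree divides the valuation of every norm.** -/
theorem resDeg_dvd_valuation_norm (x : E) (hx : x ≠ 0) :
    (resDeg q E : ℤ) ∣ (Algebra.norm ℚ_[q] x).valuation := by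
  have := padicVS_isDiscreteValuationRing q E
  obtain ⟨ϖ, hϖ⟩ := IsDiscreteValuationRing.exists_irreducible (padicVS q E)
  obtain ⟨k, hk⟩ := exists_norm_eq_zpow q E hϖ x hx
  set c : ℝ := ‖(ϖ : E)‖ with hc
  have hce : c ^ ramIdx q E = (q : ℝ)⁻¹ := by
    rw [hc, norm_eq_spectralNorm_concrete]
    exact spectralNorm_irreducible_pow_ramIdx q E hϖ
  have hN : Algebra.norm ℚ_[q] x ≠ 0 := by
    rw [ne_eq, Algebra.norm_eq_zero_iff]; exact hx
  have hq1 : (1 : ℝ) < q := by exact_mod_cast (Fact.out : q.Prime).one_lt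
  have h1 : ‖Algebra.norm ℚ_[q] x‖ = (q : ℝ) ^ (-(k * (resDeg q E : ℤ))) := by
    rw [← norm_pow_finrank_eq, hk, ← ramIdx_mul_resDeg q E, ← zpow_natCast, ← zpow_mul]
    have : k * ((ramIdx q E * resDeg q E : ℕ) : ℤ) = (ramIdx q E : ℤ) * (k * (resDeg q E : ℤ)) := by
      push_cast; ring
    rw [this, zpow_mul, zpow_natCast, hce, inv_zpow, ← zpow_neg]
  rw [Padic.norm_eq_zpow_neg_valuation hN] at h1
  have h2 := zpow_right_injective₀ (by positivity : (0 : ℝ) < q) hq1.ne' h1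
  have h3 : (Algebra.norm ℚ_[q] x).valuation = k * (resDeg q E : ℤ) := by
    have := neg_injective h2
    exact this
  exact ⟨k, by rw [h3, mul_comm]⟩

/-- **(N3), general form.** If `E ⊇ μ_N`, `N` prime to `q`, then `q ^ v_q (N_{E/ℚ_q} x) = 1`
in `(ℤ/N)ˣ` for every `x ∈ Eˣ`. -/
theorem unitOfCoprime_zpow_valuation_norm {N : ℕ} (hN : q.Coprime N) (hN0 : 0 < N) {ζ : E}
    (hζ : IsPrimitiveRoot ζ N) (x : E) (hx : x ≠ 0) :
    (ZMod.unitOfCoprime q hN) ^ (Algebra.norm ℚ_[q] x).valuation = 1 := by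
  obtain ⟨k, hk⟩ := resDeg_dvd_valuation_norm q E x hx
  have hdvd := dvd_pow_resDeg_sub_one q E hN.symm hN0 hζ
  have hone : (ZMod.unitOfCoprime q hN) ^ resDeg q E = 1 := by
    apply Units.ext
    rw [Units.val_pow_eq_pow_val, ZMod.coe_unitOfCoprime, Units.val_one]
    have h1 : 1 ≤ q ^ resDeg q E := Nat.one_le_pow _ _ (Fact.out : q.Prime).pos
    have h2 : ((q ^ resDeg q E - 1 : ℕ) : ZMod N) = 0 := (ZMod.natCast_eq_zero_iff _ _).2 hdvd
    rw [Nat.cast_sub h1, Nat.cast_pow, Nat.cast_one, sub_eq_zero] at h2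
    exact h2
  rw [hk, zpow_mul, zpow_natCast, hone, one_zpow]

end Concrete

end Fermat.Agent.GC.Local
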