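/-
GATE-C / C4 (D)-H1, (D)-H3 (helper26): local cohomology for a COARSE level system.

`K ⊆ Ω` Galois, `G = Gal(Ω/K)`, `𝒰` a level system on `G` generated by finite GALOIS levels
(`CoarseHyp.gal`), `B` a `𝒰`-discrete representation with an injection `j : B ⟶ Ωˣ` whose image is
the `𝒰`-discrete part of `Ωˣ` (so `B = Mˣ`, `M = ⋃ N` the union of the levels).  Then:

* `inflCoarse`: inflation `Hⁿ(Gal(N/K), Nˣ) ⟶ Hlc 𝒰 B n` for every finite Galois level `N` of `𝒰`,
  compatible with helper81's `inflBr` (`inflCoarse_comp_HlcPull`);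
* `exists_inflCoarse_eq`: every class of `Hlc 𝒰 B n` is inflated from a finite Galois level of `𝒰`;
* `hlc_one_coarse_eq_zero`: `Hlc 𝒰 B 1 = 0` (Hilbert 90);
* `hlc_three_coarse_eq_zero`: `Hlc 𝒰 B 3 = 0` for `q`-adic `K` (local `H³ = 0`);
* `hlc_three_unitsRep_eq_zero`: `Hlc³(Gal(Ω/K), Ωˣ) = 0` for `q`-adic `K`.
-/
import Mathlib
import Fermat.Agent.GC.Local.Abs.BrauerInj
import Fermat.Agent.GC.Prof.InflGen
import Fermat.Agent.GC.Local.Unram.LocalCFT
import Fermat.Agent.GC.Local.BrauerCycFinal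

set_option autoImplicit false
set_option linter.unusedSectionVars false

open scoped Padic
open CategoryTheory groupCohomology IntermediateField
open Fermat.Agent.GC.Prof Fermat.Agent.GC.Local.Abs Fermat.Agent.GC.Prof.Elt

noncomputable section

namespace Fermat.Agent.GC.Local.Coarse

section Lift

universe u

variable {k G : Type u} [CommRing k] [Group G] {X A B : Rep.{u} k G} (α : X ⟶ A) (j : B ⟶ A)
  (hj : Function.Injective j.hom) (h : ∀ x : X, ∃ b : B, j.hom b = α.hom x)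

/-- the linear lift of `α` through the injective `j` -/
def liftInjLin : X →ₗ[k] B :=
  (LinearEquiv.ofInjective j.hom.toLinearMap hj).symm.toLinearMap ∘ₗ
    (α.hom.toLinearMap.codRestrict (LinearMap.range j.hom.toLinearMap)
      (fun x => by
        obtain ⟨b, hb⟩ := h x
        exact ⟨b, hb⟩))

lemma j_liftInjLin (x : X) : j.hom (liftInjLin α j hj h x) = α.hom x := by
  have h' := (LinearEquiv.ofInjective j.hom.toLinearMap hj).apply_symm_apply
    ((α.hom.toLinearMap.codRestrict (LinearMap.range j.hom.toLinearMap)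
      (fun x => by
        obtain ⟨b, hb⟩ := h x
        exact ⟨b, hb⟩)) x)
  exact congrArg Subtype.val h'

/-- a morphism `α : X ⟶ A` whose values lie in the image of an injective `j : B ⟶ A` lifts to
`X ⟶ B`. -/
def liftInj : X ⟶ B :=
  Rep.ofHom
    ⟨liftInjLin α j hj h,
     fun g => by
       refine LinearMap.ext fun x => ?_
       apply hj
       show j.hom (liftInjLin α j hj h (X.ρ g x)) = j.hom (B.ρ g (liftInjLin α j hj h x))
       rw [j_liftInjLin, Rep.hom_comm_apply j, j_liftInjLin]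
       exact Rep.hom_comm_apply α g x⟩

lemma j_liftInj (x : X) : j.hom ((liftInj α j hj h).hom x) = α.hom x :=
  j_liftInjLin α j hj h x

end Lift

section Abstract

variable {K Ω : Type} [Field K] [Field Ω] [Algebra K Ω] [IsGalois K Ω]

/-- the hypotheses on a coarse level system `𝒰` of `Gal(Ω/K)` and its coefficient module
`j : B ↪ Ωˣ`: `j` is injective, its image is the `𝒰`-discrete part of `Ωˣ`, and `𝒰` is generated
by finite Galois levels. -/
structure CoarseHyp (𝒰 : LevelSystem (Ω ≃ₐ[K] Ω)) {B : Rep ℤ (Ω ≃ₐ[K] Ω)}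
    (j : B ⟶ unitsRep K Ω) : Prop where
  inj : Function.Injective j.hom
  disc : ∀ a : unitsRep K Ω,
    (∃ U ∈ 𝒰.sets, ∀ u ∈ U, (unitsRep K Ω).ρ u a = a) → ∃ b : B, j.hom b = a
  gal : ∀ U ∈ 𝒰.sets, ∃ N : IntermediateField K Ω,
    FiniteDimensional K N ∧ IsGalois K N ∧ N.fixingSubgroup ∈ 𝒰.sets ∧ N.fixingSubgroup ≤ U

variable {𝒰 : LevelSystem (Ω ≃ₐ[K] Ω)} {B : Rep ℤ (Ω ≃ₐ[K] Ω)} {j : B ⟶ unitsRep K Ω}
  (H : CoarseHyp 𝒰 j)
  (N : IntermediateField K Ω) [FiniteDimensional K N] [IsGalois K N]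
  (hN : N.fixingSubgroup ∈ 𝒰.sets)

include H hN in
lemma exists_eq_unitsIncl (x : Rep.ofAlgebraAutOnUnits K N) :
    ∃ b : B, j.hom b = (unitsIncl K N Ω).hom x := by
  apply H.disc
  refine ⟨N.fixingSubgroup, hN, fun u hu => ?_⟩
  have h1 : resN K N Ω u = 1 := (mem_fixingSubgroup_iff_resN N).1 hu
  have h2 := Rep.hom_comm_apply (unitsIncl K N Ω) u x
  rw [← h2]
  congr 1
  show (Rep.ofAlgebraAutOnUnits K N).ρ (resN K N Ω u) x = x
  rw [h1, map_one]
  rfl

/-- the inclusion `Nˣ → B` as a morphism of representations of `Gal(Ω/K)` -/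
def unitsInclCoarse : Rep.res (resN K N Ω) (Rep.ofAlgebraAutOnUnits K N) ⟶ B :=
  liftInj (unitsIncl K N Ω) j H.inj (exists_eq_unitsIncl H N hN)

lemma j_unitsInclCoarse (x : Rep.ofAlgebraAutOnUnits K N) :
    j.hom ((unitsInclCoarse H N hN).hom x) = (unitsIncl K N Ω).hom x :=
  j_liftInj (unitsIncl K N Ω) j H.inj (exists_eq_unitsIncl H N hN) x

lemma unitsInclCoarse_injective : Function.Injective (unitsInclCoarse H N hN).hom := by
  intro x y h
  apply unitsIncl_injective K N Ω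
  rw [← j_unitsInclCoarse H N hN, ← j_unitsInclCoarse H N hN, h]

omit [FiniteDimensional K N] in
include hN in
lemma isOpenKer_resN : IsOpenKer 𝒰 (resN K N Ω) :=
  ⟨N.fixingSubgroup, hN, fun _ hs => MonoidHom.mem_ker.2 ((mem_fixingSubgroup_iff_resN N).1 hs)⟩

/-- **inflation** `Hⁿ(Gal(N/K), Nˣ) ⟶ Hlc 𝒰 B n` from a finite Galois level of `𝒰`. -/
def inflCoarse [IsDiscrete 𝒰 B] (n : ℕ) :
    groupCohomology (Rep.ofAlgebraAutOnUnits K N) n ⟶ Hlc 𝒰 B n :=
  HinflGen (resN K N Ω) (isOpenKer_resN N hN) (unitsInclCoarse H N hN) n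

lemma inflGenLin_coarse_injective (n : ℕ) :
    Function.Injective
      (inflGenLin (resN K N Ω) (isOpenKer_resN N hN) (unitsInclCoarse H N hN) n) := by
  intro f f' h
  funext σ
  obtain ⟨g, hg⟩ : ∃ g : Fin n → (Ω ≃ₐ[K] Ω), ∀ i, resN K N Ω (g i) = σ i :=
    ⟨fun i => (σ i).liftNormal Ω, fun i => AlgEquiv.restrict_liftNormal Ω (σ i)⟩
  have h1 := congrFun (congrArg Subtype.val h) g
  rw [inflGenLin_coe, inflGenLin_coe] at h1
  have h2 : (⇑(resN K N Ω) ∘ g) = σ := funext hg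
  rw [h2] at h1
  exact unitsInclCoarse_injective H N hN h1

/-- compatibility with helper81's `inflBr`, on cochains -/
lemma inflGenChain_coarse_comp_lcPull [IsDiscrete 𝒰 B]
    (hid : IsContHom (galLevels K Ω) 𝒰 (MonoidHom.id (Ω ≃ₐ[K] Ω))) :
    inflGenChain (resN K N Ω) (isOpenKer_resN N hN) (unitsInclCoarse H N hN) ≫
      lcPull hid (A := B) (B := unitsRep K Ω) j = inflBrChain K N Ω := by
  ext n x : 3
  apply Subtype.ext
  funext g
  exact j_unitsInclCoarse H N hN _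

/-- **compatibility with `inflBr`**: inflating to the coarse level and then comparing with the full
level system is helper81's inflation. -/
theorem inflCoarse_comp_HlcPull [IsDiscrete 𝒰 B]
    (hid : IsContHom (galLevels K Ω) 𝒰 (MonoidHom.id (Ω ≃ₐ[K] Ω))) (n : ℕ) :
    inflCoarse H N hN n ≫ HlcPull hid (A := B) (B := unitsRep K Ω) j n = inflBr K N Ω n := by
  have h := HomologicalComplex.homologyMap_comp
    (inflGenChain (resN K N Ω) (isOpenKer_resN N hN) (unitsInclCoarse H N hN))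
    (lcPull hid (A := B) (B := unitsRep K Ω) j) n
  rw [inflGenChain_coarse_comp_lcPull] at h
  exact h.symm

theorem inflCoarse_HlcPull_apply [IsDiscrete 𝒰 B]
    (hid : IsContHom (galLevels K Ω) 𝒰 (MonoidHom.id (Ω ≃ₐ[K] Ω))) (n : ℕ)
    (y : groupCohomology (Rep.ofAlgebraAutOnUnits K N) n) :
    HlcPull hid (A := B) (B := unitsRep K Ω) j n (inflCoarse H N hN n y) = inflBr K N Ω n y :=
  congr($(inflCoarse_comp_HlcPull H N hN hid n) y)

end Abstract

section Surj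

variable {K Ω : Type} [Field K] [Field Ω] [Algebra K Ω] [IsGalois K Ω]
  {𝒰 : LevelSystem (Ω ≃ₐ[K] Ω)} {B : Rep ℤ (Ω ≃ₐ[K] Ω)} [IsDiscrete 𝒰 B]
  {j : B ⟶ unitsRep K Ω} (H : CoarseHyp 𝒰 j)

/-- **cochain level**: every `𝒰`-level-constant cochain with values in `B` is inflated from a
finite Galois level `N` of `𝒰`, as deep as we like. -/
theorem exists_eq_inflGenLin {n : ℕ} (f : lcSub 𝒰 B n) {U₀ : Subgroup (Ω ≃ₐ[K] Ω)}
    (hU₀ : U₀ ∈ 𝒰.sets) :
    ∃ (N : IntermediateField K Ω) (_ : FiniteDimensional K N) (_ : IsGalois K N)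
      (hN : N.fixingSubgroup ∈ 𝒰.sets), N.fixingSubgroup ≤ U₀ ∧
      ∃ fbar : (Fin n → (N ≃ₐ[K] N)) → Rep.ofAlgebraAutOnUnits K N,
        inflGenLin (resN K N Ω) (isOpenKer_resN N hN) (unitsInclCoarse H N hN) n fbar = f := by
  classical
  obtain ⟨V, hV, -, -, hlev, hfix⟩ := IsLC.exists_level B f.2
  obtain ⟨W, hW, hWle⟩ := 𝒰.directed V hV U₀ hU₀
  obtain ⟨N, hNfd, hNgal, hN, hNW⟩ := H.gal W hW
  have hle : N.fixingSubgroup ≤ V := hNW.trans (hWle.trans inf_le_left)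
  refine ⟨N, hNfd, hNgal, hN, hNW.trans (hWle.trans inf_le_right), ?_⟩
  -- values lie in `N`
  have hval : ∀ g, ((Additive.toMul (j.hom ((f : (Fin n → (Ω ≃ₐ[K] Ω)) → B) g)) : Ωˣ) : Ω) ∈ N := by
    intro g
    rw [← InfiniteGalois.fixedField_fixingSubgroup N, IntermediateField.mem_fixedField_iff]
    intro s hs
    have h1 := hfix s (hle hs) g
    have h2 : (unitsRep K Ω).ρ s (j.hom ((f : (Fin n → (Ω ≃ₐ[K] Ω)) → B) g)) =
        j.hom ((f : (Fin n → (Ω ≃ₐ[K] Ω)) → B) g) := by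
      rw [← Rep.hom_comm_apply j, h1]
    exact congrArg (fun z : Additive Ωˣ => ((Additive.toMul z : Ωˣ) : Ω)) h2
  let lift : (Fin n → (N ≃ₐ[K] N)) → (Fin n → (Ω ≃ₐ[K] Ω)) := fun σ i => (σ i).liftNormal Ω
  let fbar : (Fin n → (N ≃ₐ[K] N)) → Rep.ofAlgebraAutOnUnits K N := fun σ =>
    Additive.ofMul (Units.mk0 ⟨_, hval (lift σ)⟩ (by
      intro h
      exact (Additive.toMul (j.hom ((f : (Fin n → (Ω ≃ₐ[K] Ω)) → B) (lift σ)))).ne_zero
        (congrArg Subtype.val h)))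
  refine ⟨fbar, ?_⟩
  apply Subtype.ext
  funext g
  rw [inflGenLin_coe]
  apply H.inj
  rw [j_unitsInclCoarse]
  have h1 : (unitsIncl K N Ω).hom (fbar (⇑(resN K N Ω) ∘ g)) =
      j.hom ((f : (Fin n → (Ω ≃ₐ[K] Ω)) → B) (lift (⇑(resN K N Ω) ∘ g))) := by
    apply Additive.toMul.injective
    apply Units.ext
    rfl
  rw [h1]
  congr 1
  have h2 : g = (lift (⇑(resN K N Ω) ∘ g)) *
      fun i => ((lift (⇑(resN K N Ω) ∘ g)) i)⁻¹ * g i := by
    funext i
    simp
  conv_rhs => rw [h2]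
  refine (hlev _ _ fun i => hle ?_).symm
  rw [mem_fixingSubgroup_iff_resN, map_mul, map_inv]
  have : resN K N Ω ((lift (⇑(resN K N Ω) ∘ g)) i) = resN K N Ω (g i) :=
    AlgEquiv.restrict_liftNormal Ω _
  rw [this, inv_mul_cancel]

/-- **class level**: every class of `Hlc 𝒰 B n` is inflated from a finite Galois level of `𝒰`. -/
theorem exists_inflCoarse_eq {n : ℕ} (x : Hlc 𝒰 B n) {U₀ : Subgroup (Ω ≃ₐ[K] Ω)}
    (hU₀ : U₀ ∈ 𝒰.sets) :
    ∃ (N : IntermediateField K Ω) (_ : FiniteDimensional K N) (_ : IsGalois K N)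
      (hN : N.fixingSubgroup ∈ 𝒰.sets), N.fixingSubgroup ≤ U₀ ∧
      ∃ y : groupCohomology (Rep.ofAlgebraAutOnUnits K N) n, inflCoarse H N hN n y = x := by
  obtain ⟨z, rfl⟩ := hMk_surjective (lcCochains 𝒰 B) n x
  have hz : lcD 𝒰 B n z.1 = 0 := by
    have := z.2
    rw [mem_zSub_iff, lcCochains_d] at this
    exact this
  obtain ⟨N, hfd, hgal, hN, hle, fbar, hf⟩ := exists_eq_inflGenLin H
    (show lcSub 𝒰 B n from z.1) hU₀
  refine ⟨N, hfd, hgal, hN, hle, ?_⟩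
  have hcoc : fbar ∈ zSub (inhomogeneousCochains (Rep.ofAlgebraAutOnUnits K N)) n := by
    rw [mem_zSub_iff]
    apply inflGenLin_coarse_injective H N hN (n + 1)
    have hcomm := congr($((inflGenChain (resN K N Ω) (isOpenKer_resN N hN)
      (unitsInclCoarse H N hN)).comm n (n + 1)) fbar)
    rw [lcCochains_d] at hcomm
    simp only [inflGenChain_f] at hcomm
    rw [map_zero]
    refine hcomm.symm.trans ?_
    show lcD 𝒰 B n (inflGenLin (resN K N Ω) (isOpenKer_resN N hN)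
      (unitsInclCoarse H N hN) n fbar) = 0
    rw [hf]
    exact hz
  refine ⟨hMk _ n ⟨fbar, hcoc⟩, ?_⟩
  refine (homologyMap_hMk (inflGenChain (resN K N Ω) (isOpenKer_resN N hN)
    (unitsInclCoarse H N hN)) n ⟨fbar, hcoc⟩).trans ?_
  congr 1
  apply Subtype.ext
  exact hf

include H in
/-- a class of `Hlc 𝒰 B n` vanishes as soon as `Hⁿ(Gal(N/K), Nˣ) = 0` for all finite Galois
levels `N` of `𝒰`. -/
theorem hlc_coarse_eq_zero_of_levels {n : ℕ}
    (h0 : ∀ (N : IntermediateField K Ω) [FiniteDimensional K N] [IsGalois K N],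
      N.fixingSubgroup ∈ 𝒰.sets → ∀ y : groupCohomology (Rep.ofAlgebraAutOnUnits K N) n, y = 0)
    (x : Hlc 𝒰 B n) : x = 0 := by
  obtain ⟨U₀, hU₀⟩ := 𝒰.nonempty
  obtain ⟨N, hfd, hgal, hN, -, y, rfl⟩ := exists_inflCoarse_eq H x hU₀
  rw [h0 N hN y, map_zero]

include H in
/-- **(D)-H1**: `Hlc 𝒰 B 1 = 0` (Hilbert 90 at every finite level). -/
theorem hlc_one_coarse_eq_zero (x : Hlc 𝒰 B 1) : x = 0 :=
  hlc_coarse_eq_zero_of_levels H (fun N _ _ _ y =>
    Subsingleton.elim (α := groupCohomology.H1 (Rep.ofAlgebraAutOnUnits K N)) y 0) x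

end Surj

section FiniteLevel

variable (q : ℕ) [Fact q.Prime] (K L : Type) [Field K] [Field L]
  [Algebra ℚ_[q] K] [Algebra ℚ_[q] L] [Algebra K L] [IsScalarTower ℚ_[q] K L]
  [FiniteDimensional ℚ_[q] L] [FiniteDimensional K L] [IsGalois K L]

include q in
/-- local `H³(Gal(L/K), Lˣ) = 0` for the WHOLE Galois group (from `Unram.local_H3_isZero` at
`H = ⊤`). -/
theorem H3_unitsRep_eq_zero (y : groupCohomology (Rep.ofAlgebraAutOnUnits K L) 3) : y = 0 := by
  have h0 := Unram.local_H3_isZero q K L (⊤ : Subgroup (L ≃ₐ[K] L))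
  have e : groupCohomology
      (Rep.res (⊤ : Subgroup (L ≃ₐ[K] L)).subtype (Rep.ofAlgebraAutOnUnits K L)) 3 ≅
      groupCohomology (Rep.ofAlgebraAutOnUnits K L) 3 :=
    groupCohomology.mapIso (Subgroup.topEquiv : (⊤ : Subgroup (L ≃ₐ[K] L)) ≃* (L ≃ₐ[K] L))
      (LinearEquiv.refl ℤ _) (fun g => rfl) 3
  have h1 : Limits.IsZero (groupCohomology (Rep.ofAlgebraAutOnUnits K L) 3) := h0.of_iso e.symm
  have : Subsingleton (groupCohomology (Rep.ofAlgebraAutOnUnits K L) 3) :=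
    ModuleCat.isZero_iff_subsingleton.1 h1
  exact Subsingleton.elim _ _

end FiniteLevel

section Padic

variable (q : ℕ) [Fact q.Prime] {K Ω : Type} [Field K] [Field Ω] [Algebra ℚ_[q] K]
  [Algebra ℚ_[q] Ω] [Algebra K Ω] [IsScalarTower ℚ_[q] K Ω] [FiniteDimensional ℚ_[q] K]
  [IsGalois K Ω]

include q in
/-- local `H³(Gal(N/K), Nˣ) = 0` for a finite Galois intermediate field `N` of `Ω/K`. -/
theorem H3_intermediateField_eq_zero (N : IntermediateField K Ω) [FiniteDimensional K N]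
    [IsGalois K N] (y : groupCohomology (Rep.ofAlgebraAutOnUnits K N) 3) : y = 0 := by
  have t1 : IsScalarTower ℚ_[q] K N := IsScalarTower.of_algebraMap_eq fun x =>
    Subtype.ext (IsScalarTower.algebraMap_apply ℚ_[q] K Ω x)
  have hfd : FiniteDimensional ℚ_[q] N := FiniteDimensional.trans ℚ_[q] K N
  exact H3_unitsRep_eq_zero q K N y

include q in
/-- **local `Hlc³ = 0`, full level**: `Hlc³(Gal(Ω/K), Ωˣ) = 0` for a `q`-adic field `K`. -/
theorem hlc_three_unitsRep_eq_zero (x : Hlc (galLevels K Ω) (unitsRep K Ω) 3) : x = 0 := by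
  obtain ⟨N, hfd, hgal, -, y, rfl⟩ := exists_inflBr_eq x (⊥ : IntermediateField K Ω)
  rw [H3_intermediateField_eq_zero q N y, map_zero]

variable {𝒰 : LevelSystem (Ω ≃ₐ[K] Ω)} {B : Rep ℤ (Ω ≃ₐ[K] Ω)} [IsDiscrete 𝒰 B]
  {j : B ⟶ unitsRep K Ω} (H : CoarseHyp 𝒰 j)

include q H in
/-- **(D)-H3**: `Hlc 𝒰 B 3 = 0` for a coarse level system of a `q`-adic field. -/
theorem hlc_three_coarse_eq_zero (x : Hlc 𝒰 B 3) : x = 0 :=
  hlc_coarse_eq_zero_of_levels H (fun N _ _ _ y => H3_intermediateField_eq_zero q N y) x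

include q H in
/-- **(D)-SURJ on `p`-parts**: if the coarse level system contains cyclotomic levels of
arbitrarily high `p`-power order, every `p`-power-torsion class of `Hlc²(Gal(Ω/K), Ωˣ)` comes from
`Hlc 𝒰 B 2` (from a class killed by the same power of `p`). -/
theorem exists_HlcPull_eq_of_pow_nsmul
    (hid : IsContHom (galLevels K Ω) 𝒰 (MonoidHom.id (Ω ≃ₐ[K] Ω))) (p : ℕ) [Fact p.Prime]
    (hcyc : ∀ m : ℕ, ∃ m', m ≤ m' ∧ ∃ N : IntermediateField K Ω, FiniteDimensional K N ∧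
      IsGalois K N ∧ N.fixingSubgroup ∈ 𝒰.sets ∧
        ∃ ζ : Ω, IsPrimitiveRoot ζ (p ^ (m' + 1)) ∧ ζ ∈ N)
    (a : ℕ) (y : Hlc (galLevels K Ω) (unitsRep K Ω) 2) (hy : p ^ a • y = 0) :
    ∃ x : Hlc 𝒰 B 2, HlcPull hid (A := B) (B := unitsRep K Ω) j 2 x = y ∧ p ^ a • x = 0 := by
  obtain ⟨m₀, hm₀⟩ := BrauerCycFinal.exists_inflBr_eq_of_primitiveRoot_mem q K Ω p a
  obtain ⟨m', hm', N, hfd, hgal, hN, ζ, hζ, hζN⟩ := hcyc m₀
  obtain ⟨y₀, hy₀⟩ := hm₀ m' hm' N ζ hζ hζN y hy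
  have hy₀tors : p ^ a • y₀ = 0 := by
    apply inflBr_two_injective K N Ω
    rw [map_nsmul, hy₀, hy, map_zero]
  refine ⟨inflCoarse H N hN 2 y₀, ?_, ?_⟩
  · rw [inflCoarse_HlcPull_apply, hy₀]
  · rw [← map_nsmul, hy₀tors, map_zero]

end Padic

end Fermat.Agent.GC.Local.Coarse
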