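/-
GATE-C / C3 (LOCAL), helper3.  PERIODICITY vs RESTRICTION for finite cyclic groups, on cocycles
(`CycH2.lean` language): `G = ⟨σ⟩` of order `m = d * e`, `τ = σ ^ d` (generator of the subgroup of
order `e`).  For EVERY 2-cocycle `f` of `G`:

    `gam τ e f = gam σ m f + N_τ(y)`          (`exists_gam_pow_eq`)

i.e. under `H² ≅ Ĥ⁰` restriction to the subgroup `⟨τ⟩` is induced by the identity of `A`
(`A^G/N_G A → A^⟨τ⟩/N_⟨τ⟩ A`).  Rep-level versions for `groupCohomology`'s `cocycles₂` and for the
restricted cocycle on a subgroup `V` generated by `τ`.  Mathlib + CycH2 only.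
-/
import Mathlib
import Fermat.Agent.GC.Local.CycH2

set_option autoImplicit false
set_option linter.unusedSectionVars false

open groupCohomology

namespace Fermat.Agent.GC.Local.CycH2

section Elementary

variable {G A : Type*} [Group G] [AddCommGroup A] [DistribMulAction G A] {σ : G} {m : ℕ}

/-- `gam` is additive in the cochain, pointwise form. -/
lemma gam_congr_add {τ : G} {e : ℕ} {f f₁ f₂ : G × G → A} (hf : ∀ g k, f (g, k) = f₁ (g, k) + f₂ (g, k)) :
    gam τ e f = gam τ e f₁ + gam τ e f₂ := by
  have : f = f₁ + f₂ := by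
    funext ⟨g, k⟩
    exact hf g k
  rw [this, gam_add]

/-- the invariant of the standard cocycle of `σ`, computed along `τ = σ ^ d` (`e ≥ 2`). -/
lemma gam_pow_stdCocycle (h : IsGen σ m) {d e : ℕ} (hde : d * e = m) (he : 2 ≤ e) (γ : A) :
    gam (σ ^ d) e (h.stdCocycle γ) = γ := by
  have hm := h.pos
  have hd : 0 < d := by
    rcases Nat.eq_zero_or_pos d with rfl | hd
    · simp at hde; omega
    · exact hd
  obtain ⟨n, rfl⟩ : ∃ n, e = n + 1 := ⟨e - 1, by omega⟩
  have hdm : d < m := by
    rw [← hde]
    calc d = d * 1 := (mul_one d).symm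
      _ < d * (n + 1) := (Nat.mul_lt_mul_left hd).2 (by omega)
  simp only [gam, tsum, h.stdCocycle_apply, ← pow_mul, h.lg_pow]
  rw [Nat.mod_eq_of_lt hdm, Finset.sum_range_succ, Finset.sum_eq_zero, zero_add]
  · have h1 : (d * n % m + d) / m = 1 := by
      have h2 : d * n < m := by
        rw [← hde]
        exact (Nat.mul_lt_mul_left hd).2 (by omega)
      rw [Nat.mod_eq_of_lt h2]
      have h3 : d * n + d = m := by rw [← hde]; ring
      rw [h3, Nat.div_self hm]
    rw [h1, one_smul]
  · intro i hi
    have hi' := Finset.mem_range.1 hi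
    have h2 : d * i + d < m := by
      rw [← hde]
      calc d * i + d = d * (i + 1) := by ring
        _ < d * (n + 1) := (Nat.mul_lt_mul_left hd).2 (by omega)
    have h1 : (d * i % m + d) / m = 0 := by
      rw [Nat.mod_eq_of_lt (by omega), Nat.div_eq_of_lt h2]
    rw [h1, zero_smul]

/-- **(P-res)** periodicity vs restriction: for every 2-cocycle `f` of the cyclic group `⟨σ⟩` of
order `m = d * e`, the invariant computed along `τ = σ ^ d` differs from `gam σ m f` by a
`τ`-norm. -/
theorem exists_gam_pow_eq (h : IsGen σ m) {f : G × G → A} (hf : IsCocycle₂ f) {d e : ℕ}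
    (hde : d * e = m) : ∃ y : A, gam (σ ^ d) e f = gam σ m f + nrm (σ ^ d) e y := by
  have hm := h.pos
  have he0 : 0 < e := by
    rcases Nat.eq_zero_or_pos e with rfl | he
    · simp at hde; omega
    · exact he
  rcases Nat.lt_or_ge e 2 with he | he
  · -- `e = 1`: everything is a norm
    have he1 : e = 1 := by omega
    subst he1
    exact ⟨gam (σ ^ d) 1 f - gam σ m f, by simp [nrm]⟩
  · obtain ⟨x, hx⟩ := h.exists_eq_stdCocycle_add hf
    have hτ : (σ ^ d) ^ e = 1 := by rw [← pow_mul, hde, h.pow_eq_one]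
    refine ⟨x (σ ^ d), ?_⟩
    have hsplit : ∀ g k, f (g, k) = h.stdCocycle (gam σ m f) (g, k) +
        (fun p : G × G => p.1 • x p.2 - x (p.1 * p.2) + x p.1) (g, k) := by
      intro g k
      have := hx g k
      beta_reduce
      rw [this]
      abel
    rw [gam_congr_add (f₁ := h.stdCocycle (gam σ m f))
      (f₂ := fun p : G × G => p.1 • x p.2 - x (p.1 * p.2) + x p.1) hsplit,
      gam_pow_stdCocycle h hde he, gam_coboundary hτ]

end Elementary

/-! ### Rep level -/

section RepLevel

universe u

variable {k G : Type u} [CommRing k] [Group G] {A : Rep.{u} k G} {σ : G} {m : ℕ}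

attribute [local instance] repAction

/-- **(P-res), Rep level**: `gam (σ^d) e f - gam σ m f` is a `σ^d`-norm. -/
theorem gam_pow_sub_gam_mem_range (h : IsGen σ m) (f : cocycles₂ A) {d e : ℕ} (hde : d * e = m) :
    gam (σ ^ d) e (f : G × G → A) - gam σ m (f : G × G → A) ∈
      LinearMap.range (nrmLin A (σ ^ d) e) := by
  obtain ⟨y, hy⟩ := exists_gam_pow_eq h ((isCocycle₂_iff_mem A (f : G × G → A)).2 f.2) hde
  refine ⟨y, ?_⟩
  rw [nrmLin_apply, hy]
  abel

/-- the invariant of the restriction of a cocycle to a subgroup `V`, computed along `τ : V`, is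
the invariant computed in `G` along `(τ : G)`. -/
theorem gam_res (V : Subgroup G) (τ : V) (e : ℕ) (f : G × G → A) :
    gam τ e (fun p : V × V => f ((p.1 : G), (p.2 : G))) = gam (τ : G) e f := by
  simp only [gam, tsum, Subgroup.coe_pow]

end RepLevel

end Fermat.Agent.GC.Local.CycH2
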