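/-
GATE-C / C3 (LOCAL), helper3.  PERIODICITY vs SHAPIRO COMPONENTS, abstract.

`Γ = ⟨σ⟩` cyclic of order `m`, `A : Rep k Γ`; `dec : D →* Γ`, `B : Rep k D`, `ev : A → B` a
`D`-equivariant linear map (in use: `A = coind_dec B`, `ev = evaluation at 1`).  For a 2-cocycle `f`
of `Γ` in `A` put `locCochain f (δ₁, δ₂) = ev (f (dec δ₁, dec δ₂))`.  If `dec δ = σ ^ d`, `d * e = m`:

    `gam δ e (locCochain f) = ev (gam σ m f) + N_δ(y)`          (`exists_gam_loc_eq`)

i.e. the periodicity invariant of the local component is the evaluation of the global periodicity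
invariant, up to a LOCAL NORM.  Also: generators of a group embedded in a finite cyclic group
(`exists_isGen_of_injective`).  Mathlib + CycH2Res only.
-/
import Mathlib
import Fermat.Agent.GC.Local.CycH2Res

set_option autoImplicit false
set_option linter.unusedSectionVars false

open groupCohomology

namespace Fermat.Agent.GC.Local.CycH2

section Loc

universe u

variable {k Γ D : Type u} [CommRing k] [Group Γ] [Group D] {A : Rep.{u} k Γ} {B : Rep.{u} k D}
  (dec : D →* Γ) (ev : A.V →ₗ[k] B.V)

/-- the local component cochain of a 2-cochain of `Γ`. -/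
def locCochain (f : Γ × Γ → A) : D × D → B := fun p => ev (f (dec p.1, dec p.2))

lemma locCochain_apply (f : Γ × Γ → A) (δ₁ δ₂ : D) :
    locCochain dec ev f (δ₁, δ₂) = ev (f (dec δ₁, dec δ₂)) := rfl

variable {dec ev}

/-- the local component of a cocycle is a cocycle. -/
lemma locCochain_mem_cocycles₂ (hev : ∀ (δ : D) (a : A), ev (A.ρ (dec δ) a) = B.ρ δ (ev a))
    (f : cocycles₂ A) : locCochain dec ev (f : Γ × Γ → A) ∈ cocycles₂ B := by
  rw [mem_cocycles₂_iff]
  intro g h j
  have := (mem_cocycles₂_iff (f : Γ × Γ → A)).1 f.2 (dec g) (dec h) (dec j)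
  simp only [locCochain_apply, map_mul]
  rw [← map_add, this, map_add, hev]

/-- the local component, as a cocycle. -/
def locCocycle (hev : ∀ (δ : D) (a : A), ev (A.ρ (dec δ) a) = B.ρ δ (ev a)) (f : cocycles₂ A) :
    cocycles₂ B :=
  ⟨locCochain dec ev (f : Γ × Γ → A), locCochain_mem_cocycles₂ hev f⟩

lemma locCocycle_coe (hev : ∀ (δ : D) (a : A), ev (A.ρ (dec δ) a) = B.ρ δ (ev a))
    (f : cocycles₂ A) :
    ((locCocycle hev f : cocycles₂ B) : D × D → B) = locCochain dec ev (f : Γ × Γ → A) := rfl

attribute [local instance] repAction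

/-- **periodicity vs Shapiro components**. -/
theorem exists_gam_loc_eq (hev : ∀ (δ : D) (a : A), ev (A.ρ (dec δ) a) = B.ρ δ (ev a))
    {σ : Γ} {m : ℕ} (h : IsGen σ m) (f : cocycles₂ A) {δ : D} {d e : ℕ} (hδ : dec δ = σ ^ d)
    (hde : d * e = m) :
    ∃ y : B, gam δ e (locCochain dec ev (f : Γ × Γ → A)) =
      ev (gam σ m (f : Γ × Γ → A)) + nrmLin B δ e y := by
  obtain ⟨Y, hY⟩ := exists_gam_pow_eq h ((isCocycle₂_iff_mem A (f : Γ × Γ → A)).2 f.2) hde
  refine ⟨ev Y, ?_⟩
  have h1 : gam δ e (locCochain dec ev (f : Γ × Γ → A)) =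
      ev (gam (σ ^ d) e (f : Γ × Γ → A)) := by
    simp only [gam, tsum, locCochain_apply, map_sum, map_pow, hδ]
  have h2 : ev (nrm (σ ^ d) e Y) = nrmLin B δ e (ev Y) := by
    rw [nrmLin_apply]
    simp only [nrm, map_sum, repAction_smul]
    refine Finset.sum_congr rfl fun i _ => ?_
    rw [← hδ, ← map_pow, hev]
  rw [h1, hY, map_add, h2]

end Loc

section Gen

variable {Γ D : Type*} [Group Γ] [Group D]

/-- In a finite cyclic group, the image of an injective homomorphism from a group of order `e` is
exactly the set of elements of exponent `e`. -/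
theorem mem_range_iff_pow_eq_one [Finite Γ] [IsCyclic Γ] (f : D →* Γ)
    (hf : Function.Injective f) (e : ℕ) (he : Nat.card D = e) (y : Γ) :
    y ∈ f.range ↔ y ^ e = 1 := by
  classical
  have hDfin : Finite D := Finite.of_injective f hf
  have hepos : 0 < e := by rw [← he]; exact Nat.card_pos
  constructor
  · rintro ⟨b, rfl⟩
    rw [← map_pow, ← he, pow_card_eq_one', map_one]
  · intro hy
    have := Fintype.ofFinite Γ
    have hsub : (f.range : Set Γ) ⊆ {a : Γ | a ^ e = 1} := by
      rintro _ ⟨b, rfl⟩
      show f b ^ e = 1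
      rw [← map_pow, ← he, pow_card_eq_one', map_one]
    have hcardR : Nat.card f.range = e := by
      rw [← he]
      exact Nat.card_congr (Equiv.ofInjective f hf).symm
    have hcardT : (Finset.univ.filter fun a : Γ => a ^ e = 1).card ≤ e :=
      IsCyclic.card_pow_eq_one_le hepos
    -- the two finite sets coincide
    have hfin : (Finset.univ.filter fun a : Γ => a ∈ f.range) =
        Finset.univ.filter fun a : Γ => a ^ e = 1 := by
      apply Finset.eq_of_subset_of_card_le
      · intro a ha
        rw [Finset.mem_filter] at ha ⊢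
        exact ⟨ha.1, hsub ha.2⟩
      · have : (Finset.univ.filter fun a : Γ => a ∈ f.range).card = e := by
          rw [← hcardR, Nat.card_eq_fintype_card, Fintype.card_subtype]
        rw [this]
        exact hcardT
    have : y ∈ Finset.univ.filter fun a : Γ => a ^ e = 1 := by
      rw [Finset.mem_filter]
      exact ⟨Finset.mem_univ _, hy⟩
    rw [← hfin, Finset.mem_filter] at this
    exact this.2

/-- A group `D` embedded in the finite cyclic group `⟨σ⟩` of order `m` is generated by an element
`δ` mapping to `σ ^ d`, where `d * |D| = m`. -/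
theorem exists_isGen_of_injective {σ : Γ} {m : ℕ} (h : IsGen σ m) (dec : D →* Γ)
    (hinj : Function.Injective dec) :
    ∃ (δ : D) (d e : ℕ), IsGen δ e ∧ dec δ = σ ^ d ∧ d * e = m := by
  classical
  have hΓfin : Finite Γ := by
    have : Nat.card Γ = m := by
      rw [← h.order]
      exact (orderOf_eq_card_of_forall_mem_zpowers h.gen).symm
    exact Nat.finite_of_card_ne_zero (by rw [this]; exact h.pos.ne')
  have hΓcyc : IsCyclic Γ := ⟨⟨σ, h.gen⟩⟩
  have hcardΓ : Nat.card Γ = m := by
    rw [← h.order]
    exact (orderOf_eq_card_of_forall_mem_zpowers h.gen).symm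
  have hDfin : Finite D := Finite.of_injective dec hinj
  set e := Nat.card D with he
  have hepos : 0 < e := Nat.card_pos
  have hedvd : e ∣ m := by
    rw [← hcardΓ]
    have h1 : Nat.card dec.range = e := Nat.card_congr (Equiv.ofInjective dec hinj).symm
    rw [← h1]
    exact Subgroup.card_subgroup_dvd_card _
  obtain ⟨d, hd⟩ := hedvd
  have hde : d * e = m := by rw [hd, mul_comm]
  have hpow : (σ ^ d) ^ e = 1 := by rw [← pow_mul, hde, h.pow_eq_one]
  obtain ⟨δ, hδ⟩ := (mem_range_iff_pow_eq_one dec hinj e rfl (σ ^ d)).2 hpow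
  refine ⟨δ, d, e, ⟨hepos, ?_, ?_⟩, hδ, hde⟩
  · -- order of `δ`
    rw [← orderOf_injective dec hinj δ, hδ]
    have hd0 : 0 < d := by
      rcases Nat.eq_zero_or_pos d with rfl | hd0
      · have := h.pos; simp at hde; omega
      · exact hd0
    rw [orderOf_pow' σ hd0.ne', h.order, ← hde, Nat.gcd_mul_right_left,
      Nat.mul_div_cancel_left e hd0]
  · -- generation
    intro x
    have hord : orderOf δ = e := by
      rw [← orderOf_injective dec hinj δ, hδ]
      have hd0 : 0 < d := by
        rcases Nat.eq_zero_or_pos d with rfl | hd0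
        · have := h.pos; simp at hde; omega
        · exact hd0
      rw [orderOf_pow' σ hd0.ne', h.order, ← hde, Nat.gcd_mul_right_left,
        Nat.mul_div_cancel_left e hd0]
    have htop : Subgroup.zpowers δ = ⊤ := by
      apply Subgroup.eq_top_of_card_eq
      rw [Nat.card_zpowers, hord]
    rw [htop]
    exact Subgroup.mem_top x

end Gen

end Fermat.Agent.GC.Local.CycH2
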