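/-
GATE-C / C3 (LOCAL) — (N4), helper3.  `Br(E)(p) = ⋃_m H²(Gal(E(ζ_{p^(m+1)})/E), E(ζ)ˣ)` for a finite
extension `E` of `ℚ_q`, in helper81's `Abs` language (`Br(E) = Hlc² (galLevels E Ω) (unitsRep E Ω)`,
`Ω` an algebraic closure).

* `mem_range_iff_nsmul_eq_zero`, `card_torsion_of_dvd` : finite cyclic groups.
* `exists_pow_dvd_orderOf`                            : `p^a ∣ ord(Q mod p^(m+1))` for `m` large.
* `exists_inflBr_eq_of_finrank_nsmul` : **`Br(N₀/E) = Br(E)[[N₀:E]]`** — a class killed by the degree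
  of a finite Galois level `N₀` is inflated from `N₀`.
* `exists_pow_dvd_finrank`            : degree growth `p^a ∣ [E(ζ_{p^(m+1)}):E]` (`q = p` and `q ≠ p`).
* `exists_inflBr_eq_of_primitiveRoot_mem` : **(N4)**.
* `card_brauer_torsion`               : `#Br(E)[p^a] = p^a`.

Input: `LowerDataAll q` (UNRAM, helper26), as a hypothesis.
-/
import Mathlib
import Fermat.Agent.GC.Local.Abs.BrauerTrans
import Fermat.Agent.GC.Local.ClassModuleLocal
import Fermat.Agent.GC.Local.Unram.Cyclotomic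
import Fermat.Agent.GC.Global.WRec.CycloPadic

set_option autoImplicit false
set_option linter.unusedSectionVars false
set_option linter.style.haveILetI false

open scoped Padic
open CategoryTheory
open Fermat.Agent.GC.Local.Abs Fermat.Agent.GC.Prof groupCohomology IntermediateField
open Fermat.Agent.GC.Local.InvMain Fermat.Agent.GC.Local.ClassModuleLocal

noncomputable section

namespace Fermat.Agent.GC.Local.BrauerCyc

/-! ### Finite cyclic groups -/

/-- In a finite cyclic additive group, an injective image of a group of order `d` is exactly the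
`d`-torsion. -/
theorem mem_range_iff_nsmul_eq_zero {A B : Type*} [AddCommGroup A] [AddCommGroup B] [Finite A]
    [IsAddCyclic A] (f : B →+ A) (hf : Function.Injective f) (d : ℕ) (hd : Nat.card B = d)
    (y : A) : y ∈ f.range ↔ d • y = 0 := by
  classical
  have hBfin : Finite B := Finite.of_injective f hf
  have hdpos : 0 < d := by rw [← hd]; exact Nat.card_pos
  constructor
  · rintro ⟨b, rfl⟩
    rw [← map_nsmul, ← hd, card_nsmul_eq_zero', map_zero]
  · intro hy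
    -- the d-torsion subgroup
    let T : AddSubgroup A := (nsmulAddMonoidHom d : A →+ A).ker
    have hle : f.range ≤ T := by
      rintro _ ⟨b, rfl⟩
      show d • f b = 0
      rw [← map_nsmul, ← hd, card_nsmul_eq_zero', map_zero]
    have hcardR : Nat.card f.range = d := by
      rw [← hd]
      exact Nat.card_congr (Equiv.ofInjective f hf).symm
    have hcardT : Nat.card T ≤ d := by
      have := Fintype.ofFinite A
      have h1 := IsAddCyclic.card_nsmul_eq_zero_le (α := A) hdpos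
      have h2 : Nat.card T = (Finset.univ.filter fun a : A => d • a = 0).card := by
        rw [Nat.card_eq_fintype_card, Fintype.card_subtype]
        congr 1
        ext a
        simp [T]
      rw [h2]
      exact h1
    have heq : f.range = T := by
      apply AddSubgroup.eq_of_le_of_card_ge hle
      rw [hcardR]
      exact hcardT
    rw [heq]
    exact hy

/-- In a finite cyclic group the `n`-torsion has exactly `n` elements when `n ∣ |A|`. -/
theorem card_torsion_of_dvd {A : Type*} [AddCommGroup A] [Finite A] [IsAddCyclic A] {n : ℕ}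
    (hn : n ∣ Nat.card A) : Nat.card {y : A // n • y = 0} = n := by
  obtain ⟨g, hg⟩ := IsAddCyclic.exists_generator (α := A)
  have hord : addOrderOf g = Nat.card A := addOrderOf_eq_card_of_forall_mem_zmultiples hg
  obtain ⟨c, hc⟩ := hn
  have hcard_pos : 0 < Nat.card A := Nat.card_pos
  have hnpos : 0 < n := Nat.pos_of_ne_zero (by rintro rfl; omega)
  have hcpos : 0 < c := Nat.pos_of_ne_zero (by rintro rfl; omega)
  set h := c • g with hh
  have hordh : addOrderOf h = n := by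
    rw [hh, addOrderOf_nsmul' _ hcpos.ne', hord, hc, Nat.gcd_mul_left_left,
      Nat.mul_div_cancel _ hcpos]
  have hZ : Nat.card (AddSubgroup.zmultiples h) = n := by
    rw [Nat.card_zmultiples, hordh]
  have key := mem_range_iff_nsmul_eq_zero (AddSubgroup.zmultiples h).subtype
    (AddSubgroup.subtype_injective _) n hZ
  refine (Nat.card_congr (Equiv.subtypeEquiv (Equiv.refl A) fun y => ?_)).trans hZ
  rw [← key y]
  simp

/-! ### Arithmetic: the order of `Q` modulo `p^(m+1)` -/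

/-- if `o ∣ p^m (p-1)` and `o ∤ p^(a-1) (p-1)` then `p^a ∣ o`. -/
theorem pow_dvd_of_dvd_of_not_dvd {p : ℕ} (hp : p.Prime) {o m a : ℕ} (ha : 0 < a)
    (h1 : o ∣ p ^ m * (p - 1)) (h2 : ¬ o ∣ p ^ (a - 1) * (p - 1)) : p ^ a ∣ o := by
  have ho : o ≠ 0 := by
    rintro rfl
    rw [zero_dvd_iff] at h1
    have : 0 < p ^ m * (p - 1) := Nat.mul_pos (pow_pos hp.pos _) (Nat.sub_pos_of_lt hp.one_lt)
    omega
  obtain ⟨j, r, hr, rfl⟩ := Nat.exists_eq_pow_mul_and_not_dvd ho p hp.ne_one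
  have hcop : Nat.Coprime r (p ^ m) := (Nat.Coprime.pow_left m
    ((Nat.Prime.coprime_iff_not_dvd hp).2 hr)).symm
  have hr1 : r ∣ p - 1 := by
    have : r ∣ p ^ m * (p - 1) := (Dvd.intro_left _ rfl).trans h1
    exact hcop.dvd_of_dvd_mul_left this
  by_contra hcon
  apply h2
  have hj : j ≤ a - 1 := by
    by_contra hj
    rw [not_le] at hj
    apply hcon
    exact (pow_dvd_pow p (by omega)).trans (Dvd.intro _ rfl)
  exact Nat.mul_dvd_mul (pow_dvd_pow p hj) hr1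

/-- **degree growth, tame case**: for `Q ≥ 2` prime to `p`, the order of `Q` modulo `p^(m+1)` is
divisible by `p^a` for `m` large. -/
theorem exists_pow_dvd_orderOf {p : ℕ} (hp : p.Prime) {Q : ℕ} (hQ : 2 ≤ Q) (hcop : Q.Coprime p)
    (a : ℕ) : ∃ m₀ : ℕ, ∀ m, m₀ ≤ m → p ^ a ∣ orderOf ((Q : ZMod (p ^ (m + 1)))) := by
  rcases Nat.eq_zero_or_pos a with rfl | ha
  · exact ⟨0, fun m _ => by simp⟩
  set B := p ^ (a - 1) * (p - 1) with hB
  have hBpos : 0 < B := Nat.mul_pos (pow_pos hp.pos _) (Nat.sub_pos_of_lt hp.one_lt)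
  refine ⟨Q ^ B, fun m hm => ?_⟩
  have hunit : IsUnit ((Q : ZMod (p ^ (m + 1)))) := by
    rw [ZMod.isUnit_iff_coprime]
    exact Nat.Coprime.pow_right _ hcop
  apply pow_dvd_of_dvd_of_not_dvd hp ha (m := m)
  · -- the order divides `φ(p^(m+1))`
    have h1 : ((Q : ZMod (p ^ (m + 1)))) ^ Nat.totient (p ^ (m + 1)) = 1 := by
      have := ZMod.pow_totient (n := p ^ (m + 1)) hunit.unit
      have h2 : ((hunit.unit ^ Nat.totient (p ^ (m + 1)) : (ZMod (p ^ (m + 1)))ˣ) :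
          ZMod (p ^ (m + 1))) = 1 := by rw [this]; rfl
      rwa [Units.val_pow_eq_pow_val, IsUnit.unit_spec] at h2
    have := orderOf_dvd_of_pow_eq_one h1
    rwa [Nat.totient_prime_pow_succ hp] at this
  · intro hdvd
    have h1 : ((Q : ZMod (p ^ (m + 1)))) ^ B = 1 := orderOf_dvd_iff_pow_eq_one.1 hdvd
    have h2 : ((Q ^ B : ℕ) : ZMod (p ^ (m + 1))) = ((1 : ℕ) : ZMod (p ^ (m + 1))) := by
      push_cast
      exact h1
    rw [ZMod.natCast_eq_natCast_iff'] at h2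
    have h3 : 1 < p ^ (m + 1) := Nat.one_lt_pow (by omega) hp.one_lt
    have h4 : m + 1 < p ^ (m + 1) := Nat.lt_pow_self hp.one_lt
    have h5 : 1 < Q ^ B := Nat.one_lt_pow hBpos.ne' (by omega)
    rw [Nat.mod_eq_of_lt (by omega : Q ^ B < p ^ (m + 1)), Nat.mod_eq_of_lt h3] at h2
    omega

/-! ### The Brauer group of a `q`-adic field -/

variable (q : ℕ) [Fact q.Prime] (E Ω : Type) [Field E] [Field Ω] [Algebra ℚ_[q] E] [Algebra ℚ_[q] Ω]
  [Algebra E Ω] [IsScalarTower ℚ_[q] E Ω] [FiniteDimensional ℚ_[q] E] [IsGalois E Ω]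

include q in
/-- **`Br(N₀/E) = Br(E)[[N₀:E]]`**: a Brauer class killed by the degree of a finite Galois level `N₀`
is inflated from `N₀`. -/
theorem exists_inflBr_eq_of_finrank_nsmul (hLD : LowerDataAll q) (N₀ : IntermediateField E Ω)
    [FiniteDimensional E N₀] [IsGalois E N₀]
    (x : Hlc (galLevels E Ω) (unitsRep E Ω) 2) (hx : Module.finrank E N₀ • x = 0) :
    ∃ y₀ : groupCohomology (Rep.ofAlgebraAutOnUnits E N₀) 2, inflBr E N₀ Ω 2 y₀ = x := by
  obtain ⟨N, hfd, hgal, hle, y, rfl⟩ := exists_inflBr_eq x N₀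
  have hfdq : FiniteDimensional ℚ_[q] N := FiniteDimensional.trans ℚ_[q] E N
  have hfdq0 : FiniteDimensional ℚ_[q] N₀ := FiniteDimensional.trans ℚ_[q] E N₀
  letI : Algebra N₀ N := (IntermediateField.inclusion hle).toRingHom.toAlgebra
  have t1 : IsScalarTower E N₀ N := IsScalarTower.of_algebraMap_eq fun _ => rfl
  have t2 : IsScalarTower N₀ N Ω := IsScalarTower.of_algebraMap_eq fun _ => rfl
  -- the finite inflation is injective
  have hinj : Function.Injective (inflFin E N₀ N 2).hom := by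
    intro a b hab
    apply inflBr_two_injective E N₀ Ω
    rw [← inflBr_inflFin_apply E N₀ N Ω 2 a, ← inflBr_inflFin_apply E N₀ N Ω 2 b]
    exact congrArg _ hab
  have hcardN := card_H2_eq_finrank q E N (hLD E N)
  have hcyc : IsAddCyclic (groupCohomology (Rep.ofAlgebraAutOnUnits E N) 2) :=
    isAddCyclic_H2 q E N (hLD E N)
  have hfin : Finite (groupCohomology (Rep.ofAlgebraAutOnUnits E N) 2) :=
    Nat.finite_of_card_ne_zero (by
      have : Nat.card (groupCohomology (Rep.ofAlgebraAutOnUnits E N) 2) = Module.finrank E N :=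
        hcardN
      rw [this]; exact Module.finrank_pos.ne')
  have hcard0 : Nat.card (groupCohomology (Rep.ofAlgebraAutOnUnits E N₀) 2) =
      Module.finrank E N₀ := card_H2_eq_finrank q E N₀ (hLD E N₀)
  have hy : Module.finrank E N₀ • y = 0 := by
    apply inflBr_two_injective E N Ω
    rw [map_nsmul, hx, map_zero]
  obtain ⟨y₀, hy₀⟩ := (mem_range_iff_nsmul_eq_zero
    ((inflFin E N₀ N 2).hom : _ →ₗ[ℤ] _).toAddMonoidHom hinj _ hcard0 y).2 hy
  refine ⟨y₀, ?_⟩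
  rw [← inflBr_inflFin_apply E N₀ N Ω 2 y₀]
  exact congrArg _ hy₀

/-! ### Degree growth of the `p`-cyclotomic tower -/

/-- degree growth, `q ≠ p` (the cyclotomic tower is unramified). -/
theorem exists_pow_dvd_finrank_of_ne (p : ℕ) [Fact p.Prime] (hpq : p ≠ q) (a : ℕ) :
    ∃ m₀ : ℕ, ∀ m, m₀ ≤ m → ∀ ζ : Ω, IsPrimitiveRoot ζ (p ^ (m + 1)) →
      p ^ a ∣ Module.finrank E E⟮ζ⟯ := by
  have hp : p.Prime := Fact.out
  have hq : q.Prime := Fact.out
  have hcop : (Unram.resCard q E).Coprime p := by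
    rw [Unram.resCard_eq]
    exact Nat.Coprime.pow_left _ ((Nat.coprime_primes hq hp).2 (Ne.symm hpq))
  obtain ⟨m₀, hm₀⟩ := exists_pow_dvd_orderOf hp (Unram.two_le_resCard q E) hcop a
  refine ⟨m₀, fun m hm ζ hζ => ?_⟩
  have hcyc : IsCyclotomicExtension {p ^ (m + 1)} E E⟮ζ⟯ :=
    hζ.intermediateField_adjoin_isCyclotomicExtension E
  have hfd : FiniteDimensional E E⟮ζ⟯ :=
    IntermediateField.adjoin.finiteDimensional (Algebra.IsIntegral.isIntegral ζ)
  have hfdq : FiniteDimensional ℚ_[q] E⟮ζ⟯ := FiniteDimensional.trans ℚ_[q] E E⟮ζ⟯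
  have hN : (p ^ (m + 1)).Coprime q :=
    Nat.Coprime.pow_left _ ((Nat.coprime_primes hp hq).2 hpq)
  rw [(Unram.cyclotomic_unram q E E⟮ζ⟯ (p ^ (m + 1)) hN).1]
  exact hm₀ m hm

/-- degree growth, `q = p` (the cyclotomic polynomial is irreducible over `ℚ_p`). -/
theorem exists_pow_dvd_finrank_of_eq (a : ℕ) :
    ∃ m₀ : ℕ, ∀ m, m₀ ≤ m → ∀ ζ : Ω, IsPrimitiveRoot ζ (q ^ (m + 1)) →
      q ^ a ∣ Module.finrank E E⟮ζ⟯ := by
  have hq : q.Prime := Fact.out
  obtain ⟨k, d', hd', hEq⟩ := Nat.exists_eq_pow_mul_and_not_dvd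
    (Module.finrank_pos (R := ℚ_[q]) (M := E)).ne' q hq.ne_one
  refine ⟨a + k, fun m hm ζ hζ => ?_⟩
  have hfd : FiniteDimensional E E⟮ζ⟯ :=
    IntermediateField.adjoin.finiteDimensional (Algebra.IsIntegral.isIntegral ζ)
  have hfdq : FiniteDimensional ℚ_[q] E⟮ζ⟯ := FiniteDimensional.trans ℚ_[q] E E⟮ζ⟯
  have hint : IsIntegral ℚ_[q] ζ := by
    have : Algebra.IsAlgebraic ℚ_[q] E := Algebra.IsAlgebraic.of_finite ℚ_[q] E
    have : Algebra.IsAlgebraic ℚ_[q] Ω := Algebra.IsAlgebraic.trans ℚ_[q] E Ω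
    exact Algebra.IsIntegral.isIntegral ζ
  -- degree of `ℚ_q(ζ)`
  have hne : NeZero ((q ^ (m + 1) : ℕ) : ℚ_[q]) := ⟨by
    have : (q : ℚ_[q]) ≠ 0 := by exact_mod_cast hq.ne_zero
    push_cast
    exact pow_ne_zero _ this⟩
  have hdeg : Module.finrank ℚ_[q] ℚ_[q]⟮ζ⟯ = q ^ m * (q - 1) := by
    rw [IntermediateField.adjoin.finrank hint,
      ← hζ.minpoly_eq_cyclotomic_of_irreducible
        (Fermat.Agent.GC.Global.WRec.cyclotomic_prime_pow_irreducible_padic q m),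
      Polynomial.natDegree_cyclotomic, Nat.totient_prime_pow_succ hq]
  have hle : ℚ_[q]⟮ζ⟯ ≤ E⟮ζ⟯.restrictScalars ℚ_[q] := by
    rw [IntermediateField.adjoin_le_iff]
    intro x hx
    rw [Set.mem_singleton_iff] at hx
    subst hx
    exact IntermediateField.mem_adjoin_simple_self E x
  have hfd' : FiniteDimensional ℚ_[q] (E⟮ζ⟯.restrictScalars ℚ_[q]) := hfdq
  have h1 : q ^ m * (q - 1) ∣ Module.finrank ℚ_[q] E * Module.finrank E E⟮ζ⟯ := by
    rw [← hdeg, Module.finrank_mul_finrank]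
    exact IntermediateField.finrank_dvd_of_le_right hle
  rw [hEq] at h1
  have h2 : q ^ k * q ^ a ∣ q ^ k * (d' * Module.finrank E E⟮ζ⟯) := by
    rw [← pow_add, ← mul_assoc, add_comm k a]
    exact (pow_dvd_pow q hm).trans ((Dvd.intro _ rfl).trans h1)
  have h3 : q ^ a ∣ d' * Module.finrank E E⟮ζ⟯ :=
    Nat.dvd_of_mul_dvd_mul_left (pow_pos hq.pos k) h2
  exact (Nat.Coprime.pow_left a ((Nat.Prime.coprime_iff_not_dvd hq).2 hd')).dvd_of_dvd_mul_left h3

include q in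
/-- **degree growth**: `p^a ∣ [E(ζ_{p^(m+1)}) : E]` for `m` large, for every prime `p`. -/
theorem exists_pow_dvd_finrank (p : ℕ) [Fact p.Prime] (a : ℕ) :
    ∃ m₀ : ℕ, ∀ m, m₀ ≤ m → ∀ ζ : Ω, IsPrimitiveRoot ζ (p ^ (m + 1)) →
      p ^ a ∣ Module.finrank E E⟮ζ⟯ := by
  by_cases hpq : p = q
  · subst hpq
    exact exists_pow_dvd_finrank_of_eq p E Ω a
  · exact exists_pow_dvd_finrank_of_ne q E Ω p hpq a

include q in
/-- degree growth for any finite level containing a primitive `p^(m+1)`-th root of unity. -/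
theorem exists_pow_dvd_finrank_of_mem (p : ℕ) [Fact p.Prime] (a : ℕ) :
    ∃ m₀ : ℕ, ∀ m, m₀ ≤ m → ∀ (N : IntermediateField E Ω) [FiniteDimensional E N] (ζ : Ω),
      IsPrimitiveRoot ζ (p ^ (m + 1)) → ζ ∈ N → p ^ a ∣ Module.finrank E N := by
  obtain ⟨m₀, hm₀⟩ := exists_pow_dvd_finrank q E Ω p a
  refine ⟨m₀, fun m hm N _ ζ hζ hmem => (hm₀ m hm ζ hζ).trans ?_⟩
  apply IntermediateField.finrank_dvd_of_le_right
  rw [IntermediateField.adjoin_le_iff]
  intro x hx
  rw [Set.mem_singleton_iff] at hx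
  subst hx
  exact hmem

/-! ### (N4) -/

/-- **(N4)** `Br(E)(p) = ⋃_m H²(Gal(E(ζ_{p^(m+1)})/E), ·)`: for `m ≥ m₀(a)`, every Brauer class killed
by `p^a` is inflated from ANY finite Galois level `N` containing a primitive `p^(m+1)`-th root of
unity (in particular from `N = E(ζ_{p^(m+1)})`). -/
theorem exists_inflBr_eq_of_primitiveRoot_mem (hLD : LowerDataAll q) (p : ℕ) [Fact p.Prime]
    (a : ℕ) :
    ∃ m₀ : ℕ, ∀ m, m₀ ≤ m → ∀ (N : IntermediateField E Ω) [FiniteDimensional E N] [IsGalois E N]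
      (ζ : Ω), IsPrimitiveRoot ζ (p ^ (m + 1)) → ζ ∈ N →
      ∀ x : Hlc (galLevels E Ω) (unitsRep E Ω) 2, p ^ a • x = 0 →
        ∃ y₀ : groupCohomology (Rep.ofAlgebraAutOnUnits E N) 2, inflBr E N Ω 2 y₀ = x := by
  obtain ⟨m₀, hm₀⟩ := exists_pow_dvd_finrank_of_mem q E Ω p a
  refine ⟨m₀, fun m hm N _ _ ζ hζ hmem x hx => ?_⟩
  apply exists_inflBr_eq_of_finrank_nsmul q E Ω hLD N x
  obtain ⟨c, hc⟩ := hm₀ m hm N ζ hζ hmem
  rw [hc, mul_nsmul, hx, nsmul_zero]

/-- `#Br(E)[p^a] = p^a`. -/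
theorem card_brauer_torsion [IsAlgClosed Ω] (hLD : LowerDataAll q) (p : ℕ) [Fact p.Prime] (a : ℕ) :
    Nat.card {x : Hlc (galLevels E Ω) (unitsRep E Ω) 2 // p ^ a • x = 0} = p ^ a := by
  have hp : p.Prime := Fact.out
  obtain ⟨m₀, hm₀⟩ := exists_pow_dvd_finrank q E Ω p a
  have hchar : CharZero Ω := charZero_of_injective_algebraMap (algebraMap ℚ_[q] Ω).injective
  have hne : NeZero ((p ^ (m₀ + 1) : ℕ) : Ω) := ⟨by
    exact_mod_cast (pow_pos hp.pos (m₀ + 1)).ne'⟩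
  obtain ⟨ζ, hζ⟩ := HasEnoughRootsOfUnity.exists_primitiveRoot Ω (p ^ (m₀ + 1))
  have hnz : NeZero (p ^ (m₀ + 1)) := ⟨(pow_pos hp.pos (m₀ + 1)).ne'⟩
  have hcyc : IsCyclotomicExtension {p ^ (m₀ + 1)} E E⟮ζ⟯ :=
    hζ.intermediateField_adjoin_isCyclotomicExtension E
  have hfd : FiniteDimensional E E⟮ζ⟯ :=
    IntermediateField.adjoin.finiteDimensional (Algebra.IsIntegral.isIntegral ζ)
  have hgal : IsGalois E E⟮ζ⟯ := IsCyclotomicExtension.isGalois {p ^ (m₀ + 1)} E E⟮ζ⟯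
  have hfdq : FiniteDimensional ℚ_[q] E⟮ζ⟯ := FiniteDimensional.trans ℚ_[q] E E⟮ζ⟯
  have hdvd := hm₀ m₀ le_rfl ζ hζ
  have hcardN : Nat.card (groupCohomology (Rep.ofAlgebraAutOnUnits E E⟮ζ⟯) 2) =
      Module.finrank E E⟮ζ⟯ := card_H2_eq_finrank q E E⟮ζ⟯ (hLD E E⟮ζ⟯)
  have hcycA : IsAddCyclic (groupCohomology (Rep.ofAlgebraAutOnUnits E E⟮ζ⟯) 2) :=
    isAddCyclic_H2 q E E⟮ζ⟯ (hLD E E⟮ζ⟯)
  have hfin : Finite (groupCohomology (Rep.ofAlgebraAutOnUnits E E⟮ζ⟯) 2) :=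
    Nat.finite_of_card_ne_zero (by rw [hcardN]; exact Module.finrank_pos.ne')
  have hT := card_torsion_of_dvd (A := groupCohomology (Rep.ofAlgebraAutOnUnits E E⟮ζ⟯) 2)
    (n := p ^ a) (by rw [hcardN]; exact hdvd)
  let φ : {y : groupCohomology (Rep.ofAlgebraAutOnUnits E E⟮ζ⟯) 2 // p ^ a • y = 0} →
      {x : Hlc (galLevels E Ω) (unitsRep E Ω) 2 // p ^ a • x = 0} :=
    fun y => ⟨inflBr E E⟮ζ⟯ Ω 2 y.1, by rw [← map_nsmul, y.2, map_zero]⟩
  refine Eq.trans (Nat.card_congr (Equiv.ofBijective φ ⟨fun y y' h => ?_, fun x => ?_⟩)).symm hT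
  · apply Subtype.ext
    exact inflBr_two_injective E E⟮ζ⟯ Ω (congrArg Subtype.val h)
  · obtain ⟨c, hc⟩ := hdvd
    obtain ⟨y₀, hy₀⟩ := exists_inflBr_eq_of_finrank_nsmul q E Ω hLD E⟮ζ⟯ x.1
      (by rw [hc, mul_nsmul, x.2, nsmul_zero])
    refine ⟨⟨y₀, ?_⟩, Subtype.ext hy₀⟩
    apply inflBr_two_injective E E⟮ζ⟯ Ω
    rw [map_nsmul, hy₀, x.2, map_zero]

end Fermat.Agent.GC.Local.BrauerCyc
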