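/-
GATE-C / C3 (LOCAL) — (N4), helper3.  UNCONDITIONAL versions of `BrauerCyc.lean`
(`LowerDataAll q` is a theorem: helper26, `Unram/LocalCFT.lean`).
-/
import Mathlib
import Fermat.Agent.GC.Local.BrauerCyc
import Fermat.Agent.GC.Local.Unram.LocalCFT

set_option autoImplicit false
set_option linter.unusedSectionVars false

open scoped Padic
open CategoryTheory
open Fermat.Agent.GC.Local.Abs Fermat.Agent.GC.Prof groupCohomology IntermediateField

noncomputable section

namespace Fermat.Agent.GC.Local.BrauerCycFinal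

variable (q : ℕ) [Fact q.Prime] (E Ω : Type) [Field E] [Field Ω] [Algebra ℚ_[q] E] [Algebra ℚ_[q] Ω]
  [Algebra E Ω] [IsScalarTower ℚ_[q] E Ω] [FiniteDimensional ℚ_[q] E] [IsGalois E Ω]

include q in
/-- **`Br(N₀/E) = Br(E)[[N₀:E]]`**, unconditional. -/
theorem exists_inflBr_eq_of_finrank_nsmul (N₀ : IntermediateField E Ω)
    [FiniteDimensional E N₀] [IsGalois E N₀]
    (x : Hlc (galLevels E Ω) (unitsRep E Ω) 2) (hx : Module.finrank E N₀ • x = 0) :
    ∃ y₀ : groupCohomology (Rep.ofAlgebraAutOnUnits E N₀) 2, inflBr E N₀ Ω 2 y₀ = x :=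
  BrauerCyc.exists_inflBr_eq_of_finrank_nsmul q E Ω (Unram.lowerDataAll q) N₀ x hx

include q in
/-- a class killed by a divisor `d` of the degree of a finite Galois level is inflated from it. -/
theorem exists_inflBr_eq_of_dvd_finrank (N₀ : IntermediateField E Ω)
    [FiniteDimensional E N₀] [IsGalois E N₀] (d : ℕ) (hd : d ∣ Module.finrank E N₀)
    (x : Hlc (galLevels E Ω) (unitsRep E Ω) 2) (hx : d • x = 0) :
    ∃ y₀ : groupCohomology (Rep.ofAlgebraAutOnUnits E N₀) 2, inflBr E N₀ Ω 2 y₀ = x := by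
  apply exists_inflBr_eq_of_finrank_nsmul q E Ω N₀ x
  obtain ⟨c, hc⟩ := hd
  rw [hc, mul_nsmul, hx, nsmul_zero]

include q in
/-- **(N4)**, unconditional. -/
theorem exists_inflBr_eq_of_primitiveRoot_mem (p : ℕ) [Fact p.Prime] (a : ℕ) :
    ∃ m₀ : ℕ, ∀ m, m₀ ≤ m → ∀ (N : IntermediateField E Ω) [FiniteDimensional E N] [IsGalois E N]
      (ζ : Ω), IsPrimitiveRoot ζ (p ^ (m + 1)) → ζ ∈ N →
      ∀ x : Hlc (galLevels E Ω) (unitsRep E Ω) 2, p ^ a • x = 0 →
        ∃ y₀ : groupCohomology (Rep.ofAlgebraAutOnUnits E N) 2, inflBr E N Ω 2 y₀ = x :=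
  BrauerCyc.exists_inflBr_eq_of_primitiveRoot_mem q E Ω (Unram.lowerDataAll q) p a

include q in
/-- `#Br(E)[p^a] = p^a`, unconditional. -/
theorem card_brauer_torsion [IsAlgClosed Ω] (p : ℕ) [Fact p.Prime] (a : ℕ) :
    Nat.card {x : Hlc (galLevels E Ω) (unitsRep E Ω) 2 // p ^ a • x = 0} = p ^ a :=
  BrauerCyc.card_brauer_torsion q E Ω (Unram.lowerDataAll q) p a

include q in
/-- `#Br(E)[p] = p`, unconditional. -/
theorem card_brauer_torsion_prime [IsAlgClosed Ω] (p : ℕ) [Fact p.Prime] :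
    Nat.card {x : Hlc (galLevels E Ω) (unitsRep E Ω) 2 // p • x = 0} = p := by
  have := card_brauer_torsion q E Ω p 1
  simpa using this

end Fermat.Agent.GC.Local.BrauerCycFinal
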