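/-
GATE-C / C3 (N4)-DEG (helper73): degree growth of the `p`-cyclotomic tower over a finite
extension, abstract (Mathlib only).

* `finrank_adjoin_dvd_totient` : `[E(ζ_n) : E] ∣ φ(n)`;
* `pow_dvd_of_dvd_of_le`       : `D ∣ p^m (p-1)`, `p^k ≤ D` ⟹ `p^k ∣ D`;
* `finrank_base_le`            : `[F₀(ζ) : F₀] ≤ [E : F₀] [E(ζ) : E]`;
* `exists_forall_pow_dvd_finrank` : if the degrees `[F₀(ζ_{p^(m+1)}) : F₀]` are unbounded and `E/F₀`
  is finite then for every `k`, `p^k ∣ [E(ζ_{p^(m+1)}) : E]` for all large `m`.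
-/
import Mathlib

set_option autoImplicit false

open IntermediateField

namespace Fermat.Agent.GC.Local.CycloDegGrowth

section Totient

variable {E Ω : Type*} [Field E] [Field Ω] [Algebra E Ω]

/-- `E(ζ)` is a cyclotomic extension of `E` (no algebraicity of `Ω/E` needed). -/
theorem isCyclotomicExtension_adjoin {n : ℕ} [NeZero n] {ζ : Ω} (hζ : IsPrimitiveRoot ζ n) :
    IsCyclotomicExtension {n} E E⟮ζ⟯ := by
  have hint : IsIntegral E ζ := (hζ.isIntegral (NeZero.pos n)).tower_top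
  change IsCyclotomicExtension {n} E E⟮ζ⟯.toSubalgebra
  rw [IntermediateField.adjoin_simple_toSubalgebra_of_isAlgebraic hint.isAlgebraic]
  exact hζ.adjoin_isCyclotomicExtension E

/-- `[E(ζ_n) : E]` divides `φ(n)`. -/
theorem finrank_adjoin_dvd_totient {n : ℕ} [NeZero n] {ζ : Ω} (hζ : IsPrimitiveRoot ζ n) :
    Module.finrank E E⟮ζ⟯ ∣ n.totient := by
  have hcyc : IsCyclotomicExtension {n} E E⟮ζ⟯ := isCyclotomicExtension_adjoin hζ
  have hgal : IsGalois E E⟮ζ⟯ := IsCyclotomicExtension.isGalois {n} E E⟮ζ⟯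
  have hfd : FiniteDimensional E E⟮ζ⟯ := IsCyclotomicExtension.finiteDimensional {n} E E⟮ζ⟯
  have hζ' : IsPrimitiveRoot (IsCyclotomicExtension.zeta n E E⟮ζ⟯) n :=
    IsCyclotomicExtension.zeta_spec n E E⟮ζ⟯
  have hinj := hζ'.autToPow_injective E
  have hcard : Nat.card (E⟮ζ⟯ ≃ₐ[E] E⟮ζ⟯) = Module.finrank E E⟮ζ⟯ :=
    IsGalois.card_aut_eq_finrank E E⟮ζ⟯
  rw [← hcard, ← ZMod.card_units_eq_totient n, ← Nat.card_eq_fintype_card]
  exact Subgroup.card_dvd_of_injective _ hinj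

end Totient

section Arith

/-- `D ∣ p^m (p-1)` and `p^k ≤ D` force `p^k ∣ D`. -/
theorem pow_dvd_of_dvd_of_le (p : ℕ) [hp : Fact p.Prime] {m k D : ℕ}
    (hD : D ∣ p ^ m * (p - 1)) (hk : p ^ k ≤ D) : p ^ k ∣ D := by
  have hp1 : 0 < p - 1 := Nat.sub_pos_of_lt hp.out.one_lt
  have hD0 : D ≠ 0 := by
    rintro rfl
    have := pow_pos hp.out.pos k
    omega
  obtain ⟨j, d, hd, rfl⟩ := Nat.exists_eq_pow_mul_and_not_dvd hD0 p hp.out.ne_one
  have hdd : d ∣ p ^ m * (p - 1) := (Dvd.intro_left _ rfl).trans hD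
  have hcop : Nat.Coprime d (p ^ m) :=
    Nat.Coprime.pow_right _ ((Nat.Prime.coprime_iff_not_dvd hp.out).mpr hd).symm
  have hd1 : d ∣ p - 1 := hcop.dvd_of_dvd_mul_left hdd
  have hdle : d ≤ p - 1 := Nat.le_of_dvd hp1 hd1
  by_cases hjk : k ≤ j
  · exact (pow_dvd_pow p hjk).trans (Dvd.intro _ rfl)
  · exfalso
    rw [not_le] at hjk
    have hdlt : d < p := lt_of_le_of_lt hdle (Nat.sub_lt hp.out.pos one_pos)
    have h1 : p ^ j * d < p ^ (j + 1) := by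
      rw [pow_succ]
      exact (Nat.mul_lt_mul_left (pow_pos hp.out.pos j)).mpr hdlt
    have h2 : p ^ (j + 1) ≤ p ^ k := Nat.pow_le_pow_right hp.out.pos hjk
    omega

end Arith

section Tower

variable {F₀ E Ω : Type*} [Field F₀] [Field E] [Field Ω] [Algebra F₀ E] [Algebra E Ω]
  [Algebra F₀ Ω] [IsScalarTower F₀ E Ω]

/-- `[F₀(ζ) : F₀] ≤ [E : F₀] · [E(ζ) : E]` for `ζ` integral. -/
theorem finrank_base_le [FiniteDimensional F₀ E] {ζ : Ω} (hζ : IsIntegral F₀ ζ) :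
    Module.finrank F₀ F₀⟮ζ⟯ ≤ Module.finrank F₀ E * Module.finrank E E⟮ζ⟯ := by
  have hζE : IsIntegral E ζ := hζ.tower_top
  have hfdE : FiniteDimensional E E⟮ζ⟯ := IntermediateField.adjoin.finiteDimensional hζE
  have hfd0 : FiniteDimensional F₀ E⟮ζ⟯ := FiniteDimensional.trans F₀ E E⟮ζ⟯
  rw [Module.finrank_mul_finrank F₀ E E⟮ζ⟯]
  -- `F₀(ζ) ≤ E(ζ)` as `F₀`-subspaces of `Ω`
  have hle : F₀⟮ζ⟯ ≤ (E⟮ζ⟯).restrictScalars F₀ := by
    rw [IntermediateField.adjoin_le_iff]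
    rintro x hx
    rw [Set.mem_singleton_iff] at hx
    subst hx
    exact IntermediateField.mem_adjoin_simple_self E x
  have hfd0' : FiniteDimensional F₀ ((E⟮ζ⟯).restrictScalars F₀) := hfd0
  exact IntermediateField.finrank_le_of_le_right hle |>.trans_eq rfl

/-- **Degree growth of the `p`-cyclotomic tower.**  If the degrees `[F₀(ζ_{p^(m+1)}) : F₀]` are
unbounded and `E/F₀` is finite, then for every `k` and all large `m`, `p^k ∣ [E(ζ_{p^(m+1)}) : E]`. -/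
theorem exists_forall_pow_dvd_finrank [FiniteDimensional F₀ E] (p : ℕ) [hp : Fact p.Prime]
    (hunb : ∀ B : ℕ, ∃ m : ℕ, ∀ ζ : Ω, IsPrimitiveRoot ζ (p ^ (m + 1)) →
      B ≤ Module.finrank F₀ F₀⟮ζ⟯) (k : ℕ) :
    ∃ m₀ : ℕ, ∀ m : ℕ, m₀ ≤ m → ∀ ζ : Ω, IsPrimitiveRoot ζ (p ^ (m + 1)) →
      p ^ k ∣ Module.finrank E E⟮ζ⟯ := by
  obtain ⟨m₀, hm₀⟩ := hunb (Module.finrank F₀ E * p ^ k)
  refine ⟨m₀, fun m hm ζ hζ => ?_⟩
  have hne : NeZero (p ^ (m₀ + 1)) := ⟨(pow_pos hp.out.pos _).ne'⟩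
  -- descend to level `m₀`
  have hζ₀ : IsPrimitiveRoot (ζ ^ p ^ (m - m₀)) (p ^ (m₀ + 1)) := by
    refine hζ.pow (pow_pos hp.out.pos _) ?_
    rw [← pow_add]
    congr 1
    omega
  set ζ₀ : Ω := ζ ^ p ^ (m - m₀) with hζ₀def
  have hint : IsIntegral F₀ ζ₀ := (hζ₀.isIntegral (pow_pos hp.out.pos _)).tower_top
  have h1 := hm₀ ζ₀ hζ₀
  have h2 := finrank_base_le (F₀ := F₀) (E := E) hint
  have hpos : 0 < Module.finrank F₀ E := Module.finrank_pos
  have h3 : p ^ k ≤ Module.finrank E E⟮ζ₀⟯ :=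
    Nat.le_of_mul_le_mul_left (h1.trans h2) hpos
  have h4 : Module.finrank E E⟮ζ₀⟯ ∣ p ^ m₀ * (p - 1) := by
    have := finrank_adjoin_dvd_totient (E := E) hζ₀
    rwa [Nat.totient_prime_pow_succ hp.out] at this
  have h5 : p ^ k ∣ Module.finrank E E⟮ζ₀⟯ := pow_dvd_of_dvd_of_le p h4 h3
  have hle : E⟮ζ₀⟯ ≤ E⟮ζ⟯ := by
    rw [IntermediateField.adjoin_le_iff]
    rintro x hx
    rw [Set.mem_singleton_iff] at hx
    subst hx
    exact pow_mem (IntermediateField.mem_adjoin_simple_self E ζ) _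
  exact h5.trans (IntermediateField.finrank_dvd_of_le_right hle)

end Tower

end Fermat.Agent.GC.Local.CycloDegGrowth
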