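/-
GATE-C / C3 (N4)-DEG (helper73): degree growth of the `p`-cyclotomic tower over a finite extension
`E` of `ℚ_q` (`q = p` allowed).

* `padic_cyclotomic_unbounded` : `[ℚ_q(ζ_{p^(m+1)}) : ℚ_q]` is unbounded in `m`
  (`q = p`: Eisenstein, helper55 `CycloPadic`; `q ≠ p`: helper26 `cyclotomic_unram`);
* `padic_exists_forall_pow_dvd_finrank` : `E/ℚ_q` finite, `Ω ⊇ E` any field: for every `k` there is
  `m₀` with `p^k ∣ [E(ζ) : E]` for all primitive `p^(m+1)`-th roots of unity `ζ ∈ Ω`, `m ≥ m₀`.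
-/
import Mathlib
import Fermat.Agent.GC.Local.CycloDegGrowth
import Fermat.Agent.GC.Local.Unram.Cyclotomic
import Fermat.Agent.GC.Global.WRec.CycloPadic

set_option autoImplicit false

open scoped Padic
open IntermediateField Polynomial

namespace Fermat.Agent.GC.Local.CycloDegGrowth

section Arith

/-- if `a ≥ 2` has positive order `d` modulo `n ≥ 1`, then `n < a ^ d` -/
theorem lt_pow_orderOf {a n : ℕ} (ha : 2 ≤ a)
    (hd : 0 < orderOf ((a : ℕ) : ZMod n)) : n < a ^ orderOf ((a : ℕ) : ZMod n) := by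
  set d := orderOf ((a : ℕ) : ZMod n) with hddef
  have h1 : ((a : ℕ) : ZMod n) ^ d = 1 := pow_orderOf_eq_one _
  have h2 : ((a ^ d : ℕ) : ZMod n) = ((1 : ℕ) : ZMod n) := by
    push_cast
    exact h1
  rw [ZMod.natCast_eq_natCast_iff] at h2
  have h3 : 1 < a ^ d := Nat.one_lt_pow hd.ne' (by omega)
  have h4 : n ∣ a ^ d - 1 := (Nat.modEq_iff_dvd' h3.le).mp h2.symm
  have h5 : n ≤ a ^ d - 1 := Nat.le_of_dvd (by omega) h4
  omega

/-- the order of `a ≥ 2` modulo `p ^ (a * B)`, if positive, is `> B` -/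
theorem lt_orderOf_of_pos (p : ℕ) [hp : Fact p.Prime] {a : ℕ} (ha : 2 ≤ a) (B : ℕ)
    (hd : 0 < orderOf ((a : ℕ) : ZMod (p ^ (a * B)))) :
    B < orderOf ((a : ℕ) : ZMod (p ^ (a * B))) := by
  have h1 := lt_pow_orderOf ha hd
  have h2 : a ^ B ≤ p ^ (a * B) := by
    rw [pow_mul]
    refine Nat.pow_le_pow_left ?_ B
    calc a ≤ 2 ^ a := Nat.lt_two_pow_self.le
      _ ≤ p ^ a := Nat.pow_le_pow_left hp.out.two_le a
  exact (Nat.pow_lt_pow_iff_right (by omega)).mp (lt_of_le_of_lt h2 h1)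

end Arith

section Unbounded

variable (q p : ℕ) [hq : Fact q.Prime] [hp : Fact p.Prime] (Ω : Type*) [Field Ω] [Algebra ℚ_[q] Ω]

/-- `q = p`: `[ℚ_p(ζ_{p^(m+1)}) : ℚ_p] = φ(p^(m+1))`. -/
theorem finrank_adjoin_padic_self {Ω : Type*} [Field Ω] [Algebra ℚ_[p] Ω] (m : ℕ) {ζ : Ω}
    (hζ : IsPrimitiveRoot ζ (p ^ (m + 1))) :
    Module.finrank ℚ_[p] ℚ_[p]⟮ζ⟯ = (p ^ (m + 1)).totient := by
  have hpos : 0 < p ^ (m + 1) := pow_pos hp.out.pos _
  have hne : NeZero ((p ^ (m + 1) : ℕ) : ℚ_[p]) := ⟨by exact_mod_cast hpos.ne'⟩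
  have hint : IsIntegral ℚ_[p] ζ := (hζ.isIntegral hpos).tower_top
  have hirr := Fermat.Agent.GC.Global.WRec.cyclotomic_prime_pow_irreducible_padic p m
  rw [IntermediateField.adjoin.finrank hint,
    ← hζ.minpoly_eq_cyclotomic_of_irreducible hirr, natDegree_cyclotomic]

/-- `q ≠ p`: `[ℚ_q(ζ_{p^(m+1)}) : ℚ_q]` is the order of `#κ` modulo `p^(m+1)`. -/
theorem finrank_adjoin_padic_of_ne (hqp : q ≠ p) (m : ℕ) {ζ : Ω}
    (hζ : IsPrimitiveRoot ζ (p ^ (m + 1))) :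
    Module.finrank ℚ_[q] ℚ_[q]⟮ζ⟯ =
      orderOf ((Unram.resCard q ℚ_[q] : ℕ) : ZMod (p ^ (m + 1))) := by
  have hpos : 0 < p ^ (m + 1) := pow_pos hp.out.pos _
  have hne : NeZero (p ^ (m + 1)) := ⟨hpos.ne'⟩
  have hint : IsIntegral ℚ_[q] ζ := (hζ.isIntegral hpos).tower_top
  have hfd : FiniteDimensional ℚ_[q] ℚ_[q]⟮ζ⟯ := IntermediateField.adjoin.finiteDimensional hint
  have hcyc : IsCyclotomicExtension {p ^ (m + 1)} ℚ_[q] ℚ_[q]⟮ζ⟯ :=
    isCyclotomicExtension_adjoin hζ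
  have hcop : (p ^ (m + 1)).Coprime q :=
    Nat.Coprime.pow_left _ ((Nat.coprime_primes hp.out hq.out).mpr (Ne.symm hqp))
  exact (Unram.cyclotomic_unram q ℚ_[q] ℚ_[q]⟮ζ⟯ (p ^ (m + 1)) hcop).1

/-- **The `p`-cyclotomic tower of `ℚ_q` has unbounded degrees** (`q = p` allowed). -/
theorem padic_cyclotomic_unbounded (B : ℕ) :
    ∃ m : ℕ, ∀ ζ : Ω, IsPrimitiveRoot ζ (p ^ (m + 1)) → B ≤ Module.finrank ℚ_[q] ℚ_[q]⟮ζ⟯ := by
  by_cases hqp : q = p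
  · subst hqp
    refine ⟨B, fun ζ hζ => ?_⟩
    rw [finrank_adjoin_padic_self q B hζ, Nat.totient_prime_pow_succ hq.out]
    have h1 : B < 2 ^ B := Nat.lt_two_pow_self
    have h2 : 2 ^ B ≤ q ^ B := Nat.pow_le_pow_left hq.out.two_le B
    have h3 : 0 < q - 1 := Nat.sub_pos_of_lt hq.out.one_lt
    calc B ≤ q ^ B := (h1.trans_le h2).le
      _ ≤ q ^ B * (q - 1) := Nat.le_mul_of_pos_right _ h3
  · have ha2 : 2 ≤ Unram.resCard q ℚ_[q] := Unram.two_le_resCard q ℚ_[q]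
    -- level `m + 1 = a * (B + 1)`
    have hpos : 0 < Unram.resCard q ℚ_[q] * (B + 1) :=
      Nat.mul_pos (by omega) (Nat.succ_pos B)
    obtain ⟨m, hm⟩ : ∃ m, m + 1 = Unram.resCard q ℚ_[q] * (B + 1) :=
      ⟨Unram.resCard q ℚ_[q] * (B + 1) - 1, by omega⟩
    refine ⟨m, fun ζ hζ => ?_⟩
    have hfin := finrank_adjoin_padic_of_ne q p Ω hqp m hζ
    have hint : IsIntegral ℚ_[q] ζ :=
      (hζ.isIntegral (pow_pos hp.out.pos _)).tower_top
    have hfd : FiniteDimensional ℚ_[q] ℚ_[q]⟮ζ⟯ := IntermediateField.adjoin.finiteDimensional hint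
    have hpos' : 0 < Module.finrank ℚ_[q] ℚ_[q]⟮ζ⟯ := Module.finrank_pos
    rw [hfin] at hpos' ⊢
    rw [hm] at hpos' ⊢
    exact (Nat.le_succ B).trans (lt_orderOf_of_pos p ha2 (B + 1) hpos').le

end Unbounded

section Main

variable (q p : ℕ) [hq : Fact q.Prime] [hp : Fact p.Prime]

/-- **(N4)-DEG.** `E/ℚ_q` finite (`q = p` allowed), `Ω ⊇ E` any field.  For every `k` there is `m₀`
such that `p^k ∣ [E(ζ) : E]` for every primitive `p^(m+1)`-th root of unity `ζ ∈ Ω`, `m ≥ m₀`. -/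
theorem padic_exists_forall_pow_dvd_finrank (E Ω : Type*) [Field E] [Field Ω] [Algebra ℚ_[q] E]
    [Algebra E Ω] [Algebra ℚ_[q] Ω] [IsScalarTower ℚ_[q] E Ω] [FiniteDimensional ℚ_[q] E] (k : ℕ) :
    ∃ m₀ : ℕ, ∀ m : ℕ, m₀ ≤ m → ∀ ζ : Ω, IsPrimitiveRoot ζ (p ^ (m + 1)) →
      p ^ k ∣ Module.finrank E E⟮ζ⟯ :=
  exists_forall_pow_dvd_finrank (F₀ := ℚ_[q]) (E := E) (Ω := Ω) p
    (padic_cyclotomic_unbounded q p Ω) k

/-- the same for an intermediate field `E` of `PadicAlgCl q / ℚ_q` -/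
theorem padicAlgCl_exists_forall_pow_dvd_finrank (E : IntermediateField ℚ_[q] (PadicAlgCl q))
    [FiniteDimensional ℚ_[q] E] (k : ℕ) :
    ∃ m₀ : ℕ, ∀ m : ℕ, m₀ ≤ m → ∀ ζ : PadicAlgCl q, IsPrimitiveRoot ζ (p ^ (m + 1)) →
      p ^ k ∣ Module.finrank E (IntermediateField.adjoin E {ζ}) :=
  padic_exists_forall_pow_dvd_finrank q p E (PadicAlgCl q) k

end Main

end Fermat.Agent.GC.Local.CycloDegGrowth
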