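/-
GATE-C / C3 (LOCAL) — the LOCAL half of (NC) [no global class is supported at one place], helper3.

`L/K` finite CYCLIC Galois with generator `σ` of order `n`, `f` a 2-cocycle with values in `Lˣ`,
`gam σ n f = ∏_{i<n} f(σ^i, σ) ∈ Kˣ` its periodicity invariant (`CycH2.lean`).

* `exists_baseElt_eq_gam`          : the invariant is (the image of) an element `b ∈ Kˣ`;
* `H2π_eq_zero_iff_norm`           : `[f] = 0 ↔ b ∈ N_{L/K}(Lˣ)`;
* `pow_mem_norm_of_nsmul_eq_zero`  : `j • [f] = 0 → b ^ j ∈ N_{L/K}(Lˣ)`;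
* **`psi_sq_ne_one`** : if `ψ : Kˣ → U` is a homomorphism whose kernel is EXACTLY the norm group
  (an "explicit local symbol", e.g. helper55's `psiP`, `psiQ` for the cyclotomic levels) and `[f]`
  is a NONZERO class killed by an odd prime `p`, then `ψ(b)² ≠ 1`.
Mathlib + CycH2 + InvLowerField (generic part) only.
-/
import Mathlib
import Fermat.Agent.GC.Local.InvLowerField

set_option autoImplicit false
set_option linter.unusedSectionVars false

open CategoryTheory groupCohomology Rep IntermediateField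
open Fermat.Agent.GC.Local.CycH2 Fermat.Agent.GC.Local.InvLowerField

noncomputable section

namespace Fermat.Agent.GC.Local.NCLocal

variable (K L : Type) [Field K] [Field L] [Algebra K L] [FiniteDimensional K L] [IsGalois K L]

/-- a Galois-invariant element of `Additive Lˣ` comes from `Kˣ`. -/
lemma exists_baseElt_eq (x : (Rep.ofAlgebraAutOnUnits K L).V)
    (hx : ∀ g : L ≃ₐ[K] L, (Rep.ofAlgebraAutOnUnits K L).ρ g x = x) :
    ∃ b : Kˣ, baseElt K L b = x := by
  have hfix : ∀ g : L ≃ₐ[K] L, g ((Additive.toMul x : Lˣ) : L) = ((Additive.toMul x : Lˣ) : L) := by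
    intro g
    have := congrArg (fun z : Additive Lˣ => ((Additive.toMul z : Lˣ) : L)) (hx g)
    exact this
  have hmem : ((Additive.toMul x : Lˣ) : L) ∈ (⊥ : IntermediateField K L) := by
    rw [← IsGalois.fixedField_top (F := K) (E := L), IntermediateField.mem_fixedField_iff]
    intro g _
    exact hfix g
  obtain ⟨c, hc⟩ := IntermediateField.mem_bot.1 hmem
  have hc0 : c ≠ 0 := by
    rintro rfl
    rw [map_zero] at hc
    exact (Additive.toMul x : Lˣ).ne_zero hc.symm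
  refine ⟨Units.mk0 c hc0, ?_⟩
  apply Additive.toMul.injective
  apply Units.ext
  exact hc

variable {K L}
variable {σ : L ≃ₐ[K] L} {n : ℕ}

/-- the periodicity invariant of a cocycle is an element of `Kˣ`. -/
theorem exists_baseElt_eq_gam (hσ : IsGen σ n) (f : cocycles₂ (Rep.ofAlgebraAutOnUnits K L)) :
    ∃ b : Kˣ, baseElt K L b = gam σ n (f : (L ≃ₐ[K] L) × (L ≃ₐ[K] L) → _) :=
  exists_baseElt_eq K L _ fun g => smul_gam_cocycles₂ hσ f g

/-- `nrmLin` in `Additive Lˣ` is the field norm. -/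
lemma coe_toMul_nrmLin (hσ : IsGen σ n) (y : (Rep.ofAlgebraAutOnUnits K L).V) :
    ((Additive.toMul (nrmLin (Rep.ofAlgebraAutOnUnits K L) σ n y) : Lˣ) : L) =
      algebraMap K L (Algebra.norm K ((Additive.toMul y : Lˣ) : L)) := by
  rw [nrmLin_eq_sum hσ y]
  exact coe_toMul_sum_rho K L y

/-- **norm criterion**: the class of `f` vanishes iff its invariant `b` is a norm. -/
theorem H2π_eq_zero_iff_norm (hσ : IsGen σ n) (f : cocycles₂ (Rep.ofAlgebraAutOnUnits K L))
    (b : Kˣ) (hb : baseElt K L b = gam σ n (f : (L ≃ₐ[K] L) × (L ≃ₐ[K] L) → _)) :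
    H2π (Rep.ofAlgebraAutOnUnits K L) f = 0 ↔ ∃ y : Lˣ, (b : K) = Algebra.norm K (y : L) := by
  rw [H2π_eq_zero_iff_gam' hσ f, ← hb]
  constructor
  · rintro ⟨y, hy⟩
    refine ⟨Additive.toMul y, ?_⟩
    apply (algebraMap K L).injective
    rw [← coe_toMul_nrmLin hσ y, ← hy]
    rfl
  · rintro ⟨y, hy⟩
    refine ⟨Additive.ofMul y, ?_⟩
    have h1 := coe_toMul_nrmLin hσ (Additive.ofMul y : (Rep.ofAlgebraAutOnUnits K L).V)
    have key : ∀ z w : Additive Lˣ,
        ((Additive.toMul z : Lˣ) : L) = ((Additive.toMul w : Lˣ) : L) → z = w := fun z w h => by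
      apply Additive.toMul.injective
      exact Units.ext h
    refine key _ _ ?_
    rw [h1]
    show algebraMap K L (b : K) = _
    rw [hy]
    rfl

/-- if `j • [f] = 0` then `b ^ j` is a norm. -/
theorem pow_mem_norm_of_nsmul_eq_zero (hσ : IsGen σ n)
    (f : cocycles₂ (Rep.ofAlgebraAutOnUnits K L)) (b : Kˣ)
    (hb : baseElt K L b = gam σ n (f : (L ≃ₐ[K] L) × (L ≃ₐ[K] L) → _)) (j : ℕ)
    (hj : j • H2π (Rep.ofAlgebraAutOnUnits K L) f = 0) :
    ∃ y : Lˣ, ((b ^ j : Kˣ) : K) = Algebra.norm K (y : L) := by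
  have h1 : H2π (Rep.ofAlgebraAutOnUnits K L) (j • f) = 0 := by rw [map_nsmul]; exact hj
  refine (H2π_eq_zero_iff_norm hσ (j • f) (b ^ j) ?_).1 h1
  have h2 : ((j • f : cocycles₂ (Rep.ofAlgebraAutOnUnits K L)) :
      (L ≃ₐ[K] L) × (L ≃ₐ[K] L) → _) = j • (f : (L ≃ₐ[K] L) × (L ≃ₐ[K] L) → _) := rfl
  rw [h2]
  have h3 : gam σ n (j • (f : (L ≃ₐ[K] L) × (L ≃ₐ[K] L) → (Rep.ofAlgebraAutOnUnits K L).V)) =
      j • gam σ n (f : (L ≃ₐ[K] L) × (L ≃ₐ[K] L) → _) := by
    simp only [gam, CycH2.tsum, Pi.smul_apply, Finset.smul_sum]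
  rw [h3, ← hb]
  show Additive.ofMul (Units.map (algebraMap K L).toMonoidHom (b ^ j)) =
    j • Additive.ofMul (Units.map (algebraMap K L).toMonoidHom b)
  rw [map_pow]
  rfl

/-- **LOCAL (NC)**: `ψ : Kˣ → U` with kernel exactly the norm group of the cyclic extension `L/K`;
`[f]` a nonzero class killed by an odd prime `p`; then `ψ(b)² ≠ 1` for the invariant `b` of `f`. -/
theorem psi_sq_ne_one {U : Type*} [Group U] (ψ : Kˣ →* U)
    (hnorm : ∀ (b : Kˣ) (y : Lˣ), (b : K) = Algebra.norm K (y : L) → ψ b = 1)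
    (hker : ∀ b : Kˣ, ψ b = 1 → ∃ y : Lˣ, (b : K) = Algebra.norm K (y : L))
    (hσ : IsGen σ n) (f : cocycles₂ (Rep.ofAlgebraAutOnUnits K L)) {p : ℕ} (hp : p.Prime)
    (hp2 : p ≠ 2) (hne : H2π (Rep.ofAlgebraAutOnUnits K L) f ≠ 0)
    (htors : p • H2π (Rep.ofAlgebraAutOnUnits K L) f = 0) (b : Kˣ)
    (hb : baseElt K L b = gam σ n (f : (L ≃ₐ[K] L) × (L ≃ₐ[K] L) → _)) :
    ψ b ^ 2 ≠ 1 := by
  intro h2
  obtain ⟨y, hy⟩ := pow_mem_norm_of_nsmul_eq_zero hσ f b hb p htors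
  have hpp : ψ b ^ p = 1 := by
    rw [← map_pow]
    exact hnorm _ y hy
  have hcop : Nat.Coprime 2 p := by
    rw [Nat.coprime_primes Nat.prime_two hp]
    exact fun h => hp2 h.symm
  have h1 : ψ b = 1 := by
    have hd2 := orderOf_dvd_of_pow_eq_one h2
    have hdp := orderOf_dvd_of_pow_eq_one hpp
    have := Nat.dvd_gcd hd2 hdp
    rw [hcop.gcd_eq_one, Nat.dvd_one] at this
    exact orderOf_eq_one_iff.1 this
  exact hne ((H2π_eq_zero_iff_norm hσ f b hb).2 (hker b h1))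

end Fermat.Agent.GC.Local.NCLocal
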