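/-
GATE-C / C3 (helper26): (COR-INJ), assembly.  For a `q`-adic field `K`, `Ω/K` Galois (an algebraic
closure), `E₀/K` a finite subextension (NOT necessarily Galois), `S = E₀.fixingSubgroup`:
  **`HlcCor (unitsRep K Ω) hS 2 : Hlc²(S, Ωˣ) → Hlc²(G_K, Ωˣ)` is INJECTIVE.**
Route (no finite-level corestriction, no (N2)/(N4)): `cor ∘ res = [G:S]` (helper20),
`res` ↔ `inflBr` compatibility (helper81 `Abs/Restrict.lean`), `Br(F/E) = Br(E)[[F:E]]`
(helper3 `BrauerCycFinal`), cards of `H²` (helper26 `Unram/LowerData.lean`), counting.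
-/
import Mathlib
import Fermat.Agent.GC.Local.CorInj
import Fermat.Agent.GC.Local.Abs.Restrict
import Fermat.Agent.GC.Local.BrauerCycFinal
import Fermat.Agent.GC.Prof.GroupIso

set_option autoImplicit false

open CategoryTheory groupCohomology IntermediateField
open scoped Padic

noncomputable section

namespace Fermat.Agent.GC.Local.CorInj

open Fermat.Agent.GC.Prof Fermat.Agent.GC.Tate Fermat.Agent.GC.Local.Abs

universe u v

/-! ### Counting in a finite cyclic group -/

/-- `A` finite cyclic, `|A| = n · |B|`, `r : A → B` with `ker r ⊆ A[n]`: then `r` is surjective and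
`ker r = A[n]`. -/
theorem surjective_and_ker_of_card {A B : Type*} [AddCommGroup A] [AddCommGroup B] [Finite A]
    [Finite B] [IsAddCyclic A] (r : A →+ B) (n : ℕ) (hn : Nat.card A = n * Nat.card B)
    (hker : ∀ z, r z = 0 → n • z = 0) :
    Function.Surjective r ∧ ∀ z, n • z = 0 → r z = 0 := by
  have hApos : 0 < Nat.card A := Nat.card_pos
  have hBpos : 0 < Nat.card B := Nat.card_pos
  have hnpos : 0 < n := by
    rcases Nat.eq_zero_or_pos n with rfl | h
    · rw [zero_mul] at hn; omega
    · exact h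
  -- the `n`-torsion has `n` elements
  let T : AddSubgroup A := (nsmulAddMonoidHom n : A →+ A).ker
  have hT : Nat.card T = n := by
    have h1 := BrauerCyc.card_torsion_of_dvd (A := A) (n := n) ⟨Nat.card B, hn⟩
    rw [← h1]
    exact Nat.card_congr (Equiv.subtypeEquiv (Equiv.refl A) fun y => by simp [T])
  have hle : r.ker ≤ T := fun z hz => hker z hz
  have hkerle : Nat.card r.ker ≤ n := by
    rw [← hT]
    exact Nat.card_le_card_of_injective (AddSubgroup.inclusion hle)
      (AddSubgroup.inclusion_injective hle)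
  have hrangele : Nat.card r.range ≤ Nat.card B :=
    Nat.card_le_card_of_injective (fun x => (x : B)) Subtype.val_injective
  have hprod : Nat.card A = Nat.card r.range * Nat.card r.ker := by
    rw [AddSubgroup.card_eq_card_quotient_mul_card_addSubgroup r.ker,
      Nat.card_congr (QuotientAddGroup.quotientKerEquivRange r).toEquiv]
  have hkpos : 0 < Nat.card r.ker := Nat.card_pos
  have hrpos : 0 < Nat.card r.range := Nat.card_pos
  have hrange : Nat.card r.range = Nat.card B := by
    refine le_antisymm hrangele ?_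
    by_contra hlt
    rw [not_le] at hlt
    have : Nat.card r.range * Nat.card r.ker < n * Nat.card B := by
      calc Nat.card r.range * Nat.card r.ker ≤ Nat.card r.range * n :=
            Nat.mul_le_mul_left _ hkerle
        _ < Nat.card B * n := Nat.mul_lt_mul_of_pos_right hlt hnpos
        _ = n * Nat.card B := mul_comm _ _
    omega
  have hkercard : Nat.card r.ker = n := by
    rw [hrange, hn, mul_comm] at hprod
    exact (Nat.eq_of_mul_eq_mul_left hBpos hprod).symm
  constructor
  · have htop : r.range = ⊤ := AddSubgroup.eq_top_of_card_eq _ hrange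
    intro y
    have : y ∈ r.range := by rw [htop]; trivial
    exact this
  · have heq : r.ker = T := AddSubgroup.eq_of_le_of_card_ge hle (by rw [hT, hkercard])
    intro z hz
    have : z ∈ T := hz
    rw [← heq] at this
    exact this

/-! ### The abstract criterion, counting form -/

section Abstract

variable {k G : Type u} [CommRing k] [Group G] {𝒰 : LevelSystem G} {S : Subgroup G}
  (A : Rep.{u} k G) [IsDiscrete 𝒰 A]
  [IsDiscrete (𝒰.comap S.subtype) (Rep.res S.subtype A)]
  [IsDiscrete 𝒰 (Rep.coind S.subtype (Rep.res S.subtype A))]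
  (hS : IsOpenSub 𝒰 S) [S.FiniteIndex]

/-- **(COR-INJ), abstract counting form.**  If every class of `Hlcⁿ(S, Res A)` comes from a layer
`iS : HS → Hlcⁿ(S, Res A)` in a square `res ∘ iG = iS ∘ r` with `iG : HG → Hlcⁿ(G, A)` injective,
`HG` finite cyclic and `|HG| = [G:S] · |HS|`, then the corestriction is injective. -/
theorem HlcCor_injective_of_layers_card (n : ℕ)
    (h : ∀ x : Hlc (𝒰.comap S.subtype) (Rep.res S.subtype A) n,
      ∃ (HG HS : Type v) (_ : AddCommGroup HG) (_ : AddCommGroup HS) (_ : Finite HG)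
        (_ : Finite HS) (_ : IsAddCyclic HG)
        (iG : HG →+ Hlc 𝒰 A n)
        (iS : HS →+ Hlc (𝒰.comap S.subtype) (Rep.res S.subtype A) n) (r : HG →+ HS),
        Function.Injective iG ∧ (∀ z, HlcResS (S := S) A n (iG z) = iS (r z)) ∧
        (∃ y, iS y = x) ∧ Nat.card HG = S.index * Nat.card HS) :
    Function.Injective (HlcCor A hS n) := by
  apply HlcCor_injective_of_layers A hS n
  intro x
  obtain ⟨HG, HS, i1, i2, i3, i4, i5, iG, iS, r, hinj, hcomm, hy, hcard⟩ := h x
  have hker : ∀ z, r z = 0 → S.index • z = 0 := by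
    intro z hz
    have h1 : HlcResS (S := S) A n (iG z) = 0 := by rw [hcomm, hz, map_zero]
    have h2 := index_nsmul_eq_zero_of_HlcResS_eq_zero A hS n (iG z) h1
    rw [← map_nsmul] at h2
    exact hinj (h2.trans (map_zero iG).symm)
  obtain ⟨hsurj, htors⟩ := surjective_and_ker_of_card r S.index hcard hker
  exact ⟨HG, HS, i1, i2, iG, iS, r, hinj, hcomm, hy, hsurj, htors⟩

end Abstract

/-! ### `fixingSubgroup` versus `AlgEquiv` form of an open subgroup
(same statements as helper69's `GC/Places/Levels.lean`, `General` section; repeated here to keep the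
import closure small) -/

section Bridge

variable {F Ω : Type} [Field F] [Field Ω] [Algebra F Ω] [IsGalois F Ω]
  (E : IntermediateField F Ω)

/-- `E.fixingSubgroup ≃* Gal(Ω/E)` is continuous. -/
theorem isContHom_fixingSubgroupEquiv' [FiniteDimensional F E] :
    IsContHom ((galLevels F Ω).comap E.fixingSubgroup.subtype) (galLevels E Ω)
      (IntermediateField.fixingSubgroupEquiv E).toMonoidHom := by
  rintro _ ⟨E', hE', rfl⟩
  have hfd : FiniteDimensional F (E'.restrictScalars F) := by
    have : Module.Finite F E' := Module.Finite.trans E E'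
    exact this
  refine ⟨((E'.restrictScalars F).fixingSubgroup).comap E.fixingSubgroup.subtype,
    ⟨_, fixingSubgroup_mem_galLevels _, rfl⟩, fun τ hτ => ?_⟩
  rw [Subgroup.mem_comap, Subgroup.coe_subtype, IntermediateField.mem_fixingSubgroup_iff] at hτ
  rw [Subgroup.mem_comap, IntermediateField.mem_fixingSubgroup_iff]
  intro x hx
  exact hτ x hx

/-- The inverse `Gal(Ω/E) ≃* E.fixingSubgroup` is continuous. -/
theorem isContHom_fixingSubgroupEquiv_symm' [FiniteDimensional F E] :
    IsContHom (galLevels E Ω) ((galLevels F Ω).comap E.fixingSubgroup.subtype)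
      (IntermediateField.fixingSubgroupEquiv E).symm.toMonoidHom := by
  rintro _ ⟨_, ⟨E'', hE'', rfl⟩, rfl⟩
  let E' : IntermediateField E Ω := IntermediateField.extendScalars (le_sup_left : E ≤ E ⊔ E'')
  have hfd1 : FiniteDimensional F (E ⊔ E'' : IntermediateField F Ω) :=
    IntermediateField.finiteDimensional_sup E E''
  have hfd : FiniteDimensional E E' := by
    have h1 : Module.Finite F E' := hfd1
    exact Module.Finite.of_restrictScalars_finite F E E'
  refine ⟨E'.fixingSubgroup, ⟨E', hfd, rfl⟩, fun σ hσ => ?_⟩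
  rw [IntermediateField.mem_fixingSubgroup_iff] at hσ
  rw [Subgroup.mem_comap, Subgroup.mem_comap, Subgroup.coe_subtype,
    IntermediateField.mem_fixingSubgroup_iff]
  intro x hx
  exact hσ x ((le_sup_right : E'' ≤ E ⊔ E'') hx)

variable [FiniteDimensional F E]

instance isDiscrete_res_fixingSubgroupEquiv :
    IsDiscrete ((galLevels F Ω).comap E.fixingSubgroup.subtype)
      (Rep.res (IntermediateField.fixingSubgroupEquiv E).toMonoidHom (unitsRep E Ω)) :=
  IsDiscrete.res (isContHom_fixingSubgroupEquiv' E) _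

omit [FiniteDimensional F E] in
instance isDiscrete_res_fixingSubgroup :
    IsDiscrete ((galLevels F Ω).comap E.fixingSubgroup.subtype)
      (Rep.res E.fixingSubgroup.subtype (unitsRep F Ω)) :=
  IsDiscrete.res (isContHom_comap _ _) _

/-- restriction to the open subgroup `E.fixingSubgroup` factors through `Gal(Ω/E)` -/
theorem HlcResE_comp_HlcRes (n : ℕ) :
    HlcResE F E Ω n ≫ (HlcRes (isContHom_fixingSubgroupEquiv' E) (unitsRep E Ω) n :
        Hlc (galLevels E Ω) (unitsRep E Ω) n ⟶
          Hlc ((galLevels F Ω).comap E.fixingSubgroup.subtype)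
            (Rep.res E.fixingSubgroup.subtype (unitsRep F Ω)) n) =
      HlcResS (S := E.fixingSubgroup) (unitsRep F Ω) n := by
  have h1 := HlcPull_comp (isContHom_resScal F E Ω) (isContHom_fixingSubgroupEquiv' E)
    (A := unitsRep F Ω) (B := unitsRep E Ω)
    (C := Rep.res E.fixingSubgroup.subtype (unitsRep F Ω))
    (𝟙 (unitsRep E Ω)) (𝟙 _) n
  have h2 : HlcPull ((isContHom_resScal F E Ω).comp (isContHom_fixingSubgroupEquiv' E))
      (A := unitsRep F Ω) (B := Rep.res E.fixingSubgroup.subtype (unitsRep F Ω))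
      ((Rep.resFunctor (IntermediateField.fixingSubgroupEquiv E).toMonoidHom).map
        (𝟙 (unitsRep E Ω)) ≫ 𝟙 _) n =
      HlcResS (S := E.fixingSubgroup) (unitsRep F Ω) n := by
    unfold HlcResS HlcRes
    refine HlcPull_congr _ _ ?_ ?_ n
    · ext s x
      rfl
    · rfl
  exact h1.symm.trans h2

theorem HlcRes_HlcResE_apply (n : ℕ) (w : Hlc (galLevels F Ω) (unitsRep F Ω) n) :
    (HlcRes (isContHom_fixingSubgroupEquiv' E) (unitsRep E Ω) n :
        Hlc (galLevels E Ω) (unitsRep E Ω) n ⟶
          Hlc ((galLevels F Ω).comap E.fixingSubgroup.subtype)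
            (Rep.res E.fixingSubgroup.subtype (unitsRep F Ω)) n) (HlcResE F E Ω n w) =
      HlcResS (S := E.fixingSubgroup) (unitsRep F Ω) n w :=
  congr($(HlcResE_comp_HlcRes E n) w)

end Bridge

/-! ### The main theorem -/

section Units

variable (q : ℕ) [Fact q.Prime] (K Ω : Type) [Field K] [Field Ω] [Algebra ℚ_[q] K]
  [Algebra ℚ_[q] Ω] [Algebra K Ω] [IsScalarTower ℚ_[q] K Ω] [FiniteDimensional ℚ_[q] K]
  [IsGalois K Ω] (E₀ : IntermediateField K Ω) [FiniteDimensional K E₀]

include q in
/-- **(COR-INJ)**: for a `q`-adic field `K`, a Galois extension `Ω/K` and a finite subextension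
`E₀/K` (not necessarily Galois), the corestriction
`Hlc²(E₀.fixingSubgroup, Ωˣ) → Hlc²(Gal(Ω/K), Ωˣ)` is injective. -/
theorem HlcCor_unitsRep_injective
    [IsDiscrete (galLevels K Ω) (Rep.coind E₀.fixingSubgroup.subtype
      (Rep.res E₀.fixingSubgroup.subtype (unitsRep K Ω)))]
    [E₀.fixingSubgroup.FiniteIndex] (hS : IsOpenSub (galLevels K Ω) E₀.fixingSubgroup) :
    Function.Injective (HlcCor (unitsRep K Ω) hS 2) := by
  have t0 : IsScalarTower ℚ_[q] E₀ Ω := IsScalarTower.of_algebraMap_eq fun _ => rfl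
  have fdE : FiniteDimensional ℚ_[q] E₀ := FiniteDimensional.trans ℚ_[q] K E₀
  have he := isContHom_fixingSubgroupEquiv' E₀
  have he' := isContHom_fixingSubgroupEquiv_symm' E₀
  apply HlcCor_injective_of_layers_card.{0, 0} (unitsRep K Ω) hS 2
  intro x
  -- transport to `Gal(Ω/E₀)`
  obtain ⟨x', hx'⟩ := (HlcRes_bijective_of_mulEquiv (IntermediateField.fixingSubgroupEquiv E₀)
    (unitsRep E₀ Ω) he he' 2).2 x
  -- a first level `N`
  obtain ⟨N, hNfd, hNgal, -, y, hy⟩ := exists_inflBr_eq x' (⊥ : IntermediateField E₀ Ω)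
  have hNfdq : FiniteDimensional ℚ_[q] N := FiniteDimensional.trans ℚ_[q] E₀ N
  have hcardN := Unram.local_card_H2_eq_finrank q E₀ N
  have hx'tors : Module.finrank E₀ N • x' = 0 := by
    rw [← hy, ← map_nsmul, ← hcardN]
    have : Nat.card (H2 (Rep.ofAlgebraAutOnUnits E₀ N)) • y = 0 := card_nsmul_eq_zero'
    rw [this, map_zero]
  -- the level `F`: the normal closure of `N` over `K`, viewed over `E₀`
  have hfdNK : FiniteDimensional K (N.restrictScalars K) := by
    have : Module.Finite K N := Module.Finite.trans E₀ N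
    exact this
  have hFKfd : FiniteDimensional K (IntermediateField.normalClosure K (N.restrictScalars K) Ω) :=
    normalClosure.is_finiteDimensional K _ Ω
  have hFKn : Normal K (IntermediateField.normalClosure K (N.restrictScalars K) Ω) :=
    normalClosure.normal K _ Ω
  have hNFK : N.restrictScalars K ≤ IntermediateField.normalClosure K (N.restrictScalars K) Ω :=
    IntermediateField.le_normalClosure _
  have hE₀FK : E₀ ≤ IntermediateField.normalClosure K (N.restrictScalars K) Ω := fun x hx =>
    hNFK (N.algebraMap_mem ⟨x, hx⟩)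
  let F : IntermediateField E₀ Ω := IntermediateField.extendScalars hE₀FK
  have hNF : N ≤ F := fun x hx => hNFK hx
  have hFfdK : FiniteDimensional K F := hFKfd
  have hFfd : FiniteDimensional E₀ F := Module.Finite.of_restrictScalars_finite K E₀ F
  have tKFΩ : IsScalarTower K F Ω := IsScalarTower.of_algebraMap_eq fun _ => rfl
  have hFnK : Normal K F := hFKn
  have hFnE : Normal E₀ F := Normal.tower_top_of_normal K E₀ F
  have hsepK : Algebra.IsSeparable K F := Algebra.isSeparable_tower_bot_of_isSeparable K F Ω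
  have hFgalK : IsGalois K F := ⟨⟩
  have hFgalE : IsGalois E₀ F := ⟨⟩
  have tqKF : IsScalarTower ℚ_[q] K F := IsScalarTower.of_algebraMap_eq fun x =>
    Subtype.ext (IsScalarTower.algebraMap_apply ℚ_[q] K Ω x)
  have hFfdq : FiniteDimensional ℚ_[q] F := FiniteDimensional.trans ℚ_[q] E₀ F
  obtain ⟨y₀, hy₀⟩ := BrauerCycFinal.exists_inflBr_eq_of_dvd_finrank q E₀ Ω F
    (Module.finrank E₀ N) (IntermediateField.finrank_dvd_of_le_right hNF) x' hx'tors
  -- cards
  have hcardG := Unram.local_card_H2_eq_finrank q K F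
  have hcycG := Unram.local_isAddCyclic_H2 q K F
  have hcardS := Unram.local_card_H2_eq_finrank q E₀ F
  have hfinG : Finite (H2 (Rep.ofAlgebraAutOnUnits K F)) :=
    Nat.finite_of_card_ne_zero (by rw [hcardG]; exact Module.finrank_pos.ne')
  have hfinS : Finite (H2 (Rep.ofAlgebraAutOnUnits E₀ F)) :=
    Nat.finite_of_card_ne_zero (by rw [hcardS]; exact Module.finrank_pos.ne')
  refine ⟨H2 (Rep.ofAlgebraAutOnUnits K F), H2 (Rep.ofAlgebraAutOnUnits E₀ F), inferInstance,
    inferInstance, hfinG, hfinS, hcycG,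
    (inflBr K F Ω 2).hom.toAddMonoidHom,
    ((HlcRes he (unitsRep E₀ Ω) 2).hom.toAddMonoidHom).comp (inflBr E₀ F Ω 2).hom.toAddMonoidHom,
    (resFin K E₀ F 2).hom.toAddMonoidHom, ?_, ?_, ?_, ?_⟩
  · exact inflBr_two_injective K F Ω
  · intro z
    show HlcResS (S := E₀.fixingSubgroup) (unitsRep K Ω) 2 (inflBr K F Ω 2 z) =
      HlcRes he (unitsRep E₀ Ω) 2 (inflBr E₀ F Ω 2 (resFin K E₀ F 2 z))
    rw [← HlcResE_inflBr_apply K E₀ F Ω 2 z]
    exact (HlcRes_HlcResE_apply E₀ 2 _).symm
  · refine ⟨y₀, ?_⟩
    show HlcRes he (unitsRep E₀ Ω) 2 (inflBr E₀ F Ω 2 y₀) = x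
    rw [hy₀]
    exact hx'
  · rw [hcardG, hcardS, ← IntermediateField.finrank_eq_fixingSubgroup_index,
      Module.finrank_mul_finrank]

end Units

end Fermat.Agent.GC.Local.CorInj
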