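import Mathlib

/-!
# GATE-C / C3-STRUCT-A : finite extensions of `ℚ_[q]` inside `PadicAlgCl q`

For a finite-dimensional `E : IntermediateField ℚ_[q] (PadicAlgCl q)` we provide completeness,
properness, a `ValuativeRel` coming from the norm, and the Mathlib class
`IsNonarchimedeanLocalField E` (so that `𝒪[E]` is a DVR with finite residue field).
-/

open scoped Padic NNReal Topology
open ValuativeRel Polynomial IntermediateField

namespace Fermat.Agent.GC.Local

section Base

variable (q : ℕ) [Fact q.Prime] (E : IntermediateField ℚ_[q] (PadicAlgCl q))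
  [FiniteDimensional ℚ_[q] E]

instance finiteExt_completeSpace : CompleteSpace E := FiniteDimensional.complete ℚ_[q] E

instance finiteExt_properSpace : ProperSpace E := FiniteDimensional.proper ℚ_[q] E

/-- The norm valuation on a finite extension of `ℚ_[q]`. -/
noncomputable def normVal : Valuation E ℝ≥0 := NormedField.valuation

omit [FiniteDimensional ℚ_[q] E] in
@[simp] lemma normVal_apply (x : E) : normVal q E x = ‖x‖₊ := rfl

noncomputable instance finiteExt_valuativeRel : ValuativeRel E := .ofValuation (normVal q E)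

instance finiteExt_compatible : (normVal q E).Compatible := .ofValuation _

instance finiteExt_isValuativeTopology : IsValuativeTopology E :=
  IsValuativeTopology.of_mem_nhds_zero_iff_vle (normVal q E)
    (fun {s} => (NormedField.toValued (K := E)).is_topological_valuation s)

omit [FiniteDimensional ℚ_[q] E] in
lemma norm_algebraMap_finiteExt (x : ℚ_[q]) : ‖algebraMap ℚ_[q] E x‖ = ‖x‖ :=
  norm_algebraMap' E x

omit [FiniteDimensional ℚ_[q] E] in
lemma norm_prime_finiteExt : ‖algebraMap ℚ_[q] E (q : ℚ_[q])‖ = (q : ℝ)⁻¹ := by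
  rw [norm_algebraMap_finiteExt]; exact Padic.norm_p

omit [FiniteDimensional ℚ_[q] E] in
lemma algebraMap_prime_ne_zero : algebraMap ℚ_[q] E (q : ℚ_[q]) ≠ 0 := by
  intro h
  have h1 := norm_prime_finiteExt q E
  rw [h, norm_zero] at h1
  have : (q : ℝ)⁻¹ ≠ 0 := by
    have : (0 : ℝ) < q := by exact_mod_cast (Fact.out : q.Prime).pos
    positivity
  exact this h1.symm

omit [FiniteDimensional ℚ_[q] E] in
/-- Dictionary between the canonical valuation of the `ValuativeRel` and the norm. -/
lemma valuation_le_iff_norm_le (x y : E) :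
    ValuativeRel.valuation E x ≤ ValuativeRel.valuation E y ↔ ‖x‖ ≤ ‖y‖ := by
  rw [(isEquiv (ValuativeRel.valuation E) (normVal q E)) x y, normVal_apply, normVal_apply,
    ← NNReal.coe_le_coe, coe_nnnorm, coe_nnnorm]

omit [FiniteDimensional ℚ_[q] E] in
lemma valuation_le_one_iff_norm_le_one (x : E) :
    ValuativeRel.valuation E x ≤ 1 ↔ ‖x‖ ≤ 1 := by
  have := valuation_le_iff_norm_le q E x 1
  simpa using this

omit [FiniteDimensional ℚ_[q] E] in
lemma valuation_lt_one_iff_norm_lt_one (x : E) :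
    ValuativeRel.valuation E x < 1 ↔ ‖x‖ < 1 := by
  rw [(isEquiv (ValuativeRel.valuation E) (normVal q E)).lt_one_iff_lt_one, normVal_apply,
    ← NNReal.coe_lt_coe, coe_nnnorm, NNReal.coe_one]

omit [FiniteDimensional ℚ_[q] E] in
lemma valuation_eq_one_iff_norm_eq_one (x : E) :
    ValuativeRel.valuation E x = 1 ↔ ‖x‖ = 1 := by
  rw [(isEquiv (ValuativeRel.valuation E) (normVal q E)).eq_one_iff_eq_one, normVal_apply,
    ← NNReal.coe_inj, coe_nnnorm, NNReal.coe_one]

omit [FiniteDimensional ℚ_[q] E] in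
lemma valuation_eq_zero_iff_eq_zero (x : E) :
    ValuativeRel.valuation E x = 0 ↔ x = 0 := by
  rw [(isEquiv (ValuativeRel.valuation E) (normVal q E)).eq_zero]
  simp

instance finiteExt_isNontrivial : IsNontrivial E where
  condition := by
    have hq : (1 : ℝ) < q := by exact_mod_cast (Fact.out : q.Prime).one_lt
    refine ⟨ValuativeRel.valuation E (algebraMap ℚ_[q] E (q : ℚ_[q])), ?_, ?_⟩
    · rw [ne_eq, valuation_eq_zero_iff_eq_zero]
      exact algebraMap_prime_ne_zero q E
    · rw [ne_eq, valuation_eq_one_iff_norm_eq_one, norm_prime_finiteExt]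
      intro h
      rw [inv_eq_one] at h
      linarith

/-- A finite extension of `ℚ_[q]` inside `PadicAlgCl q` is a nonarchimedean local field in the
sense of Mathlib; hence `𝒪[E]` is a complete DVR with finite residue field. -/
instance finiteExt_isNonarchimedeanLocalField : IsNonarchimedeanLocalField E := {}

omit [FiniteDimensional ℚ_[q] E] in
/-- Membership in the ring of integers in terms of the norm. -/
lemma mem_integer_iff_norm_le_one (x : E) : x ∈ 𝒪[E] ↔ ‖x‖ ≤ 1 := by
  rw [Valuation.mem_integer_iff, valuation_le_one_iff_norm_le_one]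

end Base

section NormGroup

variable (q : ℕ) [Fact q.Prime] (E : IntermediateField ℚ_[q] (PadicAlgCl q))

/-- `‖x‖ ^ deg(minpoly x) = ‖a₀‖` for the constant coefficient `a₀` of the minimal polynomial. -/
lemma norm_pow_natDegree_minpoly (x : E) :
    ‖x‖ ^ (minpoly ℚ_[q] x).natDegree = ‖(minpoly ℚ_[q] x).coeff 0‖ := by
  have hx : ‖x‖ = spectralNorm ℚ_[q] (PadicAlgCl q) (x : PadicAlgCl q) := rfl
  have hmin : minpoly ℚ_[q] (x : PadicAlgCl q) = minpoly ℚ_[q] x :=
    (IntermediateField.minpoly_eq x).symm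
  have hint : IsIntegral ℚ_[q] (x : PadicAlgCl q) := Algebra.IsIntegral.isIntegral _
  have hd : 0 < (minpoly ℚ_[q] x).natDegree := by
    rw [← hmin]; exact minpoly.natDegree_pos hint
  rw [hx, spectralNorm.spectralNorm_eq_norm_coeff_zero_rpow, hmin, ← Real.rpow_natCast,
    ← Real.rpow_mul (norm_nonneg _), one_div, inv_mul_cancel₀, Real.rpow_one]
  exact_mod_cast hd.ne'

variable [FiniteDimensional ℚ_[q] E]

/-- The norm of `x` to the power `[E : ℚ_q]` is the `q`-adic norm of its field norm. -/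
theorem norm_pow_finrank_eq (x : E) :
    ‖x‖ ^ Module.finrank ℚ_[q] E = ‖Algebra.norm ℚ_[q] x‖ := by
  have hint : IsIntegral ℚ_[q] x := Algebra.IsIntegral.isIntegral _
  have h1 := Algebra.norm_eq_norm_adjoin ℚ_[q] x
  have h2 := Algebra.PowerBasis.norm_gen_eq_coeff_zero_minpoly
    (IntermediateField.adjoin.powerBasis hint)
  have hgen : (IntermediateField.adjoin.powerBasis hint).gen =
      IntermediateField.AdjoinSimple.gen ℚ_[q] x := rfl
  have hdim : (IntermediateField.adjoin.powerBasis hint).dim = (minpoly ℚ_[q] x).natDegree := rfl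
  have hminp : minpoly ℚ_[q] (IntermediateField.AdjoinSimple.gen ℚ_[q] x) = minpoly ℚ_[q] x :=
    IntermediateField.minpoly_gen ℚ_[q] x
  rw [hgen, hminp, hdim] at h2
  rw [h1, h2, norm_pow, norm_mul, norm_pow, norm_neg, norm_one, one_pow, one_mul,
    ← norm_pow_natDegree_minpoly, ← pow_mul]
  congr 1
  rw [← IntermediateField.adjoin.finrank hint]
  exact (Module.finrank_mul_finrank ℚ_[q] ℚ_[q]⟮x⟯ E).symm

/-- Discreteness of the norm group: `‖x‖ ^ [E : ℚ_q]` is an integral power of `q`. -/
theorem exists_zpow_eq_norm_pow_finrank (x : E) (hx : x ≠ 0) :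
    ∃ k : ℤ, ‖x‖ ^ Module.finrank ℚ_[q] E = (q : ℝ) ^ k := by
  have hN : Algebra.norm ℚ_[q] x ≠ 0 := by
    rw [ne_eq, Algebra.norm_eq_zero_iff]; exact hx
  exact ⟨-(Algebra.norm ℚ_[q] x).valuation, by
    rw [norm_pow_finrank_eq, Padic.norm_eq_zpow_neg_valuation hN]⟩

/-- Elements of norm `< 1` have norm at most `q ^ (-1/n)`: quantitative discreteness. -/
theorem norm_pow_finrank_le_of_norm_lt_one (x : E) (hx : ‖x‖ < 1) :
    ‖x‖ ^ Module.finrank ℚ_[q] E ≤ (q : ℝ)⁻¹ := by
  have hq : (1 : ℝ) < q := by exact_mod_cast (Fact.out : q.Prime).one_lt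
  have hn : 0 < Module.finrank ℚ_[q] E := Module.finrank_pos
  rcases eq_or_ne x 0 with rfl | h0
  · rw [norm_zero, zero_pow hn.ne']; positivity
  obtain ⟨k, hk⟩ := exists_zpow_eq_norm_pow_finrank q E x h0
  have hlt : ‖x‖ ^ Module.finrank ℚ_[q] E < 1 := pow_lt_one₀ (norm_nonneg _) hx hn.ne'
  rw [hk] at hlt ⊢
  have hk0 : k < 0 := by
    by_contra h
    rw [not_lt] at h
    exact absurd hlt (not_lt.mpr (one_le_zpow₀ hq.le h))
  have : k ≤ -1 := by omega
  calc (q : ℝ) ^ k ≤ (q : ℝ) ^ (-1 : ℤ) := zpow_le_zpow_right₀ hq.le this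
    _ = (q : ℝ)⁻¹ := by simp

end NormGroup

end Fermat.Agent.GC.Local
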