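/-
GATE-C / C3-INDEX (helper61), part 2b: the cardinality form of `e · f = n`.

For a finite normed extension `L/ℚ_q` with unit ball `O = unitBallVS L`:
* `O` is a finite `ℤ_q`-module (coordinates w.r.t. a `ℚ_q`-basis are bounded on `O`);
* `Nat.card (O ⧸ q O) = q ^ [L : ℚ_q]`;
* if `q = u ϖ^e` with `ϖ` a uniformiser then `#κ ^ e = q ^ [L : ℚ_q]`.
-/
import Mathlib
import Fermat.Agent.GC.Local.UnitBall

set_option autoImplicit false

open scoped Padic

namespace Fermat.Agent.GC.Local.Index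

open Fermat.Agent.GC.Local

section Structure

variable (q : ℕ) [Fact q.Prime] (L : Type*) [NormedField L] [NormedAlgebra ℚ_[q] L]
  [IsUltrametricDist L]

/-- the structure map `ℤ_q → O_L` -/
noncomputable def intToBall : ℤ_[q] →+* unitBallVS L :=
  ((algebraMap ℚ_[q] L).comp (PadicInt.Coe.ringHom (p := q))).codRestrict (unitBallVS L)
    (fun x => mem_unitBallVS_iff.mpr (by
      rw [RingHom.comp_apply, norm_algebraMap']
      exact x.norm_le_one))

theorem coe_intToBall (x : ℤ_[q]) :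
    ((intToBall q L x : unitBallVS L) : L) = algebraMap ℚ_[q] L (x : ℚ_[q]) := rfl

/-- `O_L` as a `ℤ_q`-algebra (use as a local instance) -/
@[reducible] noncomputable def algebraIntBall : Algebra ℤ_[q] (unitBallVS L) :=
  (intToBall q L).toAlgebra

/-- `L` as a `ℤ_q`-algebra (use as a local instance) -/
@[reducible] noncomputable def algebraIntField : Algebra ℤ_[q] L :=
  ((algebraMap ℚ_[q] L).comp (algebraMap ℤ_[q] ℚ_[q])).toAlgebra

attribute [local instance] algebraIntBall algebraIntField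

omit [IsUltrametricDist L] in
theorem isScalarTower_int_padic : IsScalarTower ℤ_[q] ℚ_[q] L :=
  IsScalarTower.of_algebraMap_eq (fun _ => rfl)

theorem isScalarTower_int_ball : IsScalarTower ℤ_[q] (unitBallVS L) L :=
  IsScalarTower.of_algebraMap_eq (fun _ => rfl)

theorem coe_smul_ball (c : ℤ_[q]) (x : unitBallVS L) :
    ((c • x : unitBallVS L) : L) = (c : ℚ_[q]) • (x : L) := by
  rw [Algebra.smul_def, Algebra.smul_def]
  rfl

theorem map_maximalIdeal_eq_span :
    Ideal.map (algebraMap ℤ_[q] (unitBallVS L)) (IsLocalRing.maximalIdeal ℤ_[q]) =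
      Ideal.span {((q : ℕ) : unitBallVS L)} := by
  rw [PadicInt.maximalIdeal_eq_span_p, Ideal.map_span, Set.image_singleton, map_natCast]

end Structure

section Finite

variable (q : ℕ) [Fact q.Prime] (L : Type*) [NormedField L] [NormedAlgebra ℚ_[q] L]
  [IsUltrametricDist L] [FiniteDimensional ℚ_[q] L]

attribute [local instance] algebraIntBall algebraIntField

omit [IsUltrametricDist L] in
/-- coordinates are bounded on the unit ball -/
theorem exists_pow_bound_coord :
    ∃ k : ℕ, ∀ x : L, ‖x‖ ≤ 1 →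
      ∀ i, ‖(q : ℚ_[q]) ^ k * (Module.finBasis ℚ_[q] L).repr x i‖ ≤ 1 := by
  have hq : q.Prime := Fact.out
  set b := Module.finBasis ℚ_[q] L with hb
  let f : L →L[ℚ_[q]] (Fin (Module.finrank ℚ_[q] L) → ℚ_[q]) :=
    LinearMap.toContinuousLinearMap b.equivFun.toLinearMap
  obtain ⟨C, hC0, hC⟩ := f.bound
  have hq1 : (1 : ℝ) < q := by exact_mod_cast hq.one_lt
  obtain ⟨k, hk⟩ := pow_unbounded_of_one_lt C hq1
  refine ⟨k, fun x hx i => ?_⟩
  have h1 : ‖b.repr x i‖ ≤ C := by
    have h2 : ‖f x i‖ ≤ ‖f x‖ := norm_le_pi_norm (f x) i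
    have h3 : ‖f x‖ ≤ C * 1 := (hC x).trans (mul_le_mul_of_nonneg_left hx hC0.le)
    have h4 : f x i = b.repr x i := rfl
    rw [h4] at h2
    linarith
  rw [norm_mul, norm_pow, Padic.norm_p]
  have hqpos : (0 : ℝ) < q := by linarith
  have : ((q : ℝ)⁻¹) ^ k * ‖b.repr x i‖ ≤ ((q : ℝ)⁻¹) ^ k * (q : ℝ) ^ k :=
    mul_le_mul_of_nonneg_left (h1.trans hk.le) (by positivity)
  refine this.trans (le_of_eq ?_)
  rw [← mul_pow, inv_mul_cancel₀ hqpos.ne', one_pow]

/-- the scaled coordinate map `O → ℤ_q^n` -/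
noncomputable def coordMap (k : ℕ)
    (hk : ∀ x : L, ‖x‖ ≤ 1 → ∀ i, ‖(q : ℚ_[q]) ^ k * (Module.finBasis ℚ_[q] L).repr x i‖ ≤ 1) :
    unitBallVS L →ₗ[ℤ_[q]] (Fin (Module.finrank ℚ_[q] L) → ℤ_[q]) where
  toFun x i := ⟨(q : ℚ_[q]) ^ k * (Module.finBasis ℚ_[q] L).repr (x : L) i,
    hk x (mem_unitBallVS_iff.mp x.2) i⟩
  map_add' x y := by
    funext i
    apply Subtype.ext
    show (q : ℚ_[q]) ^ k * (Module.finBasis ℚ_[q] L).repr ((x : L) + (y : L)) i =
      (q : ℚ_[q]) ^ k * (Module.finBasis ℚ_[q] L).repr (x : L) i +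
      (q : ℚ_[q]) ^ k * (Module.finBasis ℚ_[q] L).repr (y : L) i
    rw [map_add, Finsupp.add_apply, mul_add]
  map_smul' c x := by
    funext i
    apply Subtype.ext
    show (q : ℚ_[q]) ^ k * (Module.finBasis ℚ_[q] L).repr ((c • x : unitBallVS L) : L) i =
      (c : ℚ_[q]) * ((q : ℚ_[q]) ^ k * (Module.finBasis ℚ_[q] L).repr (x : L) i)
    rw [coe_smul_ball, map_smul, Finsupp.smul_apply, smul_eq_mul]
    ring

theorem coordMap_injective (k : ℕ)
    (hk : ∀ x : L, ‖x‖ ≤ 1 → ∀ i, ‖(q : ℚ_[q]) ^ k * (Module.finBasis ℚ_[q] L).repr x i‖ ≤ 1) :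
    Function.Injective (coordMap q L k hk) := by
  have hq : q.Prime := Fact.out
  intro x y hxy
  apply Subtype.ext
  apply (Module.finBasis ℚ_[q] L).repr.injective
  ext i
  have h1 := congrFun hxy i
  have h2 : (q : ℚ_[q]) ^ k * (Module.finBasis ℚ_[q] L).repr (x : L) i =
      (q : ℚ_[q]) ^ k * (Module.finBasis ℚ_[q] L).repr (y : L) i := congrArg Subtype.val h1
  have hq0 : (q : ℚ_[q]) ^ k ≠ 0 := pow_ne_zero _ (by exact_mod_cast hq.ne_zero)
  exact mul_left_cancel₀ hq0 h2

/-- `O_L` is a finite `ℤ_q`-module -/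
theorem module_finite_unitBallVS : Module.Finite ℤ_[q] (unitBallVS L) := by
  obtain ⟨k, hk⟩ := exists_pow_bound_coord q L
  exact Module.Finite.of_injective (coordMap q L k hk) (coordMap_injective q L k hk)

attribute [local instance] Ideal.Quotient.field

omit L in
theorem card_padicInt_quot_maximalIdeal :
    Nat.card (ℤ_[q] ⧸ IsLocalRing.maximalIdeal ℤ_[q]) = q := by
  have e : (ℤ_[q] ⧸ IsLocalRing.maximalIdeal ℤ_[q]) ≃+* ZMod q := PadicInt.residueField
  rw [Nat.card_congr e.toEquiv, Nat.card_zmod]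

set_option linter.deprecated false in
theorem card_quot_map_maximalIdeal :
    Nat.card (unitBallVS L ⧸
      Ideal.map (algebraMap ℤ_[q] (unitBallVS L)) (IsLocalRing.maximalIdeal ℤ_[q])) =
      q ^ Module.finrank ℚ_[q] L := by
  have := module_finite_unitBallVS q L
  have := isScalarTower_int_padic q L
  have := isScalarTower_int_ball q L
  have h1 := Ideal.finrank_quotient_map (R := ℤ_[q]) (S := unitBallVS L)
    (IsLocalRing.maximalIdeal ℤ_[q]) ℚ_[q] L
  have : Module.Finite (ℤ_[q] ⧸ IsLocalRing.maximalIdeal ℤ_[q]) (unitBallVS L ⧸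
      Ideal.map (algebraMap ℤ_[q] (unitBallVS L)) (IsLocalRing.maximalIdeal ℤ_[q])) :=
    Module.Finite.of_restrictScalars_finite ℤ_[q] _ _
  rw [Module.natCard_eq_pow_finrank (K := ℤ_[q] ⧸ IsLocalRing.maximalIdeal ℤ_[q]), h1,
    card_padicInt_quot_maximalIdeal]

/-- `#(O / q O) = q ^ [L : ℚ_q]` -/
theorem card_quot_span_q :
    Nat.card (unitBallVS L ⧸ Ideal.span {((q : ℕ) : unitBallVS L)}) =
      q ^ Module.finrank ℚ_[q] L := by
  rw [← map_maximalIdeal_eq_span, card_quot_map_maximalIdeal]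

/-- the cardinality form of `e · f = n` -/
theorem card_residueField_pow_eq (ϖ : unitBallVS L) (u : (unitBallVS L)ˣ) (e : ℕ)
    (hϖ : Irreducible ϖ) (hq : ((q : ℕ) : unitBallVS L) = u * ϖ ^ e) :
    Nat.card (IsLocalRing.ResidueField (unitBallVS L)) ^ e = q ^ Module.finrank ℚ_[q] L := by
  have := unitBallVS_isDiscreteValuationRing q L
  rw [← card_quot_span_q q L, hq, Ideal.span_singleton_mul_left_unit u.isUnit,
    ← Ideal.span_singleton_pow, ← hϖ.maximalIdeal_eq]
  have h0 : IsLocalRing.maximalIdeal (unitBallVS L) ≠ ⊥ :=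
    IsDiscreteValuationRing.not_a_field _
  have h1 := cardQuot_pow_of_prime (P := IsLocalRing.maximalIdeal (unitBallVS L)) h0 (i := e)
  rw [Submodule.cardQuot_apply, Submodule.cardQuot_apply] at h1
  exact h1.symm

end Finite

end Fermat.Agent.GC.Local.Index
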