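/-
GATE-C / C3 (LOCAL) — INV, helper3.  The local SECOND inequality, unconditional:
`InvUpper.primaryPart_H2_card_dvd` with `InfRes2` (helper1) and `CyclicInput` (helper67) discharged.
-/
import Fermat.Agent.GC.Local.InvUpper
import Fermat.Agent.GC.Local.Herbrand.CyclicInput
import Fermat.Agent.GC.Tate.InfRes2Inst

set_option autoImplicit false

open groupCohomology
open scoped Padic
open Fermat.Agent.GC.Global.Devissage

namespace Fermat.Agent.GC.Local.InvUpper

/-- **Local second inequality** for every finite Galois extension `L/K` of `q`-adic fields and every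
prime `ℓ`: the `ℓ`-primary part of `H²(Gal(L/K), Lˣ)` is finite of order dividing `ℓ^{v_ℓ [L:K]}`. -/
theorem primaryPart_H2_card_dvd_final (q : ℕ) [Fact q.Prime] (ℓ : ℕ) [Fact ℓ.Prime]
    (K L : Type) [Field K] [Field L] [Algebra ℚ_[q] K] [Algebra ℚ_[q] L] [Algebra K L]
    [IsScalarTower ℚ_[q] K L] [FiniteDimensional ℚ_[q] L] [FiniteDimensional K L] [IsGalois K L] :
    Finite (primaryPart ℓ (H2 (Rep.ofAlgebraAutOnUnits K L))) ∧
      Nat.card (primaryPart ℓ (H2 (Rep.ofAlgebraAutOnUnits K L))) ∣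
        ℓ ^ (Module.finrank K L).factorization ℓ :=
  primaryPart_H2_card_dvd (Fermat.Agent.GC.Tate.InfRes2.infRes2 ℤ)
    (Fermat.Agent.GC.Local.Herbrand.cyclicInput q) ℓ K L

end Fermat.Agent.GC.Local.InvUpper
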