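/-
GATE-C / C3-KR  (= C0(c) of the GATE-C graph): the KRASNER BRIDGE.

`ι := padicEmbedding q : Qbar →ₐ[ℚ] PadicAlgCl q`, `r := localGaloisToGlobal q`.

* (KR1) `exists_global_gen` : every `x : PadicAlgCl q` lies in `ℚ_[q]⟮ι y⟯` for a global `y`.
* (KR2) `adjoin_range_padicEmbedding` : `ℚ_q(ι Qbar) = ⊤`.
* (KR3) `localLevel q F := ℚ_q(ι F)`; finite-dimensional / normal / Galois when `F` is.
* (KR4) `mem_fixingSubgroup_localLevel_iff` : `r τ ∈ F.fixingSubgroup ↔ τ ∈ (localLevel q F).fixingSubgroup`.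
* (KR5) `exists_le_localLevel` : every finite `E/ℚ_q` is contained in `localLevel q F`, `F/ℚ` finite Galois.
* (KR6) `isLevelConstant₁_iff`, `isLevelConstant₂_iff` : the prelude's local level-constancy
  (w.r.t. finite GLOBAL fields) is level-constancy w.r.t. finite extensions of `ℚ_q`.
-/
import Mathlib
import Fermat.Prelude.Def_GaloisRep_CompletionBridge
import Fermat.Prelude.Def_GroupCohomology_ContinuousH2
import Fermat.Prelude.Def_ExtEndgame_ProductionDatum

set_option autoImplicit false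

open Polynomial IntermediateField groupCohomology

namespace Fermat.Agent.GC.Local.KRLevel

variable (q : ℕ) [Fact q.Prime]

local instance isAlgebraicQbar_kr : Algebra.IsAlgebraic ℚ (AlgebraicClosure ℚ) :=
  AlgebraicClosure.isAlgebraic ℚ
local instance isAlgClosureQbar_kr : IsAlgClosure ℚ (AlgebraicClosure ℚ) :=
  ⟨inferInstance, inferInstance⟩
local instance normalQbar_kr : Normal ℚ (AlgebraicClosure ℚ) :=
  IsAlgClosure.normal ℚ (AlgebraicClosure ℚ)

/-- A lower bound for a product of distances. -/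
lemma pow_card_le_norm_prod {L : Type*} [NormedField L] (s : Multiset L) (x : L) (δ : ℝ)
    (hδ : 0 ≤ δ) (h : ∀ r ∈ s, δ ≤ ‖x - r‖) :
    δ ^ Multiset.card s ≤ ‖(s.map (x - ·)).prod‖ := by
  induction s using Multiset.induction_on with
  | empty => simp
  | cons a s ih =>
    rw [Multiset.map_cons, Multiset.prod_cons, norm_mul, Multiset.card_cons, pow_succ']
    exact mul_le_mul (h a (Multiset.mem_cons_self a s))
      (ih fun r hr => h r (Multiset.mem_cons_of_mem hr)) (pow_nonneg hδ _) (norm_nonneg _)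

/-- Elements of `PadicAlgCl q` algebraic over `ℚ` are in the range of `padicEmbedding q`. -/
lemma mem_range_padicEmbedding_of_isRoot (g : ℚ[X]) (hg : g ≠ 0) (y : PadicAlgCl q)
    (hy : aeval y g = 0) : y ∈ (padicEmbedding q).range := by
  have hs : (g.map (algebraMap ℚ (AlgebraicClosure ℚ))).Splits := IsAlgClosed.splits _
  have h0 : g.map (algebraMap ℚ (AlgebraicClosure ℚ)) ≠ 0 := Polynomial.map_ne_zero hg
  have hroot : ((g.map (algebraMap ℚ (AlgebraicClosure ℚ))).map
      (padicEmbedding q).toRingHom).IsRoot y := by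
    rw [Polynomial.map_map, IsRoot.def, eval_map]
    have : (padicEmbedding q).toRingHom.comp (algebraMap ℚ (AlgebraicClosure ℚ)) =
        algebraMap ℚ (PadicAlgCl q) := by
      ext r; simp
    rw [this, ← aeval_def]; exact hy
  obtain ⟨z, hz⟩ := hs.mem_range_of_isRoot h0 hroot
  exact ⟨z, hz⟩

/-- **Approximation step.**  For `x` algebraic over `ℚ_[q]` and any `δ > 0` there is a root `r`
of a nonzero rational polynomial with `‖x - r‖ < δ`. -/
lemma exists_rat_root_near (x : PadicAlgCl q) {δ : ℝ} (hδ0 : 0 < δ) :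
    ∃ (g : ℚ[X]) (r : PadicAlgCl q), g ≠ 0 ∧ aeval r g = 0 ∧ ‖x - r‖ < δ := by
  classical
  have hxint : IsIntegral ℚ_[q] x := Algebra.IsIntegral.isIntegral x
  set f := minpoly ℚ_[q] x with hf
  have hfm : f.Monic := minpoly.monic hxint
  set n := f.natDegree with hn
  set B : ℝ := (max 1 ‖x‖) ^ n with hBdef
  have hB : 0 < B := by positivity
  set ε : ℝ := δ ^ n / (2 * B) with hεdef
  have hε : 0 < ε := by positivity
  have hεB : ε * B < δ ^ n := by
    have h1 : ε * B = δ ^ n / 2 := by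
      rw [hεdef]; field_simp
    rw [h1]
    exact half_lt_self (by positivity)
  choose b hb using fun i : ℕ => Padic.rat_dense q (f.coeff i) hε
  set g : ℚ[X] := X ^ n + ∑ i ∈ Finset.range n, C (b i) * X ^ i with hg
  have hdeg : (∑ i ∈ Finset.range n, (C (b i) : ℚ[X]) * X ^ i).degree < (n : WithBot ℕ) := by
    rw [← Fin.sum_univ_eq_sum_range (fun i => (C (b i) : ℚ[X]) * X ^ i) n]
    exact Polynomial.degree_sum_fin_lt (fun i : Fin n => b i)
  have hgm : g.Monic := Polynomial.monic_X_pow_add hdeg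
  have hgdeg : g.natDegree = n := by
    rw [hg, add_comm]
    exact Polynomial.natDegree_add_eq_right_of_degree_lt (by rwa [degree_X_pow])
      |>.trans (natDegree_X_pow n)
  -- evaluate
  have hfx : (aeval x f : PadicAlgCl q) = 0 := minpoly.aeval _ _
  have hfsum := hfm.as_sum
  have hgx : aeval x g = ∑ i ∈ Finset.range n,
      (algebraMap ℚ_[q] (PadicAlgCl q) ((b i : ℚ_[q]) - f.coeff i)) * x ^ i := by
    have h1 : aeval x g = x ^ n + ∑ i ∈ Finset.range n, (algebraMap ℚ (PadicAlgCl q) (b i)) * x ^ i := by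
      simp [hg, map_sum]
    have h2 : (0 : PadicAlgCl q) =
        x ^ n + ∑ i ∈ Finset.range n, (algebraMap ℚ_[q] (PadicAlgCl q) (f.coeff i)) * x ^ i := by
      rw [← hfx]
      conv_lhs => rw [hfsum]
      simp [map_sum, hn]
    have h3 : aeval x g = aeval x g - 0 := (sub_zero _).symm
    rw [h3, h1, h2, add_sub_add_left_eq_sub, ← Finset.sum_sub_distrib]
    refine Finset.sum_congr rfl fun i _ => ?_
    rw [map_sub, sub_mul]
    congr 2
  have hbound : ‖aeval x g‖ ≤ ε * B := by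
    rw [hgx]
    refine IsUltrametricDist.norm_sum_le_of_forall_le_of_nonneg (by positivity) fun i hi => ?_
    rw [norm_mul, norm_algebraMap', norm_pow]
    have hi' : i ≤ n := (Finset.mem_range.1 hi).le
    have h1 : ‖(b i : ℚ_[q]) - f.coeff i‖ ≤ ε := by
      rw [← norm_neg, neg_sub]; exact (hb i).le
    have h2 : ‖x‖ ^ i ≤ B := by
      calc ‖x‖ ^ i ≤ (max 1 ‖x‖) ^ i := pow_le_pow_left₀ (norm_nonneg _) (le_max_right _ _) _
        _ ≤ (max 1 ‖x‖) ^ n := pow_le_pow_right₀ (le_max_left _ _) hi'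
    exact mul_le_mul h1 h2 (by positivity) hε.le
  have hsp : (g.map (algebraMap ℚ (PadicAlgCl q))).Splits := IsAlgClosed.splits _
  have hprod := hsp.aeval_eq_prod_aroots x
  rw [hgm.leadingCoeff, map_one, one_mul] at hprod
  have hcard : Multiset.card (g.aroots (PadicAlgCl q)) = n := by
    rw [aroots_def, ← hsp.natDegree_eq_card_roots, natDegree_map, hgdeg]
  by_contra hcon
  push Not at hcon
  have hall : ∀ r ∈ g.aroots (PadicAlgCl q), δ ≤ ‖x - r‖ := by
    intro r hr
    refine hcon g r hgm.ne_zero ?_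
    exact (mem_aroots.1 hr).2
  have := pow_card_le_norm_prod (g.aroots (PadicAlgCl q)) x δ hδ0.le hall
  rw [hcard, ← hprod] at this
  linarith

/-- **(KR1)** Krasner: every element of `PadicAlgCl q` lies in `ℚ_q(ι y)` for some global
algebraic number `y`. -/
theorem exists_global_gen (x : PadicAlgCl q) :
    ∃ y : AlgebraicClosure ℚ, x ∈ ℚ_[q]⟮padicEmbedding q y⟯ := by
  classical
  have hxint : IsIntegral ℚ_[q] x := Algebra.IsIntegral.isIntegral x
  let T : Finset (PadicAlgCl q) := ((minpoly ℚ_[q] x).aroots (PadicAlgCl q)).toFinset.erase x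
  obtain ⟨δ, hδ0, hδ⟩ : ∃ δ : ℝ, 0 < δ ∧ ∀ x' ∈ T, δ ≤ ‖x - x'‖ := by
    by_cases hT : T.Nonempty
    · refine ⟨T.inf' hT (fun x' => ‖x - x'‖), ?_, fun x' hx' => Finset.inf'_le _ hx'⟩
      rw [Finset.lt_inf'_iff]
      intro x' hx'
      have : x' ≠ x := (Finset.mem_erase.1 hx').1
      exact norm_pos_iff.2 (sub_ne_zero.2 this.symm)
    · exact ⟨1, one_pos, fun x' hx' => absurd ⟨x', hx'⟩ hT⟩
  obtain ⟨g, r, hg0, hgr, hr⟩ := exists_rat_root_near q x hδ0
  obtain ⟨y, rfl⟩ := mem_range_padicEmbedding_of_isRoot q g hg0 r hgr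
  refine ⟨y, ?_⟩
  refine IsKrasner.krasner (K := ℚ_[q]) (Algebra.IsSeparable.isSeparable ℚ_[q] x)
    (IsAlgClosed.splits _) (Algebra.IsIntegral.isIntegral _) fun x' hx' hne => ?_
  refine lt_of_lt_of_le hr (hδ x' ?_)
  rw [Finset.mem_erase]
  refine ⟨hne.symm, ?_⟩
  rw [Multiset.mem_toFinset]
  exact (isConjRoot_iff_mem_minpoly_aroots hxint).1 hx'

/-- **(KR2)** -/
theorem adjoin_range_padicEmbedding :
    IntermediateField.adjoin ℚ_[q] (Set.range (padicEmbedding q)) = ⊤ := by
  rw [eq_top_iff]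
  intro x _
  obtain ⟨y, hy⟩ := exists_global_gen q x
  refine (IntermediateField.adjoin.mono ℚ_[q] _ _ ?_) hy
  rintro _ rfl
  exact ⟨y, rfl⟩

/-- An automorphism fixing generators fixes the generated field. -/
lemma apply_eq_of_mem_adjoin {K L : Type*} [Field K] [Field L] [Algebra K L] (τ : L ≃ₐ[K] L)
    (s : Set L) (h : ∀ a ∈ s, τ a = a) {x : L} (hx : x ∈ IntermediateField.adjoin K s) :
    τ x = x := by
  induction hx using IntermediateField.adjoin_induction with
  | mem a ha => exact h a ha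
  | algebraMap a => exact τ.commutes a
  | add a b _ _ ha hb => rw [map_add, ha, hb]
  | inv a _ ha => rw [map_inv₀, ha]
  | mul a b _ _ ha hb => rw [map_mul, ha, hb]

/-- A finite separable intermediate field is simple. -/
lemma exists_eq_adjoin_simple {K L : Type*} [Field K] [Field L] [Algebra K L]
    (E : IntermediateField K L) [FiniteDimensional K E] [Algebra.IsSeparable K E] :
    ∃ a : L, a ∈ E ∧ E = K⟮a⟯ := by
  obtain ⟨α, hα⟩ := Field.exists_primitive_element K E
  refine ⟨α, α.2, ?_⟩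
  have := congrArg (IntermediateField.map E.val) hα
  rw [IntermediateField.adjoin_map, ← AlgHom.fieldRange_eq_map, IntermediateField.fieldRange_val,
    Set.image_singleton] at this
  exact this.symm

/-- **(KR3)** the local level attached to a global field. -/
noncomputable def localLevel (F : IntermediateField ℚ (AlgebraicClosure ℚ)) :
    IntermediateField ℚ_[q] (PadicAlgCl q) :=
  IntermediateField.adjoin ℚ_[q] (padicEmbedding q '' (F : Set (AlgebraicClosure ℚ)))

lemma padicEmbedding_mem_localLevel {F : IntermediateField ℚ (AlgebraicClosure ℚ)}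
    {a : AlgebraicClosure ℚ} (ha : a ∈ F) : padicEmbedding q a ∈ localLevel q F :=
  IntermediateField.subset_adjoin _ _ ⟨a, ha, rfl⟩

lemma localLevel_mono {F F' : IntermediateField ℚ (AlgebraicClosure ℚ)} (h : F ≤ F') :
    localLevel q F ≤ localLevel q F' :=
  IntermediateField.adjoin.mono _ _ _ (Set.image_mono h)

/-- `ι (ℚ(s)) ⊆ ℚ_q(ι s)`. -/
lemma padicEmbedding_mem_adjoin_image (s : Set (AlgebraicClosure ℚ)) {a : AlgebraicClosure ℚ}
    (ha : a ∈ IntermediateField.adjoin ℚ s) :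
    padicEmbedding q a ∈ IntermediateField.adjoin ℚ_[q] (padicEmbedding q '' s) := by
  induction ha using IntermediateField.adjoin_induction with
  | mem a ha => exact IntermediateField.subset_adjoin _ _ ⟨a, ha, rfl⟩
  | algebraMap r =>
    have : padicEmbedding q (algebraMap ℚ _ r) = algebraMap ℚ_[q] (PadicAlgCl q) (r : ℚ_[q]) := by
      simp
    rw [this]; exact IntermediateField.algebraMap_mem _ _
  | add a b _ _ ha hb => rw [map_add]; exact add_mem ha hb
  | inv a _ ha => rw [map_inv₀]; exact inv_mem ha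
  | mul a b _ _ ha hb => rw [map_mul]; exact mul_mem ha hb

lemma localLevel_adjoin (s : Set (AlgebraicClosure ℚ)) :
    localLevel q (IntermediateField.adjoin ℚ s) =
      IntermediateField.adjoin ℚ_[q] (padicEmbedding q '' s) := by
  apply le_antisymm
  · rw [localLevel, IntermediateField.adjoin_le_iff]
    rintro _ ⟨a, ha, rfl⟩
    exact padicEmbedding_mem_adjoin_image q s ha
  · exact IntermediateField.adjoin.mono _ _ _ (Set.image_mono (IntermediateField.subset_adjoin _ _))

instance finiteDimensional_localLevel (F : IntermediateField ℚ (AlgebraicClosure ℚ))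
    [FiniteDimensional ℚ F] : FiniteDimensional ℚ_[q] (localLevel q F) := by
  obtain ⟨a, -, rfl⟩ := exists_eq_adjoin_simple F
  rw [localLevel_adjoin, Set.image_singleton]
  exact IntermediateField.adjoin.finiteDimensional (Algebra.IsIntegral.isIntegral _)

/-- The compatibility `τ (ι a) = ι (r τ a)`. -/
lemma apply_padicEmbedding (τ : PadicAlgCl q ≃ₐ[ℚ_[q]] PadicAlgCl q) (a : AlgebraicClosure ℚ) :
    τ (padicEmbedding q a) = padicEmbedding q (localGaloisToGlobal q τ a) :=
  (padicEmbedding_localGaloisToGlobal q τ a).symm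

/-- **(KR4)** -/
theorem mem_fixingSubgroup_localLevel_iff (F : IntermediateField ℚ (AlgebraicClosure ℚ))
    (τ : PadicAlgCl q ≃ₐ[ℚ_[q]] PadicAlgCl q) :
    localGaloisToGlobal q τ ∈ F.fixingSubgroup ↔ τ ∈ (localLevel q F).fixingSubgroup := by
  rw [IntermediateField.mem_fixingSubgroup_iff, IntermediateField.mem_fixingSubgroup_iff]
  constructor
  · intro h x hx
    refine apply_eq_of_mem_adjoin τ _ ?_ hx
    rintro _ ⟨a, ha, rfl⟩
    rw [apply_padicEmbedding, h a ha]
  · intro h a ha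
    have h1 : padicEmbedding q (localGaloisToGlobal q τ a) = padicEmbedding q a := by
      rw [← apply_padicEmbedding]
      exact h _ (padicEmbedding_mem_localLevel q ha)
    exact (padicEmbedding q).injective h1

/-- `localLevel F` is normal over `ℚ_q` when `F` is normal over `ℚ`. -/
instance normal_localLevel (F : IntermediateField ℚ (AlgebraicClosure ℚ)) [Normal ℚ F] :
    Normal ℚ_[q] (localLevel q F) := by
  rw [IntermediateField.normal_iff_forall_map_le']
  intro σ
  rw [localLevel, IntermediateField.adjoin_map, IntermediateField.adjoin_le_iff]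
  rintro _ ⟨_, ⟨a, ha, rfl⟩, rfl⟩
  have h1 : (σ : PadicAlgCl q →ₐ[ℚ_[q]] PadicAlgCl q) (padicEmbedding q a) =
      padicEmbedding q (localGaloisToGlobal q σ a) := apply_padicEmbedding q σ a
  rw [h1]
  refine IntermediateField.subset_adjoin _ _ ⟨_, ?_, rfl⟩
  have h2 := AlgEquiv.restrictNormal_commutes (localGaloisToGlobal q σ) F ⟨a, ha⟩
  have h3 : localGaloisToGlobal q σ a =
      ((localGaloisToGlobal q σ).restrictNormal F ⟨a, ha⟩ : AlgebraicClosure ℚ) := h2.symm
  rw [SetLike.mem_coe, h3]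
  exact SetLike.coe_mem _

instance isGalois_localLevel (F : IntermediateField ℚ (AlgebraicClosure ℚ)) [Normal ℚ F] :
    IsGalois ℚ_[q] (localLevel q F) where

/-- **(KR5)** -/
theorem exists_le_localLevel (E : IntermediateField ℚ_[q] (PadicAlgCl q))
    [FiniteDimensional ℚ_[q] E] :
    ∃ F : IntermediateField ℚ (AlgebraicClosure ℚ),
      FiniteDimensional ℚ F ∧ IsGalois ℚ F ∧ E ≤ localLevel q F := by
  obtain ⟨x, -, rfl⟩ := exists_eq_adjoin_simple E
  obtain ⟨y, hy⟩ := exists_global_gen q x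
  have : FiniteDimensional ℚ ℚ⟮y⟯ :=
    IntermediateField.adjoin.finiteDimensional (Algebra.IsIntegral.isIntegral y)
  have hfd : FiniteDimensional ℚ (IntermediateField.normalClosure ℚ ℚ⟮y⟯ (AlgebraicClosure ℚ)) :=
    normalClosure.is_finiteDimensional _ _ _
  have hn : Normal ℚ (IntermediateField.normalClosure ℚ ℚ⟮y⟯ (AlgebraicClosure ℚ)) :=
    normalClosure.normal _ _ _
  refine ⟨IntermediateField.normalClosure ℚ ℚ⟮y⟯ (AlgebraicClosure ℚ), hfd, ⟨⟩, ?_⟩
  rw [IntermediateField.adjoin_simple_le_iff]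
  have hle : ℚ⟮y⟯ ≤ IntermediateField.normalClosure ℚ ℚ⟮y⟯ (AlgebraicClosure ℚ) :=
    IntermediateField.le_normalClosure _
  have h1 : ℚ_[q]⟮padicEmbedding q y⟯ ≤ localLevel q ℚ⟮y⟯ := by
    rw [IntermediateField.adjoin_simple_le_iff]
    exact padicEmbedding_mem_localLevel q (IntermediateField.mem_adjoin_simple_self ℚ y)
  exact localLevel_mono q hle (h1 hy)

/-- Local level-constancy of a 1-cochain w.r.t. finite extensions of `ℚ_q`. -/
def IsLocLC₁ {X : Type*} (f : (PadicAlgCl q ≃ₐ[ℚ_[q]] PadicAlgCl q) → X) : Prop :=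
  ∃ E : IntermediateField ℚ_[q] (PadicAlgCl q), FiniteDimensional ℚ_[q] E ∧
    ∀ g s, s ∈ E.fixingSubgroup → f (g * s) = f g

/-- Local level-constancy of a 2-cochain w.r.t. finite extensions of `ℚ_q`. -/
def IsLocLC₂ {X : Type*}
    (f : (PadicAlgCl q ≃ₐ[ℚ_[q]] PadicAlgCl q) × (PadicAlgCl q ≃ₐ[ℚ_[q]] PadicAlgCl q) → X) :
    Prop :=
  ∃ E : IntermediateField ℚ_[q] (PadicAlgCl q), FiniteDimensional ℚ_[q] E ∧
    ∀ g g' s s', s ∈ E.fixingSubgroup → s' ∈ E.fixingSubgroup → f (g * s, g' * s') = f (g, g')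

/-- **(KR6a)** -/
theorem isLevelConstant₁_iff {X : Type*} (f : (PadicAlgCl q ≃ₐ[ℚ_[q]] PadicAlgCl q) → X) :
    IsLevelConstant₁ (localGaloisToGlobal q) f ↔ IsLocLC₁ q f := by
  constructor
  · rintro ⟨F, hF, h⟩
    have := hF
    exact ⟨localLevel q F, inferInstance, fun g s hs =>
      h g s ((mem_fixingSubgroup_localLevel_iff q F s).2 hs)⟩
  · rintro ⟨E, hE, h⟩
    have := hE
    obtain ⟨F, hF, -, hle⟩ := exists_le_localLevel q E
    exact ⟨F, hF, fun g s hs => h g s
      (IntermediateField.fixingSubgroup_antitone hle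
        ((mem_fixingSubgroup_localLevel_iff q F s).1 hs))⟩

/-- **(KR6b)** -/
theorem isLevelConstant₂_iff {X : Type*}
    (f : (PadicAlgCl q ≃ₐ[ℚ_[q]] PadicAlgCl q) × (PadicAlgCl q ≃ₐ[ℚ_[q]] PadicAlgCl q) → X) :
    IsLevelConstant₂ (localGaloisToGlobal q) f ↔ IsLocLC₂ q f := by
  constructor
  · rintro ⟨F, hF, h⟩
    have := hF
    exact ⟨localLevel q F, inferInstance, fun g g' s s' hs hs' =>
      h g g' s s' ((mem_fixingSubgroup_localLevel_iff q F s).2 hs)
        ((mem_fixingSubgroup_localLevel_iff q F s').2 hs')⟩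
  · rintro ⟨E, hE, h⟩
    have := hE
    obtain ⟨F, hF, -, hle⟩ := exists_le_localLevel q E
    exact ⟨F, hF, fun g g' s s' hs hs' => h g g' s s'
      (IntermediateField.fixingSubgroup_antitone hle
        ((mem_fixingSubgroup_localLevel_iff q F s).1 hs))
      (IntermediateField.fixingSubgroup_antitone hle
        ((mem_fixingSubgroup_localLevel_iff q F s').1 hs'))⟩

/-- The same for the prelude's `primeLocalToGlobal` (index `Nat.Primes`). -/
theorem isLevelConstant₁_primeLocalToGlobal_iff (q' : Nat.Primes) {X : Type*}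
    (f : ExtCitation.primeLocalGaloisGroup q' → X) :
    haveI : Fact (q' : ℕ).Prime := ⟨q'.2⟩
    IsLevelConstant₁ (ExtCitation.primeLocalToGlobal q') f ↔ IsLocLC₁ (q' : ℕ) f :=
  haveI : Fact (q' : ℕ).Prime := ⟨q'.2⟩
  isLevelConstant₁_iff (q' : ℕ) f

theorem isLevelConstant₂_primeLocalToGlobal_iff (q' : Nat.Primes) {X : Type*}
    (f : ExtCitation.primeLocalGaloisGroup q' × ExtCitation.primeLocalGaloisGroup q' → X) :
    haveI : Fact (q' : ℕ).Prime := ⟨q'.2⟩
    IsLevelConstant₂ (ExtCitation.primeLocalToGlobal q') f ↔ IsLocLC₂ (q' : ℕ) f :=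
  haveI : Fact (q' : ℕ).Prime := ⟨q'.2⟩
  isLevelConstant₂_iff (q' : ℕ) f


section Carriers

variable {k : Type} [CommRing k] (A : Rep k (PadicAlgCl q ≃ₐ[ℚ_[q]] PadicAlgCl q))

/-- Membership in the prelude's local level cochains, in local terms. -/
theorem mem_levelCochains₁_iff_isLocLC₁ (f : (PadicAlgCl q ≃ₐ[ℚ_[q]] PadicAlgCl q) → A) :
    f ∈ levelCochains₁ (localGaloisToGlobal q) A ↔ IsLocLC₁ q f :=
  isLevelConstant₁_iff q f

theorem mem_levelCochains₂_iff_isLocLC₂
    (f : (PadicAlgCl q ≃ₐ[ℚ_[q]] PadicAlgCl q) × (PadicAlgCl q ≃ₐ[ℚ_[q]] PadicAlgCl q) → A) :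
    f ∈ levelCochains₂ (localGaloisToGlobal q) A ↔ IsLocLC₂ q f :=
  isLevelConstant₂_iff q f

theorem mem_levelCocycles₂_iff_isLocLC₂
    (f : (PadicAlgCl q ≃ₐ[ℚ_[q]] PadicAlgCl q) × (PadicAlgCl q ≃ₐ[ℚ_[q]] PadicAlgCl q) → A) :
    f ∈ levelCocycles₂ (localGaloisToGlobal q) A ↔ f ∈ cocycles₂ A ∧ IsLocLC₂ q f := by
  rw [mem_levelCocycles₂_iff, isLevelConstant₂_iff]

theorem mem_levelCoboundaries₂_iff_isLocLC₁
    (f : (PadicAlgCl q ≃ₐ[ℚ_[q]] PadicAlgCl q) × (PadicAlgCl q ≃ₐ[ℚ_[q]] PadicAlgCl q) → A) :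
    f ∈ levelCoboundaries₂ (localGaloisToGlobal q) A ↔
      ∃ x : (PadicAlgCl q ≃ₐ[ℚ_[q]] PadicAlgCl q) → A, IsLocLC₁ q x ∧ (d₁₂ A).hom x = f := by
  rw [mem_levelCoboundaries₂_iff]
  simp only [isLevelConstant₁_iff]

end Carriers

end Fermat.Agent.GC.Local.KRLevel
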