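/-
GATE-C / C3-KR (helper69): Krasner bridge, part 3 — the statements of `KrasnerBridge.lean`
for the prelude's `ExtCitation.primeLocalToGlobal q` (`q : Nat.Primes`), i.e. for the local
groups at the finite places in `sha₁` / `sha₂`.
-/
import Mathlib
import Fermat.Prelude.Def_ExtEndgame_ProductionDatum
import Fermat.Agent.GC.Local.KrasnerBridge

set_option autoImplicit false

noncomputable section

open ExtCitation groupCohomology IntermediateField

namespace Fermat.Agent.GC.Local.KR

theorem fact_prime (q : Nat.Primes) : Fact (q : ℕ).Prime := ⟨q.2⟩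

attribute [local instance] fact_prime

theorem primeLocalToGlobal_injective (q : Nat.Primes) :
    Function.Injective (primeLocalToGlobal q) :=
  localGaloisToGlobal_injective (q : ℕ)

theorem isLevelConstant₁_primeLocal_iff (q : Nat.Primes) {X : Type*}
    (f : primeLocalGaloisGroup q → X) :
    IsLevelConstant₁ (primeLocalToGlobal q) f ↔
      ∃ E : IntermediateField ℚ_[(q : ℕ)] (PadicAlgCl (q : ℕ)),
        FiniteDimensional ℚ_[(q : ℕ)] E ∧
        ∀ g s : Gq (q : ℕ), s ∈ E.fixingSubgroup →
          f ((g * s : Gq (q : ℕ))) = f (g : Gq (q : ℕ)) :=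
  isLevelConstant₁_iff (q : ℕ) f

theorem isLevelConstant₂_primeLocal_iff (q : Nat.Primes) {X : Type*}
    (f : primeLocalGaloisGroup q × primeLocalGaloisGroup q → X) :
    IsLevelConstant₂ (primeLocalToGlobal q) f ↔
      ∃ E : IntermediateField ℚ_[(q : ℕ)] (PadicAlgCl (q : ℕ)),
        FiniteDimensional ℚ_[(q : ℕ)] E ∧
        ∀ g g' s s' : Gq (q : ℕ), s ∈ E.fixingSubgroup → s' ∈ E.fixingSubgroup →
          f ((g * s : Gq (q : ℕ)), (g' * s' : Gq (q : ℕ)))
            = f ((g : Gq (q : ℕ)), (g' : Gq (q : ℕ))) :=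
  isLevelConstant₂_iff (q : ℕ) f

end Fermat.Agent.GC.Local.KR
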