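/-
GATE-C / C3 LOCAL-NUM-Q (helper41).  The local numbers over the BASE field `ℚ_q`.

`LocalNum.lean` / `LocalNumP.lean` treat `E : IntermediateField ℚ_[q] (PadicAlgCl q)` with the group
`Gal(Ω/E)`; here the field is `ℚ_[q]` itself, with the group
`PadicAlgCl q ≃ₐ[ℚ_[q]] PadicAlgCl q` (= `Gq q`) and the level system
`galLevels ℚ_[q] (PadicAlgCl q)` (= `levelQ q`).  UNCONDITIONAL:
* `base_card_hlc_zero / _one / _two`, `base_card_torsion_hlc_two_units`, `base_euler_mu`;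
* for `M : Rep (ZMod p) G_q` with an equivariant additive equivalence `e : muRep ℚ_[q] Ω p ≃+ M`:
  `finiteDimensional_Hlc_of_mu_base`, `finrank_Hlc_two_of_mu_base = 1`,
  `euler_finrank_of_mu_base : h⁰ + h² + [q = p] = h¹`.
-/
import Fermat.Agent.GC.Local.LocalNumP

set_option autoImplicit false

open CategoryTheory

noncomputable section

namespace Fermat.Agent.GC.Local.LocalNum

open Fermat.Agent.GC.Prof Fermat.Agent.GC.Local.Abs

section Base

variable (q : ℕ) [Fact q.Prime] (p : ℕ) [Fact p.Prime]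

omit [Fact p.Prime] in
/-- **base `h⁰`**: `#H⁰(G_q, μ_p) = #μ_p(ℚ_q)`. -/
theorem base_card_hlc_zero :
    Nat.card (Hlc (galLevels ℚ_[q] (PadicAlgCl q)) (muRep ℚ_[q] (PadicAlgCl q) p) 0) =
      Nat.card (rootsOfUnity p ℚ_[q]) :=
  card_hlc_zero_mu ℚ_[q] (PadicAlgCl q) p

/-- **base `h¹`**: `#H¹(G_q, μ_p) = p · #μ_p(ℚ_q) · p^{[q = p]}`. -/
theorem base_card_hlc_one :
    Nat.card (Hlc (galLevels ℚ_[q] (PadicAlgCl q)) (muRep ℚ_[q] (PadicAlgCl q) p) 1) =
      p * Nat.card (rootsOfUnity p ℚ_[q]) * (if q = p then p else 1) := by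
  rw [card_hlc_one_mu ℚ_[q] (PadicAlgCl q) (hasRoots_padicAlgCl q p),
    Index.card_units_mod_pow_normed q ℚ_[q] p, Module.finrank_self, pow_one]

/-- The class-formation axiom above every layer of `ℚ_q`. -/
theorem classFormationAbove_base (N₀ : IntermediateField ℚ_[q] (PadicAlgCl q)) :
    ClassFormationAbove N₀ := by
  intro N hfd hgal _
  exact ⟨Unram.local_isAddCyclic_H2 q ℚ_[q] N, Unram.local_card_H2_eq_finrank q ℚ_[q] N⟩

/-- A finite Galois extension of `ℚ_q` inside `PadicAlgCl q` of degree divisible by `p`. -/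
theorem exists_galois_layer_dvd_base :
    ∃ N₀ : IntermediateField ℚ_[q] (PadicAlgCl q), FiniteDimensional ℚ_[q] N₀ ∧
      IsGalois ℚ_[q] N₀ ∧ p ∣ Module.finrank ℚ_[q] N₀ := by
  obtain ⟨m₀, hm₀⟩ :=
    CycloDegGrowth.padic_exists_forall_pow_dvd_finrank q p ℚ_[q] (PadicAlgCl q) 1
  have hpos : 0 < p ^ (m₀ + 1) := pow_pos (Fact.out : p.Prime).pos _
  have hne : NeZero (p ^ (m₀ + 1)) := ⟨hpos.ne'⟩
  have hne' : NeZero ((p ^ (m₀ + 1) : ℕ) : PadicAlgCl q) := ⟨by exact_mod_cast hpos.ne'⟩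
  obtain ⟨ζ, hζ⟩ := HasEnoughRootsOfUnity.exists_primitiveRoot (PadicAlgCl q) (p ^ (m₀ + 1))
  have hcyc : IsCyclotomicExtension {p ^ (m₀ + 1)} ℚ_[q] (IntermediateField.adjoin ℚ_[q] {ζ}) :=
    CycloDegGrowth.isCyclotomicExtension_adjoin hζ
  refine ⟨IntermediateField.adjoin ℚ_[q] {ζ},
    IsCyclotomicExtension.finiteDimensional {p ^ (m₀ + 1)} ℚ_[q] _,
    IsCyclotomicExtension.isGalois {p ^ (m₀ + 1)} ℚ_[q] _, ?_⟩
  simpa using hm₀ m₀ le_rfl ζ hζ

/-- **`|Br(ℚ_q)[p]| = p`** in the Abs language. -/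
theorem base_card_torsion_hlc_two_units :
    Nat.card {x : Hlc (galLevels ℚ_[q] (PadicAlgCl q)) (unitsRep ℚ_[q] (PadicAlgCl q)) 2 //
      p • x = 0} = p := by
  obtain ⟨N₀, hfd, hgal, hdvd⟩ := exists_galois_layer_dvd_base q p
  exact card_torsion_hlc_two N₀ (classFormationAbove_base q N₀) p hdvd

/-- **base `h²`**: `#H²(G_q, μ_p) = p`. -/
theorem base_card_hlc_two :
    Nat.card (Hlc (galLevels ℚ_[q] (PadicAlgCl q)) (muRep ℚ_[q] (PadicAlgCl q) p) 2) = p := by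
  rw [card_hlc_two_mu ℚ_[q] (PadicAlgCl q) (hasRoots_padicAlgCl q p),
    base_card_torsion_hlc_two_units]

/-- **Euler characteristic of `μ_p` over `ℚ_q`**: `#H⁰ · #H² · p^{[q = p]} = #H¹`. -/
theorem base_euler_mu :
    Nat.card (Hlc (galLevels ℚ_[q] (PadicAlgCl q)) (muRep ℚ_[q] (PadicAlgCl q) p) 0) *
        Nat.card (Hlc (galLevels ℚ_[q] (PadicAlgCl q)) (muRep ℚ_[q] (PadicAlgCl q) p) 2) *
        (if q = p then p else 1) =
      Nat.card (Hlc (galLevels ℚ_[q] (PadicAlgCl q)) (muRep ℚ_[q] (PadicAlgCl q) p) 1) := by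
  rw [base_card_hlc_zero, base_card_hlc_one, base_card_hlc_two]
  ring

instance finite_base_hlc_mu_zero :
    Finite (Hlc (galLevels ℚ_[q] (PadicAlgCl q)) (muRep ℚ_[q] (PadicAlgCl q) p) 0) := by
  have : NeZero p := ⟨(Fact.out : p.Prime).ne_zero⟩
  apply Nat.finite_of_card_ne_zero
  rw [base_card_hlc_zero]
  exact Nat.card_pos.ne'

instance finite_base_hlc_mu_one :
    Finite (Hlc (galLevels ℚ_[q] (PadicAlgCl q)) (muRep ℚ_[q] (PadicAlgCl q) p) 1) := by
  have : NeZero p := ⟨(Fact.out : p.Prime).ne_zero⟩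
  have hp : 0 < p := (Fact.out : p.Prime).pos
  apply Nat.finite_of_card_ne_zero
  rw [base_card_hlc_one]
  refine (Nat.mul_pos (Nat.mul_pos hp Nat.card_pos) ?_).ne'
  split_ifs
  · exact hp
  · exact Nat.one_pos

instance finite_base_hlc_mu_two :
    Finite (Hlc (galLevels ℚ_[q] (PadicAlgCl q)) (muRep ℚ_[q] (PadicAlgCl q) p) 2) := by
  apply Nat.finite_of_card_ne_zero
  rw [base_card_hlc_two]
  exact (Fact.out : p.Prime).ne_zero

variable (M : Rep.{0} (ZMod p) (PadicAlgCl q ≃ₐ[ℚ_[q]] PadicAlgCl q))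
  [IsDiscrete (galLevels ℚ_[q] (PadicAlgCl q)) M]
  (e : muRep ℚ_[q] (PadicAlgCl q) p ≃+ M)
  (he : ∀ g a, e ((muRep ℚ_[q] (PadicAlgCl q) p).ρ g a) = M.ρ g (e a))

include e he

/-- `Hlc^i(G_q, M)` is finite-dimensional for `i ≤ 2`, `M ≃ μ_p`. -/
theorem finiteDimensional_Hlc_of_mu_base (i : ℕ) (hi : i ≤ 2) :
    FiniteDimensional (ZMod p) (Hlc (galLevels ℚ_[q] (PadicAlgCl q)) M i) := by
  interval_cases i
  · exact finiteDimensional_Hlc_of_addEquiv _ p M e he 0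
  · exact finiteDimensional_Hlc_of_addEquiv _ p M e he 1
  · exact finiteDimensional_Hlc_of_addEquiv _ p M e he 2

/-- `dim Hlc²(G_q, μ_p) = 1`. -/
theorem finrank_Hlc_two_of_mu_base :
    Module.finrank (ZMod p) (Hlc (galLevels ℚ_[q] (PadicAlgCl q)) M 2) = 1 := by
  have h1 := pow_finrank_Hlc_eq_card_of_addEquiv (galLevels ℚ_[q] (PadicAlgCl q)) p M e he 2
  rw [base_card_hlc_two] at h1
  exact Nat.pow_right_injective (Fact.out : p.Prime).two_le (h1.trans (pow_one p).symm)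

/-- **Euler characteristic over `ℚ_q`**, `ZMod p`-coefficients: `h⁰ + h² + [q = p] = h¹`. -/
theorem euler_finrank_of_mu_base :
    Module.finrank (ZMod p) (Hlc (galLevels ℚ_[q] (PadicAlgCl q)) M 0) +
        Module.finrank (ZMod p) (Hlc (galLevels ℚ_[q] (PadicAlgCl q)) M 2) +
        (if q = p then 1 else 0) =
      Module.finrank (ZMod p) (Hlc (galLevels ℚ_[q] (PadicAlgCl q)) M 1) := by
  have h0 := pow_finrank_Hlc_eq_card_of_addEquiv (galLevels ℚ_[q] (PadicAlgCl q)) p M e he 0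
  have h1 := pow_finrank_Hlc_eq_card_of_addEquiv (galLevels ℚ_[q] (PadicAlgCl q)) p M e he 1
  have h2 := pow_finrank_Hlc_eq_card_of_addEquiv (galLevels ℚ_[q] (PadicAlgCl q)) p M e he 2
  have hE := base_euler_mu q p
  rw [← h0, ← h1, ← h2] at hE
  apply Nat.pow_right_injective (Fact.out : p.Prime).two_le
  show p ^ _ = p ^ _
  rw [← hE, pow_add, pow_add]
  congr 1
  split_ifs
  · rw [pow_one]
  · rw [pow_zero]

end Base

end Fermat.Agent.GC.Local.LocalNum
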