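/-
GATE-C / C3 (N2)-ALG (helper21).  Mathlib only.  Pure group theory behind the norm-limitation
statement (N2) of helper3's C3 RULING 3:

cyclic groups `A`, `B` (`B` a `p`-group), `ι : A →* B`, `ν : B →* A` with `ν ∘ ι = (·)^n`,
`ker ι = A[n]`, `p^(v_p(n)+1) ∣ |A|`  ⟹  `ν` injective.

Key brick: a finite cyclic `p`-group has a unique subgroup of order `p`, hence two subgroups with
trivial intersection cannot both be nontrivial.
-/
import Mathlib

set_option autoImplicit false

namespace Fermat.Agent.GC.Local.NormLimAlg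

/-- In a finite cyclic group, every solution of `y ^ p = 1` lies in the subgroup generated by an
element of order `p`. -/
theorem mem_zpowers_of_orderOf_eq {B : Type*} [Group B] [Finite B] [IsCyclic B] {p : ℕ}
    (hp : 0 < p) {x y : B} (hx : orderOf x = p) (hy : y ^ p = 1) : y ∈ Subgroup.zpowers x := by
  classical
  have := Fintype.ofFinite B
  have h1 : (Finset.univ.filter fun b : B => b ^ p = 1).card ≤ p := IsCyclic.card_pow_eq_one_le hp
  have h2 : (Finset.image (fun i : ℕ => x ^ i) (Finset.range p)) ⊆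
      Finset.univ.filter fun b : B => b ^ p = 1 := by
    intro b hb
    obtain ⟨i, -, rfl⟩ := Finset.mem_image.1 hb
    simp only [Finset.mem_filter, Finset.mem_univ, true_and]
    rw [← pow_mul, mul_comm, pow_mul, ← hx, pow_orderOf_eq_one, one_pow]
  have h3 : (Finset.image (fun i : ℕ => x ^ i) (Finset.range p)).card = p := by
    rw [Finset.card_image_of_injOn, Finset.card_range]
    intro i hi j hj hij
    have hi' : i < orderOf x := by rw [hx]; exact Finset.mem_range.1 hi
    have hj' : j < orderOf x := by rw [hx]; exact Finset.mem_range.1 hj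
    exact pow_injOn_Iio_orderOf hi' hj' hij
  have h4 := Finset.eq_of_subset_of_card_le h2 (by rw [h3]; exact h1)
  have hy' : y ∈ Finset.univ.filter fun b : B => b ^ p = 1 := by simp [hy]
  rw [← h4] at hy'
  obtain ⟨i, -, rfl⟩ := Finset.mem_image.1 hy'
  exact (Subgroup.zpowers x).pow_mem (Subgroup.mem_zpowers x) i

/-- A nontrivial subgroup of a `p`-group contains an element of order `p`. -/
theorem exists_orderOf_eq_of_ne_bot {B : Type*} [Group B] {p : ℕ} [Fact p.Prime]
    (hB : IsPGroup p B) {K : Subgroup B} (hK : K ≠ ⊥) : ∃ x ∈ K, orderOf x = p := by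
  obtain ⟨z, hzK, hz1⟩ := (K.bot_or_exists_ne_one).resolve_left hK
  obtain ⟨m, hm⟩ := IsPGroup.iff_orderOf.1 hB z
  have hm0 : m ≠ 0 := by
    rintro rfl
    rw [pow_zero, orderOf_eq_one_iff] at hm
    exact hz1 hm
  have hpd : p ∣ orderOf z := by
    rw [hm]
    exact dvd_pow_self p hm0
  have hne : orderOf z ≠ 0 := by
    rw [hm]
    exact pow_ne_zero _ (Fact.out : p.Prime).ne_zero
  exact ⟨z ^ (orderOf z / p), K.pow_mem hzK _, orderOf_pow_orderOf_div hne hpd⟩

/-- In a finite cyclic `p`-group, two subgroups with trivial intersection cannot both be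
nontrivial. -/
theorem eq_bot_or_eq_bot_of_inf_eq_bot {B : Type*} [Group B] [Finite B] [IsCyclic B] {p : ℕ}
    [Fact p.Prime] (hB : IsPGroup p B) (K I : Subgroup B) (h : K ⊓ I = ⊥) : K = ⊥ ∨ I = ⊥ := by
  by_contra hcon
  rw [not_or] at hcon
  obtain ⟨x, hxK, hx⟩ := exists_orderOf_eq_of_ne_bot hB hcon.1
  obtain ⟨y, hyI, hy⟩ := exists_orderOf_eq_of_ne_bot hB hcon.2
  have hp : 0 < p := (Fact.out : p.Prime).pos
  have hyp : y ^ p = 1 := by rw [← hy, pow_orderOf_eq_one]
  have hyx : y ∈ Subgroup.zpowers x := mem_zpowers_of_orderOf_eq hp hx hyp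
  have hyK : y ∈ K := (Subgroup.zpowers_le.2 hxK) hyx
  have : y ∈ K ⊓ I := ⟨hyK, hyI⟩
  rw [h, Subgroup.mem_bot] at this
  rw [this, orderOf_one] at hy
  exact (Fact.out : p.Prime).one_lt.ne hy

/-- **(N2)-ALG.** Cyclic groups `A`, `B` with `B` a `p`-group, `ι : A →* B`, `ν : B →* A` with
`ν ∘ ι = (·)^n`, `ker ι = A[n]` and `p^(v_p(n)+1) ∣ |A|`: then `ν` is injective. -/
theorem injective_of_transfer_kernel {A B : Type*} [Group A] [Group B] [Finite A] [Finite B]
    [IsCyclic A] [IsCyclic B] (p : ℕ) [Fact p.Prime] (hB : IsPGroup p B) (n : ℕ) (hn : n ≠ 0)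
    (ι : A →* B) (ν : B →* A) (hνι : ∀ a, ν (ι a) = a ^ n) (hker : ∀ a, ι a = 1 ↔ a ^ n = 1)
    (hA : p ^ (n.factorization p + 1) ∣ Nat.card A) : Function.Injective ν := by
  have hinf : ν.ker ⊓ ι.range = ⊥ := by
    rw [eq_bot_iff]
    rintro b ⟨hbK, a, rfl⟩
    rw [Subgroup.mem_bot]
    have hbK' : ν (ι a) = 1 := hbK
    rw [hνι] at hbK'
    exact (hker a).2 hbK'
  have hI : ι.range ≠ ⊥ := by
    obtain ⟨g, hg⟩ := IsCyclic.exists_generator (α := A)
    have hord : orderOf g = Nat.card A := orderOf_eq_card_of_forall_mem_zpowers hg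
    intro hbot
    have h1 : ι g = 1 := by
      have : ι g ∈ ι.range := ⟨g, rfl⟩
      rwa [hbot, Subgroup.mem_bot] at this
    have h2 : g ^ n = 1 := (hker g).1 h1
    have h3 : Nat.card A ∣ n := by
      rw [← hord]
      exact orderOf_dvd_of_pow_eq_one h2
    exact Nat.pow_succ_factorization_not_dvd hn (Fact.out : p.Prime) (hA.trans h3)
  rcases eq_bot_or_eq_bot_of_inf_eq_bot hB ν.ker ι.range hinf with h | h
  · exact (MonoidHom.ker_eq_bot_iff ν).1 h
  · exact absurd h hI

end Fermat.Agent.GC.Local.NormLimAlg
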