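/-
GATE-C / C3 (N4-deg) arithmetic brick (helper21).  Mathlib only.

For a prime `p` and `Q ≥ 2` prime to `p`, the `p`-part of `orderOf (Q : ZMod (p^(m+1)))` tends to
infinity: for every `a` there is `m₀` with `p^a ∣ orderOf (Q : ZMod (p^(m+1)))` for all `m ≥ m₀`.
(`orderOf (#κ_E : ZMod N)` is the degree of `E(ζ_N)/E` for `q ∤ N`, helper26 `Unram/Cyclotomic`.)
-/
import Mathlib

set_option autoImplicit false

namespace Fermat.Agent.GC.Local.OrderGrowth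

/-- A divisor `d` of `(p - 1) * p ^ m` not divisible by `p ^ a` is `< p ^ a`. -/
theorem lt_pow_of_dvd_of_not_dvd {p : ℕ} (hp : p.Prime) {d m a : ℕ} (hd : d ∣ (p - 1) * p ^ m)
    (ha : ¬ p ^ a ∣ d) : d < p ^ a := by
  have hd0 : d ≠ 0 := by
    rintro rfl
    rw [zero_dvd_iff] at hd
    have h1 : p - 1 ≠ 0 := Nat.sub_ne_zero_of_lt hp.one_lt
    exact (mul_ne_zero h1 (pow_ne_zero _ hp.ne_zero)) hd
  obtain ⟨j, e, hpe, rfl⟩ := Nat.exists_eq_pow_mul_and_not_dvd hd0 p hp.one_lt.ne'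
  have hja : j < a := by
    by_contra hcon
    rw [not_lt] at hcon
    exact ha ((pow_dvd_pow p hcon).trans (dvd_mul_right _ _))
  have hcop : Nat.Coprime e (p ^ m) := (hp.coprime_iff_not_dvd.2 hpe).symm.pow_right m
  have he : e ∣ p - 1 := hcop.dvd_of_dvd_mul_right ((dvd_mul_left e (p ^ j)).trans hd)
  have he' : e ≤ p - 1 := Nat.le_of_dvd (Nat.sub_pos_of_lt hp.one_lt) he
  calc p ^ j * e ≤ p ^ j * (p - 1) := Nat.mul_le_mul_left _ he'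
    _ < p ^ j * p := Nat.mul_lt_mul_of_pos_left (Nat.sub_lt hp.pos one_pos) (pow_pos hp.pos j)
    _ = p ^ (j + 1) := (pow_succ p j).symm
    _ ≤ p ^ a := pow_le_pow_right₀ hp.one_lt.le hja

/-- `orderOf (Q : ZMod (p^(m+1)))` divides `(p - 1) * p ^ m` when `p ∤ Q`. -/
theorem orderOf_natCast_dvd {p : ℕ} (hp : p.Prime) {Q : ℕ} (hpQ : ¬ p ∣ Q) (m : ℕ) :
    orderOf ((Q : ℕ) : ZMod (p ^ (m + 1))) ∣ (p - 1) * p ^ m := by
  have : NeZero (p ^ (m + 1)) := ⟨pow_ne_zero _ hp.ne_zero⟩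
  have hcop : Nat.Coprime Q (p ^ (m + 1)) := ((hp.coprime_iff_not_dvd.2 hpQ).symm).pow_right _
  have h1 : orderOf (ZMod.unitOfCoprime Q hcop) ∣ Fintype.card (ZMod (p ^ (m + 1)))ˣ :=
    orderOf_dvd_card
  rw [ZMod.card_units_eq_totient, Nat.totient_prime_pow_succ hp, ← orderOf_units,
    ZMod.coe_unitOfCoprime, mul_comm] at h1
  exact h1

/-- `p ^ (m+1) < Q ^ orderOf (Q : ZMod (p^(m+1)))` for `Q ≥ 2` prime to `p`. -/
theorem pow_lt_pow_orderOf {p : ℕ} (hp : p.Prime) {Q : ℕ} (hQ : 2 ≤ Q) (hpQ : ¬ p ∣ Q) (m : ℕ) :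
    p ^ (m + 1) < Q ^ orderOf ((Q : ℕ) : ZMod (p ^ (m + 1))) := by
  set d := orderOf ((Q : ℕ) : ZMod (p ^ (m + 1))) with hd
  have hdvd := orderOf_natCast_dvd hp hpQ m
  have hd0 : 0 < d := by
    apply Nat.pos_of_dvd_of_pos hdvd
    exact Nat.mul_pos (Nat.sub_pos_of_lt hp.one_lt) (pow_pos hp.pos m)
  have h1 : ((Q : ℕ) : ZMod (p ^ (m + 1))) ^ d = 1 := pow_orderOf_eq_one _
  have hQd : 1 ≤ Q ^ d := Nat.one_le_pow _ _ (by omega)
  have h2 : ((Q ^ d - 1 : ℕ) : ZMod (p ^ (m + 1))) = 0 := by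
    rw [Nat.cast_sub hQd, Nat.cast_pow, h1, Nat.cast_one, sub_self]
  have h3 : p ^ (m + 1) ∣ Q ^ d - 1 := (ZMod.natCast_eq_zero_iff _ _).1 h2
  have h4 : 2 ≤ Q ^ d := by
    calc 2 ≤ Q := hQ
      _ = Q ^ 1 := (pow_one Q).symm
      _ ≤ Q ^ d := Nat.pow_le_pow_right (by omega) hd0
  have h5 : p ^ (m + 1) ≤ Q ^ d - 1 := Nat.le_of_dvd (by omega) h3
  omega

/-- **Degree growth.** For `Q ≥ 2` prime to `p` and every `a`, `p ^ a` divides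
`orderOf (Q : ZMod (p^(m+1)))` for all sufficiently large `m`. -/
theorem exists_forall_pow_dvd_orderOf {p : ℕ} (hp : p.Prime) {Q : ℕ} (hQ : 2 ≤ Q)
    (hpQ : ¬ p ∣ Q) (a : ℕ) :
    ∃ m₀ : ℕ, ∀ m : ℕ, m₀ ≤ m → p ^ a ∣ orderOf ((Q : ℕ) : ZMod (p ^ (m + 1))) := by
  refine ⟨Q ^ (p ^ a), fun m hm => ?_⟩
  by_contra hcon
  have h1 := lt_pow_of_dvd_of_not_dvd hp (orderOf_natCast_dvd hp hpQ m) hcon
  have h2 := pow_lt_pow_orderOf hp hQ hpQ m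
  have h3 : Q ^ orderOf ((Q : ℕ) : ZMod (p ^ (m + 1))) ≤ Q ^ (p ^ a) :=
    Nat.pow_le_pow_right (by omega) h1.le
  have h4 : m + 1 < p ^ (m + 1) :=
    calc m + 1 < 2 ^ (m + 1) := Nat.lt_two_pow_self
      _ ≤ p ^ (m + 1) := Nat.pow_le_pow_left hp.two_le _
  omega

/-- The same with the bare `p`-adic valuation. -/
theorem exists_forall_le_factorization_orderOf {p : ℕ} (hp : p.Prime) {Q : ℕ} (hQ : 2 ≤ Q)
    (hpQ : ¬ p ∣ Q) (a : ℕ) :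
    ∃ m₀ : ℕ, ∀ m : ℕ, m₀ ≤ m →
      a ≤ (orderOf ((Q : ℕ) : ZMod (p ^ (m + 1)))).factorization p := by
  obtain ⟨m₀, h⟩ := exists_forall_pow_dvd_orderOf hp hQ hpQ a
  refine ⟨m₀, fun m hm => ?_⟩
  have hdvd := h m hm
  have hne : orderOf ((Q : ℕ) : ZMod (p ^ (m + 1))) ≠ 0 := by
    intro h0
    have := orderOf_natCast_dvd hp hpQ m
    rw [h0, zero_dvd_iff] at this
    have h1 : p - 1 ≠ 0 := Nat.sub_ne_zero_of_lt hp.one_lt
    exact (mul_ne_zero h1 (pow_ne_zero _ hp.ne_zero)) this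
  exact (hp.pow_dvd_iff_le_factorization hne).1 hdvd

end Fermat.Agent.GC.Local.OrderGrowth
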