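/-
GATE-C / C3 (LOCAL), helper3 (sub-lead).  SIGNATURE FILE — statements only, bodies `sorry`.
NEVER import this file from graded code.  Each leaf owner proves his statements in his own file
(`GC/Local/<Leaf>*.lean`, namespace `Fermat.Agent.GC.Local.<Leaf>`) and may change binder details;
what matters is the mathematical content and that the shapes compose.

Leaves:  STRUCT-A (helper60)  KR-DENSE (helper69)  KR-LEVEL/KR-DEC (helper81)  HERBRAND (helper67)
         UNRAM (open)  INDEX (open)  INV (helper3)  HILBERT (blocked on C1 Cup)  DUAL (deferred)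
-/
import Mathlib
import Fermat.Prelude.Def_GaloisRep_CompletionBridge

set_option autoImplicit false

open scoped Padic
open groupCohomology

noncomputable section

namespace Fermat.Agent.GC.Local.Skeleton

/-! ## 0. Binders

* CONCRETE local fields: `E : IntermediateField ℚ_[q] (PadicAlgCl q)`, `[FiniteDimensional ℚ_[q] E]`
  (helper60's `FiniteExt.lean` gives `IsNonarchimedeanLocalField E`, `𝒪[E]` DVR, …).
* ABSTRACT bricks (HERBRAND, UNRAM): a finite Galois extension `E/F` of fields and a valuation
  subring `O` of the TOP field `E`, a complete DVR with finite residue field, Galois-stable.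
  The valuation ring of the bottom field is `O.comap (algebraMap F E)`.
-/

section Abstract

variable {F E : Type*} [Field F] [Field E] [Algebra F E] [FiniteDimensional F E] [IsGalois F E]
  (O : ValuationSubring E) [IsDiscreteValuationRing O] [Finite (IsLocalRing.ResidueField O)]
  [IsAdicComplete (IsLocalRing.maximalIdeal O) O]

/-- Galois-stability of the valuation ring (automatic for finite extensions of `ℚ_q`). -/
def GalStable : Prop := ∀ (σ : E ≃ₐ[F] E) (x : E), x ∈ O → σ x ∈ O

/-- The bottom field is not contained in the units: some nonzero element of `F` is a non-unit. -/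
def BottomNontrivial : Prop := ∃ c : F, c ≠ 0 ∧ algebraMap F E c ∈ O.nonunits

/-- `E/F` is unramified w.r.t. `O`: some element of `F` is a uniformiser of `O`. -/
def IsUnram : Prop :=
  ∃ c : F, ∃ h : algebraMap F E c ∈ O, Irreducible (⟨algebraMap F E c, h⟩ : O)

/-- The valuation ring of the bottom field. -/
abbrev bottom : ValuationSubring F := O.comap (algebraMap F E)

/-! ### HERBRAND (helper67, board 1284) -/

theorem norm_index_eq_finrank [IsCyclic (E ≃ₐ[F] E)] (hO : GalStable (F := F) O)
    (hF : BottomNontrivial (F := F) O) :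
    (MonoidHom.range (Units.map (Algebra.norm F : E →* F))).index = Module.finrank F E := by
  sorry

/-- cohomological form, via Mathlib's `Rep.FiniteCyclicGroup.groupCohomologyIsoEven`. -/
theorem card_H2_of_isCyclic {F E : Type} [Field F] [Field E] [Algebra F E] [FiniteDimensional F E]
    [IsGalois F E] (O : ValuationSubring E) [IsDiscreteValuationRing O]
    [Finite (IsLocalRing.ResidueField O)] [IsAdicComplete (IsLocalRing.maximalIdeal O) O]
    [IsCyclic (E ≃ₐ[F] E)] (hO : GalStable (F := F) O) (hF : BottomNontrivial (F := F) O) :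
    Nat.card (H2 (Rep.ofAlgebraAutOnUnits F E)) = Module.finrank F E := by
  sorry

/-! ### UNRAM (OPEN LEAF) -/

/-- (U1) an unramified extension is cyclic, generated by a Frobenius: `φ x ≡ x ^ #κ_F`. -/
theorem exists_frobenius (hO : GalStable (F := F) O) (hu : IsUnram (F := F) O) :
    ∃ φ : E ≃ₐ[F] E, (∀ σ : E ≃ₐ[F] E, σ ∈ Subgroup.zpowers φ) ∧
      ∀ x : E, x ∈ O → φ x - x ^ Nat.card (IsLocalRing.ResidueField (bottom (F := F) O)) ∈
        O.nonunits := by
  sorry

/-- (U2) the norm is surjective on units of an unramified extension. -/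
theorem norm_surjective_on_units (hO : GalStable (F := F) O) (hu : IsUnram (F := F) O)
    (u : F) (hu1 : algebraMap F E u ∈ O) (hu2 : algebraMap F E u⁻¹ ∈ O) :
    ∃ v : E, v ∈ O ∧ v⁻¹ ∈ O ∧ Algebra.norm F v = u := by
  sorry

/-- (U3) for an unramified extension of degree `n`, `x ∈ F^×` is a norm iff `n ∣ v_F(x)`;
here in the form: `x = c ^ k * u` with `c` the uniformiser, `u` a unit, is a norm iff `n ∣ k`. -/
theorem mem_norm_range_iff_of_isUnram (hO : GalStable (F := F) O) (c : F)
    (h : algebraMap F E c ∈ O) (hc : Irreducible (⟨algebraMap F E c, h⟩ : O))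
    (k : ℤ) (u : F) (hu1 : algebraMap F E u ∈ O) (hu2 : algebraMap F E u⁻¹ ∈ O) :
    (∃ y : E, Algebra.norm F y = c ^ k * u) ↔ (Module.finrank F E : ℤ) ∣ k := by
  sorry

end Abstract

/-! ## Concrete local fields -/

section Concrete

variable (q : ℕ) [Fact q.Prime]

/-- `E'` is unramified over `E` (both inside `PadicAlgCl q`): same value group, i.e. every norm of
`E'` is the norm of an element of `E`. -/
def IsUnramOver (E E' : IntermediateField ℚ_[q] (PadicAlgCl q)) : Prop :=
  E ≤ E' ∧ ∀ x : E', ∃ y : E, ‖(y : PadicAlgCl q)‖ = ‖(x : PadicAlgCl q)‖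

/-- (U4) UNRAM, existence and uniqueness of the unramified extension of degree `n`. -/
theorem existsUnique_unramified (E : IntermediateField ℚ_[q] (PadicAlgCl q))
    [FiniteDimensional ℚ_[q] E] (n : ℕ) (hn : 0 < n) :
    ∃! E' : IntermediateField ℚ_[q] (PadicAlgCl q), IsUnramOver q E E' ∧
      Module.finrank ℚ_[q] E' = n * Module.finrank ℚ_[q] E := by
  sorry

/-- INDEX (OPEN LEAF): the index of the `p`-th powers in `E^×`. -/
theorem card_units_mod_pow (E : IntermediateField ℚ_[q] (PadicAlgCl q))
    [FiniteDimensional ℚ_[q] E] (p : ℕ) [Fact p.Prime] :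
    Nat.card (Eˣ ⧸ (powMonoidHom p : Eˣ →* Eˣ).range) =
      p * Nat.card (rootsOfUnity p E) * (if q = p then p ^ Module.finrank ℚ_[q] E else 1) := by
  sorry

/-! ### INV (helper3): the class-formation axiom for finite Galois extensions of local fields.
Stated for abstract `q`-adic fields `E ⊆ E'` (any finite extension of `ℚ_q` embeds in
`PadicAlgCl q`, so this is the same as the IntermediateField form). -/

variable (E E' : Type) [Field E] [Field E'] [Algebra ℚ_[q] E] [Algebra ℚ_[q] E'] [Algebra E E']
  [IsScalarTower ℚ_[q] E E'] [FiniteDimensional ℚ_[q] E'] [FiniteDimensional E E'] [IsGalois E E']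

/-- Hilbert 90 (Mathlib). -/
theorem H1_subsingleton : Subsingleton (H1 (Rep.ofAlgebraAutOnUnits E E')) :=
  inferInstance

/-- the local second inequality + first inequality -/
theorem card_H2 : Nat.card (H2 (Rep.ofAlgebraAutOnUnits E E')) = Module.finrank E E' := by
  sorry

theorem isAddCyclic_H2 : IsAddCyclic (H2 (Rep.ofAlgebraAutOnUnits E E')) := by
  sorry

/-- the invariant map: injective, with image the `[E':E]`-torsion of `ℚ/ℤ`; compatibility with
inflation and restriction is stated in `GC/Local/Inv*.lean` once C2's functoriality names are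
fixed (`inv ∘ infl = inv`, `inv ∘ res = [E₁:E] • inv`). -/
theorem exists_inv : ∃ inv : H2 (Rep.ofAlgebraAutOnUnits E E') →+ AddCircle (1 : ℚ),
    Function.Injective inv ∧ ∀ t : AddCircle (1 : ℚ),
      t ∈ Set.range inv ↔ Module.finrank E E' • t = 0 := by
  sorry

end Concrete

end Fermat.Agent.GC.Local.Skeleton
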